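import Fermat.Agent.Row27.ExistsModel

/-!
# Extensions of the constants: the basis stays a basis
-/

set_option autoImplicit false

noncomputable section

open AlgebraicCurve IntermediateField Polynomial
open Fermat.Agent.FunctionFieldRR

namespace Fermat.Agent.Row27

variable {K F : Type*} [Field K] [Field F] [Algebra K F] [IsAlgClosed K]
  [IsFunctionField K F] {L G : Type*} [Field L] [Algebra K L] [Field G] [Algebra L G]

variable (L) in
/-- `e` presents `G` as the extension of `F` to the constants `L`. -/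
structure IsExt (O : Place K F) (e : F →+* G) : Prop where
  comm : ∀ c : K, e (algebraMap K F c) = algebraMap L G (algebraMap K L c)
  gen : IntermediateField.adjoin L (Set.range e) = ⊤
  transc : ∀ f : F, O.ord f ≠ 0 → Transcendental L (e f)

namespace Coord

variable {O : Place K F} (C : Coord O) {e : F →+* G} (he : IsExt L O e)
include C he

theorem transcendental_e : Transcendental L (e C.x) :=
  he.transc _ (by rw [C.ord_x]; omega)

theorem map_aeval' (p : K[X]) : e (aeval C.x p) = aeval (e C.x) (p.map (algebraMap K L)) := by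
  rw [aeval_def, hom_eval₂, aeval_def, eval₂_map]
  exact eval₂_congr (RingHom.ext fun c => he.comm c) rfl rfl

theorem map_fElt (p : Fin (C.d + 1) → K[X]) :
    e (fElt C.x C.y p) = fElt (e C.x) (e ∘ C.y) fun i => (p i).map (algebraMap K L) := by
  simp [fElt, C.map_aeval' he]

theorem map_y_mul (i k : Fin (C.d + 1)) : e (C.y i) * e (C.y k) =
    fElt (e C.x) (e ∘ C.y) fun l => (C.c i k l).map (algebraMap K L) := by
  rw [← map_mul, C.y_mul, C.map_fElt he]

omit [Algebra K L] he in
theorem aeval_smul_mem (p : L[X]) (i : Fin (C.d + 1)) :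
    aeval (e C.x) p * e (C.y i) ∈ Submodule.span L⟮e C.x⟯ (Set.range (e ∘ C.y)) := by
  have : aeval (e C.x) p * e (C.y i) = (aeval (gx (K := L) (e C.x)) p) • e (C.y i) := by
    rw [Algebra.smul_def, ← aeval_algebraMap_apply]; rfl
  rw [this]
  exact Submodule.smul_mem _ _ (Submodule.subset_span ⟨i, rfl⟩)

omit [Algebra K L] he in
theorem fElt_mem_span (p : Fin (C.d + 1) → L[X]) :
    fElt (e C.x) (e ∘ C.y) p ∈ Submodule.span L⟮e C.x⟯ (Set.range (e ∘ C.y)) :=
  sum_mem fun i _ => C.aeval_smul_mem (p i) i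

theorem mul_mem_span {a b : G} (ha : a ∈ Submodule.span L⟮e C.x⟯ (Set.range (e ∘ C.y)))
    (hb : b ∈ Submodule.span L⟮e C.x⟯ (Set.range (e ∘ C.y))) :
    a * b ∈ Submodule.span L⟮e C.x⟯ (Set.range (e ∘ C.y)) := by
  induction ha using Submodule.span_induction with
  | zero => simp
  | add a a' _ _ h h' => rw [add_mul]; exact add_mem h h'
  | smul c a _ h => rw [smul_mul_assoc]; exact Submodule.smul_mem _ c h
  | mem a ha =>
    obtain ⟨i, rfl⟩ := ha
    induction hb using Submodule.span_induction with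
    | zero => simp
    | add a a' _ _ h h' => rw [mul_add]; exact add_mem h h'
    | smul c a _ h => rw [mul_smul_comm]; exact Submodule.smul_mem _ c h
    | mem b hb =>
      obtain ⟨k, rfl⟩ := hb
      rw [Function.comp_apply, Function.comp_apply, C.map_y_mul he]
      exact C.fElt_mem_span _

/-- The span of the basis, as an algebra. -/
def spanAlg : Subalgebra L⟮e C.x⟯ G :=
  (Submodule.span L⟮e C.x⟯ (Set.range (e ∘ C.y))).toSubalgebra
    (Submodule.subset_span ⟨0, by simp [C.y_zero]⟩) fun _ _ => C.mul_mem_span he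

theorem inv_mem_spanAlg {a : G} (ha : a ∈ C.spanAlg he) : a⁻¹ ∈ C.spanAlg he := by
  have : Module.Finite L⟮e C.x⟯ (C.spanAlg he) :=
    Module.Finite.span_of_finite L⟮e C.x⟯ (Set.finite_range _)
  rcases eq_or_ne a 0 with rfl | h0
  · simp_all
  have hint : IsIntegral L⟮e C.x⟯ a :=
    (IsIntegral.of_finite L⟮e C.x⟯ (⟨a, ha⟩ : C.spanAlg he)).map (C.spanAlg he).val
  exact (C.spanAlg he).inv_mem_of_algebraic (x := ⟨a, ha⟩) hint.isAlgebraic

theorem map_mem_spanAlg (f : F) : e f ∈ C.spanAlg he := by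
  have hreg : ∀ g ∈ regAlg O, e g ∈ C.spanAlg he := fun g hg => by
    obtain ⟨p, rfl⟩ := C.exists_fElt hg
    rw [C.map_fElt he]
    exact C.fElt_mem_span _
  have : f ∈ IntermediateField.adjoin K (insert C.x (Set.range C.y)) :=
    C.adjoin_eq_top ▸ IntermediateField.mem_top
  induction this using IntermediateField.adjoin_induction with
  | mem g hg =>
    rcases hg with rfl | ⟨i, rfl⟩
    · exact hreg _ C.x_reg
    · exact hreg _ (C.y_reg i)
  | algebraMap c => exact hreg _ (Subalgebra.algebraMap_mem _ c)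
  | add a b _ _ ha hb => rw [map_add]; exact add_mem ha hb
  | inv a _ ha => rw [map_inv₀]; exact C.inv_mem_spanAlg he ha
  | mul a b _ _ ha hb => rw [map_mul]; exact mul_mem ha hb

theorem spanAlg_eq_top : C.spanAlg he = ⊤ := by
  refine eq_top_iff.2 fun z htop => ?_
  clear htop
  have hz : z ∈ IntermediateField.adjoin L (Set.range e) := he.gen ▸ IntermediateField.mem_top
  induction hz using IntermediateField.adjoin_induction with
  | mem g hg =>
    obtain ⟨f, rfl⟩ := hg
    exact C.map_mem_spanAlg he f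
  | algebraMap c =>
    exact (C.spanAlg he).algebraMap_mem (algebraMap L L⟮e C.x⟯ c)
  | add a b _ _ ha hb => exact add_mem ha hb
  | inv a _ ha => exact C.inv_mem_spanAlg he ha
  | mul a b _ _ ha hb => exact mul_mem ha hb

theorem finiteDimensional_ext : FiniteDimensional L⟮e C.x⟯ G := by
  have h : Module.Finite L⟮e C.x⟯ (C.spanAlg he) :=
    Module.Finite.span_of_finite L⟮e C.x⟯ (Set.finite_range _)
  rw [C.spanAlg_eq_top he] at h
  exact Module.Finite.equiv Subalgebra.topEquiv.toLinearEquiv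

theorem isFunctionField_ext : IsFunctionField L G :=
  ⟨⟨e C.x, C.transcendental_e he, C.finiteDimensional_ext he⟩⟩

variable [IsAlgClosed L] [IsFunctionField L G] (v : Place L G)
  (hv : ∀ f : F, v.ord (e f) = O.ord f)
include hv

omit [Algebra K L] he [IsAlgClosed L] [IsFunctionField L G] in
theorem ord_term' {p : L[X]} (hp : p ≠ 0) (i : Fin (C.d + 1)) :
    aeval (e C.x) p * e (C.y i) ≠ 0 ∧
      v.ord (aeval (e C.x) p * e (C.y i)) = -((p.natDegree * (C.d + 1) + C.pole i : ℕ) : ℤ) := by
  obtain ⟨h1, h2⟩ := ord_aeval_of_pole (w := v) (x := e C.x) (by rw [hv, C.ord_x]; omega) hp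
  have hy : e (C.y i) ≠ 0 := (_root_.map_ne_zero e).2 (C.y_ne_zero i)
  refine ⟨mul_ne_zero h1 hy, ?_⟩
  rw [v.ord_mul h1 hy, h2, hv, hv, C.ord_x, C.ord_y]
  push_cast; ring

omit [Algebra K L] he [IsAlgClosed L] [IsFunctionField L G] in
/-- The order of a normal form. -/
theorem ord_fElt' {p : Fin (C.d + 1) → L[X]} (hp : p ≠ 0) :
    fElt (e C.x) (e ∘ C.y) p ≠ 0 ∧ ∃ i, p i ≠ 0 ∧ v.ord (fElt (e C.x) (e ∘ C.y) p)
      = -(((p i).natDegree * (C.d + 1) + C.pole i : ℕ) : ℤ) ∧
      ∀ k, p k ≠ 0 → (p k).natDegree * (C.d + 1) + C.pole k ≤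
        (p i).natDegree * (C.d + 1) + C.pole i := by
  classical
  obtain ⟨i₀, hi₀, hmax⟩ := Finset.exists_max_image (Finset.univ.filter fun i => p i ≠ 0)
    (fun i => (p i).natDegree * (C.d + 1) + C.pole i) (by
      obtain ⟨i, hi⟩ := Function.ne_iff.1 hp
      exact ⟨i, Finset.mem_filter.2 ⟨Finset.mem_univ _, hi⟩⟩)
  obtain ⟨h0, ho⟩ := C.ord_term' v hv (Finset.mem_filter.1 hi₀).2 i₀
  have key := ord_eq_of_vanishesTo_sub (P := v) (g := fElt (e C.x) (e ∘ C.y) p) h0 (by
    rw [fElt, ← Finset.add_sum_erase _ _ (Finset.mem_univ i₀), Function.comp_apply,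
      add_sub_cancel_left]
    refine VanishesTo.sum _ _ fun i hi => ?_
    by_cases hpi : p i = 0
    · exact Or.inl (by rw [hpi, map_zero, zero_mul])
    refine Or.inr ?_
    rw [ho, Function.comp_apply, (C.ord_term' v hv hpi i).2]
    have h1 := hmax i (Finset.mem_filter.2 ⟨Finset.mem_univ _, hpi⟩)
    have h2 : (p i).natDegree * (C.d + 1) + C.pole i ≠
        (p i₀).natDegree * (C.d + 1) + C.pole i₀ := fun he => by
      have := congrArg (· % (C.d + 1)) he
      simp only [Nat.mul_add_mod_self_right, C.pole_mod] at this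
      exact Finset.ne_of_mem_erase hi (Fin.ext this)
    omega)
  exact ⟨key.1, i₀, (Finset.mem_filter.1 hi₀).2, key.2.trans ho,
    fun k hk => hmax k (Finset.mem_filter.2 ⟨Finset.mem_univ _, hk⟩)⟩

omit [Algebra K L] he [IsAlgClosed L] [IsFunctionField L G] in
theorem fElt'_eq_zero {p : Fin (C.d + 1) → L[X]} (h : fElt (e C.x) (e ∘ C.y) p = 0) : p = 0 := by
  by_contra hp
  exact (C.ord_fElt' v hv hp).1 h

omit [Algebra K L] he [IsAlgClosed L] [IsFunctionField L G] in
theorem linearIndependent_map : LinearIndependent L⟮e C.x⟯ (e ∘ C.y) :=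
  linearIndependent_adjoin_simple ((_root_.map_ne_zero e).2 C.x_ne_zero) (e ∘ C.y) fun φ hφ i => by
    rw [C.fElt'_eq_zero v hv hφ]; simp

/-- The basis over `L(x)`. -/
def basisExt : Module.Basis (Fin (C.d + 1)) L⟮e C.x⟯ G :=
  Module.Basis.mk (C.linearIndependent_map v hv)
    (show ⊤ ≤ Submodule.span L⟮e C.x⟯ (Set.range (e ∘ C.y)) from
      fun z _ => (C.spanAlg_eq_top he).ge (Algebra.mem_top (x := z)))

omit [IsAlgClosed L] [IsFunctionField L G] in
theorem basisExt_apply (i : Fin (C.d + 1)) : C.basisExt he v hv i = e (C.y i) := by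
  rw [basisExt, Module.Basis.mk_apply]; rfl

omit [IsAlgClosed L] [IsFunctionField L G] in
theorem finrank_ext : Module.finrank L⟮e C.x⟯ G = C.d + 1 := by
  rw [Module.finrank_eq_card_basis (C.basisExt he v hv), Fintype.card_fin]

theorem pole_ext (w : Place L G) : w.ord (e C.x) < 0 ↔ w = v := by
  classical
  have := C.finiteDimensional_ext he
  refine ⟨fun h => by_contra fun hne => ?_, fun h => by rw [h, hv, C.ord_x]; omega⟩
  set S := (finite_poles_of_transcendental (C.transcendental_e he)).toFinset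
  have hS : ∀ u, u ∈ S ↔ u.ord (e C.x) < 0 := fun u => Set.Finite.mem_toFinset _
  have h1 := sum_ord_poles (C.transcendental_e he) hS
  rw [C.finrank_ext he v hv] at h1
  have hsub : {v, w} ⊆ S := Finset.insert_subset_iff.2
    ⟨(hS _).2 (by rw [hv, C.ord_x]; omega), Finset.singleton_subset_iff.2 ((hS _).2 h)⟩
  have h2 := Finset.sum_le_sum_of_subset_of_nonneg (f := fun u : Place L G => -u.ord (e C.x))
    hsub fun u hu _ => by have := (hS u).1 hu; show 0 ≤ -u.ord (e C.x); omega
  rw [Finset.sum_pair (Ne.symm hne), hv, C.ord_x, h1] at h2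
  omega

theorem regular_map {f : F} (hf : f ∈ regAlg O) : ∀ w : Place L G, w ≠ v → VanishesTo w 0 (e f) := by
  classical
  intro w hw
  have hx : VanishesTo w 0 (e C.x) := Or.inr (not_lt.1 fun h => hw ((C.pole_ext he v hv w).1 h))
  have hpoly : ∀ p : L[X], VanishesTo w 0 (aeval (e C.x) p) := fun p =>
    (vanishesTo_zero_iff w).2
      (aeval_mem w.toValuationSubring w.algebraMap_mem' ((vanishesTo_zero_iff w).1 hx) p)
  have hcomb : ∀ (m : ℤ), (∀ i, VanishesTo w m (e (C.y i))) →
      ∀ p : Fin (C.d + 1) → L[X], VanishesTo w m (fElt (e C.x) (e ∘ C.y) p) := fun m hm p =>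
    VanishesTo.sum _ _ fun i _ => by simpa using (hpoly (p i)).mul (hm i)
  obtain ⟨i₀, -, hmin⟩ := Finset.exists_min_image (Finset.univ : Finset (Fin (C.d + 1)))
    (fun i => w.ord (e (C.y i))) Finset.univ_nonempty
  have hy0 : e (C.y i₀) ≠ 0 := (_root_.map_ne_zero e).2 (C.y_ne_zero i₀)
  have hall : ∀ i, VanishesTo w (w.ord (e (C.y i₀))) (e (C.y i)) := fun i =>
    Or.inr (hmin i (Finset.mem_univ _))
  have h0 : 0 ≤ w.ord (e (C.y i₀)) := by
    by_contra hneg
    have h := hcomb _ hall fun l => (C.c i₀ i₀ l).map (algebraMap K L)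
    rw [← C.map_y_mul he] at h
    have := h.resolve_left (mul_ne_zero hy0 hy0)
    rw [w.ord_mul hy0 hy0] at this
    omega
  obtain ⟨p, rfl⟩ := C.exists_fElt hf
  rw [C.map_fElt he]
  exact hcomb 0 (fun i => (hall i).mono h0) _

end Coord

end Fermat.Agent.Row27

end
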