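import Fermat.Agent.Row27.BaseMon
import Fermat.Agent.Row27.BaseGen
import Mathlib.RingTheory.Trace.Basic
import Mathlib.RingTheory.Discriminant

/-!
# The functions regular off infinity over the larger constants
-/

set_option autoImplicit false

noncomputable section

open AlgebraicCurve IntermediateField Polynomial
open Fermat.Agent.FunctionFieldRR

namespace Fermat.Agent.Row27

variable {K F : Type*} [Field K] [Field F] [Algebra K F] [IsAlgClosed K]
  [IsFunctionField K F] {L G : Type*} [Field L] [Algebra K L] [Field G] [Algebra L G]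
  [IsAlgClosed L] [IsFunctionField L G]

namespace Coord

/-- The extended monomials of level `b`. -/
def realL {O : Place K F} (C : Coord O) (e : F →+* G) (b : ℕ) : (Fin (C.dim b) → L) →ₗ[L] G :=
  Fintype.linearCombination L fun l => e (C.mon (C.idxAt b l))

variable {O : Place K F} (C : Coord O) {e : F →+* G} (he : IsExt L O e)
  (v : Place L G) (hv : ∀ f : F, v.ord (e f) = O.ord f)
include C he v hv

omit he in
theorem isSeparable_ext : Algebra.IsSeparable L⟮e C.x⟯ G :=
  isSeparable_of_ord v (by
    rw [hv, C.ord_x, Int.cast_neg, Int.cast_natCast, ← map_natCast (algebraMap K L)]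
    exact neg_ne_zero.2 ((_root_.map_ne_zero _).2 C.d_ne))

/-- Traces of functions regular off infinity are polynomials in the coordinate. -/
theorem exists_trace_eq {h : G} (hh : ∀ w : Place L G, w ≠ v → VanishesTo w 0 h) :
    ∃ p : L[X], Algebra.trace L⟮e C.x⟯ G h = aeval (gx (K := L) (e C.x)) p := by
  have hx := C.transcendental_e he
  have := C.finiteDimensional_ext he
  have := C.isSeparable_ext v hv
  have := isFunctionField_adjoin hx
  refine exists_polynomial_of_regular hx fun c => ?_
  refine (trace_regular (fullFiber_adjoin (F := G) hx (finitePlace hx c)) fun w hw => hh w ?_).1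
  intro hwv
  have h1 := ord_nonneg_of_restrict_eq hx (mem_placesOver.1 hw)
  rw [hwv, hv, C.ord_x] at h1
  omega

/-- The discriminant clears the denominators. -/
theorem exists_det_mul_eq {f : G} (hf : ∀ w : Place L G, w ≠ v → VanishesTo w 0 f) :
    ∃ q : Fin (C.d + 1) → L[X],
      e (aeval C.x (traceMat C.c).det) * f = fElt (e C.x) (e ∘ C.y) q := by
  classical
  have := C.finiteDimensional_ext he
  have := C.isSeparable_ext v hv
  set bas := C.basisExt he v hv with hbas
  set φ : K[X] →+* L⟮e C.x⟯ :=
    (aeval (gx (K := L) (e C.x))).toRingHom.comp (mapRingHom (algebraMap K L)) with hφdef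
  have hφ : ∀ p : K[X], algebraMap L⟮e C.x⟯ G (φ p) = e (aeval C.x p) := fun p => by
    rw [C.map_aeval' he]
    exact (aeval_algebraMap_apply G (gx (K := L) (e C.x)) (p.map (algebraMap K L))).symm
  have hmul : ∀ i k, e (C.y i) * e (C.y k) = ∑ l, φ (C.c i k l) • e (C.y l) := fun i k => by
    rw [← map_mul, C.y_mul, fElt, map_sum]
    exact Finset.sum_congr rfl fun l _ => by rw [Algebra.smul_def, hφ, map_mul]
  have hb : ∀ i, bas i = e (C.y i) := C.basisExt_apply he v hv
  have hrepr : ∀ i k q, bas.repr (e (C.y i) * e (C.y k)) q = φ (C.c i k q) := fun i k q => by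
    rw [hmul]
    simp only [← hb, map_sum, map_smul, Module.Basis.repr_self]
    simp [Finsupp.single_apply]
  have htr : ∀ l, Algebra.trace L⟮e C.x⟯ G (e (C.y l)) = ∑ q, φ (C.c l q q) := fun l => by
    rw [Algebra.trace_eq_matrix_trace bas, Matrix.trace]
    refine Finset.sum_congr rfl fun q _ => ?_
    rw [Matrix.diag_apply, Algebra.leftMulMatrix_eq_repr_mul, hb, hrepr]
  have hmap : ∀ i k, Algebra.trace L⟮e C.x⟯ G (e (C.y i) * e (C.y k))
      = φ (traceMat C.c i k) := fun i k => by
    rw [hmul, map_sum]
    simp only [map_smul, htr, smul_eq_mul, traceMat, map_sum, map_mul]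
  have hprod : ∀ k, ∀ w : Place L G, w ≠ v → VanishesTo w 0 (f * e (C.y k)) := fun k w hw => by
    simpa using (hf w hw).mul (C.regular_map he v hv (C.y_reg k) w hw)
  choose p hp using fun k => C.exists_trace_eq he v hv (hprod k)
  set a : Fin (C.d + 1) → L⟮e C.x⟯ := fun i => bas.repr f i with ha
  set T : Matrix (Fin (C.d + 1)) (Fin (C.d + 1)) L⟮e C.x⟯ := φ.mapMatrix (traceMat C.c) with hT
  have hTa : Matrix.vecMul a T = fun k => aeval (gx (K := L) (e C.x)) (p k) := by
    funext k
    rw [← hp k]
    conv_rhs => rw [← bas.sum_repr f, Finset.sum_mul, map_sum]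
    simp only [Matrix.vecMul, dotProduct, hb, hT, RingHom.mapMatrix_apply, Matrix.map_apply, ← hmap,
      smul_mul_assoc, map_smul, smul_eq_mul, ha]
  have hdet : ∀ i, φ (traceMat C.c).det * a i =
      ∑ k, aeval (gx (K := L) (e C.x)) (p k) * φ ((traceMat C.c).adjugate k i) := fun i => by
    have h1 := congrArg (fun r => Matrix.vecMul r T.adjugate i) hTa
    simp only [Matrix.vecMul_vecMul, Matrix.mul_adjugate, Matrix.vecMul_smul, Matrix.vecMul_one,
      Pi.smul_apply, smul_eq_mul] at h1
    rw [RingHom.map_det, ← hT]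
    rw [h1, Matrix.vecMul, dotProduct]
    refine Finset.sum_congr rfl fun k _ => ?_
    have : T.adjugate = φ.mapMatrix (traceMat C.c).adjugate := (RingHom.map_adjugate φ _).symm
    rw [this]
    rfl
  refine ⟨fun i => ∑ k, p k * ((traceMat C.c).adjugate k i).map (algebraMap K L), ?_⟩
  conv_lhs => rw [← bas.sum_repr f]
  rw [fElt, Finset.mul_sum]
  refine Finset.sum_congr rfl fun i _ => ?_
  rw [hb, Algebra.smul_def, ← mul_assoc, Function.comp_apply, ← hφ, ← map_mul]
  congr 1
  rw [show bas.repr f i = a i from rfl, hdet]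
  rw [map_sum, map_sum]
  refine Finset.sum_congr rfl fun k _ => ?_
  rw [map_mul, map_mul, hφ, C.map_aeval' he]
  congr 1
  exact (aeval_algebraMap_apply G (gx (K := L) (e C.x)) (p k)).symm

/-- A place over a place of `F` off `O`. -/
theorem exists_place_over {Q : Place K F} (hQ : Q ≠ O) :
    ∃ w : Place L G, w ≠ v ∧ ∃ ε : ℤ, 1 ≤ ε ∧ ∀ g : F, w.ord (e g) = ε * Q.ord g := by
  classical
  have hx := C.transcendental_x
  have hxL := C.transcendental_e he
  have := C.finiteDimensional_ext he
  have := finiteDimensional_adjoin (K := K) hx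
  set a := residueConst Q C.x with ha
  set t := C.x - algebraMap K F a with ht
  have ht0 : t ≠ 0 := fun h => hx (by rw [sub_eq_zero.1 h]; exact isAlgebraic_algebraMap a)
  have htreg : t ∈ regAlg O := sub_mem C.x_reg (Subalgebra.algebraMap_mem _ _)
  have htQ : 1 ≤ Q.ord t := (residueConst_spec Q
    ((vanishesTo_zero_iff Q).1 (C.x_reg Q hQ))).resolve_left ht0
  set T := ((finite_ord_ne_zero (K := K) t).toFinset).filter fun u => 0 < u.ord t with hT
  have hmemT : ∀ u, u ∈ T ↔ 0 < u.ord t := fun u => by
    simp only [hT, Finset.mem_filter, Set.Finite.mem_toFinset, Set.mem_ofPred_eq]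
    exact ⟨fun h => h.2, fun h => ⟨h.ne', h⟩⟩
  have hOT : O ∉ T := fun h => by
    have h1 := (hmemT O).1 h
    have h2 := ord_nonpos_of_regAlg htreg
    omega
  obtain ⟨s, hs1, hs2⟩ := exists_strongApprox O T hOT (fun u => if u = Q then 1 else 0) fun _ => 1
  have hQT : Q ∈ T := (hmemT Q).2 (by omega)
  have hsreg : s ∈ regAlg O := fun u hu => by
    by_cases huT : u ∈ T
    · simpa using ((hs1 u huT).mono zero_le_one).add
        (show VanishesTo u 0 (if u = Q then (1 : F) else 0) by split_ifs <;> simp [VanishesTo])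
    · exact hs2 u huT hu
  have hsQ : s ≠ 0 ∧ Q.ord s = 0 := by
    have h := hs1 Q hQT
    rw [if_pos rfl] at h
    have := ord_eq_of_vanishesTo_sub (f := (1 : F)) one_ne_zero (g := s) (by simpa using h)
    simpa using this
  set D := aeval C.x (traceMat C.c).det with hD
  have hD0 : D ≠ 0 := fun h => C.det_traceMat_ne_zero <| by
    by_contra hne
    exact (ord_aeval_of_pole (w := O) (by rw [C.ord_x]; omega) hne).1 h
  obtain ⟨w, hw0, hws⟩ : ∃ w : Place L G, 0 < w.ord (e t) ∧ ¬ VanishesTo w 1 (e s) := by
    by_contra hcon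
    push Not at hcon
    set M : ℕ := (Q.ord D).toNat + 1 with hM
    set N : ℕ := (C.d + 1) * M with hN
    have het : e t ≠ 0 := (_root_.map_ne_zero e).2 ht0
    have hes : e s ≠ 0 := (_root_.map_ne_zero e).2 hsQ.1
    have hreg : ∀ w : Place L G, w ≠ v → VanishesTo w 0 (e s ^ N / e t ^ M) := fun w hw => by
      refine Or.inr ?_
      rw [ord_div w (pow_ne_zero _ hes) (pow_ne_zero _ het), ord_pow, ord_pow]
      have h2 := (C.regular_map he v hv htreg w hw).resolve_left het
      rcases h2.lt_or_eq with hpos | hzero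
      · have h3 := (hcon w hpos).resolve_left hes
        have h4 : w.ord (e t) ≤ (C.d + 1 : ℕ) := by
          have hc : e t = e C.x - algebraMap L G (algebraMap K L a) := by
            rw [ht, map_sub, he.comm]
          have hsum := sum_ord_zeros hxL (algebraMap K L a)
            (S := ((finite_ord_ne_zero (K := L) (e t)).toFinset).filter fun u => 0 < u.ord (e t))
            fun u => by
              rw [← hc]
              simp only [Finset.mem_filter, Set.Finite.mem_toFinset, Set.mem_ofPred_eq]
              exact ⟨fun h => h.2, fun h => ⟨h.ne', h⟩⟩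
          rw [C.finrank_ext he v hv, ← hc] at hsum
          rw [← hsum]
          refine Finset.single_le_sum (f := fun u : Place L G => u.ord (e t))
            (fun u hu => (Finset.mem_filter.1 hu).2.le) ?_
          simp [hpos, hpos.ne']
        rw [hN]
        push_cast at h4 ⊢
        nlinarith
      · rw [← hzero]
        have := (C.regular_map he v hv hsreg w hw).resolve_left hes
        nlinarith
    obtain ⟨q, hq⟩ := C.exists_det_mul_eq he v hv hreg
    obtain ⟨r, hr⟩ := C.exists_fElt (f := D * s ^ N)
      (mul_mem (C.aeval_reg _) (pow_mem hsreg _))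
    have hTt : e t ^ M * fElt (e C.x) (e ∘ C.y) q =
        fElt (e C.x) (e ∘ C.y) fun i => (r i).map (algebraMap K L) := by
      rw [← hq, ← C.map_fElt he, ← hr, map_mul, map_pow, hD]
      field_simp
    have hval : e t ^ M = aeval (e C.x) ((X - Polynomial.C (algebraMap K L a)) ^ M) := by
      simp [ht, he.comm]
    have hcoef : ∀ i, (X - Polynomial.C (algebraMap K L a)) ^ M * q i
        = (r i).map (algebraMap K L) := fun i => by
      have h0 : fElt (e C.x) (e ∘ C.y) (fun i => (X - Polynomial.C (algebraMap K L a)) ^ M * q i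
          - (r i).map (algebraMap K L)) = 0 := by
        rw [hval] at hTt
        simp only [fElt, map_sub, map_mul, sub_mul, Finset.sum_sub_distrib] at hTt ⊢
        rw [← hTt, Finset.mul_sum]
        simp [mul_assoc]
      exact sub_eq_zero.1 (congrFun (C.fElt'_eq_zero v hv h0) i)
    have hdvd : ∀ i, (X - Polynomial.C a) ^ M ∣ r i := fun i => by
      refine (Polynomial.map_dvd_map (algebraMap K L) (algebraMap K L).injective
        ((monic_X_sub_C a).pow M)).1 ⟨q i, ?_⟩
      rw [← hcoef i]
      simp
    choose r' hr' using hdvd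
    have hDs : D * s ^ N = t ^ M * fElt C.x C.y r' := by
      rw [hr, fElt, fElt, Finset.mul_sum]
      refine Finset.sum_congr rfl fun i _ => ?_
      rw [hr' i, map_mul, map_pow, map_sub, aeval_X, aeval_C, ht, mul_assoc]
    have hne : fElt C.x C.y r' ≠ 0 := fun h => by
      rw [h, mul_zero] at hDs
      exact mul_ne_zero hD0 (pow_ne_zero _ hsQ.1) hDs
    have h5 := congrArg Q.ord hDs
    rw [Q.ord_mul hD0 (pow_ne_zero _ hsQ.1), Q.ord_mul (pow_ne_zero _ ht0) hne, ord_pow, ord_pow,
      hsQ.2, mul_zero, add_zero] at h5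
    have h6 := ((C.fElt_reg r') Q hQ).resolve_left hne
    have h7 : ((Q.ord D).toNat : ℤ) + 1 = (M : ℤ) := by rw [hM]; push_cast; rfl
    nlinarith [Int.self_le_toNat (Q.ord D)]
  have hwv : w ≠ v := by
    rintro rfl
    rw [hv] at hw0
    have := ord_nonpos_of_regAlg htreg
    omega
  set R : ValuationSubring F := w.toValuationSubring.comap e with hR
  have hRK : ∀ c : K, algebraMap K F c ∈ R := fun c => by
    rw [hR, ValuationSubring.mem_comap, he.comm]
    exact w.algebraMap_mem' _
  have hRtop : R ≠ ⊤ := fun htop => by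
    have : t⁻¹ ∈ R := htop ▸ ValuationSubring.mem_top _
    rw [hR, ValuationSubring.mem_comap, map_inv₀] at this
    have := ord_nonneg_of_mem w this
    rw [w.ord_inv] at this
    omega
  set P := placeOfValuationSubring R hRK hRtop with hP
  have hmemP : ∀ f : F, f ∈ P.toValuationSubring ↔ e f ∈ w.toValuationSubring := fun f =>
    ValuationSubring.mem_comap
  have hunit : ∀ f : F, P.ord f = 0 → w.ord (e f) = 0 := fun f h => by
    rcases eq_or_ne f 0 with rfl | hf
    · simp
    have h1 := ord_nonneg_of_mem w ((hmemP f).1 ((mem_iff P hf).2 h.ge))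
    have h2 := ord_nonneg_of_mem w ((hmemP f⁻¹).1
      ((mem_iff P (inv_ne_zero hf)).2 (by rw [P.ord_inv, h, neg_zero])))
    rw [map_inv₀, w.ord_inv] at h2
    omega
  have hlin : ∀ f : F, w.ord (e f) = P.ord f * w.ord (e (unif P)) := fun f => by
    rcases eq_or_ne f 0 with rfl | hf
    · simp
    have hu := zpow_ne_zero (-P.ord f) (unif_ne_zero P)
    have h := hunit (f * unif P ^ (-P.ord f))
      (by rw [P.ord_mul hf hu, P.ord_zpow, ord_unif]; ring)
    rw [map_mul, map_zpow₀, w.ord_mul ((_root_.map_ne_zero e).2 hf)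
      (zpow_ne_zero _ ((_root_.map_ne_zero e).2 (unif_ne_zero P))), w.ord_zpow] at h
    linarith
  have hε : 1 ≤ w.ord (e (unif P)) := by
    have h1 := ord_nonneg_of_mem w ((hmemP _).1 ((ord_nonneg_iff P _).1 (by rw [ord_unif]; omega)))
    by_contra hlt
    have h0 : w.ord (e (unif P)) = 0 := by omega
    rw [hlin t, h0, mul_zero] at hw0
    omega
  have hPQ : P = Q := by
    have hPt : 0 < P.ord t := by
      by_contra hle
      have := hlin t
      nlinarith
    by_contra hne
    have h := hs1 P ((hmemT P).2 hPt)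
    rw [if_neg hne, sub_zero] at h
    refine hws ?_
    rcases h with h | h
    · exact Or.inl (by rw [h, map_zero])
    · exact Or.inr (by rw [hlin s]; nlinarith)
  exact ⟨w, hwv, _, hε, fun g => by rw [hlin g, hPQ, mul_comm]⟩

omit [IsAlgClosed L] [IsFunctionField L G] C v hv in
/-- Independence of the orders at a place of `F` persists after extension. -/
theorem vanishesTo_of_combination {Q : Place K F} {w : Place L G} {ε : ℤ} (hε : 1 ≤ ε)
    (hord : ∀ g : F, w.ord (e g) = ε * Q.ord g) {N : ℕ} :
    ∀ (g : Fin N → F) (c : Fin N → L) (k : ℤ),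
      VanishesTo w (ε * k) (∑ j, algebraMap L G (c j) * e (g j)) →
      ∀ π : L →ₗ[K] K, VanishesTo Q k (∑ j, π (c j) • g j) := by
  classical
  induction N with
  | zero => intro g c k _ π; simp [VanishesTo]
  | succ N ih =>
    intro g c k h π
    by_cases hall : ∀ j, VanishesTo Q k (g j)
    · exact VanishesTo.sum _ _ fun j _ => (hall j).smul _
    push Not at hall
    obtain ⟨j₁, hj₁⟩ := hall
    obtain ⟨j₀, hj₀, hmin⟩ := Finset.exists_min_image
      (Finset.univ.filter fun j => ¬ VanishesTo Q k (g j)) (fun j => Q.ord (g j))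
      ⟨j₁, Finset.mem_filter.2 ⟨Finset.mem_univ _, hj₁⟩⟩
    have hg0 : g j₀ ≠ 0 := fun h0 => (Finset.mem_filter.1 hj₀).2 (Or.inl h0)
    have hlt : Q.ord (g j₀) < k := not_le.1 fun h => (Finset.mem_filter.1 hj₀).2 (Or.inr h)
    have hge : ∀ j, VanishesTo Q (Q.ord (g j₀)) (g j) := fun j => by
      by_cases hj : VanishesTo Q k (g j)
      · exact hj.mono hlt.le
      · exact Or.inr (hmin j (Finset.mem_filter.2 ⟨Finset.mem_univ _, hj⟩))
    choose b hb using fun j => exists_sub_smul Q hg0 (hge j)
    have hb0 : b j₀ = 1 := by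
      by_contra hne
      have h1 := hb j₀
      rw [show g j₀ - b j₀ • g j₀ = (1 - b j₀) • g j₀ by rw [sub_smul, one_smul]] at h1
      have h2 : (1 - b j₀) • g j₀ ≠ 0 := smul_ne_zero (sub_ne_zero.2 (Ne.symm hne)) hg0
      have h3 := h1.resolve_left h2
      rw [Algebra.smul_def, Q.ord_mul ((_root_.map_ne_zero _).2 (sub_ne_zero.2 (Ne.symm hne))) hg0,
        ord_algebraMap] at h3
      omega
    set c₀ := ∑ j, algebraMap K L (b j) * c j with hc₀
    have hsplit : ∑ j, algebraMap L G (c j) * e (g j) = algebraMap L G c₀ * e (g j₀) +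
        ∑ j, algebraMap L G (c j) * e (g j - b j • g j₀) := by
      simp only [hc₀, map_sum, Finset.sum_mul, map_mul, map_sub, Algebra.smul_def, he.comm]
      rw [← Finset.sum_add_distrib]
      exact Finset.sum_congr rfl fun j _ => by ring
    have hc : c₀ = 0 := by
      by_contra hne
      have hne' : algebraMap L G c₀ * e (g j₀) ≠ 0 :=
        mul_ne_zero ((_root_.map_ne_zero _).2 hne) ((_root_.map_ne_zero e).2 hg0)
      have ho : w.ord (algebraMap L G c₀ * e (g j₀)) = ε * Q.ord (g j₀) := by
        rw [w.ord_mul ((_root_.map_ne_zero _).2 hne) ((_root_.map_ne_zero e).2 hg0), ord_algebraMap,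
          hord, zero_add]
      have h2 : VanishesTo w (ε * Q.ord (g j₀) + 1)
          (∑ j, algebraMap L G (c j) * e (g j - b j • g j₀)) :=
        VanishesTo.sum _ _ fun j _ => by
          have : VanishesTo w (ε * Q.ord (g j₀) + 1) (e (g j - b j • g j₀)) := by
            rcases hb j with h0 | h0
            · exact Or.inl (by rw [h0, map_zero])
            · exact Or.inr (by rw [hord]; nlinarith)
          simpa using (vanishesTo_algebraMap (c j)).mul this
      obtain ⟨hn, hn'⟩ := ord_eq_of_vanishesTo_sub hne'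
        (g := ∑ j, algebraMap L G (c j) * e (g j)) (by rw [ho, hsplit, add_sub_cancel_left]; exact h2)
      have := h.resolve_left hn
      rw [hn', ho] at this
      nlinarith
    have hrest := ih (fun j => g (j₀.succAbove j) - b (j₀.succAbove j) • g j₀)
      (fun j => c (j₀.succAbove j)) k (by
        have e1 : ∑ j, algebraMap L G (c j) * e (g j) =
            ∑ j, algebraMap L G (c (j₀.succAbove j)) *
              e (g (j₀.succAbove j) - b (j₀.succAbove j) • g j₀) := by
          rw [hsplit, hc, map_zero, zero_mul, zero_add, Fin.sum_univ_succAbove _ j₀]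
          simp [hb0]
        rw [← e1]; exact h) π
    have hπ0 : ∑ j, π (c j) * b j = 0 := by
      have := congrArg π hc
      rw [hc₀, map_sum, map_zero] at this
      rw [← this]
      refine Finset.sum_congr rfl fun j _ => ?_
      rw [← Algebra.smul_def, map_smul, smul_eq_mul, mul_comm]
    have e2 : ∑ j, π (c j) • g j = ∑ j, π (c (j₀.succAbove j)) •
        (g (j₀.succAbove j) - b (j₀.succAbove j) • g j₀) := by
      have e3 : ∑ j, π (c j) • g j = ∑ j, π (c j) • (g j - b j • g j₀) := by
        simp only [smul_sub, Finset.sum_sub_distrib, smul_smul, ← Finset.sum_smul, hπ0, zero_smul,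
          sub_zero]
      rw [e3, Fin.sum_univ_succAbove _ j₀]
      simp [hb0]
    rw [e2]
    exact hrest

/-- A function regular off infinity is a combination of the extended functions regular off `O`. -/
theorem exists_fElt' {f : G} (hf : ∀ w : Place L G, w ≠ v → VanishesTo w 0 f) :
    ∃ p : Fin (C.d + 1) → L[X], f = fElt (e C.x) (e ∘ C.y) p := by
  classical
  obtain ⟨q, hq⟩ := C.exists_det_mul_eq he v hv hf
  set D := aeval C.x (traceMat C.c).det with hD
  have hD0 : D ≠ 0 := fun h => C.det_traceMat_ne_zero <| by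
    by_contra hne
    exact (ord_aeval_of_pole (w := O) (by rw [C.ord_x]; omega) hne).1 h
  set ι := (i : Fin (C.d + 1)) × Fin ((q i).natDegree + 1)
  let E := (Fintype.equivFin ι).symm
  set g : Fin (Fintype.card ι) → F := fun j => C.x ^ ((E j).2 : ℕ) * C.y (E j).1 with hg
  set c : Fin (Fintype.card ι) → L := fun j => (q (E j).1).coeff (E j).2 with hc
  have hexp : fElt (e C.x) (e ∘ C.y) q = ∑ j, algebraMap L G (c j) * e (g j) := by
    rw [Fintype.sum_equiv E (fun j => algebraMap L G (c j) * e (g j))
      (fun p : ι => algebraMap L G ((q p.1).coeff p.2) * e (C.x ^ (p.2 : ℕ) * C.y p.1))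
      fun j => rfl, Fintype.sum_sigma, fElt]
    refine Finset.sum_congr rfl fun i _ => ?_
    rw [aeval_eq_sum_range, Finset.sum_mul, ← Fin.sum_univ_eq_sum_range]
    exact Finset.sum_congr rfl fun k _ => by
      simp [Algebra.smul_def, mul_assoc]
  -- every functional sends the combination to a multiple of the discriminant
  have hπ : ∀ π : L →ₗ[K] K, ∃ r ∈ regAlg O, ∑ j, π (c j) • g j = D * r := fun π => by
    refine ⟨(∑ j, π (c j) • g j) / D, fun Q hQ => ?_, (mul_div_cancel₀ _ hD0).symm⟩
    obtain ⟨w, hwv, ε, hε, hord⟩ := C.exists_place_over he v hv hQ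
    have h1 : VanishesTo w (ε * Q.ord D) (∑ j, algebraMap L G (c j) * e (g j)) := by
      rw [← hexp, ← hq]
      have hself : VanishesTo w (w.ord (e D)) (e D) := Or.inr le_rfl
      have := hself.mul (hf w hwv)
      rwa [add_zero, hord] at this
    have h2 := vanishesTo_of_combination he hε hord g c (Q.ord D) h1 π
    rcases h2 with h2 | h2
    · exact Or.inl (by rw [h2, zero_div])
    · rcases eq_or_ne (∑ j, π (c j) • g j) 0 with h0 | h0
      · exact Or.inl (by rw [h0, zero_div])
      · exact Or.inr (by rw [ord_div Q h0 hD0]; omega)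
  -- expand the coefficients in a basis of their span
  set V : Submodule K L := Submodule.span K (Set.range c) with hV
  have : Module.Finite K V := Module.Finite.span_of_finite K (Set.finite_range c)
  let bV := Module.finBasis K V
  choose π hπc using fun l => LinearMap.exists_extend (bV.coord l)
  choose r hr1 hr2 using fun l => hπ (π l)
  have hcj : ∀ j, c j = ∑ l, algebraMap K L (π l (c j)) * (bV l : L) := fun j => by
    have hm : c j ∈ V := Submodule.subset_span ⟨j, rfl⟩
    have h1 := congrArg Subtype.val (bV.sum_repr ⟨c j, hm⟩).symm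
    simp only [AddSubmonoidClass.coe_finsetSum, SetLike.val_smul] at h1
    refine h1.trans (Finset.sum_congr rfl fun l _ => ?_)
    rw [Algebra.smul_def]
    congr 2
    exact (LinearMap.congr_fun (hπc l) ⟨c j, hm⟩).symm
  choose rp hrp using fun l => C.exists_fElt (hr1 l)
  refine ⟨fun i => ∑ l, Polynomial.C (bV l : L) * (rp l i).map (algebraMap K L), ?_⟩
  have hDf : e D * f = e D * fElt (e C.x) (e ∘ C.y)
      (fun i => ∑ l, Polynomial.C (bV l : L) * (rp l i).map (algebraMap K L)) := by
    have hR : fElt (e C.x) (e ∘ C.y)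
        (fun i => ∑ l, Polynomial.C (bV l : L) * (rp l i).map (algebraMap K L))
        = ∑ l, algebraMap L G (bV l : L) * e (r l) := by
      simp only [hrp, fElt, map_sum, Finset.sum_mul, Finset.mul_sum]
      rw [Finset.sum_comm]
      exact Finset.sum_congr rfl fun l _ => Finset.sum_congr rfl fun i _ => by
        simp [mul_assoc, C.map_aeval' he]
    rw [hq, hexp, hR, Finset.mul_sum]
    have : ∀ l, e D * (algebraMap L G (bV l : L) * e (r l))
        = ∑ j, algebraMap L G (algebraMap K L (π l (c j)) * (bV l : L)) * e (g j) := fun l => by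
      rw [mul_left_comm, ← map_mul, ← hr2 l, map_sum, Finset.mul_sum]
      refine Finset.sum_congr rfl fun j _ => ?_
      rw [Algebra.smul_def, map_mul, he.comm, map_mul (algebraMap L G)]
      ring
    simp only [this]
    rw [Finset.sum_comm]
    exact Finset.sum_congr rfl fun j _ => by rw [← Finset.sum_mul, ← map_sum, ← hcj]
  exact mul_left_cancel₀ ((_root_.map_ne_zero e).2 hD0) hDf

omit [Algebra K L] [IsAlgClosed L] [IsFunctionField L G] he in
theorem realL_injective (b : ℕ) : Function.Injective (C.realL (L := L) e b) := by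
  classical
  rw [← LinearMap.ker_eq_bot, LinearMap.ker_eq_bot']
  intro c hc
  by_contra hne
  obtain ⟨l₀, hl₀, hmax⟩ := Finset.exists_max_image (Finset.univ.filter fun l => c l ≠ 0)
    (fun l => C.wt (C.idxAt b l)) (by
      obtain ⟨l, hl⟩ := Function.ne_iff.1 hne
      exact ⟨l, Finset.mem_filter.2 ⟨Finset.mem_univ _, hl⟩⟩)
  have h0 : c l₀ • e (C.mon (C.idxAt b l₀)) ≠ 0 :=
    smul_ne_zero (Finset.mem_filter.1 hl₀).2 ((_root_.map_ne_zero e).2 (C.mon_ne_zero _))
  have ho : ∀ l, c l ≠ 0 → v.ord (c l • e (C.mon (C.idxAt b l)))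
      = -(C.wt (C.idxAt b l) : ℤ) := fun l hl => by
    rw [Algebra.smul_def, v.ord_mul ((_root_.map_ne_zero _).2 hl)
      ((_root_.map_ne_zero e).2 (C.mon_ne_zero _)), ord_algebraMap, hv, C.ord_mon, zero_add]
  refine (ord_eq_of_vanishesTo_sub (P := v) (g := C.realL (L := L) e b c) h0 ?_).1 hc
  rw [realL, Fintype.linearCombination_apply, ← Finset.add_sum_erase _ _ (Finset.mem_univ l₀),
    add_sub_cancel_left]
  refine VanishesTo.sum _ _ fun l hl => ?_
  by_cases hcl : c l = 0
  · exact Or.inl (by rw [hcl, zero_smul])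
  refine Or.inr ?_
  rw [ho _ hcl, ho _ (Finset.mem_filter.1 hl₀).2]
  have h1 := hmax l (Finset.mem_filter.2 ⟨Finset.mem_univ _, hcl⟩)
  have h2 : C.wt (C.idxAt b l) ≠ C.wt (C.idxAt b l₀) := fun h =>
    Finset.ne_of_mem_erase hl (C.idxAt_injective b (C.wt_injective h))
  omega

/-- **`L(b∞)` is spanned by the monomials.** -/
theorem range_realL (b : ℕ) :
    LinearMap.range (C.realL (L := L) e b) = riemannRochSpace (Finsupp.single v (b : ℤ)) := by
  classical
  rw [realL, Fintype.range_linearCombination]
  apply le_antisymm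
  · refine Submodule.span_le.2 ?_
    rintro _ ⟨l, rfl⟩
    refine mem_riemannRochSpace.2 fun w => ?_
    by_cases hw : w = v
    · subst hw
      refine Or.inr ?_
      rw [hv, C.ord_mon, Finsupp.single_eq_same]
      have := C.wt_idxAt b l
      omega
    · rw [Finsupp.single_eq_of_ne hw, neg_zero]
      exact C.regular_map he v hv (C.mon_reg _) w hw
  · intro f hf
    rw [mem_riemannRochSpace] at hf
    obtain ⟨p, rfl⟩ := C.exists_fElt' he v hv fun w hw => by
      simpa [Finsupp.single_eq_of_ne hw] using hf w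
    rcases eq_or_ne p 0 with rfl | hp
    · simp [fElt]
    obtain ⟨h0, i₀, -, hord, hmax⟩ := C.ord_fElt' v hv hp
    have hb := (hf v).resolve_left h0
    rw [Finsupp.single_eq_same, hord] at hb
    rw [fElt]
    refine sum_mem fun i _ => ?_
    rw [aeval_eq_sum_range, Finset.sum_mul]
    refine sum_mem fun k hk => ?_
    rw [smul_mul_assoc]
    by_cases hcoef : (p i).coeff k = 0
    · rw [hcoef, zero_smul]; exact zero_mem _
    refine Submodule.smul_mem _ _ ?_
    have hk' : k ≤ (p i).natDegree := Finset.mem_range_succ_iff.1 hk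
    have hpi : p i ≠ 0 := fun h => hcoef (by simp [h])
    obtain ⟨l, hl⟩ := C.exists_idxAt (b := b) (p := (i, k)) (by
      have h1 := hmax i hpi
      have h2 : k * (C.d + 1) ≤ (p i).natDegree * (C.d + 1) := Nat.mul_le_mul_right _ hk'
      simp only [wt]
      omega)
    exact Submodule.subset_span ⟨l, by simp [hl, mon]⟩

/-- The genus does not change. -/
theorem gaps_eq : gaps v = gaps O := by
  ext n
  rw [mem_gaps, mem_gaps, not_iff_not]
  constructor
  · rintro ⟨f, hf, h0, ho⟩
    obtain ⟨p, rfl⟩ := C.exists_fElt' he v hv hf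
    have hp : p ≠ 0 := fun h => h0 (by simp [h, fElt])
    obtain ⟨-, i, -, hord, -⟩ := C.ord_fElt' v hv hp
    rw [ho] at hord
    refine ⟨C.mon (i, (p i).natDegree), C.mon_reg _, C.mon_ne_zero _, ?_⟩
    rw [C.ord_mon, hord, wt]
    push_cast; ring
  · rintro ⟨f, hf, h0, ho⟩
    exact ⟨e f, C.regular_map he v hv hf, (_root_.map_ne_zero e).2 h0, (hv f).trans ho⟩

end Coord

end Fermat.Agent.Row27

end
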