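import Fermat.Agent.FunctionFieldRR.RationalBase

/-!
# Divisor classes along an isomorphism of function fields
-/

set_option autoImplicit false

noncomputable section

open AlgebraicCurve
open Fermat.Agent.FunctionFieldRR

namespace Fermat.Agent.Row27

variable {K F F' : Type*} [Field K] [Field F] [Field F'] [Algebra K F] [Algebra K F']

/-- The place of `F` pulled back along an isomorphism. -/
def placePull [IsAlgClosed K] [IsFunctionField K F] (σ : F ≃ₐ[K] F') (P : Place K F') :
    Place K F :=
  placeOfValuationSubring (P.toValuationSubring.comap (σ : F →+* F'))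
    (fun c => by
      rw [ValuationSubring.mem_comap, RingHom.coe_coe, AlgEquiv.commutes]
      exact P.algebraMap_mem' c)
    (fun h => P.ne_top' (eq_top_iff.2 fun f _ => by
      have h1 : σ.symm f ∈ P.toValuationSubring.comap (σ : F →+* F') :=
        h ▸ ValuationSubring.mem_top _
      rwa [ValuationSubring.mem_comap, RingHom.coe_coe, AlgEquiv.apply_symm_apply] at h1))

variable [IsAlgClosed K] [IsFunctionField K F] [IsFunctionField K F']

omit [IsFunctionField K F'] in
theorem mem_placePull (σ : F ≃ₐ[K] F') (P : Place K F') (f : F) :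
    f ∈ (placePull σ P).toValuationSubring ↔ σ f ∈ P.toValuationSubring :=
  ValuationSubring.mem_comap

theorem placePull_symm (σ : F ≃ₐ[K] F') (P : Place K F) :
    placePull σ (placePull σ.symm P) = P :=
  eq_of_forall_mem fun f hf => by
    rw [mem_placePull, mem_placePull, AlgEquiv.symm_apply_apply] at hf
    exact hf

omit [IsFunctionField K F'] in
theorem ord_placePull (σ : F ≃ₐ[K] F') (P : Place K F') (f : F) :
    (placePull σ P).ord f = P.ord (σ f) := by
  set Q := placePull σ P with hQ
  have h0 : ∀ g : F, g ≠ 0 → Q.ord g = 0 → P.ord (σ g) = 0 := fun g hg h => by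
    have h1 := ord_nonneg_of_mem P ((mem_placePull σ P g).1 ((mem_iff Q hg).2 h.ge))
    have h2 := ord_nonneg_of_mem P ((mem_placePull σ P g⁻¹).1
      ((mem_iff Q (inv_ne_zero hg)).2 (by rw [Q.ord_inv, h, neg_zero])))
    rw [map_inv₀, P.ord_inv] at h2
    omega
  have hlin : ∀ g : F, P.ord (σ g) = Q.ord g * P.ord (σ (unif Q)) := fun g => by
    rcases eq_or_ne g 0 with rfl | hg
    · simp
    have hu := zpow_ne_zero (-Q.ord g) (unif_ne_zero Q)
    have hs : ∀ a : F, a ≠ 0 → σ a ≠ 0 := fun a ha => (_root_.map_ne_zero σ).2 ha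
    have h := h0 (g * unif Q ^ (-Q.ord g)) (mul_ne_zero hg hu)
      (by rw [Q.ord_mul hg hu, Q.ord_zpow, ord_unif]; ring)
    rw [map_mul, map_zpow₀, P.ord_mul (hs g hg) (zpow_ne_zero _ (hs _ (unif_ne_zero Q))),
      P.ord_zpow] at h
    linarith
  obtain ⟨t, ht0, ht⟩ := exists_ord_eq_one P
  have h1 := hlin (σ.symm t)
  rw [AlgEquiv.apply_symm_apply, ht] at h1
  have hpos : 0 ≤ P.ord (σ (unif Q)) := ord_nonneg_of_mem P
    ((mem_placePull σ P _).1 ((ord_nonneg_iff Q _).1 (by rw [ord_unif]; omega)))
  have h2 : P.ord (σ (unif Q)) = 1 := by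
    rcases Int.eq_one_or_neg_one_of_mul_eq_one' h1.symm with h | h <;> omega
  rw [hlin f, h2, mul_one]

/-- The divisors transported along an isomorphism. -/
def divisorPush (σ : F ≃ₐ[K] F') : Divisor K F ≃+ Divisor K F' :=
  Finsupp.domCongr
    { toFun := placePull σ.symm
      invFun := placePull σ
      left_inv := placePull_symm σ
      right_inv := fun P => by simpa using placePull_symm σ.symm P }

theorem divisorPush_apply (σ : F ≃ₐ[K] F') (D : Divisor K F) (P : Place K F') :
    divisorPush σ D P = D (placePull σ P) := by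
  show Finsupp.equivMapDomain _ D P = _
  rw [Finsupp.equivMapDomain_apply]
  rfl

theorem degree_divisorPush (σ : F ≃ₐ[K] F') (D : Divisor K F) :
    Divisor.degree (divisorPush σ D) = Divisor.degree D := by
  induction D using Finsupp.induction_linear with
  | zero => simp
  | add D E hD hE => rw [map_add, map_add, hD, hE, map_add]
  | single P n =>
    simp only [divisorPush, Finsupp.domCongr_apply, Finsupp.equivMapDomain_single,
      Divisor.degree_single, deg_eq_one]

theorem isPrincipal_divisorPush (σ : F ≃ₐ[K] F') {D : Divisor K F} (h : D.IsPrincipal) :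
    (divisorPush σ D).IsPrincipal := by
  obtain ⟨f, hf, hD⟩ := h
  exact ⟨σ f, (_root_.map_ne_zero σ).2 hf, fun P => by
    rw [divisorPush_apply, hD, ord_placePull]⟩

theorem divisorPush_symm (σ : F ≃ₐ[K] F') (D : Divisor K F) :
    divisorPush σ.symm (divisorPush σ D) = D := Finsupp.ext fun P => by
  rw [divisorPush_apply, divisorPush_apply, placePull_symm]

/-- `Pic⁰` transported along an isomorphism. -/
def pic0Push (σ : F ≃ₐ[K] F') : Pic0 K F →+ Pic0 K F' :=
  QuotientAddGroup.map _ _
    (((divisorPush σ).toAddMonoidHom.comp (Divisor.degZero (K := K) (F := F)).subtype).codRestrict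
      (Divisor.degZero (K := K) (F := F')) fun D => by
        rw [Divisor.mem_degZero]
        exact (degree_divisorPush σ _).trans D.2)
    fun D hD => by
      rw [AddSubgroup.mem_comap, AddSubgroup.mem_addSubgroupOf] at *
      exact isPrincipal_divisorPush σ hD

/-- `Pic⁰` of isomorphic function fields. -/
def pic0Equiv (σ : F ≃ₐ[K] F') : Pic0 K F ≃+ Pic0 K F' :=
  AddMonoidHom.toAddEquiv (pic0Push σ) (pic0Push σ.symm)
    (QuotientAddGroup.addMonoidHom_ext _ (AddMonoidHom.ext fun D =>
      congrArg Pic0.mk (Subtype.ext (divisorPush_symm σ _))))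
    (QuotientAddGroup.addMonoidHom_ext _ (AddMonoidHom.ext fun D =>
      congrArg Pic0.mk (Subtype.ext (by simpa using divisorPush_symm σ.symm _))))

end Fermat.Agent.Row27

end
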