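import Mathlib.RingTheory.Valuation.LocalSubring
import Mathlib.FieldTheory.IntermediateField.Adjoin.Basic

/-!
# Spaces of elements bounded by a finite family at all valuations trivial on the base field
-/

set_option autoImplicit false

noncomputable section

open Polynomial

namespace Fermat.Agent.Row27

variable {K Ω : Type*} [Field K] [Field Ω] [Algebra K Ω]

variable (K) in
/-- The valuation ring contains the constants. -/
def TrivOn (A : ValuationSubring Ω) : Prop := ∀ c : K, algebraMap K Ω c ∈ A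

lemma TrivOn.valuation_le {A : ValuationSubring Ω} (hA : TrivOn K A) (c : K) :
    A.valuation (algebraMap K Ω c) ≤ 1 :=
  (A.valuation_le_one_iff _).mpr (hA c)

lemma valuation_le_iff_div_mem (A : ValuationSubring Ω) {x y : Ω} (hy : y ≠ 0) :
    A.valuation x ≤ A.valuation y ↔ x / y ∈ A := by
  rw [← A.valuation_le_one_iff, map_div₀,
    div_le_one₀ (zero_lt_iff.mpr ((Valuation.ne_zero_iff _).mpr hy))]

lemma valuation_comap_le_iff (A : ValuationSubring Ω) (σ : Ω →ₐ[K] Ω) {x y : Ω} :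
    (A.comap (σ : Ω →+* Ω)).valuation x ≤ (A.comap (σ : Ω →+* Ω)).valuation y ↔
      A.valuation (σ x) ≤ A.valuation (σ y) := by
  rcases eq_or_ne y 0 with rfl | hy
  · simp [map_eq_zero_iff σ σ.toRingHom.injective]
  · rw [valuation_le_iff_div_mem _ hy,
      valuation_le_iff_div_mem _ ((map_ne_zero_iff σ σ.toRingHom.injective).mpr hy),
      ValuationSubring.mem_comap, RingHom.coe_coe, map_div₀]

lemma TrivOn.comap {A : ValuationSubring Ω} (hA : TrivOn K A) (σ : Ω →ₐ[K] Ω) :
    TrivOn K (A.comap (σ : Ω →+* Ω)) := fun c => by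
  rw [ValuationSubring.mem_comap, RingHom.coe_coe, AlgHom.commutes]
  exact hA c

variable {ι : Type*} [Fintype ι] [Nonempty ι]

/-- The largest value of the family. -/
def vmax (A : ValuationSubring Ω) (s : ι → Ω) : A.ValueGroup :=
  Finset.univ.sup' Finset.univ_nonempty fun i => A.valuation (s i)

lemma le_vmax (A : ValuationSubring Ω) (s : ι → Ω) (i : ι) : A.valuation (s i) ≤ vmax A s :=
  Finset.le_sup' (fun i => A.valuation (s i)) (Finset.mem_univ i)

lemma exists_vmax_eq (A : ValuationSubring Ω) (s : ι → Ω) :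
    ∃ i, vmax A s = A.valuation (s i) := by
  obtain ⟨i, -, hi⟩ := Finset.exists_mem_eq_sup' Finset.univ_nonempty fun i => A.valuation (s i)
  exact ⟨i, hi⟩

lemma vmax_le_iff {A : ValuationSubring Ω} {s : ι → Ω} {x : A.ValueGroup} :
    vmax A s ≤ x ↔ ∀ i, A.valuation (s i) ≤ x := by
  simp [vmax]

lemma one_le_vmax {A : ValuationSubring Ω} {s : ι → Ω} {i₀ : ι} (h : s i₀ = 1) :
    1 ≤ vmax A s := by
  simpa [h] using le_vmax A s i₀

lemma vmax_pow_le {A : ValuationSubring Ω} {s : ι → Ω} {i₀ : ι} (h : s i₀ = 1) {a b : ℕ}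
    (hab : a ≤ b) : vmax A s ^ a ≤ vmax A s ^ b :=
  pow_le_pow_right₀ (one_le_vmax h) hab

variable (K) in
/-- Elements of `M` bounded by the `m`-th power of the family. -/
def bdd (M : IntermediateField K Ω) (s : ι → Ω) (m : ℕ) : Submodule K Ω where
  carrier := {f | f ∈ M ∧ ∀ A : ValuationSubring Ω, TrivOn K A → A.valuation f ≤ vmax A s ^ m}
  zero_mem' := ⟨zero_mem M, fun A _ => by simp⟩
  add_mem' := fun hf hg => ⟨add_mem hf.1 hg.1, fun A hA =>
    A.valuation.map_add_le (hf.2 A hA) (hg.2 A hA)⟩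
  smul_mem' := fun c f hf => ⟨IntermediateField.smul_mem M hf.1, fun A hA => by
    rw [Algebra.smul_def, map_mul]
    exact (mul_le_mul' (hA.valuation_le c) (hf.2 A hA)).trans_eq (one_mul _)⟩

variable {M : IntermediateField K Ω} {s : ι → Ω}

lemma mul_mem_bdd {a b : ℕ} {f g : Ω} (hf : f ∈ bdd K M s a) (hg : g ∈ bdd K M s b) :
    f * g ∈ bdd K M s (a + b) :=
  ⟨mul_mem hf.1 hg.1, fun A hA => by
    rw [map_mul, pow_add]; exact mul_le_mul' (hf.2 A hA) (hg.2 A hA)⟩

lemma mem_bdd_one {i : ι} (hi : s i ∈ M) : s i ∈ bdd K M s 1 :=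
  ⟨hi, fun A _ => by rw [pow_one]; exact le_vmax A s i⟩

lemma one_mem_bdd_zero : (1 : Ω) ∈ bdd K M s 0 := ⟨one_mem M, fun A _ => by simp⟩

lemma bdd_mono {i₀ : ι} (h : s i₀ = 1) {a b : ℕ} (hab : a ≤ b) : bdd K M s a ≤ bdd K M s b :=
  fun _ hf => ⟨hf.1, fun A hA => (hf.2 A hA).trans (vmax_pow_le h hab)⟩

lemma pow_mem_bdd {a : ℕ} {f : Ω} (hf : f ∈ bdd K M s a) (k : ℕ) :
    f ^ k ∈ bdd K M s (k * a) := by
  induction k with
  | zero => simpa using one_mem_bdd_zero
  | succ k ih => rw [pow_succ, Nat.succ_mul]; exact mul_mem_bdd ih hf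

/-- Conjugates fixing the family satisfy the same bound. -/
lemma valuation_map_le {m : ℕ} {f : Ω} (hf : f ∈ bdd K M s m) (σ : Ω →ₐ[K] Ω)
    (hσ : ∀ i, σ (s i) = s i) {A : ValuationSubring Ω} (hA : TrivOn K A) :
    A.valuation (σ f) ≤ vmax A s ^ m := by
  obtain ⟨i, hi⟩ := exists_vmax_eq (A.comap (σ : Ω →+* Ω)) s
  have h := hf.2 _ (hA.comap σ)
  rw [hi, ← map_pow, valuation_comap_le_iff, map_pow σ, hσ, map_pow] at h
  exact h.trans (pow_le_pow_left' (le_vmax A s i) m)

/-- A root of a monic polynomial with bounded coefficients is bounded. -/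
lemma valuation_le_of_monic {A : ValuationSubring Ω} {p : Ω[X]} (hp : p.Monic) {x : Ω}
    (hx : p.eval x = 0) {B : A.ValueGroup} (hB : 1 ≤ B)
    (hc : ∀ k, A.valuation (p.coeff k) ≤ B) : A.valuation x ≤ B := by
  by_contra hlt
  rw [not_le] at hlt
  have h1 : 1 ≤ A.valuation x := hB.trans hlt.le
  have hpos : 0 < A.valuation x := lt_of_lt_of_le zero_lt_one h1
  rw [Polynomial.eval_eq_sum_range, Finset.sum_range_succ, hp.coeff_natDegree, one_mul] at hx
  have hterm : ∀ k ∈ Finset.range p.natDegree,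
      A.valuation (p.coeff k * x ^ k) < A.valuation x ^ p.natDegree := by
    intro k hk
    rw [map_mul, map_pow]
    calc A.valuation (p.coeff k) * A.valuation x ^ k ≤ B * A.valuation x ^ k :=
          mul_le_mul_left (hc k) _
      _ < A.valuation x * A.valuation x ^ k := mul_lt_mul_of_pos_right hlt (pow_pos hpos k)
      _ = A.valuation x ^ (k + 1) := (pow_succ' _ k).symm
      _ ≤ _ := pow_le_pow_right₀ h1 (Finset.mem_range.mp hk)
  have hs := A.valuation.map_sum_lt (pow_pos hpos p.natDegree).ne' hterm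
  rw [eq_neg_of_add_eq_zero_left hx, Valuation.map_neg, map_pow] at hs
  exact lt_irrefl _ hs

/-- Elements of the algebra generated by the family are bounded. -/
lemma exists_mem_bdd_of_mem_adjoin {i₀ : ι} (h0 : s i₀ = 1) (hs : ∀ i, s i ∈ M) {a : Ω}
    (ha : a ∈ Algebra.adjoin K (Set.range s)) : ∃ c, a ∈ bdd K M s c := by
  induction ha using Algebra.adjoin_induction with
  | mem y hy =>
      obtain ⟨i, rfl⟩ := hy
      exact ⟨1, mem_bdd_one (hs i)⟩
  | algebraMap r =>
      exact ⟨0, by simpa [Algebra.algebraMap_eq_smul_one] using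
        Submodule.smul_mem (bdd K M s 0) r one_mem_bdd_zero⟩
  | add y z _ _ hy hz =>
      obtain ⟨a, ha⟩ := hy
      obtain ⟨b, hb⟩ := hz
      exact ⟨max a b, add_mem (bdd_mono h0 (le_max_left a b) ha) (bdd_mono h0 (le_max_right a b) hb)⟩
  | mul y z _ _ hy hz =>
      obtain ⟨a, ha⟩ := hy
      obtain ⟨b, hb⟩ := hz
      exact ⟨a + b, mul_mem_bdd ha hb⟩

/-- Elements integral over that algebra are bounded. -/
lemma exists_mem_bdd_of_isIntegral {i₀ : ι} (h0 : s i₀ = 1) (hs : ∀ i, s i ∈ M) {x : Ω}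
    (hxM : x ∈ M) (hx : IsIntegral (Algebra.adjoin K (Set.range s)) x) :
    ∃ c, x ∈ bdd K M s c := by
  obtain ⟨p, hp, hp0⟩ := hx
  choose c hc using fun k => exists_mem_bdd_of_mem_adjoin (M := M) h0 hs (p.coeff k).2
  refine ⟨(Finset.range (p.natDegree + 1)).sup c, hxM, fun A hA => ?_⟩
  refine valuation_le_of_monic (p := p.map (algebraMap _ Ω)) (hp.map _)
    (by rw [Polynomial.eval_map]; exact hp0) (one_le_pow₀ (one_le_vmax h0)) fun k => ?_
  rw [Polynomial.coeff_map]
  rcases lt_or_ge p.natDegree k with hk | hk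
  · simp [Polynomial.coeff_eq_zero_of_natDegree_lt hk]
  · exact ((bdd_mono h0 (Finset.le_sup (f := c) (Finset.mem_range.mpr (by omega))) (hc k)).2 A hA)

end Fermat.Agent.Row27

end
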