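import Fermat.Agent.MWJ0.RR
import Fermat.Agent.Row27.ValBound
import Mathlib.RingTheory.LaurentSeries
import Mathlib.Algebra.MvPolynomial.Basic

/-!
# Curves over all algebraically closed extensions with common structure constants

`CurveData K` describes a curve over `K` together with its base changes by the spaces `L(b∞)` in
coordinates, their structure constants over `K` and a sequence of rational points. `Spec K L L'`
is a specialisation of constants. `SpecTheory` and `ThetaTheory` collect what the count of torsion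
classes uses.
-/

set_option autoImplicit false

noncomputable section

open AlgebraicCurve Module

namespace Fermat.Agent.Row27

universe u

variable {K : Type u} [Field K]

/-- Multiplication by structure constants. -/
def mulVec {R : Type*} [CommRing R] [Algebra K R] {p q r : ℕ}
    (sc : Fin p → Fin q → Fin r → K) (x : Fin p → R) (y : Fin q → R) : Fin r → R :=
  fun l => ∑ i, ∑ j, sc i j l • (x i * y j)

lemma map_mulVec {R R' : Type*} [CommRing R] [Algebra K R] [CommRing R'] [Algebra K R']
    {p q r : ℕ} (sc : Fin p → Fin q → Fin r → K) (φ : R →ₐ[K] R') (x : Fin p → R)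
    (y : Fin q → R) (l : Fin r) :
    φ (mulVec sc x y l) = mulVec sc (fun i => φ (x i)) (fun j => φ (y j)) l := by
  simp [mulVec, map_sum]

variable (K) in
/-- A curve over `K`, with all its base changes to algebraically closed extensions. -/
structure CurveData where
  g : ℕ
  /-- The dimension of `L(b∞)`. -/
  dim : ℕ → ℕ
  /-- Structure constants of `L(a∞) × L(b∞) → L(c∞)` for `a + b ≤ c`. -/
  sc : ∀ a b c : ℕ, Fin (dim a) → Fin (dim b) → Fin (dim c) → K
  /-- The coordinates of the constant function `1`. -/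
  one : ∀ b : ℕ, Fin (dim b) → K
  /-- The values of the basis at the `i`-th rational point. -/
  ev : ℕ → ∀ b : ℕ, Fin (dim b) → K
  curve : ∀ (L : Type u) [Field L] [Algebra K L] [IsAlgClosed L],
    IntermediateField L (LaurentSeries L)
  rr : ∀ (L : Type u) [Field L] [Algebra K L] [IsAlgClosed L], MWJ0.RRData L (curve L)
  rr_g : ∀ (L : Type u) [Field L] [Algebra K L] [IsAlgClosed L], (rr L).g = g
  canon : ∀ (L : Type u) [Field L] [Algebra K L] [IsAlgClosed L], Divisor L (curve L)
  riemannRoch : ∀ (L : Type u) [Field L] [Algebra K L] [IsAlgClosed L]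
    (D : Divisor L (curve L)),
    (finrank L (riemannRochSpace D) : ℤ) - finrank L (riemannRochSpace (canon L - D)) =
      Divisor.degree D + 1 - g
  inf : ∀ (L : Type u) [Field L] [Algebra K L] [IsAlgClosed L], Place L (curve L)
  realF : ∀ (L : Type u) [Field L] [Algebra K L] [IsAlgClosed L] (b : ℕ),
    (Fin (dim b) → L) →ₗ[L] curve L
  realF_injective : ∀ (L : Type u) [Field L] [Algebra K L] [IsAlgClosed L] (b : ℕ),
    Function.Injective (realF L b)
  range_realF : ∀ (L : Type u) [Field L] [Algebra K L] [IsAlgClosed L] (b : ℕ),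
    LinearMap.range (realF L b) = riemannRochSpace (Finsupp.single (inf L) (b : ℤ))
  realF_mul : ∀ (L : Type u) [Field L] [Algebra K L] [IsAlgClosed L] (a b c : ℕ), a + b ≤ c →
    ∀ (x : Fin (dim a) → L) (y : Fin (dim b) → L),
      realF L c (mulVec (sc a b c) x y) = realF L a x * realF L b y
  realF_one : ∀ (L : Type u) [Field L] [Algebra K L] [IsAlgClosed L] (b : ℕ),
    realF L b (fun i => algebraMap K L (one b i)) = 1
  pt : ∀ (L : Type u) [Field L] [Algebra K L] [IsAlgClosed L], ℕ → Place L (curve L)
  pt_injective : ∀ (L : Type u) [Field L] [Algebra K L] [IsAlgClosed L], Function.Injective (pt L)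
  pt_ne_inf : ∀ (L : Type u) [Field L] [Algebra K L] [IsAlgClosed L] (i : ℕ), pt L i ≠ inf L
  pt_ev : ∀ (L : Type u) [Field L] [Algebra K L] [IsAlgClosed L] (i b : ℕ) (x : Fin (dim b) → L),
    realF L b x - algebraMap L (curve L) (∑ j, x j * algebraMap K L (ev i b j)) ∈
      riemannRochSpace (Finsupp.single (inf L) (b : ℤ) - Finsupp.single (pt L i) (1 : ℤ))

namespace CurveData

variable (C : CurveData K)

/-- Coordinates of level `b`. -/
abbrev Idx (b : ℕ) : Type := Fin (C.dim b)

/-- The degree of representatives. -/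
abbrev n : ℕ := 2 * C.g + 1

/-- The basic level; the others are its multiples. -/
abbrev la : ℕ := 4 * C.g + 2

abbrev l1 : ℕ := C.la + C.la

abbrev l2 : ℕ := C.la + C.l1

abbrev l3 : ℕ := C.la + C.l2

/-- The two levels of the quadratic form. -/
abbrev lh : ℕ := C.l3 - C.n

abbrev lh' : ℕ := C.l2 - C.n

/-- The dimension of the space of a representative at level `b`. -/
abbrev nW (b : ℕ) : ℕ := b + 1 - C.g - C.n

/-- The number of rational points used for evaluation. -/
abbrev pool : ℕ := 100 * (C.g + 1)

/-- The coordinates of the theta map of level `b`. -/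
abbrev TuIdx (b : ℕ) : Type := Fin (C.nW b) → Fin C.pool

/-- The coordinates of the theta map. -/
abbrev TIdx : Type := C.TuIdx C.lh × C.TuIdx C.lh'

section Ring

variable {R : Type*} [CommRing R] [Algebra K R]

/-- Multiplication in coordinates. -/
def mulv (a b c : ℕ) (x : C.Idx a → R) (y : C.Idx b → R) : C.Idx c → R := mulVec (C.sc a b c) x y

/-- The value at a rational point. -/
def evAt (i b : ℕ) (x : C.Idx b → R) : R := ∑ j, x j * algebraMap K R (C.ev i b j)

end Ring

variable (L : Type u) [Field L] [Algebra K L] [IsAlgClosed L]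

/-- `b · ∞`. -/
def binf (b : ℤ) : Divisor L (C.curve L) := Finsupp.single (C.inf L) b

/-- The functions of level `b` vanishing on `D`. -/
def W (b : ℕ) (D : Divisor L (C.curve L)) : Submodule L (C.Idx b → L) :=
  (riemannRochSpace (C.binf L (b : ℤ) - D)).comap (C.realF L b)

lemma mem_W {b : ℕ} {D : Divisor L (C.curve L)} {x : C.Idx b → L} :
    x ∈ C.W L b D ↔ C.realF L b x ∈ riemannRochSpace (C.binf L (b : ℤ) - D) := Iff.rfl

/-- The class of a divisor, moved to degree `0` by the place at infinity. -/
def cls : Divisor L (C.curve L) →+ Pic0 L (C.curve L) :=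
  AddMonoidHom.mk'
    (fun D => Pic0.mk ⟨D - C.binf L (Divisor.degree D), by
      rw [Divisor.mem_degZero, map_sub, binf, (C.rr L).degree_single, sub_self]⟩)
    fun D E => by
      rw [← Pic0.mk_add]
      refine congrArg Pic0.mk (Subtype.ext ?_)
      simp only [binf, map_add, Finsupp.single_add, AddSubgroup.coe_add]
      abel

end CurveData

variable (K) in
/-- A specialisation of constants: a valuation ring of `L` over `K` with a map to `L'` killing
exactly its maximal ideal. -/
structure Spec (L L' : Type u) [Field L] [Algebra K L] [Field L'] [Algebra K L'] where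
  dom : ValuationSubring L
  trivOn : TrivOn K dom
  map : dom →+* L'
  map_algebraMap : ∀ c : K, map ⟨algebraMap K L c, trivOn c⟩ = algebraMap K L' c
  map_eq_zero : ∀ x : dom, map x = 0 ↔ ¬ IsUnit x

namespace Spec

variable {L L' : Type u} [Field L] [Algebra K L] [Field L'] [Algebra K L']

/-- A field embedding as a specialisation. -/
def ofAlgHom (φ : L →ₐ[K] L') : Spec K L L' where
  dom := ⊤
  trivOn _ := ValuationSubring.mem_top _
  map := (φ : L →+* L').comp (⊤ : ValuationSubring L).subtype
  map_algebraMap c := φ.commutes c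
  map_eq_zero x := by
    constructor
    · intro h hu
      have hx : (x : L) ≠ 0 := fun e => by
        obtain ⟨z, hz⟩ := isUnit_iff_exists_inv.mp hu
        simpa [e] using congrArg Subtype.val hz
      exact hx (φ.toRingHom.injective (h.trans (map_zero _).symm))
    · intro hu
      by_contra h
      refine hu (isUnit_iff_exists_inv.mpr ⟨⟨(x : L)⁻¹, ValuationSubring.mem_top _⟩, Subtype.ext ?_⟩)
      exact mul_inv_cancel₀ fun e => h (by simp [e])

/-- The image of a subspace: the span of the images of its integral vectors. -/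
def mapSub (φ : Spec K L L') {ι : Type*} (W : Submodule L (ι → L)) : Submodule L' (ι → L') :=
  Submodule.span L' {y | ∃ x : ι → φ.dom, (fun i => (x i : L)) ∈ W ∧ y = fun i => φ.map (x i)}

end Spec

/-- Proportional vectors. -/
def PropTo {R ι : Type*} [Field R] (s t : ι → R) : Prop := ∃ c : R, c ≠ 0 ∧ t = c • s

/-- What the count uses about specialisation of divisors and classes. -/
structure SpecTheory (C : CurveData K) where
  place : ∀ {L L' : Type u} [Field L] [Algebra K L] [IsAlgClosed L] [Field L'] [Algebra K L']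
    [IsAlgClosed L'], Spec K L L' → Place L (C.curve L) → Place L' (C.curve L')
  pic : ∀ {L L' : Type u} [Field L] [Algebra K L] [IsAlgClosed L] [Field L'] [Algebra K L']
    [IsAlgClosed L'], Spec K L L' → Pic0 L (C.curve L) →+ Pic0 L' (C.curve L')
  place_inf : ∀ {L L' : Type u} [Field L] [Algebra K L] [IsAlgClosed L] [Field L'] [Algebra K L']
    [IsAlgClosed L'] (φ : Spec K L L'), place φ (C.inf L) = C.inf L'
  place_pt : ∀ {L L' : Type u} [Field L] [Algebra K L] [IsAlgClosed L] [Field L'] [Algebra K L']
    [IsAlgClosed L'] (φ : Spec K L L') (i : ℕ), place φ (C.pt L i) = C.pt L' i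
  mapSub_W : ∀ {L L' : Type u} [Field L] [Algebra K L] [IsAlgClosed L] [Field L'] [Algebra K L']
    [IsAlgClosed L'] (φ : Spec K L L') (D : Divisor L (C.curve L)), 0 ≤ D → ∀ b : ℕ,
      2 * (C.g : ℤ) + Divisor.degree D < b →
        φ.mapSub (C.W L b D) = C.W L' b (Finsupp.mapDomain (place φ) D)
  mapSub_W_of_algHom : ∀ {L L' : Type u} [Field L] [Algebra K L] [IsAlgClosed L] [Field L']
    [Algebra K L'] [IsAlgClosed L'] (ψ : L →ₐ[K] L') (D : Divisor L (C.curve L)), 0 ≤ D →
      ∀ b : ℕ, (Spec.ofAlgHom ψ).mapSub (C.W L b D) =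
        C.W L' b (Finsupp.mapDomain (place (Spec.ofAlgHom ψ)) D)
  place_comp : ∀ {L L' L'' : Type u} [Field L] [Algebra K L] [IsAlgClosed L] [Field L']
    [Algebra K L'] [IsAlgClosed L'] [Field L''] [Algebra K L''] [IsAlgClosed L'']
    (ψ : L →ₐ[K] L') (φ : Spec K L' L'') (χ : L →ₐ[K] L'') (h : ∀ l, ψ l ∈ φ.dom),
    (∀ l, φ.map ⟨ψ l, h l⟩ = χ l) → ∀ P,
      place φ (place (Spec.ofAlgHom ψ) P) = place (Spec.ofAlgHom χ) P
  place_id : ∀ {L : Type u} [Field L] [Algebra K L] [IsAlgClosed L] (P : Place L (C.curve L)),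
    place (Spec.ofAlgHom (AlgHom.id K L)) P = P
  place_injective : ∀ {L L' : Type u} [Field L] [Algebra K L] [IsAlgClosed L] [Field L']
    [Algebra K L'] [IsAlgClosed L'] (ψ : L →ₐ[K] L'),
      Function.Injective (place (Spec.ofAlgHom ψ))
  pic_cls : ∀ {L L' : Type u} [Field L] [Algebra K L] [IsAlgClosed L] [Field L'] [Algebra K L']
    [IsAlgClosed L'] (φ : Spec K L L') (D : Divisor L (C.curve L)),
      pic φ (C.cls L D) = C.cls L' (Finsupp.mapDomain (place φ) D)
  pic_injective : ∀ {L L' : Type u} [Field L] [Algebra K L] [IsAlgClosed L] [Field L']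
    [Algebra K L'] [IsAlgClosed L'] (ψ : L →ₐ[K] L'),
      Function.Injective (pic (Spec.ofAlgHom ψ))

instance CurveData.nonempty_TIdx (C : CurveData K) : Nonempty C.TIdx :=
  ⟨(fun _ => ⟨0, by simp [CurveData.pool]⟩, fun _ => ⟨0, by simp [CurveData.pool]⟩)⟩

/-- What the count uses about the theta map. -/
structure ThetaTheory (C : CurveData K) (T : SpecTheory C) where
  theta : ∀ (L : Type u) [Field L] [Algebra K L] [IsAlgClosed L],
    Pic0 L (C.curve L) → C.TIdx → L
  theta_ne_zero : ∀ (L : Type u) [Field L] [Algebra K L] [IsAlgClosed L]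
    (x : Pic0 L (C.curve L)), theta L x ≠ 0
  theta_spec : ∀ {L L' : Type u} [Field L] [Algebra K L] [IsAlgClosed L] [Field L'] [Algebra K L']
    [IsAlgClosed L'] (φ : Spec K L L') (x : Pic0 L (C.curve L)),
      ∃ s : C.TIdx → φ.dom, PropTo (theta L x) (fun i => (s i : L)) ∧
        PropTo (theta L' (T.pic φ x)) (fun i => φ.map (s i))
  parallelogram : 0 < C.g → ∀ (L : Type u) [Field L] [Algebra K L] [IsAlgClosed L]
    (x y : Pic0 L (C.curve L)), ∃ lam : L, lam ≠ 0 ∧
      ∀ A : ValuationSubring L, TrivOn K A →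
        vmax A (theta L (x + y)) * vmax A (theta L (x - y)) =
          A.valuation lam * (vmax A (theta L x) * vmax A (theta L y)) ^ 2
  theta_ne_zero_iff : 0 < C.g → ∀ (L : Type u) [Field L] [Algebra K L] [IsAlgClosed L]
    (x : Pic0 L (C.curve L)) (D : Divisor L (C.curve L)), Divisor.degree D = 0 →
      C.cls L D = x → ∀ p : C.TIdx, Function.Injective p.1 → Function.Injective p.2 →
      (theta L x p ≠ 0 ↔
        (riemannRochSpace (C.binf L ((C.lh : ℤ) - C.n) -
            ∑ j, Finsupp.single (C.pt L (p.1 j)) (1 : ℤ) - D) = ⊥ ∧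
          riemannRochSpace (C.binf L ((C.lh : ℤ) - C.n) -
            ∑ j, Finsupp.single (C.pt L (p.1 j)) (1 : ℤ) + D) = ⊥) ∧
        (riemannRochSpace (C.binf L ((C.lh' : ℤ) - C.n) -
            ∑ j, Finsupp.single (C.pt L (p.2 j)) (1 : ℤ) - D) = ⊥ ∧
          riemannRochSpace (C.binf L ((C.lh' : ℤ) - C.n) -
            ∑ j, Finsupp.single (C.pt L (p.2 j)) (1 : ℤ) + D) = ⊥))

end Fermat.Agent.Row27

end
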