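import Fermat.Agent.Row27.BaseCurve
import Fermat.Agent.Row27.BaseSpace
import Fermat.Agent.Row27.BaseTransport
import Fermat.Agent.Row27.Interface

/-!
# The curve data of a function field
-/

set_option autoImplicit false

noncomputable section

open AlgebraicCurve IntermediateField Polynomial
open Fermat.Agent.FunctionFieldRR

namespace Fermat.Agent.Row27

universe u

variable {K : Type u} [Field K] [IsAlgClosed K] {F : Type*} [Field F] [Algebra K F]
  [IsFunctionField K F] {O : Place K F}

omit [IsFunctionField K F] in
theorem isExt_id (O : Place K F) : IsExt K O (RingHom.id F) where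
  comm _ := rfl
  gen := eq_top_iff.2 fun z _ => subset_adjoin _ _ ⟨z, rfl⟩
  transc _ hf := transcendental_of_ord_ne_zero O hf

theorem finrank_range_realL {L G : Type*} [Field L] [Algebra K L] [Field G] [Algebra L G]
    [IsAlgClosed L] [IsFunctionField L G] (C : Coord O) {e : F →+* G}
    (he : IsExt L O e) (v : Place L G) (hv : ∀ f : F, v.ord (e f) = O.ord f) (b : ℕ) :
    Module.finrank L (riemannRochSpace (Finsupp.single v (b : ℤ))) = C.dim b := by
  rw [← C.range_realL he v hv b, LinearMap.finrank_range_of_inj (C.realL_injective v hv b),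
    Module.finrank_fin_fun]

theorem card_gaps_eq_gBound (O : Place K F) : (gaps O).card = gBound K F := by
  obtain ⟨C⟩ := nonempty_coord O
  have h1 := finrank_range_realL C (isExt_id O) O (fun _ => rfl) (2 * gBound K F)
  have h2 := C.dim_add_gaps (b := 2 * gBound K F) le_rfl
  have h3 := finrank_rr (K := K) (F := F) (Finsupp.single O ((2 * gBound K F : ℕ) : ℤ))
    (by rw [Divisor.degree_single, deg_eq_one]; simp)
  rw [Divisor.degree_single, deg_eq_one, h1] at h3
  push_cast at h3
  omega

section OverL

variable (O) (L : Type*) [Field L] [Algebra K L] [IsAlgClosed L]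

theorem gBound_Ext : gBound L (Ext O L) = gBound K F := by
  obtain ⟨C⟩ := nonempty_coord O
  rw [← card_gaps_eq_gBound (infL O L), C.gaps_eq isExt_el (infL O L) ord_infL_el,
    card_gaps_eq_gBound]

theorem rrData_Ext : ∃ h : MWJ0.RRData L (Ext O L), h.g = gBound K F := by
  refine ⟨⟨gBound K F, hasPrincipalDivisors, deg_eq_one,
    fun D => finiteDimensional_riemannRochSpace D, fun D hD => ?_⟩, rfl⟩
  have := finrank_rr (K := L) (F := Ext O L) D (by rw [gBound_Ext O L]; omega)
  rwa [gBound_Ext O L] at this

theorem canon_Ext : ∃ Kc : Divisor L (Ext O L), ∀ D : Divisor L (Ext O L),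
    (Module.finrank L (riemannRochSpace D) : ℤ) - Module.finrank L (riemannRochSpace (Kc - D)) =
      Divisor.degree D + 1 - gBound K F := by
  obtain ⟨C⟩ := nonempty_coord O
  have hx := C.transcendental_e (isExt_el (O := O) (L := L))
  have := C.finiteDimensional_ext (isExt_el (O := O) (L := L))
  have := C.isSeparable_ext (infL O L) ord_infL_el
  refine ⟨canonicalDiv hx, fun D => ?_⟩
  set b : ℕ := 2 * gBound K F + 2 * genusOf hx with hb
  have h1 := finrank_eq_of_degree_gt hx (D := Finsupp.single (infL O L) (b : ℤ))
    (by rw [Divisor.degree_single, deg_eq_one, hb]; push_cast; omega)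
  have h2 := finrank_rr (K := L) (Finsupp.single (infL O L) (b : ℤ))
    (by rw [Divisor.degree_single, deg_eq_one, gBound_Ext O L, hb]; push_cast; omega)
  rw [gBound_Ext O L] at h2
  have hg : (genusOf hx : ℤ) = gBound K F := by omega
  rw [← hg]
  exact riemannRoch hx D

end OverL

theorem infinite_place (O : Place K F) : Infinite {P : Place K F // P ≠ O} := by
  obtain ⟨C⟩ := nonempty_coord O
  have hex : ∀ c : K, ∃ P : Place K F, 0 < P.ord (C.x - algebraMap K F c) := fun c =>
    exists_ord_pos fun h => C.transcendental_x (by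
      simpa using h.add (isAlgebraic_algebraMap (A := F) c))
  choose P hP using hex
  have hne : ∀ c, P c ≠ O := fun c h => by
    have h1 := hP c
    rw [h] at h1
    have h2 := ord_nonpos_of_regAlg (O := O)
      (sub_mem C.x_reg (Subalgebra.algebraMap_mem _ c) : C.x - algebraMap K F c ∈ regAlg O)
    omega
  refine Infinite.of_injective (fun c => (⟨P c, hne c⟩ : {P : Place K F // P ≠ O})) fun c d h => ?_
  have h' : P c = P d := congrArg Subtype.val h
  exact residue_unique (P c) (f := C.x) (Or.inr (hP c)) (h' ▸ Or.inr (hP d))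

/-- A sequence of distinct places off `O`. -/
def ratPlace (O : Place K F) (i : ℕ) : Place K F :=
  haveI := infinite_place O
  (Infinite.natEmbedding {P : Place K F // P ≠ O} i).1

theorem ratPlace_ne (O : Place K F) (i : ℕ) : ratPlace O i ≠ O :=
  haveI := infinite_place O
  (Infinite.natEmbedding {P : Place K F // P ≠ O} i).2

theorem ratPlace_injective (O : Place K F) : Function.Injective (ratPlace O) :=
  haveI := infinite_place O
  Subtype.val_injective.comp (Infinite.natEmbedding {P : Place K F // P ≠ O}).injective

namespace Coord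

variable (C : Coord O)

open Classical in
/-- Coordinates of a function in the monomials of level `b`. -/
def coordsOf (b : ℕ) (f : F) : Fin (C.dim b) → K :=
  if h : f ∈ LinearMap.range (C.realL (L := K) (RingHom.id F) b) then h.choose else 0

theorem realL_coordsOf {b : ℕ} {f : F} (h : f ∈ riemannRochSpace (Finsupp.single O (b : ℤ))) :
    C.realL (L := K) (RingHom.id F) b (C.coordsOf b f) = f := by
  rw [← C.range_realL (isExt_id O) O (fun _ => rfl) b] at h
  rw [coordsOf, dif_pos h]
  exact h.choose_spec

theorem mon_mem (b : ℕ) (l : Fin (C.dim b)) :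
    C.mon (C.idxAt b l) ∈ riemannRochSpace (Finsupp.single O (b : ℤ)) := by
  rw [← C.range_realL (isExt_id O) O (fun _ => rfl) b]
  refine ⟨Pi.single l 1, ?_⟩
  simp [realL, Fintype.linearCombination_apply_single]

section Coords

variable {L : Type*} [Field L] [Algebra K L] [IsAlgClosed L]

omit [IsAlgClosed L] in
theorem realL_algebraMap (b : ℕ) (x : Fin (C.dim b) → K) :
    C.realL (L := L) (el O L) b (fun l => algebraMap K L (x l))
      = el O L (C.realL (L := K) (RingHom.id F) b x) := by
  simp only [realL, Fintype.linearCombination_apply, map_sum, RingHom.id_apply, Algebra.smul_def,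
    map_mul, el_algebraMap]

omit [IsAlgClosed L] in
theorem realL_mul {a b c : ℕ} (h : a + b ≤ c) (x : Fin (C.dim a) → L) (y : Fin (C.dim b) → L) :
    C.realL (L := L) (el O L) c (mulVec (fun i j => C.coordsOf c
        (C.mon (C.idxAt a i) * C.mon (C.idxAt b j))) x y)
      = C.realL (L := L) (el O L) a x * C.realL (L := L) (el O L) b y := by
  have hm : ∀ i j, C.mon (C.idxAt a i) * C.mon (C.idxAt b j) ∈
      riemannRochSpace (Finsupp.single O (c : ℤ)) := fun i j => mem_riemannRochSpace.2 fun P => by
    refine ((mem_riemannRochSpace.1 (C.mon_mem a i) P).mul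
      (mem_riemannRochSpace.1 (C.mon_mem b j) P)).mono ?_
    by_cases hP : P = O
    · subst hP
      simp only [Finsupp.single_eq_same]
      omega
    · simp [Finsupp.single_eq_of_ne hP]
  have hv : mulVec (fun i j => C.coordsOf c (C.mon (C.idxAt a i) * C.mon (C.idxAt b j))) x y =
      ∑ i, ∑ j, (x i * y j) • fun l => algebraMap K L
        (C.coordsOf c (C.mon (C.idxAt a i) * C.mon (C.idxAt b j)) l) := by
    funext l
    simp only [mulVec, Finset.sum_apply, Pi.smul_apply, smul_eq_mul]
    exact Finset.sum_congr rfl fun i _ => Finset.sum_congr rfl fun j _ => by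
      rw [Algebra.smul_def, mul_comm]
  rw [hv]
  simp only [map_sum, map_smul, C.realL_algebraMap, C.realL_coordsOf (hm _ _)]
  simp only [realL, Fintype.linearCombination_apply]
  rw [Finset.sum_mul]
  refine Finset.sum_congr rfl fun i _ => ?_
  rw [Finset.mul_sum]
  exact Finset.sum_congr rfl fun j _ => by rw [smul_mul_smul_comm, map_mul]

omit [IsAlgClosed L] in
theorem realL_one (b : ℕ) :
    C.realL (L := L) (el O L) b (fun l => algebraMap K L (C.coordsOf b 1 l)) = 1 := by
  classical
  rw [C.realL_algebraMap, C.realL_coordsOf (mem_riemannRochSpace.2 fun P => Or.inr ?_), map_one]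
  rw [Place.ord_one, neg_nonpos, Finsupp.single_apply]
  split_ifs <;> simp

/-- The place over a rational place. -/
def ratPt (L : Type*) [Field L] [Algebra K L] [IsAlgClosed L] (i : ℕ) : Place L (Ext O L) :=
  (C.exists_place_over (isExt_el (O := O) (L := L)) (infL O L) ord_infL_el
    (ratPlace_ne O i)).choose

theorem ratPt_spec (L : Type*) [Field L] [Algebra K L] [IsAlgClosed L] (i : ℕ) :
    C.ratPt L i ≠ infL O L ∧ ∃ ε : ℤ, 1 ≤ ε ∧
      ∀ g : F, (C.ratPt L i).ord (el O L g) = ε * (ratPlace O i).ord g :=
  (C.exists_place_over (isExt_el (O := O) (L := L)) (infL O L) ord_infL_el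
    (ratPlace_ne O i)).choose_spec

theorem ratPt_injective (L : Type*) [Field L] [Algebra K L] [IsAlgClosed L] :
    Function.Injective (C.ratPt L) := fun i j h => by
  classical
  by_contra hne
  obtain ⟨f, -, hf⟩ := exists_ord_eq {ratPlace O i, ratPlace O j}
    (fun P => if P = ratPlace O i then 1 else 0)
  obtain ⟨-, ε, hε, h1⟩ := C.ratPt_spec L i
  obtain ⟨-, ε', hε', h2⟩ := C.ratPt_spec L j
  have h3 := h1 f
  rw [h, h2 f, hf _ (by simp), hf _ (by simp), if_pos rfl,
    if_neg ((ratPlace_injective O).ne (Ne.symm hne))] at h3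
  omega

theorem realL_sub_ev (i b : ℕ) (x : Fin (C.dim b) → L) :
    C.realL (L := L) (el O L) b x - algebraMap L (Ext O L)
        (∑ j, x j * algebraMap K L (residueConst (ratPlace O i) (C.mon (C.idxAt b j)))) ∈
      riemannRochSpace (Finsupp.single (infL O L) (b : ℤ) - Finsupp.single (C.ratPt L i) (1 : ℤ)) := by
  obtain ⟨hne, ε, hε, hord⟩ := C.ratPt_spec L i
  refine mem_riemannRochSpace.2 fun w => ?_
  rw [realL, Fintype.linearCombination_apply, map_sum, ← Finset.sum_sub_distrib]
  refine VanishesTo.sum _ _ fun l _ => ?_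
  rw [Algebra.smul_def, map_mul, ← mul_sub, ← el_algebraMap, ← map_sub]
  set g := C.mon (C.idxAt b l) - algebraMap K F
    (residueConst (ratPlace O i) (C.mon (C.idxAt b l))) with hg
  rw [← zero_add (-((Finsupp.single (infL O L) (b : ℤ) -
    Finsupp.single (C.ratPt L i) (1 : ℤ) : Divisor L (Ext O L)) w))]
  refine (vanishesTo_algebraMap _).mul ?_
  have hgO : g ∈ regAlg O := sub_mem (C.mon_reg _) (Subalgebra.algebraMap_mem _ _)
  by_cases hw : w = infL O L
  · subst hw
    rw [Finsupp.sub_apply, Finsupp.single_eq_same, Finsupp.single_eq_of_ne (Ne.symm hne), sub_zero]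
    rcases eq_or_ne g 0 with h0 | h0
    · exact Or.inl (by rw [h0, map_zero])
    refine Or.inr ?_
    rw [ord_infL_el]
    have h1 : VanishesTo O (-(b : ℤ)) g := by
      have h2 := mem_riemannRochSpace.1 (C.mon_mem b l) O
      rw [Finsupp.single_eq_same] at h2
      exact h2.sub ((vanishesTo_algebraMap _).mono (by omega))
    exact h1.resolve_left h0
  · rw [Finsupp.sub_apply, Finsupp.single_eq_of_ne hw, zero_sub, neg_neg]
    by_cases hwp : w = C.ratPt L i
    · subst hwp
      rw [Finsupp.single_eq_same]
      rcases residueConst_spec (ratPlace O i)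
        ((vanishesTo_zero_iff _).1 (C.mon_reg (C.idxAt b l) _ (ratPlace_ne O i))) with h0 | h0
      · exact Or.inl (by rw [hg, h0, map_zero])
      · exact Or.inr (by rw [hord, hg]; nlinarith)
    · rw [Finsupp.single_eq_of_ne hwp]
      exact C.regular_map isExt_el (infL O L) ord_infL_el hgO w hw

end Coords

/-- The curve data. -/
def curveData : CurveData K where
  g := gBound K F
  dim := C.dim
  sc a b c i j := C.coordsOf c (C.mon (C.idxAt a i) * C.mon (C.idxAt b j))
  one b := C.coordsOf b 1
  ev i b j := residueConst (ratPlace O i) (C.mon (C.idxAt b j))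
  curve L _ _ _ := Ext O L
  rr L _ _ _ := (rrData_Ext O L).choose
  rr_g L _ _ _ := (rrData_Ext O L).choose_spec
  canon L _ _ _ := (canon_Ext O L).choose
  riemannRoch L _ _ _ := (canon_Ext O L).choose_spec
  inf L _ _ _ := infL O L
  realF L _ _ _ b := C.realL (el O L) b
  realF_injective L _ _ _ b :=
      C.realL_injective (infL O L) ord_infL_el b
  range_realF L _ _ _ b :=
      C.range_realL isExt_el (infL O L) ord_infL_el b
  realF_mul _ _ _ _ _ _ _ h x y := C.realL_mul h x y
  realF_one _ _ _ _ b := C.realL_one b
  pt L _ _ _ := C.ratPt L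
  pt_injective L _ _ _ := C.ratPt_injective L
  pt_ne_inf L _ _ _ i := (C.ratPt_spec L i).1
  pt_ev _ _ _ _ i b x := C.realL_sub_ev i b x

end Coord

/-- `F` is its own extension by `K`. -/
def extSelfEquiv (O : Place K F) : F ≃ₐ[K] Ext O K :=
  AlgEquiv.ofBijective
    { el O K with
      commutes' := fun c => by
        show el O K (algebraMap K F c) = _
        rw [el_algebraMap, Algebra.algebraMap_self, RingHom.id_apply] }
    ⟨(el O K).injective, fun z => by
      let φ : F →ₐ[K] Ext O K :=
        { el O K with
          commutes' := fun c => by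
            show el O K (algebraMap K F c) = _
            rw [el_algebraMap, Algebra.algebraMap_self, RingHom.id_apply] }
      have h : (⊤ : IntermediateField K (Ext O K)) ≤ φ.fieldRange := by
        rw [← adjoin_el_eq_top]
        refine adjoin_le_iff.2 ?_
        rintro _ ⟨f, rfl⟩
        exact ⟨f, rfl⟩
      exact h (IntermediateField.mem_top (x := z))⟩

/-- **The curve data of a function field over an algebraically closed field, in any
characteristic.** -/
theorem exists_curveData' (K : Type u) [Field K] [IsAlgClosed K] (F : Type*) [Field F]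
    [Algebra K F] [IsFunctionField K F] (O : Place K F) :
    ∃ (C : CurveData K) (e : F ≃ₐ[K] C.curve K), C.g = genusFF K F ∧
      ∀ f : F, (C.inf K).ord (e f) = O.ord f := by
  obtain ⟨C⟩ := nonempty_coord O
  refine ⟨C.curveData, extSelfEquiv O, ?_, fun f => ord_infL_el f⟩
  show gBound K F = _
  rw [← card_gaps_eq_gBound O, genusFF_eq_card_gaps O]

/-- **The curve data of a curve over an algebraically closed field of characteristic zero.** -/
theorem exists_curveData (K : Type u) [Field K] [IsAlgClosed K] [CharZero K] (F : Type*) [Field F]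
    [Algebra K F] [IsCurveOver K F] [Algebra.EssFiniteType K F] :
    ∃ C : CurveData K, C.g = genusFF K F ∧ Nonempty (Pic0 K F ≃+ Pic0 K (C.curve K)) := by
  have := isFunctionField_of_isCurveOver (K := K) (F := F)
  obtain ⟨O⟩ : Nonempty (Place K F) := inferInstance
  obtain ⟨C⟩ := nonempty_coord O
  refine ⟨C.curveData, ?_, ⟨(pic0Equiv (extSelfEquiv O) : Pic0 K F ≃+ Pic0 K (Ext O K))⟩⟩
  show gBound K F = _
  rw [← card_gaps_eq_gBound O, genusFF_eq_card_gaps O]

end Fermat.Agent.Row27

end
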