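import Fermat.Agent.Row27.Nondeg

/-!
# Coordinates of places

A place away from infinity has coordinates in the basis of a fixed level `b0`. A place is defined
over an algebraically closed subfield iff one chosen coordinate lies in it, and the algebraic
relations between the coordinates of independent places do not depend on the places.
-/

set_option autoImplicit false

noncomputable section

open AlgebraicCurve Module

namespace Fermat.Agent.Row27

universe u

variable {K : Type u} [Field K]

section Closure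

variable {L L' : Type u} [Field L] [Algebra K L] [IsAlgClosed L] [Field L'] [Algebra K L']

/-- An element algebraic over a subset of an algebraically closed subfield lies in it. -/
lemma mem_range_of_isAlgebraic (ψ : L →ₐ[K] L') {S : Set L'} (hS : S ⊆ Set.range ψ) {z : L'}
    (hz : IsAlgebraic (IntermediateField.adjoin K S) z) : z ∈ Set.range ψ := by
  have hle : IntermediateField.adjoin K S ≤ ψ.fieldRange := IntermediateField.adjoin_le_iff.mpr hS
  let := (IntermediateField.inclusion hle).toRingHom.toAlgebra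
  have : IsScalarTower (IntermediateField.adjoin K S) ψ.fieldRange L' :=
    IsScalarTower.of_algebraMap_eq fun _ => rfl
  obtain ⟨p, hp, hp0⟩ := (hz.isIntegral.tower_top : IsIntegral ψ.fieldRange z)
  refine mem_range_of_forall_valuation ψ fun A _ hA => ?_
  refine valuation_le_of_monic (hp.map (algebraMap _ L'))
    (by rw [Polynomial.eval_map]; exact hp0) le_rfl fun k => ?_
  rw [Polynomial.coeff_map]
  obtain ⟨l, hl⟩ := (p.coeff k).2
  refine (A.valuation_le_one_iff _).mpr ?_
  show ((p.coeff k : ψ.fieldRange) : L') ∈ A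
  rw [← hl]
  exact hA l

variable (K) in
/-- The algebraic closure of the field generated by `S`. -/
def acl [IsAlgClosed L'] (S : Set L') : IntermediateField K L' :=
  (algebraicClosure (IntermediateField.adjoin K S) L').restrictScalars K

instance [IsAlgClosed L'] (S : Set L') : IsAlgClosed (acl K S) :=
  IsAlgClosure.isAlgClosed (IntermediateField.adjoin K S)
    (K := algebraicClosure (IntermediateField.adjoin K S) L')

lemma subset_acl [IsAlgClosed L'] (S : Set L') : S ⊆ acl K S := fun z hz =>
  (algebraicClosure (IntermediateField.adjoin K S) L').algebraMap_mem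
    ⟨z, IntermediateField.subset_adjoin K S hz⟩

lemma mem_acl [IsAlgClosed L'] {S : Set L'} {z : L'} :
    z ∈ acl K S ↔ IsAlgebraic (IntermediateField.adjoin K S) z := mem_algebraicClosure_iff

end Closure

/-- An injection of a domain into an algebraically closed field extends to algebraic extensions. -/
lemma exists_extend {A S M : Type*} [CommRing A] [IsDomain A] [CommRing S] [IsDomain S] [Algebra A S]
    [FaithfulSMul A S] [Algebra.IsAlgebraic A S] [Field M] [IsAlgClosed M] (π : A →+* M)
    (hπ : Function.Injective π) : ∃ τ : S →+* M, ∀ x, τ (algebraMap A S x) = π x := by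
  algebraize [π]
  have : FaithfulSMul A M := (faithfulSMul_iff_algebraMap_injective A M).mpr hπ
  exact ⟨(IsAlgClosed.lift : S →ₐ[A] M).toRingHom, fun x => AlgHom.commutes _ x⟩

namespace CurveData

variable (C : CurveData K) {L : Type u} [Field L] [Algebra K L] [IsAlgClosed L]

/-- The level used for coordinates of places. -/
abbrev b0 : ℕ := 2 * C.g + 2

/-- The coordinates of the constant `1`. -/
def oneV (L : Type u) [Field L] [Algebra K L] (b : ℕ) : C.Idx b → L :=
  fun i => algebraMap K L (C.one b i)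

lemma realF_oneV (b : ℕ) : C.realF L b (C.oneV L b) = 1 := C.realF_one L b

lemma realF_smul_oneV (b : ℕ) (c : L) :
    C.realF L b (c • C.oneV L b) = algebraMap L (C.curve L) c := by
  rw [map_smul, realF_oneV, Algebra.algebraMap_eq_smul_one]

lemma h0_zero : C.h0 L 0 = 1 := by
  have h := (C.rr L).finrank_sub_single 0 (C.pt L 0)
  have h1 : C.h0 L (0 - Finsupp.single (C.pt L 0) 1) = 0 :=
    C.h0_eq_zero_of_neg L (by rw [map_sub, map_zero, C.degree_single]; norm_num)
  have h2 : C.h0 L 0 ≠ 0 := fun h => by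
    have h3 := (C.h0_eq_zero_iff L).mp h
    have h4 : (1 : C.curve L) ∈ riemannRochSpace (0 : Divisor L (C.curve L)) := by
      rw [MWJ0.mem_Lsp]; exact fun v => Or.inr (by simp)
    rw [h3, Submodule.mem_bot] at h4
    exact one_ne_zero h4
  change C.h0 L 0 ≤ C.h0 L (0 - Finsupp.single (C.pt L 0) 1) + 1 at h
  omega

lemma one_mem_Lsp {D : Divisor L (C.curve L)} (hD : 0 ≤ D) :
    (1 : C.curve L) ∈ riemannRochSpace D := by
  rw [MWJ0.mem_Lsp]
  exact fun v => Or.inr (by have := hD v; simp at this ⊢; exact this)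

lemma const_mem_Lsp {D : Divisor L (C.curve L)} (hD : 0 ≤ D) (c : L) :
    algebraMap L (C.curve L) c ∈ riemannRochSpace D := by
  rw [Algebra.algebraMap_eq_smul_one]
  exact Submodule.smul_mem _ c (C.one_mem_Lsp hD)

/-- A function without poles is constant. -/
lemma exists_eq_const {f : C.curve L} (hf : f ∈ riemannRochSpace (0 : Divisor L (C.curve L))) :
    ∃ c : L, algebraMap L (C.curve L) c = f := by
  have hle : Submodule.span L {(1 : C.curve L)} ≤ riemannRochSpace (0 : Divisor L (C.curve L)) :=
    (Submodule.span_singleton_le_iff_mem _ _).mpr (C.one_mem_Lsp le_rfl)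
  have := (C.rr L).finite 0
  have heq := Submodule.eq_of_le_of_finrank_eq hle
    (((C.h0_zero (L := L)).trans (finrank_span_singleton one_ne_zero).symm).symm)
  rw [← heq] at hf
  obtain ⟨c, hc⟩ := Submodule.mem_span_singleton.mp hf
  exact ⟨c, by rw [Algebra.algebraMap_eq_smul_one, hc]⟩

lemma ord_eq_zero_of_const {c : L} (hc : c ≠ 0) (v : Place L (C.curve L)) :
    v.ord (algebraMap L (C.curve L) c) = 0 := by
  have h1 := (MWJ0.mem_valuationSubring_iff_ord.mp (v.algebraMap_mem' c)).resolve_left
    ((map_ne_zero _).mpr hc)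
  have h2 := (MWJ0.mem_valuationSubring_iff_ord.mp (v.algebraMap_mem' c⁻¹)).resolve_left
    ((map_ne_zero _).mpr (inv_ne_zero hc))
  rw [map_inv₀, v.ord_inv] at h2
  omega

lemma eq_zero_of_const_mem_single {b : ℤ} {Q : Place L (C.curve L)} (hQ : Q ≠ C.inf L) {c : L}
    (h : algebraMap L (C.curve L) c ∈ riemannRochSpace (C.binf L b - Finsupp.single Q 1)) :
    c = 0 := by
  by_contra hc
  have h1 := (MWJ0.mem_Lsp_of_ne_zero ((map_ne_zero _).mpr hc)).mp h Q
  rw [C.ord_eq_zero_of_const hc] at h1
  simp [binf, Finsupp.single_eq_of_ne hQ] at h1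

lemma mem_W_single_iff {b : ℕ} {Q : Place L (C.curve L)} {x : C.Idx b → L} :
    x ∈ C.W L b (Finsupp.single Q 1) ↔
      C.realF L b x ∈ riemannRochSpace (C.binf L b - Finsupp.single Q 1) := Iff.rfl

lemma dim_b0 (L : Type u) [Field L] [Algebra K L] [IsAlgClosed L] : C.dim C.b0 = C.g + 3 := by
  have h := C.finrank_W_eq_h0 L C.b0 (D := 0) le_rfl
  rw [C.W_zero, finrank_top, Module.finrank_pi, Fintype.card_fin, sub_zero] at h
  rw [h]
  have h1 := (C.rr L).dim_eq (C.binf L C.b0) (by rw [C.rr_g, C.deg_binf]; simp only [b0]; omega)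
  rw [C.rr_g, C.deg_binf] at h1
  simp only [b0] at h1 ⊢
  have : (C.h0 L (C.binf L (2 * C.g + 2 : ℕ)) : ℤ) = C.g + 3 := by rw [h0, h1]; push_cast; ring
  omega

lemma exists_sub_smul_mem {Q : Place L (C.curve L)} (hQ : Q ≠ C.inf L) (x : C.Idx C.b0 → L) :
    ∃ c : L, x - c • C.oneV L C.b0 ∈ C.W L C.b0 (Finsupp.single Q 1) := by
  set W := C.W L C.b0 (Finsupp.single Q 1) with hW
  have hnot : C.oneV L C.b0 ∉ W := fun h => one_ne_zero (C.eq_zero_of_const_mem_single hQ (c := (1 : L))
    (by rw [map_one, ← C.realF_oneV (L := L) C.b0]; exact h))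
  have htop : W ⊔ Submodule.span L {C.oneV L C.b0} = ⊤ := by
    refine Submodule.eq_top_of_finrank_eq (le_antisymm (Submodule.finrank_le _) ?_)
    rw [Module.finrank_pi, Fintype.card_fin]
    have hlt : finrank L W < finrank L (W ⊔ Submodule.span L {C.oneV L C.b0} : Submodule L _) :=
      Submodule.finrank_lt_finrank_of_lt (left_lt_sup.mpr fun h =>
        hnot (h (Submodule.mem_span_singleton_self _)))
    have h := (C.rr L).finrank_sub_single (C.binf L C.b0) Q
    have hW1 : finrank L W = C.h0 L (C.binf L C.b0 - Finsupp.single Q 1) :=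
      C.finrank_W_eq_h0 L C.b0 (Finsupp.single_nonneg.mpr zero_le_one)
    have h0 := C.finrank_W_eq_h0 L C.b0 (D := 0) le_rfl
    rw [C.W_zero, finrank_top, Module.finrank_pi, Fintype.card_fin, sub_zero] at h0
    change C.h0 L _ ≤ C.h0 L _ + 1 at h
    omega
  obtain ⟨w, hw, y, hy, rfl⟩ := Submodule.mem_sup.mp (htop.ge (Submodule.mem_top (x := x)))
  obtain ⟨c, rfl⟩ := Submodule.mem_span_singleton.mp hy
  exact ⟨c, by rwa [add_sub_cancel_right]⟩

open scoped Classical in
/-- The coordinates of a place: the values of the basis of level `b0`. -/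
def coord (Q : Place L (C.curve L)) (j : C.Idx C.b0) : L :=
  if h : Q ≠ C.inf L then Classical.choose (C.exists_sub_smul_mem h (Pi.single j 1)) else 0

lemma coord_spec {Q : Place L (C.curve L)} (hQ : Q ≠ C.inf L) (j : C.Idx C.b0) :
    Pi.single j 1 - C.coord Q j • C.oneV L C.b0 ∈ C.W L C.b0 (Finsupp.single Q 1) := by
  rw [coord, dif_pos hQ]
  exact Classical.choose_spec (C.exists_sub_smul_mem hQ (Pi.single j 1))

lemma coord_inf (j : C.Idx C.b0) : C.coord (C.inf L) j = 0 := by
  rw [coord, dif_neg (by simp)]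

lemma mem_W_single_iff_sum {Q : Place L (C.curve L)} (hQ : Q ≠ C.inf L) {x : C.Idx C.b0 → L} :
    x ∈ C.W L C.b0 (Finsupp.single Q 1) ↔ ∑ j, x j * C.coord Q j = 0 := by
  have h : x - (∑ j, x j * C.coord Q j) • C.oneV L C.b0 ∈ C.W L C.b0 (Finsupp.single Q 1) := by
    have h1 : x - (∑ j, x j * C.coord Q j) • C.oneV L C.b0 =
        ∑ j, x j • (Pi.single j 1 - C.coord Q j • C.oneV L C.b0) := by
      simp only [smul_sub, Finset.sum_sub_distrib, smul_smul, Finset.sum_smul]
      congr 1
      funext i
      simp [Pi.single_apply]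
    rw [h1]
    exact Submodule.sum_mem _ fun j _ => Submodule.smul_mem _ _ (C.coord_spec hQ j)
  constructor
  · intro hx
    have h2 := Submodule.sub_mem _ hx h
    rw [sub_sub_cancel] at h2
    refine C.eq_zero_of_const_mem_single hQ (b := (C.b0 : ℤ)) ?_
    rw [← C.realF_smul_oneV C.b0]
    exact h2
  · intro hx
    rwa [hx, zero_smul, sub_zero] at h

lemma coord_eq {Q : Place L (C.curve L)} (hQ : Q ≠ C.inf L) {j : C.Idx C.b0} {c : L}
    (h : Pi.single j 1 - c • C.oneV L C.b0 ∈ C.W L C.b0 (Finsupp.single Q 1)) :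
    C.coord Q j = c := by
  have h1 := Submodule.sub_mem _ h (C.coord_spec hQ j)
  rw [sub_sub_sub_cancel_left, ← sub_smul] at h1
  refine sub_eq_zero.mp (C.eq_zero_of_const_mem_single hQ (b := (C.b0 : ℤ)) ?_)
  rw [← C.realF_smul_oneV C.b0]
  exact h1

lemma coord_injective {Q Q' : Place L (C.curve L)} (hQ : Q ≠ C.inf L) (hQ' : Q' ≠ C.inf L)
    (h : ∀ j, C.coord Q j = C.coord Q' j) : Q = Q' := by
  have h1 : C.W L C.b0 (Finsupp.single Q 1) = C.W L C.b0 (Finsupp.single Q' 1) := by
    ext x
    rw [C.mem_W_single_iff_sum hQ, C.mem_W_single_iff_sum hQ']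
    simp only [h]
  have h2 := C.W_injective (Finsupp.single_nonneg.mpr zero_le_one)
    (Finsupp.single_nonneg.mpr zero_le_one) (by rw [C.degree_single, C.degree_single])
    (by rw [C.degree_single]; simp only [b0]; push_cast; omega) h1
  exact Finsupp.single_left_injective one_ne_zero h2

end CurveData

variable {C : CurveData K} (T : SpecTheory C)
variable {L L' : Type u} [Field L] [Algebra K L] [IsAlgClosed L] [Field L'] [Algebra K L']
  [IsAlgClosed L']

omit [IsAlgClosed L] [IsAlgClosed L'] in
lemma Spec.map_mem_mapSub (ψ : L →ₐ[K] L') {ι : Type*} {W : Submodule L (ι → L)} {x : ι → L}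
    (hx : x ∈ W) : (fun i => ψ (x i)) ∈ (Spec.ofAlgHom ψ).mapSub W :=
  Submodule.subset_span ⟨fun i => ⟨x i, ValuationSubring.mem_top _⟩, hx, rfl⟩

lemma SpecTheory.map_mem_W (ψ : L →ₐ[K] L') {D : Divisor L (C.curve L)} (hD : 0 ≤ D) {b : ℕ}
    {x : C.Idx b → L} (hx : x ∈ C.W L b D) :
    (fun i => ψ (x i)) ∈ C.W L' b (T.push (Spec.ofAlgHom ψ) D) := by
  rw [T.push_apply, ← T.mapSub_W_of_algHom ψ D hD b]
  exact Spec.map_mem_mapSub ψ hx

lemma SpecTheory.place_ne_inf (ψ : L →ₐ[K] L') {Q : Place L (C.curve L)} (hQ : Q ≠ C.inf L) :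
    T.place (Spec.ofAlgHom ψ) Q ≠ C.inf L' := fun h =>
  hQ (T.place_injective ψ (h.trans (T.place_inf _).symm))

lemma SpecTheory.coord_place (ψ : L →ₐ[K] L') (Q : Place L (C.curve L)) (j : C.Idx C.b0) :
    C.coord (T.place (Spec.ofAlgHom ψ) Q) j = ψ (C.coord Q j) := by
  rcases eq_or_ne Q (C.inf L) with rfl | hQ
  · rw [T.place_inf, C.coord_inf, C.coord_inf, map_zero]
  refine C.coord_eq (T.place_ne_inf ψ hQ) ?_
  have h := T.map_mem_W ψ (Finsupp.single_nonneg.mpr zero_le_one) (C.coord_spec hQ j)
  rw [T.push_single] at h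
  convert h using 1
  funext i
  simp [CurveData.oneV, Pi.single_apply, apply_ite ψ]

/-- A zero of a function over the subfield is defined over it. -/
lemma SpecTheory.mem_range_place_of_mem_W (ψ : L →ₐ[K] L') {b : ℕ} {v : C.Idx b → L} (hv : v ≠ 0)
    {Q : Place L' (C.curve L')} (hQ : Q ≠ C.inf L')
    (h : (fun i => ψ (v i)) ∈ C.W L' b (Finsupp.single Q 1)) :
    Q ∈ Set.range (T.place (Spec.ofAlgHom ψ)) := by
  classical
  set f := C.realF L b v with hf
  set f' := C.realF L' b (fun i => ψ (v i)) with hf'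
  have hf0 : f ≠ 0 := fun h0 => hv (C.realF_injective L b (h0.trans (map_zero _).symm))
  have hv' : (fun i => ψ (v i)) ≠ 0 := fun h0 => hv (funext fun i =>
    ψ.toRingHom.injective ((congrFun h0 i).trans (map_zero _).symm))
  have hf0' : f' ≠ 0 := fun h0 => hv' (C.realF_injective L' b (h0.trans (map_zero _).symm))
  have hfmem : f ∈ riemannRochSpace (C.binf L b) := by
    rw [CurveData.binf, ← C.range_realF L b]; exact LinearMap.mem_range_self _ _
  obtain ⟨hD, hDd⟩ := (C.rr L).section_divisor hf0 hfmem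
  set D := (C.rr L).divisor hf0 + C.binf L b with hDdef
  have hvD : v ∈ C.W L b D := by
    show C.realF L b v ∈ riemannRochSpace (C.binf L b - D)
    rw [MWJ0.mem_Lsp_of_ne_zero hf0]
    intro w
    simp [hDdef, (C.rr L).divisor_apply hf0]
  have h1 : f' ∈ riemannRochSpace (C.binf L' b - T.push (Spec.ofAlgHom ψ) D) := T.map_mem_W ψ hD hvD
  obtain ⟨h2, h3⟩ := (C.rr L').section_divisor hf0' h1
  have h4 := (C.rr L').eq_zero_of_nonneg_of_degree_le h2 (by
    rw [h3, map_sub, C.deg_binf, T.degree_push, hDd, C.deg_binf]; simp)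
  have h5 := (MWJ0.mem_Lsp_of_ne_zero hf0').mp h Q
  have h6 : (C.rr L').divisor hf0' Q + (C.binf L' b Q - T.push (Spec.ofAlgHom ψ) D Q) = 0 := by
    simpa using DFunLike.congr_fun h4 Q
  rw [(C.rr L').divisor_apply] at h6
  simp [CurveData.binf, Finsupp.single_eq_of_ne hQ] at h5 h6
  have hne : T.push (Spec.ofAlgHom ψ) D Q ≠ 0 := by omega
  obtain ⟨P, -, hP⟩ := Finset.mem_image.mp
    (Finsupp.mapDomain_support (Finsupp.mem_support_iff.mpr hne))
  exact ⟨P, hP⟩

variable {j : C.Idx C.b0}

lemma exists_tj [IsAlgClosed K] : ∃ j : C.Idx C.b0, ∃ i, i ≠ j ∧ C.one C.b0 i ≠ 0 := by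
  obtain ⟨i, hi⟩ : ∃ i, C.one C.b0 i ≠ 0 := by
    by_contra h
    push Not at h
    have h1 := C.realF_oneV (L := K) C.b0
    rw [show C.oneV K C.b0 = 0 from funext fun i => by simp [CurveData.oneV, h], map_zero] at h1
    exact zero_ne_one h1
  have hd := C.dim_b0 K
  have : Nontrivial (C.Idx C.b0) := Fin.nontrivial_iff_two_le.mpr (by omega)
  obtain ⟨j, hj⟩ := exists_ne i
  exact ⟨j, i, hj.symm, hi⟩

omit [IsAlgClosed L] in
lemma sub_oneV_ne_zero (hj : ∃ i, i ≠ j ∧ C.one C.b0 i ≠ 0) (c : L) :
    Pi.single j 1 - c • C.oneV L C.b0 ≠ 0 := by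
  obtain ⟨i, hij, hi⟩ := hj
  intro h
  have h1 := congrFun h i
  have h2 := congrFun h j
  simp [hij, CurveData.oneV, hi] at h1
  simp [h1] at h2

/-- A place is defined over the subfield iff its chosen coordinate is in it. -/
lemma SpecTheory.mem_range_place_iff (hj : ∃ i, i ≠ j ∧ C.one C.b0 i ≠ 0) (ψ : L →ₐ[K] L')
    (Q : Place L' (C.curve L')) :
    Q ∈ Set.range (T.place (Spec.ofAlgHom ψ)) ↔ C.coord Q j ∈ Set.range ψ := by
  constructor
  · rintro ⟨P, rfl⟩
    exact ⟨C.coord P j, (T.coord_place ψ P j).symm⟩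
  · rintro ⟨c, hc⟩
    rcases eq_or_ne Q (C.inf L') with rfl | hQ
    · exact ⟨C.inf L, T.place_inf _⟩
    refine T.mem_range_place_of_mem_W ψ (sub_oneV_ne_zero hj c) hQ ?_
    convert C.coord_spec hQ j using 1
    funext i
    simp [CurveData.oneV, Pi.single_apply, apply_ite ψ, ← hc]

/-- Every value of the chosen coordinate is taken. -/
lemma CurveData.exists_coord_eq (hj : ∃ i, i ≠ j ∧ C.one C.b0 i ≠ 0) (c : L) :
    ∃ Q, Q ≠ C.inf L ∧ C.coord Q j = c := by
  classical
  have hv := sub_oneV_ne_zero hj c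
  set v := Pi.single j 1 - c • C.oneV L C.b0
  have hf0 : C.realF L C.b0 v ≠ 0 := fun h0 => hv (C.realF_injective L _ (h0.trans (map_zero _).symm))
  have hfmem : C.realF L C.b0 v ∈ riemannRochSpace (C.binf L C.b0) := by
    rw [CurveData.binf, ← C.range_realF L C.b0]; exact LinearMap.mem_range_self _ _
  obtain ⟨hD, hDd⟩ := (C.rr L).section_divisor hf0 hfmem
  set D := (C.rr L).divisor hf0 + C.binf L C.b0 with hDdef
  have hDapp : ∀ u, D u = u.ord (C.realF L C.b0 v) + C.binf L C.b0 u := fun u => by
    simp [hDdef, (C.rr L).divisor_apply hf0]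
  rw [C.deg_binf] at hDd
  obtain ⟨Q, hQ, hQD⟩ : ∃ Q, Q ≠ C.inf L ∧ 0 < D Q := by
    by_contra hcon
    push Not at hcon
    have hDeq : D = Finsupp.single (C.inf L) (D (C.inf L)) := by
      ext Q
      rcases eq_or_ne Q (C.inf L) with rfl | hQ
      · simp
      · rw [Finsupp.single_eq_of_ne hQ]; exact le_antisymm (hcon Q hQ) (hD Q)
    have hdinf : D (C.inf L) = (C.b0 : ℤ) := by
      rw [← hDd]; conv_rhs => rw [hDeq, C.degree_single]
    have hmem : C.realF L C.b0 v ∈ riemannRochSpace (0 : Divisor L (C.curve L)) := by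
      rw [MWJ0.mem_Lsp_of_ne_zero hf0]
      intro u
      have h1 := hDapp u
      rw [hDeq, hdinf] at h1
      simp [CurveData.binf] at h1 ⊢
      omega
    obtain ⟨a, ha⟩ := C.exists_eq_const hmem
    rw [← C.realF_smul_oneV C.b0] at ha
    refine sub_oneV_ne_zero hj (c + a) ?_
    rw [add_smul, ← sub_sub, sub_eq_zero]
    exact (C.realF_injective L _ ha).symm
  refine ⟨Q, hQ, C.coord_eq hQ ?_⟩
  rw [C.mem_W_single_iff, MWJ0.mem_Lsp_of_ne_zero hf0]
  intro u
  have h1 := hDapp u
  have h2 := hD u
  simp only [Finsupp.coe_zero, Pi.zero_apply] at h2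
  rcases eq_or_ne u Q with rfl | hu
  · simp [CurveData.binf, Finsupp.single_eq_of_ne hQ] at h1 ⊢
    omega
  · simp [CurveData.binf, Finsupp.single_eq_of_ne hu] at h1 ⊢
    omega

section Relations

variable (C)

/-- Polynomials in the coordinates are functions of some level. -/
lemma CurveData.exists_level {R : Type*} [CommRing R] [Algebra K R]
    (P : MvPolynomial (C.Idx C.b0) R) :
    ∃ (N : ℕ) (v : C.Idx N → R), ∀ (L : Type u) [Field L] [Algebra K L] [IsAlgClosed L]
      (φ : R →ₐ[K] L) (Q : Place L (C.curve L)), Q ≠ C.inf L →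
        C.realF L N (fun i => φ (v i)) -
          algebraMap L (C.curve L) (MvPolynomial.eval₂ φ.toRingHom (C.coord Q) P) ∈
            riemannRochSpace (K := L) (F := C.curve L)
              (C.binf L (N : ℤ) - Finsupp.single Q (1 : ℤ)) := by
  induction P using MvPolynomial.induction_on with
  | C r =>
      refine ⟨0, fun i => r * algebraMap K R (C.one 0 i), fun L _ _ _ φ Q _ => ?_⟩
      have : (fun i => φ (r * algebraMap K R (C.one 0 i))) = φ r • C.oneV L 0 := by
        funext i; simp [CurveData.oneV]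
      rw [this, C.realF_smul_oneV, MvPolynomial.eval₂_C]
      simp
  | add P P' ih ih' =>
      obtain ⟨a, v, hv⟩ := ih
      obtain ⟨b, w, hw⟩ := ih'
      refine ⟨a + b, mulVec (C.sc a b (a + b)) v (fun i => algebraMap K R (C.one b i)) +
        mulVec (C.sc a b (a + b)) (fun i => algebraMap K R (C.one a i)) w,
        fun L _ _ _ φ Q hQ => ?_⟩
      have h1 := hv L φ Q hQ
      have h2 := hw L φ Q hQ
      simp only [Pi.add_apply, map_add, map_mulVec, AlgHom.commutes]
      rw [show (fun i => mulVec (C.sc a b (a + b)) (fun i => φ (v i))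
          (fun j => algebraMap K L (C.one b j)) i +
            mulVec (C.sc a b (a + b)) (fun i => algebraMap K L (C.one a i)) (fun j => φ (w j)) i) =
          mulVec (C.sc a b (a + b)) (fun i => φ (v i)) (C.oneV L b) +
            mulVec (C.sc a b (a + b)) (C.oneV L a) (fun j => φ (w j)) from rfl,
        map_add, C.realF_mul L a b _ le_rfl, C.realF_mul L a b _ le_rfl, C.realF_oneV, C.realF_oneV,
        mul_one, one_mul, MvPolynomial.eval₂_add, map_add, add_sub_add_comm]
      have hle : ∀ {c : ℕ}, c ≤ a + b → C.binf L (c : ℤ) - Finsupp.single Q 1 ≤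
          C.binf L ((a + b : ℕ) : ℤ) - Finsupp.single Q 1 := fun hc =>
        sub_le_sub_right (Finsupp.single_le_single.mpr (by exact_mod_cast hc)) _
      exact add_mem (MWJ0.Lsp_mono (hle (Nat.le_add_right a b)) h1)
        (MWJ0.Lsp_mono (hle (Nat.le_add_left b a)) h2)
  | mul_X P l ih =>
      obtain ⟨a, v, hv⟩ := ih
      refine ⟨a + C.b0, mulVec (C.sc a C.b0 (a + C.b0)) v (Pi.single l 1),
        fun L _ _ _ φ Q hQ => ?_⟩
      have h1 := hv L φ Q hQ
      simp only [map_mulVec]
      rw [show (fun j => φ ((Pi.single l 1 : C.Idx C.b0 → R) j)) = Pi.single l 1 from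
        funext fun j => by simp [Pi.single_apply, apply_ite φ]]
      rw [show (fun i => mulVec (C.sc a C.b0 (a + C.b0)) (fun i => φ (v i)) (Pi.single l 1) i) =
        mulVec (C.sc a C.b0 (a + C.b0)) (fun i => φ (v i)) (Pi.single l 1) from rfl,
        C.realF_mul L a C.b0 _ le_rfl, MvPolynomial.eval₂_mul, MvPolynomial.eval₂_X, map_mul]
      have h2 : C.realF L C.b0 (Pi.single l 1) - algebraMap L (C.curve L) (C.coord Q l) ∈
          riemannRochSpace (C.binf L C.b0 - Finsupp.single Q 1) := by
        rw [← C.realF_smul_oneV C.b0, ← map_sub]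
        exact C.coord_spec hQ l
      have hl : C.realF L C.b0 (Pi.single l 1) ∈ riemannRochSpace (C.binf L C.b0) := by
        rw [CurveData.binf, ← C.range_realF L C.b0]; exact LinearMap.mem_range_self _ _
      have hA := MWJ0.mul_mem_Lsp h1 hl
      have hB := MWJ0.mul_mem_Lsp
        (C.const_mem_Lsp (D := C.binf L (a : ℤ)) (by simp [CurveData.binf])
          (MvPolynomial.eval₂ φ.toRingHom (C.coord Q) P)) h2
      have hadd : C.binf L ((a + C.b0 : ℕ) : ℤ) = C.binf L (a : ℤ) + C.binf L (C.b0 : ℤ) := by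
        rw [Nat.cast_add, CurveData.binf, Finsupp.single_add]; rfl
      rw [hadd]
      rw [sub_add_eq_add_sub] at hA
      rw [← add_sub_assoc] at hB
      convert add_mem hA hB using 1
      ring

variable {C}

include T in
/-- The relations between the coordinates of independent places. -/
lemma SpecTheory.aeval_coord_eq_zero_imp (hj : ∃ i, i ≠ j ∧ C.one C.b0 i ≠ 0) :
    ∀ {n : ℕ} {Q Q' : Fin n → Place L (C.curve L)},
      AlgebraicIndependent K (fun i => C.coord (Q i) j) →
      AlgebraicIndependent K (fun i => C.coord (Q' i) j) →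
      ∀ p : MvPolynomial (Fin n × C.Idx C.b0) K,
        MvPolynomial.aeval (fun il => C.coord (Q il.1) il.2) p = 0 →
        MvPolynomial.aeval (fun il => C.coord (Q' il.1) il.2) p = 0 := by
  intro n
  induction n with
  | zero =>
      intro Q Q' _ _ p hp
      obtain ⟨c, rfl⟩ := MvPolynomial.C_surjective (Fin 0 × C.Idx C.b0) p
      simpa using hp
  | succ n ih =>
      intro Q Q' hQ hQ' p hp
      let e : Fin (n + 1) × C.Idx C.b0 → C.Idx C.b0 ⊕ (Fin n × C.Idx C.b0) := fun il =>
        Fin.lastCases (Sum.inl il.2) (fun i => Sum.inr (i, il.2)) il.1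
      let P : MvPolynomial (C.Idx C.b0) (MvPolynomial (Fin n × C.Idx C.b0) K) :=
        MvPolynomial.sumAlgEquiv K _ _ (MvPolynomial.rename e p)
      have key : ∀ R : Fin (n + 1) → Place L (C.curve L),
          MvPolynomial.eval₂ (MvPolynomial.aeval fun il : Fin n × C.Idx C.b0 =>
              C.coord (R il.1.castSucc) il.2).toRingHom (C.coord (R (Fin.last n))) P =
            MvPolynomial.aeval (fun il => C.coord (R il.1) il.2) p := by
        intro R
        suffices (MvPolynomial.eval₂Hom (MvPolynomial.aeval fun il : Fin n × C.Idx C.b0 =>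
            C.coord (R il.1.castSucc) il.2).toRingHom (C.coord (R (Fin.last n)))).comp
            ((MvPolynomial.sumAlgEquiv K _ _).toRingHom.comp (MvPolynomial.rename e).toRingHom) =
            (MvPolynomial.aeval (fun il => C.coord (R il.1) il.2)).toRingHom from
          RingHom.congr_fun this p
        refine MvPolynomial.ringHom_ext (fun c => by simp [MvPolynomial.sumAlgEquiv_C_inl]) fun il => ?_
        obtain ⟨i, l⟩ := il
        cases i using Fin.lastCases with
        | last => simp [e, MvPolynomial.sumAlgEquiv_X_inl]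
        | cast i => simp [e, MvPolynomial.sumAlgEquiv_X_inr]
      obtain ⟨N, v, hv⟩ := C.exists_level P
      have hne : ∀ R : Fin (n + 1) → Place L (C.curve L),
          AlgebraicIndependent K (fun i => C.coord (R i) j) → ∀ i, R i ≠ C.inf L := by
        intro R hR i h
        exact hR.transcendental i (by rw [h, C.coord_inf]; exact isAlgebraic_zero)
      have hsucc : ∀ R : Fin (n + 1) → Place L (C.curve L),
          AlgebraicIndependent K (fun i => C.coord (R i) j) →
          AlgebraicIndependent K (fun i : Fin n => C.coord (R i.castSucc) j) :=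
        fun R hR => hR.comp _ (Fin.castSucc_injective n)
      have h1 := hv L (MvPolynomial.aeval fun il : Fin n × C.Idx C.b0 =>
        C.coord (Q il.1.castSucc) il.2) (Q (Fin.last n)) (hne Q hQ _)
      rw [key, hp, map_zero, sub_zero] at h1
      let k := acl K ((fun i => C.coord (Q i) j) '' {Fin.last n}ᶜ)
      have hk : ∀ i : Fin n, ∀ l, C.coord (Q i.castSucc) l ∈ k := by
        intro i l
        obtain ⟨P', hP'⟩ := (T.mem_range_place_iff hj k.val (Q i.castSucc)).mpr
          ⟨⟨_, subset_acl _ ⟨i.castSucc, (Fin.castSucc_lt_last i).ne, rfl⟩⟩, rfl⟩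
        rw [← hP', T.coord_place]
        exact (C.coord P' l).2
      let φk : MvPolynomial (Fin n × C.Idx C.b0) K →ₐ[K] k :=
        MvPolynomial.aeval fun il => ⟨_, hk il.1 il.2⟩
      have hφ : k.val.comp φk =
          MvPolynomial.aeval fun il : Fin n × C.Idx C.b0 => C.coord (Q il.1.castSucc) il.2 := by
        ext il; simp [φk]
      have hvk : (fun i => φk (v i)) = 0 := by
        by_contra hne0
        have := T.mem_range_place_of_mem_W k.val hne0 (hne Q hQ (Fin.last n)) (by
          rw [CurveData.mem_W_single_iff]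
          convert h1 using 3
          rw [← hφ]; rfl)
        obtain ⟨c, hc⟩ := (T.mem_range_place_iff hj k.val _).mp this
        refine hQ.transcendental_adjoin (s := {Fin.last n}ᶜ) (i := Fin.last n) (by simp) ?_
        rw [← IntermediateField.isAlgebraic_adjoin_iff]
        exact mem_acl.mp (hc ▸ c.2)
      have hv' : ∀ i, MvPolynomial.aeval (fun il : Fin n × C.Idx C.b0 =>
          C.coord (Q' il.1.castSucc) il.2) (v i) = 0 := by
        intro i
        refine ih (hsucc Q hQ) (hsucc Q' hQ') (v i) ?_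
        have := congrArg k.val (congrFun hvk i)
        rw [Pi.zero_apply, map_zero, ← AlgHom.comp_apply, hφ] at this
        exact this
      have h2 := hv L (MvPolynomial.aeval fun il : Fin n × C.Idx C.b0 =>
        C.coord (Q' il.1.castSucc) il.2) (Q' (Fin.last n)) (hne Q' hQ' _)
      rw [key, funext hv', show (fun _ : C.Idx N => (0 : L)) = 0 from rfl, map_zero, zero_sub,
        ← map_neg] at h2
      exact neg_eq_zero.mp (C.eq_zero_of_const_mem_single (hne Q' hQ' _) h2)

include T in
/-- An automorphism moving one family of independent places to another. -/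
lemma SpecTheory.exists_algEquiv_coord (hj : ∃ i, i ≠ j ∧ C.one C.b0 i ≠ 0) {n : ℕ}
    {Q Q' : Fin n → Place L (C.curve L)}
    (hQ : AlgebraicIndependent K (fun i => C.coord (Q i) j))
    (hQ' : AlgebraicIndependent K (fun i => C.coord (Q' i) j))
    (halg : ∀ z : L, IsAlgebraic (IntermediateField.adjoin K (Set.range fun i => C.coord (Q i) j)) z)
    (halg' : ∀ z : L,
      IsAlgebraic (IntermediateField.adjoin K (Set.range fun i => C.coord (Q' i) j)) z) :
    ∃ σ : L ≃ₐ[K] L, ∀ i l, σ (C.coord (Q i) l) = C.coord (Q' i) l := by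
  let a := MvPolynomial.aeval (R := K) fun il : Fin n × C.Idx C.b0 => C.coord (Q il.1) il.2
  let a' := MvPolynomial.aeval (R := K) fun il : Fin n × C.Idx C.b0 => C.coord (Q' il.1) il.2
  have hker : ∀ p, a p = 0 → a' p = 0 := T.aeval_coord_eq_zero_imp hj hQ hQ'
  let π : a.range →ₐ[K] L := AlgHom.liftOfSurjective a.rangeRestrict
    a.rangeRestrict_surjective a' (fun p hp => hker p (congrArg Subtype.val hp))
  have hπ : ∀ p, π (a.rangeRestrict p) = a' p :=
    AlgHom.liftOfSurjective_apply a.rangeRestrict _ a' _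
  have hπinj : Function.Injective π := by
    rw [injective_iff_map_eq_zero]
    intro x hx
    obtain ⟨p, rfl⟩ := a.rangeRestrict_surjective x
    rw [hπ] at hx
    exact Subtype.ext (T.aeval_coord_eq_zero_imp hj hQ' hQ p hx)
  have hA : Algebra.IsAlgebraic a.range L := ⟨fun z => by
    have h1 := (IntermediateField.isAlgebraic_adjoin_iff (F := K)).mp (halg z)
    have hle : Algebra.adjoin K (Set.range fun i => C.coord (Q i) j) ≤ a.range :=
      Algebra.adjoin_le (by rintro _ ⟨i, rfl⟩; exact ⟨MvPolynomial.X (i, j), by simp [a]⟩)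
    let := (Subalgebra.inclusion hle).toRingHom.toAlgebra
    have : IsScalarTower (Algebra.adjoin K (Set.range fun i => C.coord (Q i) j)) a.range L :=
      IsScalarTower.of_algebraMap_eq fun _ => rfl
    exact IsAlgebraic.extendScalars (R := Algebra.adjoin K (Set.range fun i => C.coord (Q i) j))
      (S := a.range) (Subalgebra.inclusion_injective hle) h1⟩
  have : FaithfulSMul a.range L :=
    (faithfulSMul_iff_algebraMap_injective a.range L).mpr Subtype.val_injective
  obtain ⟨τ, hτ⟩ : ∃ τ : L →ₐ[K] L, ∀ x : a.range, τ x = π x := by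
    obtain ⟨τ, hτ⟩ := exists_extend (S := L) π.toRingHom hπinj
    exact ⟨{ τ with commutes' := fun c => (hτ (algebraMap K a.range c)).trans (π.commutes c) },
      fun x => hτ x⟩
  have hsurj : Function.Surjective τ := fun z =>
    mem_range_of_isAlgebraic τ (S := Set.range fun i => C.coord (Q' i) j) (by
      rintro _ ⟨i, rfl⟩
      refine ⟨C.coord (Q i) j, ?_⟩
      have := (hτ (a.rangeRestrict (MvPolynomial.X (i, j)))).trans (hπ _)
      simpa [a, a'] using this) (halg' z)
  refine ⟨AlgEquiv.ofBijective τ ⟨τ.toRingHom.injective, hsurj⟩, fun i l => ?_⟩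
  have := (hτ (a.rangeRestrict (MvPolynomial.X (i, l)))).trans (hπ _)
  show τ _ = _
  simpa [a, a'] using this

end Relations

end Fermat.Agent.Row27

end
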