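import Fermat.Agent.Row27.Growth
import Mathlib.RingTheory.Norm.Transitivity

/-!
# Degree of an extension from the growth of the bounded spaces

If an automorphism carries `(M, s)` to `(M', s')` with `M' ≤ M` separable and `s'` has the values
of `λ · s ^ q`, then `[M : M']` lies between constant multiples of `q ^ g`.
-/

set_option autoImplicit false

noncomputable section

open Module

namespace Fermat.Agent.Row27

variable {K Ω : Type*} [Field K] [Field Ω] [Algebra K Ω]
variable {ι : Type*} [Fintype ι] [Nonempty ι] {M M' : IntermediateField K Ω} {s s' : ι → Ω}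
  {g : ℕ}

/-- An isomorphism carries bounded elements to bounded elements. -/
lemma map_mem_bdd (σ : Ω →ₐ[K] Ω) (hM : ∀ x ∈ M, σ x ∈ M') (hs : ∀ i, σ (s i) = s' i) {m : ℕ}
    {f : Ω} (hf : f ∈ bdd K M s m) : σ f ∈ bdd K M' s' m := by
  refine ⟨hM f hf.1, fun A hA => ?_⟩
  obtain ⟨i, hi⟩ := exists_vmax_eq (A.comap (σ : Ω →+* Ω)) s
  have h := hf.2 _ (hA.comap σ)
  rw [hi, ← map_pow, valuation_comap_le_iff, map_pow σ, hs, map_pow] at h
  exact h.trans (pow_le_pow_left' (le_vmax A s' i) m)

lemma finrank_bdd_le_of_map (σ : Ω →ₐ[K] Ω) (hM : ∀ x ∈ M, σ x ∈ M') (hs : ∀ i, σ (s i) = s' i)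
    (m : ℕ) [Module.Finite K (bdd K M' s' m)] :
    finrank K (bdd K M s m) ≤ finrank K (bdd K M' s' m) :=
  LinearMap.finrank_le_finrank_of_injective
    (f := (σ.toLinearMap.comp (bdd K M s m).subtype).codRestrict _
      fun f => map_mem_bdd σ hM hs f.2)
    fun _ _ h => Subtype.ext (σ.toRingHom.injective (congrArg Subtype.val h))

variable [IsAlgClosed Ω]

omit [IsAlgClosed Ω] in
/-- A basis of `M` over `M'` consisting of bounded elements. -/
lemma exists_bdd_basis (hle : M' ≤ M) [FiniteDimensional M' (IntermediateField.extendScalars hle)]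
    (hs' : ∀ i, s' i ∈ M') {i₀ : ι} (h0 : s' i₀ = 1)
    (halg : ∀ x : Ω, IsAlgebraic (IntermediateField.adjoin K (Set.range s')) x) :
    ∃ (c : ℕ) (b : Basis (Fin (finrank M' (IntermediateField.extendScalars hle))) M'
      (IntermediateField.extendScalars hle)), ∀ i, (b i : Ω) ∈ bdd K M s' c := by
  classical
  let b := Module.finBasis M' (IntermediateField.extendScalars hle)
  have h : ∀ i, ∃ a : M'ˣ, ∃ c, ((a • b i : IntermediateField.extendScalars hle) : Ω) ∈
      bdd K M s' c := by
    intro i
    have h1 : IsAlgebraic (Algebra.adjoin K (Set.range s')) (b i : Ω) :=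
      (IntermediateField.isAlgebraic_adjoin_iff (F := K)).mp (halg _)
    obtain ⟨a, ha, hai⟩ := h1.exists_integral_multiple
    have haM : (a : Ω) ∈ M' :=
      (Algebra.adjoin_le (S := M'.toSubalgebra) (by rintro _ ⟨k, rfl⟩; exact hs' k)) a.2
    have ha0 : (⟨(a : Ω), haM⟩ : M') ≠ 0 :=
      fun e => ha (Subtype.ext (congrArg Subtype.val e :))
    refine ⟨Units.mk0 _ ha0, ?_⟩
    exact exists_mem_bdd_of_isIntegral h0 (fun k => hle (hs' k))
      (mul_mem (hle haM) (b i).2) hai
  choose a c hc using h
  refine ⟨Finset.univ.sup c, b.unitsSMul a, fun i => ?_⟩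
  rw [Basis.unitsSMul_apply]
  exact bdd_mono h0 (Finset.le_sup (Finset.mem_univ i)) (hc i)

omit [IsAlgClosed Ω] in
/-- `d` copies of the smaller spaces fit into the larger one. -/
lemma mul_finrank_le (hle : M' ≤ M) {c : ℕ}
    (b : Basis (Fin (finrank M' (IntermediateField.extendScalars hle))) M'
      (IntermediateField.extendScalars hle))
    (hb : ∀ i, (b i : Ω) ∈ bdd K M s' c) (m : ℕ) [Module.Finite K (bdd K M' s' m)]
    [Module.Finite K (bdd K M s' (m + c))] :
    finrank M' (IntermediateField.extendScalars hle) * finrank K (bdd K M' s' m) ≤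
      finrank K (bdd K M s' (m + c)) := by
  classical
  let Φ : (Fin (finrank M' (IntermediateField.extendScalars hle)) → bdd K M' s' m) →ₗ[K]
      bdd K M s' (m + c) :=
    (∑ i, (LinearMap.mulRight K (b i : Ω)).comp
      ((bdd K M' s' m).subtype.comp (LinearMap.proj i))).codRestrict _ fun f => by
        simp only [LinearMap.sum_apply, LinearMap.comp_apply, LinearMap.mulRight_apply,
          LinearMap.proj_apply, Submodule.subtype_apply]
        exact sum_mem fun i _ => mul_mem_bdd ⟨hle (f i).2.1, (f i).2.2⟩ (hb i)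
  have hΦ : Function.Injective Φ := by
    rw [injective_iff_map_eq_zero]
    intro f hf
    have h1 : ∑ i, (f i : Ω) * (b i : Ω) = 0 := by
      simpa [Φ, LinearMap.sum_apply] using congrArg Subtype.val hf
    have h2 : ∑ i, (⟨(f i : Ω), (f i).2.1⟩ : M') • b i = 0 := Subtype.ext (by
      rw [AddSubmonoidClass.coe_finsetSum]
      exact h1)
    funext i
    exact Subtype.ext (congrArg Subtype.val (Fintype.linearIndependent_iff.mp b.linearIndependent _ h2 i) :)
  have := LinearMap.finrank_le_finrank_of_injective hΦ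
  rwa [finrank_pi_fintype, Finset.sum_const, Finset.card_univ, Fintype.card_fin, smul_eq_mul] at this

/-- The trace bounds the larger space by `d` copies of the smaller one. -/
lemma finrank_le_mul (hle : M' ≤ M) [FiniteDimensional M' (IntermediateField.extendScalars hle)]
    [Algebra.IsSeparable M' (IntermediateField.extendScalars hle)]
    (hs' : ∀ i, s' i ∈ M') (halg : ∀ x : Ω, IsIntegral M' x) {c : ℕ}
    (b : Basis (Fin (finrank M' (IntermediateField.extendScalars hle))) M'
      (IntermediateField.extendScalars hle))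
    (hb : ∀ i, (b i : Ω) ∈ bdd K M s' c) (m : ℕ) [Module.Finite K (bdd K M' s' (m + c))] :
    finrank K (bdd K M s' m) ≤
      finrank M' (IntermediateField.extendScalars hle) * finrank K (bdd K M' s' (m + c)) := by
  classical
  let M₁ := IntermediateField.extendScalars hle
  let incl : bdd K M s' m → M₁ := fun f => ⟨(f : Ω), f.2.1⟩
  have hkey : ∀ (f : bdd K M s' m) i,
      ((Algebra.trace M' M₁ (incl f * b i) : M') : Ω) ∈ bdd K M' s' (m + c) := by
    intro f i
    refine ⟨Subtype.prop _, fun A hA => ?_⟩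
    rw [show ((Algebra.trace M' M₁ (incl f * b i) : M') : Ω) = algebraMap M' Ω _ from rfl,
      trace_eq_sum_embeddings Ω]
    refine A.valuation.map_sum_le fun σ _ => ?_
    obtain ⟨τ, hτ⟩ := exists_extension halg σ
    rw [← hτ (incl f * b i)]
    have h := valuation_map_le (mul_mem_bdd f.2 (hb i)) (τ.restrictScalars K)
      (fun k => τ.commutes ⟨s' k, hs' k⟩) hA
    exact h
  let Φ : bdd K M s' m →ₗ[K] (Fin (finrank M' M₁) → bdd K M' s' (m + c)) :=
    { toFun := fun f i => ⟨_, hkey f i⟩
      map_add' := fun f f' => funext fun i => Subtype.ext (by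
        simp only [Pi.add_apply, Submodule.coe_add]
        rw [show incl (f + f') = incl f + incl f' from rfl, add_mul, map_add, AddMemClass.coe_add])
      map_smul' := fun a f => funext fun i => Subtype.ext (by
        simp only [Pi.smul_apply, RingHom.id_apply, Submodule.coe_smul]
        rw [show incl (a • f) = algebraMap K M' a • incl f from Subtype.ext (by
            simp [incl, Algebra.smul_def]), smul_mul_assoc, map_smul]
        simp [Algebra.smul_def]) }
  have hΦ : Function.Injective Φ := by
    rw [injective_iff_map_eq_zero]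
    intro f hf
    have h1 : ∀ i, Algebra.trace M' M₁ (incl f * b i) = 0 := fun i =>
      Subtype.ext (congrArg Subtype.val (congrFun hf i) :)
    have h3 : Algebra.traceForm M' M₁ (incl f) = 0 :=
      b.ext fun i => (Algebra.traceForm_apply (R := M') (S := M₁) (incl f) (b i)).trans (h1 i)
    exact Subtype.ext (congrArg Subtype.val
      ((traceForm_nondegenerate M' M₁).1 (incl f) fun y => by rw [h3]; rfl) :)
  have := LinearMap.finrank_le_finrank_of_injective hΦ
  rwa [finrank_pi_fintype, Finset.sum_const, Finset.card_univ, Fintype.card_fin, smul_eq_mul] at this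

/-- The factor between the two families may be taken in `M` after a power. -/
lemma exists_norm (hs : ∀ i, s i ∈ M) (hs' : ∀ i, s' i ∈ M) (halg : ∀ x : Ω, IsIntegral M x)
    {q : ℕ} {lam : Ω} (hlam : lam ≠ 0)
    (hrel : ∀ A : ValuationSubring Ω, TrivOn K A →
      vmax A s' = A.valuation lam * vmax A s ^ q) :
    ∃ D : ℕ, 0 < D ∧ ∃ N ∈ M, N ≠ 0 ∧ ∀ A : ValuationSubring Ω, TrivOn K A →
      vmax A s' ^ D = A.valuation N * vmax A s ^ (q * D) := by
  classical
  set P := (minpoly M lam).map (algebraMap M Ω) with hP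
  have hPm : P.Monic := (minpoly.monic (halg lam)).map _
  have hsplit : P.Splits := IsAlgClosed.splits P
  have hcoeff : algebraMap M Ω ((minpoly M lam).coeff 0) = (-1) ^ P.natDegree * P.roots.prod := by
    rw [← Polynomial.coeff_map, ← hP, hsplit.coeff_zero_eq_prod_roots_of_monic hPm]
  refine ⟨(minpoly M lam).natDegree, minpoly.natDegree_pos (halg lam),
    (((minpoly M lam).coeff 0 : M) : Ω), Subtype.prop _, ?_, fun A hA => ?_⟩
  · exact fun h => minpoly.coeff_zero_ne_zero (halg lam) hlam (Subtype.ext h)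
  have hroot : ∀ r ∈ P.roots, vmax A s' = A.valuation r * vmax A s ^ q := by
    intro r hr
    have hr' : Polynomial.aeval r (minpoly M lam) = 0 :=
      (Polynomial.mem_aroots.mp (show r ∈ (minpoly M lam).aroots Ω from hr)).2
    let σ : IntermediateField.adjoin M ({lam} : Set Ω) →ₐ[M] Ω :=
      (IntermediateField.algHomAdjoinIntegralEquiv M (halg lam)).symm
        ⟨r, Polynomial.mem_aroots.mpr ⟨minpoly.ne_zero (halg lam), hr'⟩⟩
    obtain ⟨τ, hτ⟩ := exists_extension halg σ
    have hτr : τ lam = r := by
      have := hτ ⟨lam, IntermediateField.mem_adjoin_simple_self M lam⟩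
      rw [this]
      exact IntermediateField.algHomAdjoinIntegralEquiv_symm_apply_gen M (halg lam) _
    let τK : Ω →ₐ[K] Ω := τ.restrictScalars K
    have hfix : ∀ x ∈ M, τK x = x := fun x hx => τ.commutes ⟨x, hx⟩
    set B := A.comap (τK : Ω →+* Ω)
    have hmax : ∀ (t : ι → Ω), (∀ i, t i ∈ M) → ∀ j, vmax B t = B.valuation (t j) →
        vmax A t = A.valuation (t j) := by
      intro t ht j hj
      refine le_antisymm (vmax_le_iff.mpr fun i => ?_) (le_vmax A t j)
      have h1 := (le_vmax B t i).trans hj.le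
      rwa [valuation_comap_le_iff, hfix _ (ht i), hfix _ (ht j)] at h1
    obtain ⟨i, hi⟩ := exists_vmax_eq B s'
    obtain ⟨j, hj⟩ := exists_vmax_eq B s
    have h := hrel B (hA.comap τK)
    rw [hi, hj, ← map_pow, ← map_mul] at h
    have h2 : A.valuation (τK (s' i)) = A.valuation (τK (lam * s j ^ q)) :=
      le_antisymm ((valuation_comap_le_iff A τK).mp h.le) ((valuation_comap_le_iff A τK).mp h.ge)
    rw [map_mul τK, map_pow τK, hfix _ (hs' i), hfix _ (hs j), map_mul, map_pow] at h2
    rw [hmax s' hs' i hi, hmax s hs j hj, ← hτr]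
    exact h2
  have h1 : A.valuation ((-1) ^ P.natDegree * P.roots.prod) =
      (P.roots.map fun r => A.valuation r).prod := by
    rw [map_mul, map_pow, Valuation.map_neg, map_one, one_pow, one_mul, map_multiset_prod]
  have hcard : P.roots.card = (minpoly M lam).natDegree := by
    rw [← hsplit.natDegree_eq_card_roots, hP, Polynomial.natDegree_map]
  rw [show (((minpoly M lam).coeff 0 : M) : Ω) = algebraMap M Ω _ from rfl, hcoeff, h1, pow_mul,
    ← hcard, ← Multiset.prod_replicate, ← Multiset.map_const', ← Multiset.prod_replicate, ← Multiset.map_const', ← Multiset.prod_map_mul]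
  exact congrArg Multiset.prod (Multiset.map_congr rfl hroot)

/-- **The degree lies between constant multiples of `q ^ g`.** -/
theorem exists_degree_bounds' [PerfectField K] {T : Fin g → Ω} (hT : IsTranscendenceBasis K T)
    (hM : M.FG)
    (hs : ∀ i, s i ∈ M) {i₀ : ι} (h0 : s i₀ = 1) {u : Fin g → ι}
    (hu : AlgebraicIndependent K fun j => s (u j)) :
    ∃ C : ℕ, 0 < C ∧ ∀ (M' : IntermediateField K Ω) (s' : ι → Ω) (σ : Ω ≃ₐ[K] Ω) (hle : M' ≤ M)
      (q : ℕ) (lam : Ω), Algebra.IsSeparable M' (IntermediateField.extendScalars hle) →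
      0 < q → lam ≠ 0 →
      (∀ x, x ∈ M' ↔ σ.symm x ∈ M) → (∀ i, σ (s i) = s' i) →
      (∀ A : ValuationSubring Ω, TrivOn K A → vmax A s' = A.valuation lam * vmax A s ^ q) →
        finrank M' (IntermediateField.extendScalars hle) ≤ C * q ^ g ∧
          q ^ g ≤ C * finrank M' (IntermediateField.extendScalars hle) := by
  classical
  obtain ⟨B, hB⟩ := exists_finrank_bdd_le hT hM hs hu
  refine ⟨(B + 1) * (g + 2) ^ g, Nat.mul_pos B.succ_pos (pow_pos (by omega) g), ?_⟩
  intro M' s' σ hle q lam hsep hq hlam hM' hs'σ hrel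
  have h0' : s' i₀ = 1 := by rw [← hs'σ, h0, map_one]
  have hs' : ∀ i, s' i ∈ M' := fun i => by rw [← hs'σ, hM', AlgEquiv.symm_apply_apply]; exact hs i
  have hu' : AlgebraicIndependent K fun j => s' (u j) := by
    have := hu.map' (f := (σ : Ω →ₐ[K] Ω)) σ.injective
    simpa [Function.comp_def, hs'σ] using this
  have halg : ∀ x : Ω, IsIntegral (IntermediateField.adjoin K (Set.range s')) x :=
    isIntegral_of_independent hT hu' fun j =>
      isIntegral_algebraMap (x := (⟨_, IntermediateField.subset_adjoin K _ ⟨u j, rfl⟩⟩ :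
        IntermediateField.adjoin K (Set.range s')))
  have halg' : ∀ x : Ω, IsIntegral M' x := isIntegral_of_independent hT hu' fun j =>
    isIntegral_algebraMap (x := (⟨_, hs' (u j)⟩ : M'))
  have halgM : ∀ x : Ω, IsIntegral M x := isIntegral_of_independent hT hu fun j =>
    isIntegral_algebraMap (x := (⟨_, hs (u j)⟩ : M))
  have : FiniteDimensional M' (IntermediateField.extendScalars hle) := by
    obtain ⟨S, hS⟩ := hM
    have h2 := IntermediateField.finiteDimensional_adjoin (K := M') (S := (S : Set Ω))
      fun x _ => halg' x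
    have hle' : IntermediateField.extendScalars hle ≤ IntermediateField.adjoin M' (S : Set Ω) :=
      fun x hx => by
        have hxM : x ∈ M := hx
        rw [← hS] at hxM
        exact (IntermediateField.adjoin_le_iff
          (T := (IntermediateField.adjoin M' (S : Set Ω)).restrictScalars K)).mpr
          (IntermediateField.subset_adjoin M' (S : Set Ω)) hxM
    exact Module.Finite.of_injective (IntermediateField.inclusion hle').toLinearMap
      (IntermediateField.inclusion hle').injective
  set d := finrank M' (IntermediateField.extendScalars hle) with hd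
  obtain ⟨c, b, hb⟩ := exists_bdd_basis hle hs' h0' fun x => (halg x).isAlgebraic
  obtain ⟨D, hD, N, hN, hN0, hrelN⟩ := exists_norm hs (fun i => hle (hs' i)) halgM hlam hrel
  -- the spaces of `(M', s')` and `(M, s)` have the same dimensions
  have hfin' : ∀ m, Module.Finite K (bdd K M' s' m) := fun m => by
    have := (hB m).1
    exact Module.Finite.of_injective
      (((σ.symm : Ω →ₐ[K] Ω).toLinearMap.comp (bdd K M' s' m).subtype).codRestrict (bdd K M s m)
        fun f => map_mem_bdd (σ.symm : Ω →ₐ[K] Ω) (fun x hx => (hM' x).mp hx)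
          (fun i => by simp [← hs'σ]) f.2)
      fun _ _ h => Subtype.ext (σ.symm.injective (congrArg Subtype.val h))
  have heq : ∀ m, finrank K (bdd K M' s' m) = finrank K (bdd K M s m) := fun m => by
    have := (hB m).1
    have := hfin' m
    exact le_antisymm
      (finrank_bdd_le_of_map (σ.symm : Ω →ₐ[K] Ω) (fun x hx => (hM' x).mp hx)
        (fun i => by simp [← hs'σ]) m)
      (finrank_bdd_le_of_map (σ : Ω →ₐ[K] Ω) (fun x hx => by simpa [hM'] using hx) hs'σ m)
  -- scaling
  have hscale : ∀ j f, f ∈ bdd K M s' (D * j) ↔ f * (N ^ j)⁻¹ ∈ bdd K M s (q * (D * j)) := by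
    intro j f
    have hv : ∀ A : ValuationSubring Ω, TrivOn K A →
        (A.valuation f ≤ vmax A s' ^ (D * j) ↔
          A.valuation (f * (N ^ j)⁻¹) ≤ vmax A s ^ (q * (D * j))) := by
      intro A hA
      rw [pow_mul, hrelN A hA, mul_pow, map_mul, map_inv₀, map_pow, ← pow_mul, Nat.mul_assoc,
        ← div_eq_mul_inv, div_le_iff₀ (pow_pos (zero_lt_iff.mpr ((Valuation.ne_zero_iff _).mpr hN0)) _),
        mul_comm (A.valuation N ^ j)]
    constructor
    · exact fun hf => ⟨mul_mem hf.1 (inv_mem (pow_mem hN _)), fun A hA => (hv A hA).mp (hf.2 A hA)⟩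
    · intro hf
      refine ⟨?_, fun A hA => (hv A hA).mpr (hf.2 A hA)⟩
      have := mul_mem hf.1 (pow_mem hN j)
      rwa [inv_mul_cancel_right₀ (pow_ne_zero _ hN0)] at this
  have hfinM : ∀ m, Module.Finite K (bdd K M s' m) := fun m => by
    have := (hB (q * (D * m))).1
    have hle2 : bdd K M s' m ≤ bdd K M s' (D * m) := bdd_mono h0' (Nat.le_mul_of_pos_left m hD)
    exact Module.Finite.of_injective
      (((LinearMap.mulRight K (N ^ m)⁻¹).comp (bdd K M s' m).subtype).codRestrict
        (bdd K M s (q * (D * m))) fun f => (hscale m _).mp (hle2 f.2))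
      fun _ _ h => Subtype.ext (mul_right_cancel₀ (inv_ne_zero (pow_ne_zero m hN0))
        (congrArg Subtype.val h :))
  have hscaled : ∀ j, finrank K (bdd K M s' (D * j)) = finrank K (bdd K M s (q * (D * j))) := by
    intro j
    have := hfinM (D * j)
    have := (hB (q * (D * j))).1
    refine le_antisymm
      (LinearMap.finrank_le_finrank_of_injective
        (f := ((LinearMap.mulRight K (N ^ j)⁻¹).comp (bdd K M s' (D * j)).subtype).codRestrict
          (bdd K M s (q * (D * j))) fun f => (hscale j _).mp f.2)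
        fun _ _ h => Subtype.ext (mul_right_cancel₀ (inv_ne_zero (pow_ne_zero j hN0))
          (congrArg Subtype.val h :)))
      (LinearMap.finrank_le_finrank_of_injective
        (f := ((LinearMap.mulRight K (N ^ j)).comp (bdd K M s (q * (D * j))).subtype).codRestrict
          (bdd K M s' (D * j)) fun f => (hscale j _).mpr (by
            simp only [LinearMap.comp_apply, LinearMap.mulRight_apply, Submodule.subtype_apply]
            rw [mul_inv_cancel_right₀ (pow_ne_zero j hN0)]
            exact f.2))
        fun _ _ h => Subtype.ext (mul_right_cancel₀ (pow_ne_zero j hN0)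
          (congrArg Subtype.val h :)))
  have hlow : ∀ k, (k + 1) ^ g ≤ finrank K (bdd K M s (g * k)) := fun k => by
    have := (hB (g * k)).1
    exact pow_le_finrank_bdd hu hs h0 k
  have hmono : ∀ {a a' : ℕ}, a ≤ a' →
      finrank K (bdd K M s a) ≤ finrank K (bdd K M s a') := fun {a a'} h => by
    have := (hB a').1
    exact Submodule.finrank_mono (bdd_mono h0 h)
  obtain ⟨k, hk⟩ : ∃ k, k = c + D + 1 := ⟨_, rfl⟩
  constructor
  · -- `d ≤ C q ^ g`
    have := hfin' (g * k)
    have := hfinM (g * k + c)
    obtain ⟨j, hj1, hj2⟩ : ∃ j, g * k + c ≤ D * j ∧ D * j < g * k + c + D + 1 :=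
      ⟨(g * k + c) / D + 1, by
        have h1 := Nat.div_add_mod (g * k + c) D
        have h2 := Nat.mod_lt (g * k + c) hD
        constructor <;> rw [Nat.mul_add, Nat.mul_one] <;> omega⟩
    have := hfinM (D * j)
    have h1 := mul_finrank_le hle b hb (g * k)
    rw [heq, ← hd] at h1
    have h2 := Submodule.finrank_mono (bdd_mono (K := K) (M := M) h0' hj1)
    rw [hscaled] at h2
    have h3 := ((h1.trans h2).trans (hB _).2)
    have h4 : q * (D * j) + 1 ≤ q * ((g + 2) * k) := by
      have : D * j + 1 ≤ (g + 2) * k := by rw [Nat.add_mul]; omega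
      calc q * (D * j) + 1 ≤ q * (D * j) + q := by omega
        _ = q * (D * j + 1) := by ring
        _ ≤ _ := Nat.mul_le_mul_left q this
    refine Nat.le_of_mul_le_mul_right ?_ (pow_pos (show 0 < k by omega) g)
    calc d * k ^ g ≤ d * finrank K (bdd K M s (g * k)) :=
          Nat.mul_le_mul_left d ((Nat.pow_le_pow_left (Nat.le_succ k) g).trans (hlow k))
      _ ≤ B * (q * ((g + 2) * k)) ^ g :=
          h3.trans (Nat.mul_le_mul_left B (Nat.pow_le_pow_left h4 g))
      _ ≤ (B + 1) * (q * ((g + 2) * k)) ^ g := Nat.mul_le_mul_right _ (Nat.le_succ B)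
      _ = (B + 1) * (g + 2) ^ g * q ^ g * k ^ g := by rw [mul_pow, mul_pow]; ring
  · -- `q ^ g ≤ C d`
    have := hfin' (D * (g * k) + c)
    have h1 := finrank_le_mul hle hs' halg' b hb (D * (g * k))
    rw [heq, hscaled, ← hd] at h1
    have h2 := (hlow (q * D * k)).trans ((hmono (le_of_eq (by ring))).trans h1)
    have h3 : D * (g * k) + c + 1 ≤ (g + 2) * (D * k) := by
      have h4 : k ≤ D * k := Nat.le_mul_of_pos_left k hD
      have h5 : (g + 2) * (D * k) = D * (g * k) + 2 * (D * k) := by ring
      omega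
    refine Nat.le_of_mul_le_mul_right ?_ (pow_pos (show 0 < D * k from Nat.mul_pos hD (by omega)) g)
    calc q ^ g * (D * k) ^ g = (q * D * k) ^ g := by rw [← mul_pow]; ring_nf
      _ ≤ (q * D * k + 1) ^ g := Nat.pow_le_pow_left (Nat.le_succ _) g
      _ ≤ d * (B * ((g + 2) * (D * k)) ^ g) :=
          h2.trans (Nat.mul_le_mul_left d ((hB _).2.trans
            (Nat.mul_le_mul_left B (Nat.pow_le_pow_left h3 g))))
      _ ≤ d * ((B + 1) * ((g + 2) * (D * k)) ^ g) :=
          Nat.mul_le_mul_left d (Nat.mul_le_mul_right _ (Nat.le_succ B))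
      _ = (B + 1) * (g + 2) ^ g * d * (D * k) ^ g := by rw [mul_pow]; ring

/-- **The degree lies between constant multiples of `q ^ g`**, in characteristic zero. -/
theorem exists_degree_bounds [CharZero K] {T : Fin g → Ω} (hT : IsTranscendenceBasis K T)
    (hM : M.FG) (hs : ∀ i, s i ∈ M) {i₀ : ι} (h0 : s i₀ = 1) {u : Fin g → ι}
    (hu : AlgebraicIndependent K fun j => s (u j)) :
    ∃ C : ℕ, 0 < C ∧ ∀ (M' : IntermediateField K Ω) (s' : ι → Ω) (σ : Ω ≃ₐ[K] Ω) (hle : M' ≤ M)
      (q : ℕ) (lam : Ω), 0 < q → lam ≠ 0 →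
      (∀ x, x ∈ M' ↔ σ.symm x ∈ M) → (∀ i, σ (s i) = s' i) →
      (∀ A : ValuationSubring Ω, TrivOn K A → vmax A s' = A.valuation lam * vmax A s ^ q) →
        finrank M' (IntermediateField.extendScalars hle) ≤ C * q ^ g ∧
          q ^ g ≤ C * finrank M' (IntermediateField.extendScalars hle) := by
  obtain ⟨C, hC, h⟩ := exists_degree_bounds' hT hM hs h0 hu
  refine ⟨C, hC, fun M' s' σ hle q lam hq hlam hM' hσ hrel => ?_⟩
  refine h M' s' σ hle q lam ?_ hq hlam hM' hσ hrel
  have hu' : AlgebraicIndependent K fun j => s' (u j) := by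
    have := hu.map' (f := (σ : Ω →ₐ[K] Ω)) σ.injective
    simpa [Function.comp_def, hσ] using this
  have halg : ∀ x : Ω, IsIntegral M' x := isIntegral_of_independent hT hu' fun j =>
    isIntegral_algebraMap (x := (⟨_, by rw [hM', ← hσ, AlgEquiv.symm_apply_apply]; exact hs (u j)⟩ : M'))
  have : CharZero M' := charZero_of_injective_algebraMap (algebraMap K M').injective
  have : Algebra.IsAlgebraic M' (IntermediateField.extendScalars hle) :=
    ⟨fun x => IntermediateField.isAlgebraic_iff.mpr (halg (x : Ω)).isAlgebraic⟩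
  infer_instance

end Fermat.Agent.Row27

end
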