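import Fermat.Agent.Row27.GenClass
import Fermat.Agent.Row27.Degree
import Mathlib.FieldTheory.Galois.Infinite
import Mathlib.FieldTheory.IsAlgClosed.AlgebraicClosure
import Mathlib.GroupTheory.Coset.Card
import Mathlib.RingTheory.Localization.Integral

/-!
# The number of torsion classes

The torsion classes of order dividing `n` translate a generic class `x` to the conjugates of `x`
over the field of `n • x`. The degree of that field extension lies between constant multiples of
`n ^ (2 g)`, and multiplicativity makes the count exact.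
-/

set_option autoImplicit false

noncomputable section

open AlgebraicCurve Module

namespace Fermat.Agent.Row27

universe u

variable {K : Type u} [Field K] {C : CurveData K} {T : SpecTheory C}
variable {Ω : Type u} [Field Ω] [Algebra K Ω]

section Galois

variable [IsAlgClosed Ω] [CharZero K]

/-- An element fixed by all automorphisms fixing `M` is in `M`. -/
lemma mem_of_forall_fix (M : IntermediateField K Ω) (halg : ∀ z : Ω, IsAlgebraic M z) {z : Ω}
    (h : ∀ σ : Ω ≃ₐ[K] Ω, (∀ m ∈ M, σ m = m) → σ z = z) : z ∈ M := by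
  have : Algebra.IsAlgebraic M Ω := ⟨halg⟩
  have : IsAlgClosure M Ω := ⟨inferInstance, inferInstance⟩
  have : Normal M Ω := IsAlgClosure.normal M Ω
  have : CharZero M := charZero_of_injective_algebraMap (algebraMap K M).injective
  have : IsGalois M Ω := ⟨⟩
  obtain ⟨m, hm⟩ := IntermediateField.mem_bot.mp ((InfiniteGalois.mem_bot_iff_fixed (k := M) z).mpr fun f =>
    h (f.restrictScalars K) fun m hm => f.commutes ⟨m, hm⟩)
  exact hm ▸ m.2

omit [IsAlgClosed Ω] [CharZero K] in
lemma finiteDimensional_extendScalars {M' M : IntermediateField K Ω} (hle : M' ≤ M) (hM : M.FG)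
    (halg' : ∀ z : Ω, IsAlgebraic M' z) :
    FiniteDimensional M' (IntermediateField.extendScalars hle) := by
  obtain ⟨S, hS⟩ := hM
  have h2 := IntermediateField.finiteDimensional_adjoin (K := M') (S := (S : Set Ω))
    fun x _ => (halg' x).isIntegral
  have hle' : IntermediateField.extendScalars hle ≤ IntermediateField.adjoin M' (S : Set Ω) :=
    fun x hx => by
      have hxM : x ∈ M := hx
      rw [← hS] at hxM
      exact (IntermediateField.adjoin_le_iff
        (T := (IntermediateField.adjoin M' (S : Set Ω)).restrictScalars K)).mpr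
        (IntermediateField.subset_adjoin M' (S : Set Ω)) hxM
  exact Module.Finite.of_injective (IntermediateField.inclusion hle').toLinearMap
    (IntermediateField.inclusion hle').injective

omit [CharZero K] in
/-- An embedding extends to an automorphism. -/
lemma exists_aut_extending {M' M : IntermediateField K Ω} (hle : M' ≤ M)
    (halg' : ∀ z : Ω, IsAlgebraic M' z) (e : IntermediateField.extendScalars hle →ₐ[M'] Ω) :
    ∃ σ : Ω ≃ₐ[K] Ω, (∀ m ∈ M', σ m = m) ∧ ∀ m : IntermediateField.extendScalars hle, σ m = e m := by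
  obtain ⟨τ, hτ⟩ := exists_extension (fun z => (halg' z).isIntegral) e
  have : Algebra.IsAlgebraic M' Ω := ⟨halg'⟩
  refine ⟨(AlgEquiv.ofBijective τ (Algebra.IsAlgebraic.algHom_bijective τ)).restrictScalars K,
    fun m hm => τ.commutes ⟨m, hm⟩, hτ⟩

end Galois

section Sym

variable {ι : Type*} [Fintype ι]

/-- The linear form of a vector. -/
def linForm (c : ι → Ω) : MvPolynomial (Option ι) Ω :=
  MvPolynomial.X none - ∑ l, MvPolynomial.C (c l) * MvPolynomial.X (some l)

lemma map_linForm (f : Ω →+* Ω) (c : ι → Ω) :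
    MvPolynomial.map f (linForm c) = linForm (fun l => f (c l)) := by
  simp [linForm]

omit [Algebra K Ω] in
lemma exists_eq_of_prod_linForm {k : ℕ} {c d : Fin k → ι → Ω}
    (h : ∏ i, linForm (c i) = ∏ i, linForm (d i)) (i : Fin k) : ∃ m, c i = d m := by
  classical
  let φ := MvPolynomial.aeval (R := Ω) fun o : Option ι =>
    o.elim (∑ l, MvPolynomial.C (c i l) * MvPolynomial.X l) MvPolynomial.X
  have hφ : ∀ e : ι → Ω, φ (linForm e) =
      ∑ l, MvPolynomial.C (c i l - e l) * MvPolynomial.X l := by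
    intro e
    simp [φ, linForm, sub_mul, Finset.sum_sub_distrib]
  have h1 := congrArg φ h
  rw [map_prod, map_prod, Finset.prod_eq_zero (Finset.mem_univ i) (by simp [hφ]), eq_comm,
    Finset.prod_eq_zero_iff] at h1
  obtain ⟨m, -, hm⟩ := h1
  refine ⟨m, funext fun l => sub_eq_zero.mp ?_⟩
  rw [hφ] at hm
  simpa [Pi.single_apply] using congrArg (MvPolynomial.eval (Pi.single l 1)) hm

variable [IsAlgClosed Ω]

/-- The symmetric function of the coordinates of some places. -/
def symPoly (Q : Fin C.g → Place Ω (C.curve Ω)) : MvPolynomial (Option (C.Idx C.b0)) Ω :=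
  ∏ i, linForm (C.coord (Q i))

open scoped Classical in
/-- The field of the symmetric functions of the coordinates of some places. -/
def symField (Q : Fin C.g → Place Ω (C.curve Ω)) : IntermediateField K Ω :=
  IntermediateField.adjoin K ((symPoly Q).coeffs : Set Ω)

lemma symField_fix_iff (Q : Fin C.g → Place Ω (C.curve Ω)) (σ : Ω ≃ₐ[K] Ω) :
    (∀ m ∈ symField Q, σ m = m) ↔ MvPolynomial.map σ.toAlgHom.toRingHom (symPoly Q) = symPoly Q := by
  classical
  constructor
  · intro h
    refine MvPolynomial.ext _ _ fun d => ?_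
    rw [MvPolynomial.coeff_map]
    by_cases hd : MvPolynomial.coeff d (symPoly Q) = 0
    · rw [hd, map_zero]
    · exact h _ (IntermediateField.subset_adjoin K _
        (MvPolynomial.mem_coeffs_iff.mpr ⟨d, MvPolynomial.mem_support_iff.mpr hd, rfl⟩))
  · intro h m hm
    induction hm using IntermediateField.adjoin_induction with
    | mem x hx =>
        obtain ⟨d, -, rfl⟩ := MvPolynomial.mem_coeffs_iff.mp hx
        conv_rhs => rw [← h, MvPolynomial.coeff_map]
        rfl
    | algebraMap c => exact σ.commutes c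
    | add x y _ _ hx hy => rw [map_add, hx, hy]
    | inv x _ hx => rw [map_inv₀, hx]
    | mul x y _ _ hx hy => rw [map_mul, hx, hy]

lemma symField_act_iff (Q : Fin C.g → Place Ω (C.curve Ω)) (hQi : Function.Injective Q)
    (hQ : ∀ i, Q i ≠ C.inf Ω) (h0 : C.h0 Ω (∑ i, Finsupp.single (Q i) 1) = 1) (σ : Ω ≃ₐ[K] Ω) :
    (∀ m ∈ symField Q, σ m = m) ↔
      T.act σ (C.cls Ω (∑ i, Finsupp.single (Q i) 1)) = C.cls Ω (∑ i, Finsupp.single (Q i) 1) := by
  classical
  rw [symField_fix_iff]
  have hperm : ∀ f : Fin C.g → Fin C.g, (∀ i, T.place (Spec.ofAlgHom σ.toAlgHom) (Q i) = Q (f i)) →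
      Function.Bijective f := fun f hf => Finite.injective_iff_bijective.mp fun a b h =>
    hQi (T.place_injective σ.toAlgHom (by rw [hf, hf, h]))
  constructor
  · intro h
    have h1 : ∀ i, ∃ m, T.place (Spec.ofAlgHom σ.toAlgHom) (Q i) = Q m := by
      intro i
      simp only [symPoly, map_prod, map_linForm] at h
      obtain ⟨m, hm⟩ := exists_eq_of_prod_linForm h i
      exact ⟨m, C.coord_injective (T.place_ne_inf _ (hQ i)) (hQ m) fun l =>
        (T.coord_place _ _ l).trans (congrFun hm l)⟩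
    choose f hf using h1
    rw [SpecTheory.act, T.pic_cls', map_sum]
    simp only [T.push_single, hf]
    exact congrArg _ ((Equiv.ofBijective f (hperm f hf)).sum_comp fun i => Finsupp.single (Q i) 1)
  · intro h
    have hE : T.push (Spec.ofAlgHom σ.toAlgHom) (∑ i, Finsupp.single (Q i) 1) =
        ∑ i, Finsupp.single (Q i) 1 :=
      C.eq_of_cls_eq Ω (T.push_nonneg _ (Finset.sum_nonneg fun i _ =>
          Finsupp.single_nonneg.mpr zero_le_one)) (T.degree_push _ _)
        (by rw [← T.pic_cls']; exact h) h0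
        (Finset.sum_nonneg fun i _ => Finsupp.single_nonneg.mpr zero_le_one)
    have h1 : ∀ i, ∃ m, T.place (Spec.ofAlgHom σ.toAlgHom) (Q i) = Q m := by
      intro i
      have h2 := DFunLike.congr_fun hE (T.place (Spec.ofAlgHom σ.toAlgHom) (Q i))
      simp only [map_sum, T.push_single, Finsupp.finsetSum_apply] at h2
      by_contra hne
      push Not at hne
      rw [Finset.sum_eq_zero (s := Finset.univ) (f := fun m => Finsupp.single (Q m) (1 : ℤ) _)
        fun m _ => Finsupp.single_eq_of_ne (hne m)] at h2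
      refine (Finset.sum_pos' (fun l _ => ?_) ⟨i, Finset.mem_univ i, by simp⟩).ne' h2
      rw [Finsupp.single_apply]; split_ifs <;> norm_num
    choose f hf using h1
    have hc : ∀ i, (fun l => σ.toAlgHom.toRingHom (C.coord (Q i) l)) = C.coord (Q (f i)) := fun i =>
      funext fun l => by rw [← hf i, T.coord_place]; rfl
    simp only [symPoly, map_prod, map_linForm, hc]
    exact (Equiv.ofBijective f (hperm f hf)).prod_comp fun i => linForm (C.coord (Q i))

lemma isAlgebraic_symField {j : C.Idx C.b0} (Q : Fin C.g → Place Ω (C.curve Ω))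
    (halg : ∀ z : Ω, IsAlgebraic (IntermediateField.adjoin K (Set.range fun i => C.coord (Q i) j)) z)
    (z : Ω) : IsAlgebraic (symField Q) z := by
  classical
  have hroot : ∀ i, IsAlgebraic (symField Q) (C.coord (Q i) j) := by
    intro i
    obtain ⟨P0, hP0⟩ : symPoly Q ∈
        Set.range (MvPolynomial.map (algebraMap (symField Q) Ω)) :=
      MvPolynomial.mem_range_map_iff_coeffs_subset.mpr fun c hc =>
        ⟨⟨c, IntermediateField.subset_adjoin K _ hc⟩, rfl⟩
    let q : Polynomial (symField Q) := MvPolynomial.eval₂ Polynomial.C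
      (fun o => o.elim Polynomial.X fun l => if l = j then 1 else 0) P0
    have hq : q.map (algebraMap (symField Q) Ω) =
        ∏ m, (Polynomial.X - Polynomial.C (C.coord (Q m) j)) := by
      rw [← Polynomial.coe_mapRingHom, MvPolynomial.eval₂_comp_left,
        show (Polynomial.mapRingHom (algebraMap (symField Q) Ω)).comp Polynomial.C =
          Polynomial.C.comp (algebraMap (symField Q) Ω) by ext x; simp,
        ← MvPolynomial.eval₂_map, hP0, symPoly, MvPolynomial.eval₂_prod]
      refine Finset.prod_congr rfl fun m _ => ?_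
      simp [linForm, apply_ite]
    have hq0 : q ≠ 0 := fun h => by
      rw [h, Polynomial.map_zero] at hq
      exact Finset.prod_ne_zero_iff.mpr (fun m _ => Polynomial.X_sub_C_ne_zero _) hq.symm
    refine ⟨q, hq0, ?_⟩
    rw [Polynomial.aeval_def, ← Polynomial.eval_map, hq, Polynomial.eval_prod]
    exact Finset.prod_eq_zero (Finset.mem_univ i) (by simp)
  let k : IntermediateField K Ω := (algebraicClosure (symField Q) Ω).restrictScalars K
  have : IsAlgClosed k :=
    IsAlgClosure.isAlgClosed (symField Q) (K := algebraicClosure (symField Q) Ω)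
  obtain ⟨w, hw⟩ := mem_range_of_isAlgebraic k.val
    (S := Set.range fun i => C.coord (Q i) j)
    (by rintro _ ⟨i, rfl⟩; exact ⟨⟨_, mem_algebraicClosure_iff.mpr (hroot i)⟩, rfl⟩) (halg z)
  exact mem_algebraicClosure_iff.mp (hw ▸ w.2 : z ∈ algebraicClosure (symField Q) Ω)

end Sym

lemma mem_torsion_iff {F : Type u} [Field F] [Algebra K F] [IsAlgClosed F] {n : ℕ}
    {x : Pic0 F (C.curve F)} : x ∈ Pic0.torsion F (C.curve F) n ↔ n • x = 0 := by
  rw [Pic0.mem_torsion, natCast_zsmul]

/-- Squeezed powers. -/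
lemma eq_of_pow_bounds {a c B : ℕ} (h1 : ∀ i : ℕ, c ^ i ≤ B * a ^ i)
    (h2 : ∀ i : ℕ, a ^ i ≤ B * c ^ i) : c = a := by
  have key : ∀ x y : ℕ, (∀ i : ℕ, x ^ i ≤ B * y ^ i) → x ≤ y := by
    intro x y h
    by_contra hlt
    push Not at hlt
    have h3 : ∀ i : ℕ, y ^ i * (y + i) ≤ x ^ i * y := by
      intro i
      induction i with
      | zero => simp
      | succ i ih =>
          calc y ^ (i + 1) * (y + (i + 1)) = y ^ i * (y * (y + (i + 1))) := by ring
            _ ≤ y ^ i * ((y + i) * (y + 1)) := Nat.mul_le_mul_left _ (by nlinarith)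
            _ = y ^ i * (y + i) * (y + 1) := by ring
            _ ≤ x ^ i * y * x := Nat.mul_le_mul ih hlt
            _ = x ^ (i + 1) * y := by ring
    rcases Nat.eq_zero_or_pos y with rfl | hy
    · have := h 1
      simp at this
      omega
    have h4 := (h3 (B * y + 1)).trans (Nat.mul_le_mul_right y (h (B * y + 1)))
    rw [show B * y ^ (B * y + 1) * y = y ^ (B * y + 1) * (B * y) by ring] at h4
    have := Nat.le_of_mul_le_mul_left h4 (pow_pos hy _)
    omega
  exact le_antisymm (key c a h1) (key a c h2)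

/-- The torsion subgroups multiply when multiplication by `a` is onto the `b`-torsion. -/
lemma natCard_nsmul_torsion {G : Type*} [AddCommGroup G] (tor : ℕ → AddSubgroup G)
    (htor : ∀ n x, x ∈ tor n ↔ n • x = 0) (a b : ℕ)
    (hsurj : ∀ t : G, b • t = 0 → ∃ s, a • s = t) :
    Nat.card (tor (a * b)) = Nat.card (tor b) * Nat.card (tor a) := by
  let f : tor (a * b) →+ tor b :=
    AddMonoidHom.mk' (fun x => ⟨a • (x : G), (htor b _).mpr (by
      rw [← mul_nsmul]; exact (htor _ _).mp x.2)⟩) fun x y => Subtype.ext (nsmul_add _ _ _)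
  have hf : ∀ x, (f x : G) = a • (x : G) := fun x => rfl
  have hs : Function.Surjective f := by
    rintro ⟨t, ht⟩
    obtain ⟨s, rfl⟩ := hsurj t ((htor b t).mp ht)
    exact ⟨⟨s, (htor _ _).mpr (by rw [mul_nsmul]; exact (htor b _).mp ht)⟩, Subtype.ext rfl⟩
  rw [AddSubgroup.card_eq_card_quotient_mul_card_addSubgroup f.ker,
    Nat.card_congr (QuotientAddGroup.quotientKerEquivOfSurjective f hs).toEquiv]
  congr 1
  refine Nat.card_congr
    { toFun := fun x => ⟨x.1.1, (htor a _).mpr (by
        rw [← hf, AddMonoidHom.mem_ker.mp x.2, ZeroMemClass.coe_zero])⟩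
      invFun := fun y => ⟨⟨y.1, (htor _ _).mpr (by
          rw [mul_nsmul, (htor a _).mp y.2, nsmul_zero])⟩,
        AddMonoidHom.mem_ker.mpr (Subtype.ext (by
          rw [hf, ZeroMemClass.coe_zero]; exact (htor a _).mp y.2))⟩
      left_inv := fun _ => rfl
      right_inv := fun _ => rfl }

lemma natCard_torsion_of_injective {G H : Type*} [AddCommGroup G] [AddCommGroup H]
    (A : AddSubgroup G) (B : AddSubgroup H) (n : ℕ) (hA : ∀ x, x ∈ A ↔ n • x = 0)
    (hB : ∀ x, x ∈ B ↔ n • x = 0) (ι : G →+ H) (hι : Function.Injective ι)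
    (hsurj : ∀ t : H, n • t = 0 → ∃ y, ι y = t) : Nat.card A = Nat.card B := by
  refine Nat.card_eq_of_bijective (fun y => (⟨ι y.1, (hB _).mpr
    (by rw [← map_nsmul, (hA _).mp y.2, map_zero])⟩ : B)) ⟨fun a b h => ?_, fun t => ?_⟩
  · exact Subtype.ext (hι (congrArg Subtype.val h :))
  · obtain ⟨y, hy⟩ := hsurj t ((hB _).mp t.2)
    refine ⟨⟨y, (hA _).mpr (hι ?_)⟩, Subtype.ext hy⟩
    rw [map_nsmul, hy, map_zero]
    exact (hB _).mp t.2

variable [IsAlgClosed Ω] (Th : ThetaTheory C T)
include Th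

section Over

variable [IsAlgClosed K] [CharZero K] {τ : Fin C.g → Ω}

omit [CharZero K] in
lemma ThetaTheory.natCard_torsion_mul (hg : 0 < C.g) (hτ : IsTranscendenceBasis K τ) {a b : ℕ}
    (ha : 0 < a) (hb : 0 < b) :
    Nat.card (Pic0.torsion Ω (C.curve Ω) (a * b)) =
      Nat.card (Pic0.torsion Ω (C.curve Ω) b) * Nat.card (Pic0.torsion Ω (C.curve Ω) a) := by
  obtain ⟨j, hj⟩ := exists_tj (C := C)
  refine natCard_nsmul_torsion (fun m => Pic0.torsion Ω (C.curve Ω) m)
    (fun _ _ => mem_torsion_iff) a b fun t ht => ?_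
  obtain ⟨Q, -, hx, -⟩ := Th.exists_isGen hg hj hτ
  obtain ⟨x, hxdef⟩ : ∃ x, x = C.cls Ω (∑ i, Finsupp.single (Q i) 1) := ⟨_, rfl⟩
  rw [← hxdef] at hx
  obtain ⟨σ, hσ⟩ := Th.exists_act_eq hj hτ (Th.isGen_nsmul hg hτ hx ha)
    (Th.isGen_add_torsion hg hτ (Th.isGen_nsmul hg hτ hx ha) hb ht)
  exact ⟨T.act σ x - x, by rw [nsmul_sub, ← map_nsmul, hσ, add_sub_cancel_left]⟩

/-- The number of torsion classes is the degree of the multiplication. -/
lemma ThetaTheory.exists_natCard_bounds (hg : 0 < C.g) (hτ : IsTranscendenceBasis K τ) :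
    ∃ B : ℕ, ∀ n : ℕ, 0 < n →
      Nat.card (Pic0.torsion Ω (C.curve Ω) n) ≤ B * (n ^ 2) ^ C.g ∧
      (n ^ 2) ^ C.g ≤ B * Nat.card (Pic0.torsion Ω (C.curve Ω) n) := by
  classical
  obtain ⟨j, hj⟩ := exists_tj (C := C)
  obtain ⟨Q, h0, hx, hind⟩ := Th.exists_isGen hg hj hτ
  obtain ⟨x, hxdef⟩ : ∃ x, x = C.cls Ω (∑ i, Finsupp.single (Q i) 1) := ⟨_, rfl⟩
  rw [← hxdef] at hx
  have hQi : Function.Injective Q := fun a b h => hind.injective (by simp only [h])
  have hQ : ∀ i, Q i ≠ C.inf Ω := fun i h =>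
    hind.transcendental i (by rw [h, C.coord_inf]; exact isAlgebraic_zero)
  obtain ⟨M, hMdef⟩ : ∃ M : IntermediateField K Ω, M = symField Q := ⟨_, rfl⟩
  have hstab : ∀ σ : Ω ≃ₐ[K] Ω, (∀ m ∈ M, σ m = m) ↔ T.act σ x = x := fun σ => by
    rw [hMdef, hxdef]; exact symField_act_iff Q hQi hQ h0 σ
  have halg : ∀ z : Ω, IsAlgebraic M z := hMdef ▸ isAlgebraic_symField Q
    (Th.coord_independent hj hτ hx hxdef.symm).2
  have hMfg : M.FG := hMdef ▸ IntermediateField.fg_adjoin_finset _
  have hs : ∀ i, Th.nrm x i ∈ M := fun i =>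
    mem_of_forall_fix M halg fun σ hσ => by rw [← Th.nrm_act, (hstab σ).mp hσ]
  obtain ⟨u, hu⟩ : ∃ u : Fin C.g → C.TIdx, AlgebraicIndependent K fun i => Th.nrm x (u i) := by
    have : Algebra.IsAlgebraic (Algebra.adjoin K (Set.range (Th.nrm x))) Ω :=
      ⟨fun z => (IntermediateField.isAlgebraic_adjoin_iff (F := K)).mp (hx z)⟩
    obtain ⟨s, hs1, hs2⟩ := exists_isTranscendenceBasis_subset (R := K) (Set.range (Th.nrm x))
    have hcard : Nat.card s = C.g := by
      have := congrArg Cardinal.toNat (hs2.lift_cardinalMk_eq hτ)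
      rw [Cardinal.toNat_lift, Cardinal.toNat_lift] at this
      exact this.trans (by simp)
    have hfin : s.Finite := (Set.finite_range _).subset hs1
    have := hfin.to_subtype
    let e : Fin C.g ≃ s := ((Finite.equivFin s).trans (finCongr hcard)).symm
    choose u hu using fun i => hs1 (e i).2
    refine ⟨u, ?_⟩
    rw [funext hu]
    exact hs2.1.comp e e.injective
  obtain ⟨B, -, hB⟩ := exists_degree_bounds hτ hMfg hs (Th.nrm_idx x) hu
  refine ⟨B, fun n hn => ?_⟩
  obtain ⟨σ₀, hσ₀⟩ := Th.exists_act_eq hj hτ hx (Th.isGen_nsmul hg hτ hx hn)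
  let M' := M.map σ₀.toAlgHom
  have hM' : ∀ z, z ∈ M' ↔ σ₀.symm z ∈ M := fun z => by
    refine ⟨?_, fun h => ⟨_, h, σ₀.apply_symm_apply z⟩⟩
    rintro ⟨w, hw, rfl⟩
    simpa using hw
  -- the automorphisms fixing `n • x` are those fixing `M'`
  have hstab' : ∀ σ : Ω ≃ₐ[K] Ω, (∀ m ∈ M', σ m = m) ↔ T.act σ (n • x) = n • x := by
    intro σ
    have h1 : T.act σ (n • x) = n • x ↔ T.act ((σ₀.trans σ).trans σ₀.symm) x = x := by
      rw [← T.act_act, ← T.act_act, hσ₀]
      constructor
      · intro h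
        rw [h, ← hσ₀, T.act_symm_act]
      · intro h
        have := congrArg (T.act σ₀) h
        rwa [T.act_act, AlgEquiv.symm_trans_self, T.act_refl, hσ₀] at this
    rw [h1, ← hstab]
    constructor
    · intro h m hm
      have := h (σ₀ m) ((hM' _).mpr (by simpa using hm))
      simp [this]
    · intro h m hm
      have := congrArg σ₀ (h _ ((hM' m).mp hm))
      simpa using this
  have hle : M' ≤ M := fun z hz => mem_of_forall_fix M halg fun σ hσ =>
    (hstab' σ).mpr (by rw [map_nsmul, (hstab σ).mp hσ]) z hz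
  have halg' : ∀ z : Ω, IsAlgebraic M' z := by
    have hu' : AlgebraicIndependent K fun i => σ₀ (Th.nrm x (u i)) :=
      hu.map' (f := (σ₀ : Ω →ₐ[K] Ω)) σ₀.injective
    exact fun z => (isIntegral_of_independent hτ hu' (fun i => isIntegral_algebraMap
      (x := (⟨_, (hM' _).mpr (by simpa using hs (u i))⟩ : M'))) z).isAlgebraic
  have := finiteDimensional_extendScalars hle hMfg halg'
  have hrel : ∃ lam : Ω, lam ≠ 0 ∧ ∀ A : ValuationSubring Ω, TrivOn K A →
      vmax A (Th.nrm (n • x)) = A.valuation lam * vmax A (Th.nrm x) ^ (n ^ 2) := by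
    obtain ⟨lam, hlam, hl⟩ := Th.exists_vmax_nsmul hg x n
    refine ⟨lam * Th.theta Ω x (Th.idx x) ^ (n ^ 2) / Th.theta Ω (n • x) (Th.idx (n • x)),
      div_ne_zero (mul_ne_zero hlam (pow_ne_zero _ (Th.theta_idx x))) (Th.theta_idx _), fun A hA => ?_⟩
    have h1 := hl A hA
    rw [Th.theta_eq_smul (n • x), vmax_smul, Th.theta_eq_smul x, vmax_smul, mul_pow] at h1
    refine mul_left_cancel₀ ((Valuation.ne_zero_iff A.valuation).mpr (Th.theta_idx (n • x))) ?_
    rw [h1, map_div₀, map_mul, map_pow, ← mul_assoc, ← mul_assoc,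
      mul_div_cancel₀ _ ((Valuation.ne_zero_iff A.valuation).mpr (Th.theta_idx (n • x)))]
  obtain ⟨lam, hlam, hrel⟩ := hrel
  have hd := hB M' (Th.nrm (n • x)) σ₀ hle (n ^ 2) lam (pow_pos hn 2) hlam hM'
    (fun i => by rw [← hσ₀, Th.nrm_act]) hrel
  suffices hcard : Nat.card (Pic0.torsion Ω (C.curve Ω) n) =
      finrank M' (IntermediateField.extendScalars hle) by rwa [hcard]
  -- torsion classes and embeddings of `M` over `M'`
  have hσ : ∀ t : Pic0.torsion Ω (C.curve Ω) n, ∃ σ : Ω ≃ₐ[K] Ω, T.act σ x = x + t :=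
    fun t => Th.exists_act_eq hj hτ hx
      (Th.isGen_add_torsion hg hτ hx hn (mem_torsion_iff.mp t.2))
  choose σ hσ using hσ
  have hσfix : ∀ t, ∀ m ∈ M', σ t m = m := fun t => (hstab' _).mpr (by
    rw [map_nsmul, hσ, nsmul_add, mem_torsion_iff.mp t.2, add_zero])
  let emb : Pic0.torsion Ω (C.curve Ω) n → (IntermediateField.extendScalars hle →ₐ[M'] Ω) :=
    fun t =>
      { (σ t).toAlgHom.toRingHom.comp (IntermediateField.extendScalars hle).val.toRingHom with
        commutes' := fun m => hσfix t m m.2 }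
  have hemb : ∀ t m, emb t m = σ t (m : Ω) := fun _ _ => rfl
  have hsame : ∀ a b : Ω ≃ₐ[K] Ω, (∀ m ∈ M, a m = b m) → T.act a x = T.act b x := by
    intro a b h
    have h1 : T.act (a.trans b.symm) x = x := (hstab _).mp fun m hm => by simp [h m hm]
    have h2 := congrArg (T.act b) h1
    rw [T.act_act] at h2
    rwa [show (a.trans b.symm).trans b = a from AlgEquiv.ext fun z => by simp] at h2
  have hbij : Function.Bijective emb := by
    constructor
    · intro a b h
      have h1 := hsame (σ a) (σ b) fun m hm => by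
        have := AlgHom.congr_fun h ⟨m, hm⟩
        simpa [hemb] using this
      rw [hσ, hσ, add_right_inj] at h1
      exact Subtype.ext h1
    · intro e
      obtain ⟨ρ, hρ, hρe⟩ := exists_aut_extending hle halg' e
      let t : Pic0.torsion Ω (C.curve Ω) n := ⟨T.act ρ x - x, mem_torsion_iff.mpr (by
        rw [nsmul_sub, ← map_nsmul, (hstab' ρ).mp hρ, sub_self])⟩
      refine ⟨t, AlgHom.ext fun m => ?_⟩
      have h1 : T.act (ρ.trans (σ t).symm) x = x := by
        rw [← T.act_act, show T.act ρ x = x + (t : Pic0 Ω (C.curve Ω)) by simp [t], ← hσ t,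
          T.act_symm_act]
      have h2 := (hstab _).mpr h1 m m.2
      simp only [AlgEquiv.trans_apply] at h2
      rw [hemb, ← hρe]
      conv_lhs => rw [← h2]
      exact AlgEquiv.apply_symm_apply _ _
  rw [Nat.card_congr (Equiv.ofBijective emb hbij)]
  have : CharZero M' := charZero_of_injective_algebraMap (algebraMap K M').injective
  rw [Nat.card_eq_fintype_card, AlgHom.card]

lemma ThetaTheory.natCard_torsion_over (hg : 0 < C.g) (hτ : IsTranscendenceBasis K τ) {n : ℕ}
    (hn : 0 < n) : Nat.card (Pic0.torsion Ω (C.curve Ω) n) = n ^ (2 * C.g) := by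
  obtain ⟨B, hB⟩ := Th.exists_natCard_bounds hg hτ
  have hpow : ∀ i : ℕ, Nat.card (Pic0.torsion Ω (C.curve Ω) (n ^ i)) =
      Nat.card (Pic0.torsion Ω (C.curve Ω) n) ^ i := by
    intro i
    induction i with
    | zero =>
        rw [pow_zero, pow_zero, Nat.card_eq_one_iff_unique]
        exact ⟨⟨fun a b => Subtype.ext (by
          have ha := mem_torsion_iff.mp a.2
          have hb := mem_torsion_iff.mp b.2
          rw [one_nsmul] at ha hb
          rw [ha, hb])⟩, ⟨0⟩⟩
    | succ i ih =>
        rw [pow_succ, pow_succ, Th.natCard_torsion_mul hg hτ (pow_pos hn i) hn, ih, mul_comm]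
  refine eq_of_pow_bounds (B := B) (fun i => ?_) fun i => ?_
  · rw [← hpow, ← pow_mul, show 2 * C.g * i = i * 2 * C.g by ring, pow_mul, pow_mul]
    exact (hB _ (pow_pos hn i)).1
  · rw [← hpow, ← pow_mul, show 2 * C.g * i = i * 2 * C.g by ring, pow_mul, pow_mul]
    exact (hB _ (pow_pos hn i)).2

end Over

omit Th in
/-- **The number of `n`-torsion classes.** -/
theorem natCard_torsion (C : CurveData K) (T : SpecTheory C) (Th : ThetaTheory C T)
    [IsAlgClosed K] [CharZero K] (n : ℕ) (hn : 0 < n) :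
    Nat.card (Pic0.torsion K (C.curve K) n) = n ^ (2 * C.g) := by
  rcases Nat.eq_zero_or_pos C.g with hg | hg
  · have hzero : ∀ x : Pic0 K (C.curve K), x = 0 := fun x => by
      obtain ⟨E, hE, hEd, rfl⟩ := C.exists_effective K x (d := 0) hg.le
      rw [(C.rr K).eq_zero_of_nonneg_of_degree_le hE (by rw [hEd]; simp), map_zero]
    rw [hg, mul_zero, pow_zero, Nat.card_eq_one_iff_unique]
    exact ⟨⟨fun a b => Subtype.ext ((hzero a).trans (hzero b).symm)⟩, ⟨0⟩⟩
  let P := MvPolynomial (Fin C.g) K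
  let F := FractionRing P
  let Ω := AlgebraicClosure F
  have h1 : IsTranscendenceBasis K (algebraMap P F ∘ MvPolynomial.X) := by
    have : Algebra.IsAlgebraic P F := IsLocalization.isAlgebraic F (nonZeroDivisors P)
    exact (IsTranscendenceBasis.mvPolynomial (Fin C.g) K).algebraMap_comp
  have h2 : IsTranscendenceBasis K (algebraMap F Ω ∘ (algebraMap P F ∘ MvPolynomial.X)) :=
    h1.algebraMap_comp
  rw [← Th.natCard_torsion_over (Ω := Ω) hg h2 hn]
  exact natCard_torsion_of_injective (Pic0.torsion K (C.curve K) n)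
    (Pic0.torsion Ω (C.curve Ω) n) n (fun _ => mem_torsion_iff) (fun _ => mem_torsion_iff)
    (T.pic (Spec.ofAlgHom (Algebra.ofId K Ω))) (T.pic_injective _)
    fun t ht => Th.exists_pic_of_torsion hg h2 hn ht

end Fermat.Agent.Row27

end
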