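import Fermat.Agent.Row27.ThetaMap

/-!
# When a coordinate of the theta map vanishes
-/

set_option autoImplicit false

noncomputable section

open AlgebraicCurve Module

namespace Fermat.Agent.Row27

universe u

variable {K : Type u} [Field K]

namespace CurveData

variable {C : CurveData K} {L : Type u} [Field L] [Algebra K L] [IsAlgClosed L]

/-- A sum of distinct places, evaluated. -/
lemma sum_single_pt_apply {ι : Type*} [Fintype ι] (p : ι → ℕ) (hp : Function.Injective p) (j : ι) :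
    (∑ i, Finsupp.single (C.pt L (p i)) (1 : ℤ)) (C.pt L (p j)) = 1 := by
  classical
  rw [Finsupp.finsetSum_apply, Finset.sum_eq_single j
    (fun i _ hi => Finsupp.single_eq_of_ne fun e => hi (hp (C.pt_injective L e).symm))
    (fun h => absurd (Finset.mem_univ j) h), Finsupp.single_eq_same]

lemma sum_single_pt_nonneg {ι : Type*} [Fintype ι] (p : ι → ℕ) :
    (0 : Divisor L (C.curve L)) ≤ ∑ i, Finsupp.single (C.pt L (p i)) (1 : ℤ) :=
  Finset.sum_nonneg fun _ _ => Finsupp.single_nonneg.mpr zero_le_one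

/-- The function of a pair does not vanish at points outside the pair. -/
lemma Frame.evAt_f_ne {b : ℕ} {D D' : Divisor L (C.curve L)} (Φ : C.Frame L b D D')
    (hd : Divisor.degree D = C.n) (hd' : Divisor.degree D' = C.n) {t : ℕ}
    (h : D (C.pt L t) = 0) (h' : D' (C.pt L t) = 0) :
    C.evAt t (C.n + C.n) Φ.f ≠ 0 := by
  intro h0
  have hdiv := congrArg (fun E : Divisor L (C.curve L) => E (C.pt L t))
    (C.divisor_realF (D := C.binf L ((C.n + C.n : ℕ) : ℤ) - (D + D')) (E := D + D')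
      (m := C.n + C.n) (by rw [map_add, hd, hd']; push_cast; ring) rfl Φ.f_mem Φ.realF_f_ne)
  have h1 := (MWJ0.mem_Lsp_of_ne_zero Φ.realF_f_ne).mp
    ((C.evAt_eq_zero_iff t Φ.f).mp h0) (C.pt L t)
  simp only [(C.rr L).divisor_apply, Finsupp.sub_apply, Finsupp.add_apply, h, h', binf,
    Finsupp.single_eq_of_ne (C.pt_ne_inf L t)] at hdiv
  rw [Finsupp.sub_apply, Finsupp.single_eq_same, binf,
    Finsupp.single_eq_of_ne (C.pt_ne_inf L t)] at h1
  omega

/-- The determinant of a basis vanishes exactly when some function vanishes at all the points. -/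
lemma tdet_ne_zero_iff {b : ℕ} (hb : 2 * C.g + C.n ≤ b) {D : Divisor L (C.curve L)} (hD : 0 ≤ D)
    (hd : Divisor.degree D = C.n) {u : Fin (C.nW b) → C.Idx b → L} (hu : ∀ i, u i ∈ C.W L b D)
    (hi : LinearIndependent L u) (p : C.TuIdx b) (hp : Function.Injective p)
    (havoid : ∀ j, D (C.pt L (p j)) = 0) :
    C.tdet u p ≠ 0 ↔ riemannRochSpace
      (C.binf L (b : ℤ) - D - ∑ j, Finsupp.single (C.pt L (p j)) (1 : ℤ)) = ⊥ := by
  have hp' : Function.Injective fun j => (p j : ℕ) := Fin.val_injective.comp hp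
  have hS := sum_single_pt_nonneg (C := C) (L := L) fun j => (p j : ℕ)
  rw [Ne, tdet, ← Matrix.exists_vecMul_eq_zero_iff]
  constructor
  · intro h
    rw [Submodule.eq_bot_iff]
    intro f hf
    by_contra hf0
    have hfb : f ∈ riemannRochSpace (C.binf L (b : ℤ) - D) :=
      MWJ0.Lsp_mono (sub_le_self _ hS) hf
    obtain ⟨x, hx⟩ := C.exists_realF_eq (C.Lsp_le_binf hD hfb)
    have hxW : x ∈ C.W L b D := by rw [mem_W, hx]; exact hfb
    let B : Basis (Fin (C.nW b)) L (C.W L b D) :=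
      haveI : Nonempty (Fin (C.nW b)) := ⟨⟨0, by simp only [nW, CurveData.n] at hb ⊢; omega⟩⟩
      basisOfLinearIndependentOfCardEqFinrank
        (b := fun i => (⟨u i, hu i⟩ : C.W L b D))
        (LinearIndependent.of_comp (C.W L b D).subtype hi)
        (by rw [Fintype.card_fin, C.finrank_W hD hd hb])
    have hB : ∀ i, (B i : C.Idx b → L) = u i := fun i => by
      simp [B, coe_basisOfLinearIndependentOfCardEqFinrank]
    set c : Fin (C.nW b) → L := fun i => B.repr ⟨x, hxW⟩ i with hc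
    have hsum : ∑ i, c i • u i = x := by
      have e := congrArg (C.W L b D).subtype (B.sum_repr ⟨x, hxW⟩)
      simpa only [map_sum, map_smul, Submodule.subtype_apply, hB] using e
    refine h ⟨c, fun e => hf0 ?_, ?_⟩
    · rw [← hx, ← hsum, e]
      simp
    · funext j
      have h1 : ∑ i, c i * C.evAt (p j : ℕ) b (u i) = C.evAt (p j : ℕ) b x := by
        rw [← evAt_sum, hsum]
      rw [Matrix.vecMul, dotProduct, Pi.zero_apply]
      refine h1.trans ((C.evAt_eq_zero_iff _ x).mpr ?_)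
      rw [mem_W, hx]
      refine MWJ0.Lsp_mono ?_ hf
      intro v
      simp only [Finsupp.sub_apply]
      have hDv := hD v
      rcases eq_or_ne v (C.pt L (p j)) with rfl | hv
      · rw [Finsupp.single_eq_same, havoid j, sum_single_pt_apply (C := C) _ hp' j]
        omega
      · rw [Finsupp.single_eq_of_ne hv]
        have := hS v
        simp only [Finsupp.coe_zero, Pi.zero_apply] at this hDv
        omega
  · rintro hbot ⟨c, hc, hce⟩
    set x := ∑ i, c i • u i with hx
    have hxW : x ∈ C.W L b D := sum_mem fun i _ => Submodule.smul_mem _ _ (hu i)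
    have hx0 : x ≠ 0 := fun e => hc (funext (Fintype.linearIndependent_iff.mp hi c e))
    have hf0 : C.realF L b x ≠ 0 := fun e => hx0 (C.realF_injective L b (e.trans (map_zero _).symm))
    have hev : ∀ j, C.evAt (p j : ℕ) b x = 0 := fun j => by
      rw [hx, evAt_sum]
      exact congrFun hce j
    refine hf0 ((Submodule.mem_bot L).mp (hbot ▸ ?_))
    rw [MWJ0.mem_Lsp_of_ne_zero hf0]
    intro v
    have h1 := (MWJ0.mem_Lsp_of_ne_zero hf0).mp hxW v
    simp only [Finsupp.sub_apply] at h1 ⊢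
    by_cases hv : ∃ j, v = C.pt L (p j)
    · obtain ⟨j, rfl⟩ := hv
      have h2 := (MWJ0.mem_Lsp_of_ne_zero hf0).mp
        ((C.evAt_eq_zero_iff _ x).mp (hev j)) (C.pt L (p j))
      rw [Finsupp.sub_apply, Finsupp.single_eq_same] at h2
      rw [sum_single_pt_apply (C := C) _ hp' j, havoid j]
      omega
    · push Not at hv
      rw [Finsupp.finsetSum_apply, Finset.sum_eq_zero fun j _ => Finsupp.single_eq_of_ne (hv j),
        sub_zero]
      exact h1

/-- Equivalent divisors have trivial spaces simultaneously. -/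
lemma Lsp_eq_bot_of_ord {A B : Divisor L (C.curve L)} {r : C.curve L} (hr : r ≠ 0)
    (h : ∀ v, B v - A v = v.ord r) (hA : riemannRochSpace A = ⊥) : riemannRochSpace B = ⊥ := by
  rw [Submodule.eq_bot_iff]
  intro f hf
  by_contra hf0
  refine mul_ne_zero hr hf0 ((Submodule.mem_bot L).mp (hA ▸ ?_))
  rw [MWJ0.mem_Lsp_of_ne_zero (mul_ne_zero hr hf0)]
  intro v
  have := (MWJ0.mem_Lsp_of_ne_zero hf0).mp hf v
  have := h v
  rw [v.ord_mul hr hf0]
  omega

/-- Moving a representative to a divisor of degree zero. -/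
lemma Lsp_shift {b : ℕ} {D E S : Divisor L (C.curve L)} (hE : Divisor.degree E = C.n)
    (hD : Divisor.degree D = 0) (hcl : C.cls L E = C.cls L D) :
    riemannRochSpace (C.binf L (b : ℤ) - E - S) = ⊥ ↔
      riemannRochSpace (C.binf L ((b : ℤ) - C.n) - S - D) = ⊥ := by
  obtain ⟨r, hr, hrd⟩ := C.exists_fun_of_cls_eq (D := E) (E := D + C.binf L (C.n : ℤ))
    (by rw [map_add, hD, hE, C.deg_binf, zero_add]) (by rw [map_add, C.cls_binf, add_zero, hcl])
  have key : ∀ v, (C.binf L ((b : ℤ) - C.n) - S - D) v - (C.binf L (b : ℤ) - E - S) v = v.ord r :=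
    fun v => by
      rw [← hrd v]
      simp only [binf, Finsupp.single_sub, Finsupp.sub_apply, Finsupp.add_apply]
      ring
  refine ⟨Lsp_eq_bot_of_ord hr key, Lsp_eq_bot_of_ord (inv_ne_zero hr) fun v => ?_⟩
  rw [v.ord_inv, ← key v]
  ring

/-- When a coordinate of the tensor of avoiding representatives vanishes. -/
lemma Frame.theta_ne_zero_iff {b : ℕ} (hb : C.GoodLevel b) {x : Pic0 L (C.curve L)}
    {D E E' : Divisor L (C.curve L)} (Φ : C.Frame L b E E') (hE : 0 ≤ E) (hE' : 0 ≤ E')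
    (he : Divisor.degree E = C.n) (he' : Divisor.degree E' = C.n) (hD : Divisor.degree D = 0)
    (hx : C.cls L D = x) (hEx : C.cls L E = x) (hEx' : C.cls L E' = -x) (p : C.TuIdx b)
    (hp : Function.Injective p) (hav : ∀ j, E (C.pt L (p j)) = 0)
    (hav' : ∀ j, E' (C.pt L (p j)) = 0) :
    Φ.theta p ≠ 0 ↔
      riemannRochSpace (C.binf L ((b : ℤ) - C.n) -
          ∑ j, Finsupp.single (C.pt L (p j)) (1 : ℤ) - D) = ⊥ ∧
        riemannRochSpace (C.binf L ((b : ℤ) - C.n) -
          ∑ j, Finsupp.single (C.pt L (p j)) (1 : ℤ) + D) = ⊥ := by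
  have hf := fun j => Φ.evAt_f_ne he he' (hav j) (hav' j)
  have h := Φ.theta_eq hb.n_le p hf
  have hprod : (∏ j, C.evAt (p j : ℕ) (C.n + C.n) Φ.f) ≠ 0 :=
    Finset.prod_ne_zero_iff.mpr fun j _ => hf j
  have e : Φ.theta p ≠ 0 ↔ C.tdet Φ.u p ≠ 0 ∧ C.tdet Φ.u' p ≠ 0 := by
    rw [← mul_ne_zero_iff, ← h, mul_ne_zero_iff]
    exact ⟨fun h' => ⟨h', hprod⟩, And.left⟩
  rw [e, tdet_ne_zero_iff hb.big hE he Φ.u_mem Φ.u_li p hp hav,
    tdet_ne_zero_iff hb.big hE' he' Φ.u'_mem Φ.u'_li p hp hav',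
    Lsp_shift he hD (hEx.trans hx.symm),
    Lsp_shift he' (D := -D) (by rw [map_neg, hD, neg_zero]) (by rw [map_neg, hx, hEx']),
    sub_neg_eq_add]

/-- The criterion for a coordinate of the theta map not to vanish. -/
theorem thetaMap_ne_zero_iff (_hg : 0 < C.g) (L : Type u) [Field L] [Algebra K L] [IsAlgClosed L]
    (x : Pic0 L (C.curve L)) (D : Divisor L (C.curve L)) (hD : Divisor.degree D = 0)
    (hx : C.cls L D = x) (p : C.TIdx) (hp1 : Function.Injective p.1)
    (hp2 : Function.Injective p.2) :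
    C.thetaMap L x p ≠ 0 ↔
      (riemannRochSpace (C.binf L ((C.lh : ℤ) - C.n) -
          ∑ j, Finsupp.single (C.pt L (p.1 j)) (1 : ℤ) - D) = ⊥ ∧
        riemannRochSpace (C.binf L ((C.lh : ℤ) - C.n) -
          ∑ j, Finsupp.single (C.pt L (p.1 j)) (1 : ℤ) + D) = ⊥) ∧
      (riemannRochSpace (C.binf L ((C.lh' : ℤ) - C.n) -
          ∑ j, Finsupp.single (C.pt L (p.2 j)) (1 : ℤ) - D) = ⊥ ∧
        riemannRochSpace (C.binf L ((C.lh' : ℤ) - C.n) -
          ∑ j, Finsupp.single (C.pt L (p.2 j)) (1 : ℤ) + D) = ⊥) := by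
  classical
  set S : Finset (Place L (C.curve L)) := (Finset.range C.pool).image (C.pt L) with hS
  have hmem : ∀ i : Fin C.pool, C.pt L (i : ℕ) ∈ S := fun i =>
    Finset.mem_image_of_mem _ (Finset.mem_range.mpr i.2)
  obtain ⟨E, hE, he, hEx, hav⟩ := C.exists_rep x S
  obtain ⟨E', hE', he', hEx', hav'⟩ := C.exists_rep (-x) S
  have hcl : C.cls L E + C.cls L E' = 0 := by rw [hEx, hEx', add_neg_cancel]
  obtain ⟨Φ⟩ := C.nonempty_frame C.goodLevel_lh.big hE hE' he he' hcl
  obtain ⟨Ψ⟩ := C.nonempty_frame C.goodLevel_lh'.big hE hE' he he' hcl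
  obtain ⟨c, hc, h⟩ := C.propTo_thetaMap hE hE' he he' hEx hEx' Φ Ψ
  have h' := congrFun h p
  simp only [Pi.smul_apply, smul_eq_mul] at h'
  rw [← Φ.theta_ne_zero_iff C.goodLevel_lh hE hE' he he' hD hx hEx hEx' p.1 hp1
      (fun j => hav _ (hmem _)) (fun j => hav' _ (hmem _)),
    ← Ψ.theta_ne_zero_iff C.goodLevel_lh' hE hE' he he' hD hx hEx hEx' p.2 hp2
      (fun j => hav _ (hmem _)) (fun j => hav' _ (hmem _)),
    ← mul_ne_zero_iff, h', mul_ne_zero_iff]
  exact ⟨fun h'' => ⟨hc, h''⟩, And.right⟩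

end CurveData

end Fermat.Agent.Row27

end
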