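import Fermat.Agent.Row27.ThetaDef

/-!
# The theta map on classes
-/

set_option autoImplicit false

noncomputable section

open AlgebraicCurve Module

namespace Fermat.Agent.Row27

universe u

variable {K : Type u} [Field K]

namespace CurveData

variable (C : CurveData K)

/-- The numerical conditions on a level. -/
structure GoodLevel (b : ℕ) : Prop where
  n_le : C.n ≤ b
  big : 2 * C.g + C.n ≤ b
  small : 2 * b + (C.n + C.n) < C.pool

lemma goodLevel_lh : C.GoodLevel C.lh :=
  ⟨by simp only [lh, l3, l2, l1, la, CurveData.n]; omega,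
    by simp only [lh, l3, l2, l1, la, CurveData.n]; omega,
    by simp only [lh, l3, l2, l1, la, CurveData.n, pool]; omega⟩

lemma goodLevel_lh' : C.GoodLevel C.lh' :=
  ⟨by simp only [lh', l2, l1, la, CurveData.n]; omega,
    by simp only [lh', l2, l1, la, CurveData.n]; omega,
    by simp only [lh', l2, l1, la, CurveData.n, pool]; omega⟩

variable (L : Type u) [Field L] [Algebra K L] [IsAlgClosed L]

/-- A representative of a class. -/
def repD (x : Pic0 L (C.curve L)) : Divisor L (C.curve L) := (C.exists_rep x ∅).choose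

lemma repD_nonneg (x : Pic0 L (C.curve L)) : 0 ≤ C.repD L x :=
  (C.exists_rep x ∅).choose_spec.1

lemma degree_repD (x : Pic0 L (C.curve L)) : Divisor.degree (C.repD L x) = C.n :=
  (C.exists_rep x ∅).choose_spec.2.1

lemma cls_repD (x : Pic0 L (C.curve L)) : C.cls L (C.repD L x) = x :=
  (C.exists_rep x ∅).choose_spec.2.2.1

/-- A frame of a class. -/
def frame {b : ℕ} (hb : C.GoodLevel b) (x : Pic0 L (C.curve L)) :
    C.Frame L b (C.repD L x) (C.repD L (-x)) :=
  (C.nonempty_frame hb.big (C.repD_nonneg L x) (C.repD_nonneg L (-x)) (C.degree_repD L x)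
    (C.degree_repD L (-x)) (by rw [cls_repD, cls_repD, add_neg_cancel])).some

/-- The theta map. -/
def thetaMap (x : Pic0 L (C.curve L)) (p : C.TIdx) : L :=
  (C.frame L C.goodLevel_lh x).theta p.1 * (C.frame L C.goodLevel_lh' x).theta p.2

lemma thetaMap_ne_zero (x : Pic0 L (C.curve L)) : C.thetaMap L x ≠ 0 := by
  have h1 := (C.frame L C.goodLevel_lh x).theta_ne_zero C.goodLevel_lh.n_le C.goodLevel_lh.small
  have h2 := (C.frame L C.goodLevel_lh' x).theta_ne_zero C.goodLevel_lh'.n_le C.goodLevel_lh'.small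
  obtain ⟨p, hp⟩ := Function.ne_iff.mp h1
  obtain ⟨q, hq⟩ := Function.ne_iff.mp h2
  exact fun h => mul_ne_zero hp hq (congrFun h (p, q))

variable {L}

/-- Any representatives compute the theta map up to a scalar. -/
lemma propTo_thetaMap {x : Pic0 L (C.curve L)} {D D' : Divisor L (C.curve L)} (hD : 0 ≤ D)
    (hD' : 0 ≤ D') (hd : Divisor.degree D = C.n) (hd' : Divisor.degree D' = C.n)
    (hx : C.cls L D = x) (hx' : C.cls L D' = -x) (Φ : C.Frame L C.lh D D')
    (Ψ : C.Frame L C.lh' D D') :
    PropTo (C.thetaMap L x) (fun p : C.TIdx => Φ.theta p.1 * Ψ.theta p.2) := by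
  obtain ⟨c, hc, h1⟩ := C.theta_propTo C.goodLevel_lh.n_le C.goodLevel_lh.big C.goodLevel_lh.small
    hD hD' (C.degree_repD L x) (C.degree_repD L (-x)) hd hd' (by rw [cls_repD, hx])
    (by rw [cls_repD, hx']) (C.frame L C.goodLevel_lh x) Φ
  obtain ⟨d, hd, h2⟩ := C.theta_propTo C.goodLevel_lh'.n_le C.goodLevel_lh'.big C.goodLevel_lh'.small
    hD hD' (C.degree_repD L x) (C.degree_repD L (-x)) hd hd' (by rw [cls_repD, hx])
    (by rw [cls_repD, hx']) (C.frame L C.goodLevel_lh' x) Ψ
  refine ⟨c * d, mul_ne_zero hc hd, funext fun p => ?_⟩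
  simp only [h1, h2, thetaMap, Pi.smul_apply, smul_eq_mul]
  ring

end CurveData

end Fermat.Agent.Row27

end
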