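import Fermat.Agent.Row27.Cube.Parallelogram
import Fermat.Agent.Row27.ThetaMap

/-!
# The parallelogram law of the theta map

At a valuation ring trivial on the constants a frame of adapted bases reduces to a frame over the
residue field, so the largest valuation of its tensor is one. Hence the largest valuation of the
theta map computes the symmetrised lattice class.
-/

set_option autoImplicit false

noncomputable section

open AlgebraicCurve Module IsLocalRing
open scoped Fermat.Agent.Reduction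

namespace Fermat.Agent.Row27

universe u

variable {K : Type u} [Field K] {L : Type u} [Field L] [Algebra K L] [IsAlgClosed L]

namespace CurveData

variable (C : CurveData K) (T : SpecTheory C)

section Integral

variable (A : ValuationSubring L) [Fact (TrivOn K A)]

omit [IsAlgClosed L] in
theorem coe_poolA {b : ℕ} (x : C.Idx b → A) (k : Fin C.pool) :
    (C.poolA A b x k : L) = C.evAt k b (cA A x) := by
  simp only [poolA, evAt, cA]
  push_cast
  rfl

omit [IsAlgClosed L] in
theorem residue_poolA {b : ℕ} (x : C.Idx b → A) (k : Fin C.pool) :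
    residue A (C.poolA A b x k) = C.evAt k b (redA A x) := by
  simp only [poolA, evAt, redA, map_sum, map_mul]
  rfl

/-- A quotient of integral vectors by a primitive one is integral. -/
theorem exists_integral_of_mulL {p q r : ℕ} (h : p + q ≤ r) {f : C.Idx p → A}
    (hf : redA A f ≠ 0) {x : C.Idx q → L} {y : C.Idx r → A}
    (e : C.mulL L r (cA A f) x = cA A y) : ∃ x' : C.Idx q → A, cA A x' = x := by
  rcases eq_or_ne x 0 with rfl | hx
  · exact ⟨0, funext fun _ => rfl⟩
  obtain ⟨d, x', -, rfl, hx', -⟩ := C.exists_normalised A hx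
  rw [map_smul, ← C.cA_mulA A] at e
  have hne := C.mulL_ne_zero (ResidueField A) h hf hx'
  rw [← C.redA_mulA A] at hne
  obtain ⟨l, hl⟩ := Function.ne_iff.mp hne
  have hd : A.valuation d ≤ 1 := by
    have h2 : A.valuation (d * (C.mulA A (r := r) f x' l : L)) ≤ 1 := by
      rw [show d * (C.mulA A (r := r) f x' l : L) = (y l : L) from congrFun e l]
      exact A.valuation_le_one _
    rwa [map_mul, valuation_eq_one_of_residue_ne_zero hl, mul_one] at h2
  exact ⟨fun i => ⟨d, (A.valuation_le_one_iff d).mp hd⟩ * x' i, funext fun _ => rfl⟩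

include T in
/-- The function of a pair reduces into the space of the reduced pair. -/
theorem red_mem_pair {m : ℕ} {X : Divisor L (C.curve L)} (hX0 : 0 ≤ X)
    (hX : Divisor.degree X = m) {f : C.Idx m → A} (hf : cA A f ∈ C.W L m X) :
    redA A f ∈ C.W (ResidueField A) m (C.redDiv A T X) := by
  have h0 : C.redDiv A T (0 : Divisor L (C.curve L)) = 0 := Finsupp.mapDomain_zero
  obtain ⟨w, hw⟩ := C.exists_isExact (ResidueField A) (p := C.n) (A := 0) le_rfl
    (by rw [map_zero]; simp only [n]; omega) (C.redDiv A T X)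
  obtain ⟨w₁, hw₁, hw₁'⟩ := C.exists_lift A T (D := (0 : Divisor L (C.curve L))) le_rfl
    (b := C.n) (by rw [map_zero]; simp only [n]; omega) (y := w) (by rw [h0]; exact hw.2.1)
  have h1 : cA A (C.mulA A (r := C.n + m) w₁ f) ∈ C.W L (C.n + m) (0 + X) := by
    rw [C.cA_mulA A]
    exact C.mulL_mem L rfl hw₁ hf
  rw [zero_add] at h1
  have h2 := C.red_mem_W A T hX0 (b := C.n + m) (by rw [hX]; simp only [n]; push_cast; omega) h1
  rw [C.redA_mulA A, hw₁'] at h2
  have h3 := C.mem_of_mulL_mem (ResidueField A) rfl hw (D := 0)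
    (C.mem_W_zero (ResidueField A) (redA A f)) (by rwa [add_zero, zero_add])
  rwa [zero_add] at h3

end Integral

variable {C}

include T in
/-- The largest valuation of the tensor of a frame. -/
theorem Frame.vmax_theta {b : ℕ} (hb : 2 * C.g + C.n < b) (hs : 2 * b + (C.n + C.n) < C.pool)
    {D D' : Divisor L (C.curve L)} (hD : 0 ≤ D) (hD' : 0 ≤ D')
    (hd : Divisor.degree D = C.n) (hd' : Divisor.degree D' = C.n) (Φ : C.Frame L b D D')
    (A : ValuationSubring L) (hA : TrivOn K A) :
    vmax A Φ.theta * C.content A Φ.f ^ C.nW b =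
      lev A (C.poolV L b) Φ.u * lev A (C.poolV L b) Φ.u' := by
  have : Fact (TrivOn K A) := ⟨hA⟩
  have hn : C.n ≤ b := by omega
  have d1 : 2 * (C.g : ℤ) + Divisor.degree D < b := by rw [hd]; exact_mod_cast hb
  have d2 : 2 * (C.g : ℤ) + Divisor.degree D' < b := by rw [hd']; exact_mod_cast hb
  have hpool : b < C.pool := by omega
  have hU : IsBas (C.W L b D) Φ.u := ⟨Φ.u_mem, Φ.u_li, by
    rw [Fintype.card_fin, C.finrank_W_nat b C.n hD hd hb.le]⟩
  have hU' : IsBas (C.W L b D') Φ.u' := ⟨Φ.u'_mem, Φ.u'_li, by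
    rw [Fintype.card_fin, C.finrank_W_nat b C.n hD' hd' hb.le]⟩
  obtain ⟨v, M, hv, -, hM, eM⟩ := C.exists_lev_eq T hD d1 hpool hU A
  obtain ⟨v', M', hv', -, hM', eM'⟩ := C.exists_lev_eq T hD' d2 hpool hU' A
  obtain ⟨c, f, hc, hf, hfr, ec⟩ := C.exists_normalised A Φ.f_ne
  have hfm : cA A f ∈ C.W L (C.n + C.n) (D + D') := by
    have h := Φ.f_mem
    rw [hf] at h
    exact (Submodule.smul_mem_iff _ hc).mp h
  have hf0 : cA A f ≠ 0 := fun h => Φ.f_ne (by rw [hf, h, smul_zero])
  obtain ⟨Φ₀, e1, e2, e3⟩ := C.exists_frame' hn hd hd' hv.mem hv'.mem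
    (linearIndependent_cA hv.li) (linearIndependent_cA hv'.li) hfm hf0
  have hchg := C.theta_eq_of_change hn Φ₀ Φ c⁻¹ M M' (r := 1) (r' := 1)
    (fun i => by rw [one_mul, hM i, e1]) (fun i => by rw [one_mul, hM' i, e2])
    (by rw [e3, one_mul, mul_one, hf, map_smul, smul_smul, inv_mul_cancel₀ hc, one_smul])
  have hh : ∀ i k, ∃ x : C.Idx (C.hl b) → A, cA A x = Φ₀.h i k := fun i k =>
    C.exists_integral_of_mulL A (r := b + b) (by simp only [hl]; omega) hfr
      (y := C.mulA A (v i) (v' k)) (by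
        rw [C.cA_mulA A, C.mulL_apply, C.mulL_apply, ← e3, Φ₀.h_mul i k, e1, e2])
  choose h hh using hh
  have hdd : Divisor.degree (D + D') = ((C.n + C.n : ℕ) : ℤ) := by
    rw [map_add, hd, hd']; push_cast; ring
  let Φr : C.Frame (ResidueField A) b (C.redDiv A T D) (C.redDiv A T D') :=
    { u := fun i => redA A (v i)
      u' := fun i => redA A (v' i)
      f := redA A f
      h := fun i k => redA A (h i k)
      u_mem := fun i => C.red_mem_W A T hD d1 (hv.mem i)
      u'_mem := fun i => C.red_mem_W A T hD' d2 (hv'.mem i)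
      u_li := hv.li
      u'_li := hv'.li
      f_mem := by
        rw [← C.redDiv_add A T]
        exact C.red_mem_pair T A (add_nonneg hD hD') hdd hfm
      f_ne := hfr
      h_mul := fun i k => by
        rw [← C.mulL_apply, ← C.mulL_apply, ← C.redA_mulA A, ← C.redA_mulA A]
        have e : cA A (C.mulA A (r := b + b) f (h i k)) =
            cA A (C.mulA A (r := b + b) (v i) (v' k)) := by
          rw [C.cA_mulA A, C.cA_mulA A, hh, C.mulL_apply, C.mulL_apply, ← e3, Φ₀.h_mul i k, e1, e2]
        exact congrArg (redA A) (funext fun l => Subtype.ext (congrFun e l)) }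
  obtain ⟨p, hp⟩ := Function.ne_iff.mp (Φr.theta_ne_zero hn hs)
  set s : C.TuIdx b → A := fun q =>
    mixedSum fun j => Matrix.of fun i k => C.poolA A (C.hl b) (h i k) (q j) with hs'
  have es : ∀ q, Φ₀.theta q = (s q : L) := fun q => by
    show _ = A.subtype (s q)
    rw [hs', map_mixedSum, Frame.theta]
    refine congrArg mixedSum (funext fun j => Matrix.ext fun i k => ?_)
    simp only [Matrix.map_apply, Matrix.of_apply, ValuationSubring.subtype_apply, coe_poolA, hh]
  have er : residue A (s p) = Φr.theta p := by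
    rw [hs', map_mixedSum, Frame.theta]
    refine congrArg mixedSum (funext fun j => Matrix.ext fun i k => ?_)
    simp only [Matrix.map_apply, Matrix.of_apply, residue_poolA]
    rfl
  have h1 : vmax A Φ₀.theta = 1 := by
    refine vmax_eq_one (fun q => by rw [es]; exact SetLike.coe_mem _) (i := p) ?_
    rw [es]
    exact valuation_eq_one_of_residue_ne_zero (er.trans_ne hp)
  rw [hchg, eM, eM', ec, show vmax A ((c⁻¹ ^ C.nW b * (M.det * M'.det)) • Φ₀.theta) =
    A.valuation (c⁻¹ ^ C.nW b * (M.det * M'.det)) * vmax A Φ₀.theta from vmax_const_mul _ _, h1,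
    mul_one, map_mul, map_mul, map_pow, map_inv₀, inv_pow, mul_comm, ← mul_assoc,
    mul_inv_cancel₀ (pow_ne_zero _ ((Valuation.ne_zero_iff _).mpr hc)), one_mul]

variable (C)

omit [Algebra K L] [IsAlgClosed L] in
theorem vmax_prod {ι κ : Type*} [Fintype ι] [Fintype κ] [Nonempty ι] [Nonempty κ]
    (A : ValuationSubring L) (s : ι → L) (t : κ → L) :
    vmax A (fun p : ι × κ => s p.1 * t p.2) = vmax A s * vmax A t := by
  refine le_antisymm (vmax_le_iff.mpr fun p => ?_) ?_
  · rw [map_mul]
    exact mul_le_mul' (le_vmax A s p.1) (le_vmax A t p.2)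
  · obtain ⟨i, hi⟩ := exists_vmax_eq A s
    obtain ⟨k, hk⟩ := exists_vmax_eq A t
    rw [hi, hk, ← map_mul]
    exact le_vmax A (fun p : ι × κ => s p.1 * t p.2) (i, k)

omit [Algebra K L] [IsAlgClosed L] in
theorem vmax_ne_zero {ι : Type*} [Fintype ι] [Nonempty ι] (A : ValuationSubring L) {s : ι → L}
    (hs : s ≠ 0) : vmax A s ≠ 0 := fun h => by
  obtain ⟨i, hi⟩ := Function.ne_iff.mp hs
  have h1 := le_vmax A s i
  rw [h, le_zero_iff, Valuation.zero_iff] at h1
  exact hi h1

include T in
theorem vcl_vmax_frame {b : ℕ} (hb : 2 * C.g + C.n < b) (hs : 2 * b + (C.n + C.n) < C.pool)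
    (x : Pic0 L (C.curve L)) (Φ : C.Frame L b (C.repD L x) (C.repD L (-x))) :
    vcl K (fun A => vmax A Φ.theta) = C.hsym b x := by
  have hU : IsBas (C.W L b (C.repD L x)) Φ.u := ⟨Φ.u_mem, Φ.u_li, by
    rw [Fintype.card_fin, C.finrank_W_nat b C.n (C.repD_nonneg L x) (C.degree_repD L x) hb.le]⟩
  have hU' : IsBas (C.W L b (C.repD L (-x))) Φ.u' := ⟨Φ.u'_mem, Φ.u'_li, by
    rw [Fintype.card_fin,
      C.finrank_W_nat b C.n (C.repD_nonneg L (-x)) (C.degree_repD L (-x)) hb.le]⟩
  refine C.vcl_eq_hsym T hb (by omega) (D := C.repD L x) (D' := C.repD L (-x))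
    ⟨C.repD_nonneg L x, C.degree_repD L x, C.cls_repD L x⟩
    ⟨C.repD_nonneg L (-x), C.degree_repD L (-x), C.cls_repD L (-x)⟩ hU hU' Φ.f_mem Φ.f_ne
    (fun A _ => vmax_ne_zero A (Φ.theta_ne_zero (by omega) hs)) fun A hA =>
      Φ.vmax_theta T hb hs (C.repD_nonneg L x) (C.repD_nonneg L (-x)) (C.degree_repD L x)
        (C.degree_repD L (-x)) A hA

include T in
/-- **The parallelogram law of the theta map.** -/
theorem thetaMap_parallelogram (x y : Pic0 L (C.curve L)) :
    ∃ lam : L, lam ≠ 0 ∧ ∀ A : ValuationSubring L, TrivOn K A →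
      vmax A (C.thetaMap L (x + y)) * vmax A (C.thetaMap L (x - y)) =
        A.valuation lam * (vmax A (C.thetaMap L x) * vmax A (C.thetaMap L y)) ^ 2 := by
  refine C.exists_parallelogram_of_vcl T (fun z A => vmax A (C.thetaMap L z))
    (fun z A _ => vmax_ne_zero A (C.thetaMap_ne_zero L z)) (fun z => ?_) x y
  have b1 : 2 * C.g + C.n < C.lh := by simp only [lh, l3, l2, l1, la, n]; omega
  have b2 : 2 * C.g + C.n < C.lh' := by simp only [lh', l2, l1, la, n]; omega
  set Φ := C.frame L C.goodLevel_lh z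
  set Ψ := C.frame L C.goodLevel_lh' z
  have n1 : VNe K fun A => vmax A Φ.theta := fun A _ =>
    vmax_ne_zero A (Φ.theta_ne_zero C.goodLevel_lh.n_le C.goodLevel_lh.small)
  have n2 : VNe K fun A => vmax A Ψ.theta := fun A _ =>
    vmax_ne_zero A (Ψ.theta_ne_zero C.goodLevel_lh'.n_le C.goodLevel_lh'.small)
  rw [hquad, ← C.vcl_vmax_frame T b1 C.goodLevel_lh.small z Φ,
    ← C.vcl_vmax_frame T b2 C.goodLevel_lh'.small z Ψ, ← vcl_mul n1 n2]
  exact vcl_congr fun A _ => vmax_prod A Φ.theta Ψ.theta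

end CurveData

end Fermat.Agent.Row27

end
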