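import Fermat.Agent.Row27.ThetaSpec
import Fermat.Agent.Row27.ThetaCrit
import Fermat.Agent.Row27.ThetaParallelogram

/-!
# The theta theory of a curve
-/

set_option autoImplicit false

noncomputable section

open AlgebraicCurve Module

namespace Fermat.Agent.Row27

universe u

variable {K : Type u} [Field K]

/-- The theta theory of a curve. -/
def thetaTheory (C : CurveData K) (T : SpecTheory C) : ThetaTheory C T where
  theta L _ _ _ x := C.thetaMap L x
  theta_ne_zero L _ _ _ x := C.thetaMap_ne_zero L x
  theta_spec φ x := C.thetaMap_spec T φ x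
  parallelogram _ _ _ _ _ x y := CurveData.thetaMap_parallelogram C T x y
  theta_ne_zero_iff hg L _ _ _ x D hD hx p hp1 hp2 :=
    CurveData.thetaMap_ne_zero_iff hg L x D hD hx p hp1 hp2

end Fermat.Agent.Row27

end
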