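import Fermat.Agent.Row27.BoxBound
import Mathlib.FieldTheory.IsAlgClosed.Basic
import Mathlib.RingTheory.Norm.Basic
import Mathlib.FieldTheory.SeparableClosure
import Mathlib.FieldTheory.PurelyInseparable.Basic

/-!
# Growth of bounded spaces

For a field `M` and a family `s` in it with `g` independent members, the spaces of elements of
`M` bounded by the `m`-th power of the values of `s` have dimension of order `m ^ g`.
-/

set_option autoImplicit false

noncomputable section

open Module

namespace Fermat.Agent.Row27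

variable {K Ω : Type*} [Field K] [Field Ω] [Algebra K Ω]

section Bounds

variable {r : ℕ} {t : Fin r → Ω}

/-- Polynomial values are bounded by powers of a common bound of the variables. -/
lemma valuation_aeval_le {A : ValuationSubring Ω} (hA : TrivOn K A) {y : Ω}
    (h1 : 1 ≤ A.valuation y) (ht : ∀ i, A.valuation (t i) ≤ A.valuation y)
    (p : MvPolynomial (Fin r) K) :
    A.valuation (MvPolynomial.aeval t p) ≤ A.valuation y ^ p.totalDegree := by
  conv_lhs => rw [p.as_sum, map_sum]
  refine A.valuation.map_sum_le fun d hd => ?_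
  rw [MvPolynomial.aeval_monomial, map_mul, Finsupp.prod, map_prod]
  refine (mul_le_mul' (hA.valuation_le _) (Finset.prod_le_prod' fun i _ =>
    (map_pow A.valuation (t i) (d i)).trans_le (pow_le_pow_left' (ht i) (d i)))).trans ?_
  rw [one_mul, Finset.prod_pow_eq_pow_sum]
  exact pow_le_pow_right₀ h1 (MvPolynomial.le_totalDegree hd)

/-- Roots of a monic polynomial over `K[t]` are bounded in the same way. -/
lemma exists_bound_of_monic (P : Polynomial (MvPolynomial (Fin r) K)) (hP : P.Monic) :
    ∃ D : ℕ, ∀ (z : Ω), P.eval₂ (MvPolynomial.aeval t).toRingHom z = 0 →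
      ∀ (A : ValuationSubring Ω) (y : Ω), TrivOn K A → 1 ≤ A.valuation y →
      (∀ i, A.valuation (t i) ≤ A.valuation y) → A.valuation z ≤ A.valuation y ^ D := by
  refine ⟨(Finset.range (P.natDegree + 1)).sup fun k => (P.coeff k).totalDegree,
    fun z hz A y hA h1 ht => ?_⟩
  refine valuation_le_of_monic (p := P.map (MvPolynomial.aeval t).toRingHom) (hP.map _)
    (by rw [Polynomial.eval_map]; exact hz) (one_le_pow₀ h1) fun k => ?_
  rw [Polynomial.coeff_map]
  rcases lt_or_ge P.natDegree k with hk | hk
  · simp [Polynomial.coeff_eq_zero_of_natDegree_lt hk]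
  · exact (valuation_aeval_le hA h1 ht _).trans (pow_le_pow_right₀ h1
      (Finset.le_sup (f := fun k => (P.coeff k).totalDegree) (Finset.mem_range.mpr (by omega))))

end Bounds

variable {ι : Type*} [Fintype ι] [Nonempty ι] {M M' : IntermediateField K Ω} {s s' : ι → Ω}
  {g : ℕ}

/-- Products of a transcendence basis among the family give the lower bound. -/
lemma pow_le_finrank_bdd {u : Fin g → ι} (hu : AlgebraicIndependent K fun j => s (u j))
    (hs : ∀ i, s i ∈ M) {i₀ : ι} (h0 : s i₀ = 1) (k : ℕ) [Module.Finite K (bdd K M s (g * k))] :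
    (k + 1) ^ g ≤ finrank K (bdd K M s (g * k)) := by
  classical
  let w : (Fin g → Fin (k + 1)) → bdd K M s (g * k) := fun e => ⟨∏ j, s (u j) ^ (e j : ℕ), by
    refine ⟨prod_mem fun j _ => pow_mem (hs _) _, fun A hA => ?_⟩
    rw [map_prod]
    calc ∏ j, A.valuation (s (u j) ^ (e j : ℕ)) ≤ ∏ _j : Fin g, vmax A s ^ k :=
          Finset.prod_le_prod' fun j _ => by
            rw [map_pow]
            exact (pow_le_pow_left' (le_vmax A s _) _).trans
              (vmax_pow_le h0 (Nat.lt_succ_iff.mp (e j).2))
      _ = vmax A s ^ (g * k) := by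
          rw [Finset.prod_const, Finset.card_univ, Fintype.card_fin, ← pow_mul, Nat.mul_comm]⟩
  have hw : LinearIndependent K w := by
    refine LinearIndependent.of_comp (bdd K M s (g * k)).subtype ?_
    let emb : (Fin g → Fin (k + 1)) → Fin g →₀ ℕ := fun e =>
      Finsupp.equivFunOnFinite.symm fun j => (e j : ℕ)
    have hinj : Function.Injective emb := fun a b h =>
      funext fun j => Fin.ext (congrFun (Finsupp.equivFunOnFinite.symm.injective h) j)
    have h1 := ((MvPolynomial.basisMonomials (Fin g) K).linearIndependent.comp emb hinj).map'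
      (MvPolynomial.aeval fun j => s (u j)).toLinearMap
      (LinearMap.ker_eq_bot.mpr (algebraicIndependent_iff_injective_aeval.mp hu))
    have key : ((bdd K M s (g * k)).subtype ∘ w) = (MvPolynomial.aeval fun j => s (u j)).toLinearMap ∘
        (MvPolynomial.basisMonomials (Fin g) K) ∘ emb := funext fun e => by
      simp [w, emb, MvPolynomial.aeval_monomial, Finsupp.prod_fintype]
    rw [key]; exact h1
  simpa using hw.fintype_card_le_finrank

lemma isIntegral_of_independent {T : Fin g → Ω} (hT : IsTranscendenceBasis K T)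
    {u : Fin g → Ω} (hu : AlgebraicIndependent K u) {E : IntermediateField K Ω}
    (hE : ∀ j, IsIntegral E (u j)) (x : Ω) : IsIntegral E x := by
  have hb : IsTranscendenceBasis K u :=
    AlgebraicIndependent.isTranscendenceBasis_of_lift_trdeg_le_of_finite hu
      hT.lift_cardinalMk_eq_trdeg.ge
  have hx : IsIntegral (IntermediateField.adjoin K (Set.range u)) x :=
    ((hb.isAlgebraic_field).isAlgebraic x).isIntegral
  have hle : IntermediateField.adjoin K (Set.range u) ≤
      (algebraicClosure E Ω).restrictScalars K := by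
    rw [IntermediateField.adjoin_le_iff]
    rintro _ ⟨j, rfl⟩
    exact mem_algebraicClosure_iff.mpr (hE j).isAlgebraic
  let : Algebra (IntermediateField.adjoin K (Set.range u)) (algebraicClosure E Ω) :=
    (Subalgebra.inclusion (R := K) hle).toAlgebra
  have : IsScalarTower (IntermediateField.adjoin K (Set.range u)) (algebraicClosure E Ω) Ω :=
    IsScalarTower.of_algebraMap_eq fun _ => rfl
  exact isIntegral_trans (R := E) x (hx.tower_top (A := algebraicClosure E Ω))

section Upper

variable [IsAlgClosed Ω]

/-- Extension of an embedding of an intermediate field. -/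
lemma exists_extension {E : IntermediateField K Ω} (hE : ∀ x : Ω, IsIntegral E x)
    {L : IntermediateField E Ω} (σ : L →ₐ[E] Ω) :
    ∃ τ : Ω →ₐ[E] Ω, ∀ x : L, τ x = σ x := by
  have : Algebra.IsAlgebraic E Ω := ⟨fun x => (hE x).isAlgebraic⟩
  have : IsAlgClosure E Ω := ⟨inferInstance, inferInstance⟩
  have : Normal E Ω := IsAlgClosure.normal E Ω
  exact ⟨σ.liftNormal Ω, fun x => σ.liftNormal_commutes Ω x⟩

omit [IsAlgClosed Ω] in
/-- A uniform power of a finitely generated field is separable over a field it is algebraic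
over. -/
lemma exists_pow_isSeparable (E : IntermediateField K Ω) (hE : ∀ x : Ω, IsIntegral E x)
    (hM : M.FG) (p : ℕ) [ExpChar Ω p] :
    ∃ e : ℕ, ∀ x ∈ M, x ^ p ^ e ∈ separableClosure E Ω := by
  classical
  have : ExpChar E p := RingHom.expChar (algebraMap E Ω) (algebraMap E Ω).injective p
  have hone : ∀ x : Ω, ∃ n, x ^ p ^ n ∈ separableClosure E Ω := fun x => by
    obtain ⟨P, h1, n, h2⟩ := (minpoly.irreducible (hE x)).hasSeparableContraction p
    exact ⟨n, mem_separableClosure_iff.mpr (h1.of_dvd (minpoly.dvd E _ (by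
      simpa only [Polynomial.expand_aeval, minpoly.aeval] using congr_arg (Polynomial.aeval x) h2)))⟩
  choose n hn using hone
  obtain ⟨S, rfl⟩ := hM
  refine ⟨S.sup n, fun x hx => ?_⟩
  induction hx using IntermediateField.adjoin_induction with
  | mem y hy =>
      obtain ⟨d, hd⟩ := Nat.exists_eq_add_of_le (Finset.le_sup (f := n) hy)
      rw [hd, pow_add, pow_mul]
      exact pow_mem (hn y) _
  | algebraMap c =>
      rw [← map_pow, IsScalarTower.algebraMap_apply K E Ω]
      exact (separableClosure E Ω).algebraMap_mem _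
  | add y z _ _ hy hz => rw [add_pow_expChar_pow]; exact add_mem hy hz
  | inv y _ hy => rw [inv_pow]; exact inv_mem hy
  | mul y z _ _ hy hz => rw [mul_pow]; exact mul_mem hy hz

variable [PerfectField K]

/-- The bounded spaces grow at most like `m ^ g`. -/
theorem exists_finrank_bdd_le {T : Fin g → Ω} (hT : IsTranscendenceBasis K T) (hM : M.FG)
    (hs : ∀ i, s i ∈ M) {u : Fin g → ι}
    (hu : AlgebraicIndependent K fun j => s (u j)) :
    ∃ B : ℕ, ∀ m : ℕ, Module.Finite K (bdd K M s m) ∧
      finrank K (bdd K M s m) ≤ B * (m + 1) ^ g := by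
  classical
  obtain ⟨p, hp⟩ := ExpChar.exists (R := Ω)
  have : ExpChar K p := RingHom.expChar (algebraMap K Ω) (algebraMap K Ω).injective p
  have : PerfectRing K p := PerfectField.toPerfectRing p
  set R := Algebra.adjoin K (Set.range s)
  have : Algebra.FiniteType K R := (Subalgebra.fg_iff_finiteType R).mp
    (Subalgebra.fg_def.mpr ⟨_, Set.finite_range s, rfl⟩)
  obtain ⟨r, φ, hinj, hint⟩ := exists_integral_inj_algHom_of_fg K R
  let t : Fin r → Ω := fun i => (φ (MvPolynomial.X i) : Ω)
  have haev : MvPolynomial.aeval t = R.val.comp φ :=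
    MvPolynomial.algHom_ext fun i => by simp [t]
  have ht : AlgebraicIndependent K t := algebraicIndependent_iff_injective_aeval.mpr (by
    rw [haev]; exact Subtype.val_injective.comp hinj)
  have hr : r ≤ g := by
    have h1 := ht.lift_cardinalMk_le_trdeg
    rw [← hT.lift_cardinalMk_eq_trdeg] at h1
    simpa using h1
  set E := IntermediateField.adjoin K (Set.range t)
  let P := Algebra.adjoin K (Set.range t)
  have htP : ∀ p : MvPolynomial (Fin r) K, MvPolynomial.aeval t p ∈ P := fun p => by
    show MvPolynomial.aeval t p ∈ Algebra.adjoin K (Set.range t)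
    rw [Algebra.adjoin_range_eq_range_aeval]; exact ⟨p, rfl⟩
  have hroot : ∀ i, ∃ Q : Polynomial (MvPolynomial (Fin r) K), Q.Monic ∧
      Q.eval₂ (MvPolynomial.aeval t).toRingHom (s i) = 0 := by
    intro i
    obtain ⟨Q, hQ, hQ0⟩ := hint ⟨s i, Algebra.subset_adjoin ⟨i, rfl⟩⟩
    refine ⟨Q, hQ, ?_⟩
    have h := congrArg R.val.toRingHom hQ0
    rw [Polynomial.hom_eval₂, map_zero] at h
    rw [haev]; exact h
  have hsint : ∀ i, IsIntegral P (s i) := by
    intro i
    obtain ⟨Q, hQ, hQ0⟩ := hroot i
    refine ⟨Q.map ((MvPolynomial.aeval t).codRestrict P htP).toRingHom, hQ.map _, ?_⟩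
    rw [Polynomial.eval₂_map]
    exact hQ0
  have hEΩ : ∀ x : Ω, IsIntegral E x := isIntegral_of_independent hT hu fun j => by
    let : Algebra P E := (Subalgebra.inclusion (IntermediateField.algebra_adjoin_le_adjoin K _)).toAlgebra
    have : IsScalarTower P E Ω := IsScalarTower.of_algebraMap_eq fun _ => rfl
    exact (hsint (u j)).tower_top
  have hEM : E ≤ M := by
    rw [IntermediateField.adjoin_le_iff]
    rintro _ ⟨i, rfl⟩
    exact (Algebra.adjoin_le (S := M.toSubalgebra) (by rintro _ ⟨k, rfl⟩; exact hs k))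
      (φ (MvPolynomial.X i)).2
  let M₁ := IntermediateField.extendScalars hEM ⊓ separableClosure E Ω
  obtain ⟨e, he⟩ := exists_pow_isSeparable E hEΩ hM p
  have : Algebra.IsSeparable E M₁ := (le_separableClosure_iff E Ω M₁).mp inf_le_right
  have : FiniteDimensional E M₁ := by
    obtain ⟨S, hS⟩ := hM
    have h2 := IntermediateField.finiteDimensional_adjoin (K := E) (S := (S : Set Ω))
      fun x _ => hEΩ x
    have hle : M₁ ≤ IntermediateField.adjoin E (S : Set Ω) := fun x hx => by
      have hxM : x ∈ M := hx.1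
      rw [← hS] at hxM
      exact (IntermediateField.adjoin_le_iff
        (T := (IntermediateField.adjoin E (S : Set Ω)).restrictScalars K)).mpr
        (IntermediateField.subset_adjoin E (S : Set Ω)) hxM
    exact Module.Finite.of_injective (IntermediateField.inclusion hle).toLinearMap
      (IntermediateField.inclusion hle).injective
  let b := Module.finBasis E M₁
  have hmul : ∀ i, ∃ (c : E) (z : M₁), c ≠ 0 ∧ z = c • b i ∧
      ∃ D : ℕ, ∀ (τ : Ω →ₐ[E] Ω) (A : ValuationSubring Ω) (y : Ω), TrivOn K A →
        1 ≤ A.valuation y → (∀ i, A.valuation (t i) ≤ A.valuation y) →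
          A.valuation (τ z) ≤ A.valuation y ^ D := by
    intro i
    have h1 : IsAlgebraic P (b i : Ω) :=
      (IntermediateField.isAlgebraic_adjoin_iff (F := K)).mp (hEΩ _).isAlgebraic
    obtain ⟨c, hc, hci⟩ := h1.exists_integral_multiple
    let cE : E := ⟨c, IntermediateField.algebra_adjoin_le_adjoin K _ c.2⟩
    refine ⟨cE, cE • b i, fun h => hc (Subtype.ext (congrArg Subtype.val h :)), rfl, ?_⟩
    obtain ⟨Q, hQ, hQ0⟩ := hci
    have hsurj : Function.Surjective ((MvPolynomial.aeval t).codRestrict P htP).toRingHom :=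
      fun x => by
        have hx : (x : Ω) ∈ Algebra.adjoin K (Set.range t) := x.2
        rw [Algebra.adjoin_range_eq_range_aeval] at hx
        obtain ⟨p, hp⟩ := hx
        exact ⟨p, Subtype.ext hp⟩
    obtain ⟨Q', hQ', -, hQ'm⟩ := Polynomial.lifts_and_degree_eq_and_monic
      (show Q ∈ Polynomial.lifts _ from
        Polynomial.lifts_iff_coeff_lifts _ |>.mpr fun k => hsurj _) hQ
    obtain ⟨D, hD⟩ := exists_bound_of_monic (t := t) Q' hQ'm
    refine ⟨D, fun τ A y hA h1y hty => hD _ ?_ A y hA h1y hty⟩
    have hQ2 : Q'.eval₂ (MvPolynomial.aeval t).toRingHom (((cE • b i : M₁)) : Ω) = 0 := by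
      rw [← hQ', Polynomial.eval₂_map] at hQ0
      exact hQ0
    have h2 := congrArg τ.toRingHom hQ2
    rw [Polynomial.hom_eval₂, map_zero] at h2
    have hτ' : (τ.toRingHom).comp (MvPolynomial.aeval t).toRingHom =
        (MvPolynomial.aeval t).toRingHom := RingHom.ext fun p =>
      τ.commutes (⟨_, IntermediateField.algebra_adjoin_le_adjoin K _ (htP p)⟩ : E)
    rw [hτ'] at h2
    exact h2
  choose c z hc hz Dz hDz using hmul
  have hDs : ∀ i, ∃ D : ℕ, ∀ (A : ValuationSubring Ω) (y : Ω), TrivOn K A →
      1 ≤ A.valuation y → (∀ i, A.valuation (t i) ≤ A.valuation y) →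
        A.valuation (s i) ≤ A.valuation y ^ D := by
    intro i
    obtain ⟨Q, hQ, hQ0⟩ := hroot i
    obtain ⟨D, hD⟩ := exists_bound_of_monic (t := t) Q hQ
    exact ⟨D, hD _ hQ0⟩
  choose Ds hDs using hDs
  let D := Finset.univ.sup Ds + Finset.univ.sup Dz
  have hkey : ∀ (m : ℕ) (f : M₁), (f : Ω) ∈ bdd K M s m → ∀ i,
      ((Algebra.trace E M₁ (f * z i) : E) : Ω) ∈ Submodule.span K (box t (D * (m + 1)) : Set Ω) := by
    intro m f hf i
    set x : Ω := ((Algebra.trace E M₁ (f * z i) : E) : Ω) with hxdef
    have hb : ∀ (A : ValuationSubring Ω) (y : Ω), TrivOn K A → 1 ≤ A.valuation y → y ∈ E →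
        (∀ i, A.valuation (t i) ≤ A.valuation y) →
          A.valuation x ≤ A.valuation y ^ (D * (m + 1)) := by
      intro A y hA h1 hy hty
      rw [hxdef, show ((Algebra.trace E M₁ (f * z i) : E) : Ω) = algebraMap E Ω _ from rfl,
        trace_eq_sum_embeddings Ω]
      refine A.valuation.map_sum_le fun σ _ => ?_
      obtain ⟨τ, hτ⟩ := exists_extension hEΩ σ
      rw [map_mul, map_mul, ← hτ f, ← hτ (z i)]
      have hfix : ∀ e ∈ E, τ e = e := fun e he => τ.commutes ⟨e, he⟩
      have h2 : A.valuation (τ f) ≤ A.valuation y ^ (Finset.univ.sup Ds * m) := by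
        let τK : Ω →ₐ[K] Ω := τ.restrictScalars K
        obtain ⟨k, hk⟩ := exists_vmax_eq (A.comap (τK : Ω →+* Ω)) s
        have h3 := hf.2 _ (hA.comap τK)
        have h4 : (A.comap (τK : Ω →+* Ω)).valuation (s k) ≤
            (A.comap (τK : Ω →+* Ω)).valuation y ^ Ds k := by
          refine hDs k _ y (hA.comap τK) ?_ fun l => ?_
          · rw [← map_one (A.comap (τK : Ω →+* Ω)).valuation, valuation_comap_le_iff]
            simpa [τK, hfix y hy] using h1
          · rw [valuation_comap_le_iff]
            simpa [τK, hfix y hy, hfix _ (IntermediateField.subset_adjoin K _ ⟨l, rfl⟩)] using hty l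
        rw [hk] at h3
        have h5 := h3.trans (pow_le_pow_left' h4 m)
        rw [← pow_mul, ← map_pow, valuation_comap_le_iff] at h5
        simp only [τK, AlgHom.coe_restrictScalars', map_pow, hfix y hy] at h5
        exact h5.trans (pow_le_pow_right₀ h1
          (Nat.mul_le_mul_right m (Finset.le_sup (Finset.mem_univ k))))
      refine (mul_le_mul' h2 ((hDz i τ A y hA h1 hty).trans
        (pow_le_pow_right₀ h1 (Finset.le_sup (Finset.mem_univ i))))).trans ?_
      rw [← pow_add]
      exact pow_le_pow_right₀ h1 (by simp only [D]; nlinarith)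
    obtain ⟨p, hp⟩ := exists_aeval_eq_of_isIntegral ht (x := x) (Subtype.prop _)
      (isIntegral_of_forall_valuation fun A hA hAt => by
        simpa using hb A 1 hA (by simp) (one_mem E) fun i => by simpa using hAt i)
    rw [← hp]
    refine aeval_mem_span_box ht fun j A hA hj hE => ?_
    rw [hp]
    refine hb A (t j) hA hj.le (IntermediateField.subset_adjoin K _ ⟨j, rfl⟩) fun l => ?_
    by_cases hl : l = j
    · rw [hl]
    · exact (hE _ (IntermediateField.subset_adjoin K _ ⟨l, hl, rfl⟩)).trans hj.le
  let V : ℕ → Submodule K Ω := fun m =>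
    bdd K M s m ⊓ ((separableClosure E Ω).restrictScalars K).toSubalgebra.toSubmodule
  suffices hV : ∀ m, Module.Finite K (V m) ∧
      finrank K (V m) ≤ finrank E M₁ * (D + 1) ^ g * (m + 1) ^ g by
    refine ⟨finrank E M₁ * (D + 1) ^ g * (p ^ e) ^ g, fun m => ?_⟩
    have := (hV (p ^ e * m)).1
    let J : bdd K M s m →+ V (p ^ e * m) :=
      { toFun := fun f => ⟨(f : Ω) ^ p ^ e, pow_mem_bdd f.2 _, he _ f.2.1⟩
        map_zero' := Subtype.ext (zero_pow (pow_pos (expChar_pos Ω p) e).ne')
        map_add' := fun f f' => Subtype.ext (add_pow_expChar_pow (f : Ω) f' p e) }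
    have hJ : Function.Injective J := fun f f' h => Subtype.ext (by
      have h' : iterateFrobenius Ω p e f = iterateFrobenius Ω p e f' := by
        rw [iterateFrobenius_def, iterateFrobenius_def]
        exact congrArg Subtype.val h
      exact (iterateFrobenius Ω p e).injective h')
    have hrank : Module.rank K (bdd K M s m) ≤ Module.rank K (V (p ^ e * m)) :=
      rank_le_of_surjective_injective (fun c : K => c ^ p ^ e) J
        (fun c => ⟨(iterateFrobeniusEquiv K p e).symm c,
          (iterateFrobeniusEquiv_def K p e _).symm.trans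
            ((iterateFrobeniusEquiv K p e).apply_symm_apply c)⟩)
        hJ fun c f => Subtype.ext (by
          simp [J, Algebra.smul_def, mul_pow])
    have hfin : Module.Finite K (bdd K M s m) :=
      Module.rank_lt_aleph0_iff.mp (hrank.trans_lt (Module.rank_lt_aleph0 K _))
    refine ⟨hfin, ?_⟩
    rw [← Module.finrank_eq_rank, ← Module.finrank_eq_rank, Nat.cast_le] at hrank
    refine hrank.trans ((hV _).2.trans ?_)
    rw [Nat.mul_assoc _ ((p ^ e) ^ g), ← mul_pow]
    refine Nat.mul_le_mul_left _ (Nat.pow_le_pow_left ?_ g)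
    have := pow_pos (expChar_pos Ω p) e
    rw [Nat.mul_add, Nat.mul_one]
    omega
  intro m
  let U := Submodule.span K (box t (D * (m + 1)) : Set Ω)
  let incl : V m → M₁ := fun f => ⟨(f : Ω), f.2.1.1, f.2.2⟩
  let Φ : V m →ₗ[K] (Fin (finrank E M₁) → U) :=
    { toFun := fun f i => ⟨_, hkey m (incl f) f.2.1 i⟩
      map_add' := fun f f' => funext fun i => Subtype.ext (by
        simp only [Pi.add_apply, Submodule.coe_add]
        rw [show incl (f + f') = incl f + incl f' from rfl, add_mul, map_add, AddMemClass.coe_add])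
      map_smul' := fun a f => funext fun i => Subtype.ext (by
        simp only [Pi.smul_apply, RingHom.id_apply, Submodule.coe_smul]
        rw [show incl (a • f) = algebraMap K E a • incl f from Subtype.ext (by
            simp [incl, Algebra.smul_def]), smul_mul_assoc, map_smul]
        simp [Algebra.smul_def]) }
  have hΦ : Function.Injective Φ := by
    rw [injective_iff_map_eq_zero]
    intro f hf
    have h1 : ∀ i, Algebra.trace E M₁ (incl f * b i) = 0 := fun i => by
      have h2 : Algebra.trace E M₁ (incl f * z i) = 0 :=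
        Subtype.ext (congrArg Subtype.val (congrFun hf i) :)
      rw [hz i, mul_smul_comm, map_smul, smul_eq_zero] at h2
      exact h2.resolve_left (hc i)
    have h3 : Algebra.traceForm E M₁ (incl f) = 0 :=
      b.ext fun i => by simpa [Algebra.traceForm_apply] using h1 i
    have h4 := (traceForm_nondegenerate E M₁).1 (incl f) fun y => by rw [h3]; rfl
    exact Subtype.ext (congrArg Subtype.val h4 :)
  have : Module.Finite K U := Module.Finite.span_finset K _
  have hfin : Module.Finite K (V m) := Module.Finite.of_injective Φ hΦ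
  refine ⟨hfin, (LinearMap.finrank_le_finrank_of_injective hΦ).trans ?_⟩
  rw [finrank_pi_fintype, Finset.sum_const, Finset.card_univ, Fintype.card_fin, smul_eq_mul,
    Nat.mul_assoc, ← mul_pow]
  refine Nat.mul_le_mul_left _ ((finrank_span_finset_le_card _).trans ((card_box_le t _).trans ?_))
  exact (Nat.pow_le_pow_right (Nat.succ_pos _) hr).trans (Nat.pow_le_pow_left (by nlinarith) g)

end Upper

end Fermat.Agent.Row27

end
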