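import Fermat.Agent.Row27.ExistsModel

/-!
# Series without negative powers
-/

set_option autoImplicit false

noncomputable section

open AlgebraicCurve IntermediateField Polynomial ModularCurve
open Fermat.Agent.FunctionFieldRR

namespace Fermat.Agent.Row27

section Series

variable (L : Type*) [Field L]

/-- The series without negative powers. -/
def seriesRing : ValuationSubring (LaurentSeries L) where
  toSubring := (HahnSeries.ofPowerSeries ℤ L).range
  mem_or_inv_mem' f := by
    have key : ∀ g : LaurentSeries L, 0 ≤ g.order → g ∈ (HahnSeries.ofPowerSeries ℤ L).range := by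
      intro g hg
      refine ⟨PowerSeries.X ^ g.order.toNat * g.powerSeriesPart, ?_⟩
      rw [map_mul, map_pow, HahnSeries.ofPowerSeries_X, HahnSeries.single_pow, one_pow,
        nsmul_one, Int.toNat_of_nonneg hg]
      exact LaurentSeries.single_order_mul_powerSeriesPart g
    rcases eq_or_ne f 0 with rfl | hf
    · exact Or.inl ⟨0, map_zero _⟩
    rcases le_total 0 f.order with h | h
    · exact Or.inl (key f h)
    · refine Or.inr (key _ ?_)
      have h1 := HahnSeries.order_mul hf (inv_ne_zero hf)
      rw [mul_inv_cancel₀ hf, HahnSeries.order_one] at h1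
      omega

variable {L}

theorem mem_seriesRing {f : LaurentSeries L} : f ∈ seriesRing L ↔ ∀ i < 0, f.coeff i = 0 := by
  constructor
  · rintro ⟨p, rfl⟩ i hi
    exact ofPowerSeries_coeff_neg p hi
  · intro h
    by_cases hf : f = 0
    · exact hf ▸ zero_mem _
    rcases (seriesRing L).mem_or_inv_mem f with h' | ⟨p, hp⟩
    · exact h'
    have hord : 0 ≤ f.order := by
      by_contra hlt
      exact mt HahnSeries.coeff_order_eq_zero.1 hf (h _ (by omega))
    refine ⟨PowerSeries.X ^ f.order.toNat * f.powerSeriesPart, ?_⟩
    rw [map_mul, map_pow, HahnSeries.ofPowerSeries_X, HahnSeries.single_pow, one_pow,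
      nsmul_one, Int.toNat_of_nonneg hord]
    exact LaurentSeries.single_order_mul_powerSeriesPart f

theorem order_nonneg_of_mem_seriesRing {f : LaurentSeries L} (h : f ∈ seriesRing L) :
    0 ≤ f.order := by
  rcases eq_or_ne f 0 with rfl | hf
  · simp
  by_contra hlt
  exact mt HahnSeries.coeff_order_eq_zero.1 hf ((mem_seriesRing.1 h) _ (by omega))

theorem transcendental_of_order_ne_zero [IsAlgClosed L] {s : LaurentSeries L} (hs : s.order ≠ 0) :
    Transcendental L s := fun halg => by
  have := IntermediateField.isAlgebraic_adjoin_simple halg.isIntegral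
  have : Algebra.IsIntegral L L⟮s⟯ := Algebra.IsAlgebraic.isIntegral
  obtain ⟨c, hc⟩ := (IsAlgClosed.algebraMap_bijective_of_isIntegral (k := L) (K := L⟮s⟯)).2
    ⟨s, mem_adjoin_simple_self L s⟩
  refine hs ?_
  rw [show s = algebraMap L (LaurentSeries L) c from (congrArg Subtype.val hc).symm,
    algebraMap_laurentSeries_eq_single]
  rcases eq_or_ne c 0 with rfl | hc0
  · simp
  · exact HahnSeries.order_single hc0

end Series

end Fermat.Agent.Row27

end
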