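import Fermat.Agent.Row27.Interface
import Mathlib.RingTheory.Valuation.LocalSubring
import Mathlib.Algebra.Polynomial.Lifts
import Mathlib.FieldTheory.IsAlgClosed.Basic

/-!
# Retractions of an extension of transcendence degree one
-/

set_option autoImplicit false

noncomputable section

open Polynomial

namespace Fermat.Agent.Row27

universe u

variable {K : Type u} [Field K] {L L' : Type u} [Field L] [Algebra K L] [IsAlgClosed L]
  [Field L'] [Algebra K L']

/-- Elements bounded by all valuations trivial on the subfield lie in it. -/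
lemma mem_range_of_forall_valuation (ψ : L →ₐ[K] L') {z : L'}
    (h : ∀ A : ValuationSubring L', TrivOn K A → (∀ l, ψ l ∈ A) → A.valuation z ≤ 1) :
    z ∈ Set.range ψ := by
  have h1 : z ∈ ⨅ V : {V : ValuationSubring L' // Set.range ψ ⊆ V.toSubring}, V.1.toSubring := by
    rw [Subring.mem_iInf]
    rintro ⟨V, hV⟩
    exact (V.valuation_le_one_iff z).mp
      (h V (fun c => hV ⟨algebraMap K L c, ψ.commutes c⟩) fun l => hV ⟨l, rfl⟩)
  rw [iInf_valuationSubring_superset, Subalgebra.mem_toSubring, mem_integralClosure_iff] at h1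
  obtain ⟨p, hp, hp0⟩ := h1
  have hle : Subring.closure (Set.range ψ) ≤ (ψ : L →+* L').range :=
    Subring.closure_le.mpr (by rintro _ ⟨l, rfl⟩; exact ⟨l, rfl⟩)
  have hlift : p.map (algebraMap _ L') ∈ lifts (ψ : L →+* L') := by
    rw [lifts_iff_coeff_lifts]
    intro k
    rw [coeff_map]
    exact hle (p.coeff k).2
  obtain ⟨q, hq, -, hqm⟩ := lifts_and_degree_eq_and_monic hlift (hp.map _)
  algebraize [(ψ : L →+* L')]
  have hint : IsIntegral L z := ⟨q, hqm, by
    rw [show eval₂ (algebraMap L L') z q = (q.map (algebraMap L L')).eval z from (eval_map _ _).symm]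
    rw [show q.map (algebraMap L L') = p.map (algebraMap _ L') from hq, eval_map]
    exact hp0⟩
  obtain ⟨l, hl⟩ := minpoly.degree_eq_one_iff.mp
    (IsAlgClosed.degree_eq_one_of_irreducible L (minpoly.irreducible hint))
  exact ⟨l, hl⟩

/-- **A retraction**: when `L'` is algebraic over `L(t)` there is a specialisation `L' → L` that
fixes `L`. -/
theorem exists_retraction (ψ : L →ₐ[K] L') (t : L') (ht : t ∉ Set.range ψ)
    (halg : ∀ z : L', ∃ q : L[X][X], q ≠ 0 ∧ q.eval₂ (eval₂RingHom (ψ : L →+* L') t) z = 0) :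
    ∃ (φ : Spec K L' L) (h : ∀ l, ψ l ∈ φ.dom), ∀ l, φ.map ⟨ψ l, h l⟩ = l := by
  classical
  set ev := eval₂RingHom (ψ : L →+* L') t with hev
  have htr : ∀ q : L[X], ev q = 0 → q = 0 := by
    intro q hq
    by_contra hq0
    refine ht ?_
    have hm : (q * C q.leadingCoeff⁻¹).Monic := monic_mul_leadingCoeff_inv hq0
    algebraize [(ψ : L →+* L')]
    have hint : IsIntegral L t := ⟨_, hm, by
      rw [show eval₂ (algebraMap L L') t (q * C q.leadingCoeff⁻¹) = ev (q * C q.leadingCoeff⁻¹)
        from rfl, map_mul, hq, zero_mul]⟩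
    obtain ⟨l, hl⟩ := minpoly.degree_eq_one_iff.mp
      (IsAlgClosed.degree_eq_one_of_irreducible L (minpoly.irreducible hint))
    exact ⟨l, hl⟩
  let u : ev.range := ⟨t, X, by simp [hev]⟩
  have hI : Ideal.span {u} ≠ (⊤ : Ideal ev.range) := by
    rw [ne_eq, Ideal.span_singleton_eq_top]
    intro hu
    obtain ⟨⟨_, b, rfl⟩, hb⟩ := isUnit_iff_exists_inv.mp hu
    have h1 : ev (X * b - 1) = 0 := by
      have : t * ev b = 1 := congrArg Subtype.val hb
      rw [map_sub, map_mul, map_one, show ev X = t by simp [hev], this, sub_self]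
    simpa using congrArg (coeff · 0) (htr _ h1)
  obtain ⟨V, hRV, hV⟩ := Ideal.image_subset_nonunits_valuationSubring (Ideal.span {u}) hI
  have hψ : ∀ l, ψ l ∈ V := fun l => hRV ⟨C l, by simp [hev]⟩
  let e : L →+* V := (ψ : L →+* L').codRestrict V.toSubring hψ
  let res := IsLocalRing.residue V
  let alg : L →+* IsLocalRing.ResidueField V := res.comp e
  have htV : t ∈ V := hRV ⟨X, by simp [hev]⟩
  have hrt : res ⟨t, htV⟩ = 0 := by
    rw [IsLocalRing.residue_eq_zero_iff]
    exact ValuationSubring.coe_mem_nonunits_iff.mp (hV ⟨u, Ideal.subset_span rfl, rfl⟩)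
  have hbij : Function.Bijective alg := by
    refine ⟨alg.injective, fun z => ?_⟩
    obtain ⟨⟨z, hzV⟩, rfl⟩ := IsLocalRing.residue_surjective z
    obtain ⟨q, hq0, hqz⟩ := halg z
    have hsupp : q.support.Nonempty := support_nonempty.mpr hq0
    obtain ⟨k₀, hk₀, hmin⟩ := q.support.exists_min_image (fun k => (q.coeff k).natTrailingDegree) hsupp
    set m := (q.coeff k₀).natTrailingDegree with hm
    have hdvd : ∀ k, ∃ r : L[X], q.coeff k = X ^ m * r := by
      intro k
      refine X_pow_dvd_iff.mpr fun d hd => ?_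
      by_cases hk : k ∈ q.support
      · exact coeff_eq_zero_of_lt_natTrailingDegree (hd.trans_le (hmin k hk))
      · simp [notMem_support_iff.mp hk]
    choose r hr using hdvd
    have ht0 : t ≠ 0 := fun h => ht ⟨0, by simp [h]⟩
    have hsum : ∑ k ∈ q.support, ev (r k) * z ^ k = 0 := by
      have h1 : t ^ m * ∑ k ∈ q.support, ev (r k) * z ^ k = 0 := by
        rw [Finset.mul_sum, ← hqz, eval₂_eq_sum, sum_def]
        refine Finset.sum_congr rfl fun k _ => ?_
        show _ = ev (q.coeff k) * z ^ k
        rw [hr k, map_mul, map_pow, show ev X = t by simp [hev], mul_assoc]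
      exact (mul_eq_zero.mp h1).resolve_left (pow_ne_zero _ ht0)
    let P : L[X] := ∑ k ∈ q.support, monomial k ((r k).coeff 0)
    have hP0 : P ≠ 0 := by
      intro h
      have h1 := congrArg (coeff · k₀) h
      simp only [P, finsetSum_coeff, coeff_monomial, Finset.sum_ite_eq', if_pos hk₀, coeff_zero] at h1
      refine (mem_support_iff.mp hk₀) ?_
      have h2 : (q.coeff k₀).coeff m = 0 := by
        have h3 : (X ^ m * r k₀).coeff m = (r k₀).coeff 0 := by simpa using coeff_X_pow_mul (r k₀) m 0
        rw [hr k₀, h3]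
        exact h1
      by_contra hne
      exact mem_support_iff.mp (natTrailingDegree_mem_support_of_nonzero hne) h2
    let zV : V := ⟨z, hzV⟩
    have hPz : P.eval₂ alg (res zV) = 0 := by
      have hres : ∀ p : L[X], ∃ h : ev p ∈ V, res ⟨ev p, h⟩ = alg (p.coeff 0) := by
        intro p
        refine ⟨hRV ⟨p, rfl⟩, ?_⟩
        have he : (⟨ev p, hRV ⟨p, rfl⟩⟩ : V) = p.eval₂ e ⟨t, htV⟩ := Subtype.ext (by
          show ev p = V.subtype (p.eval₂ e ⟨t, htV⟩)
          rw [hom_eval₂]
          rfl)
        rw [he, hom_eval₂, hrt, eval₂_at_zero]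
      have h1 := congrArg res (show ∑ k ∈ q.support,
          (⟨ev (r k), (hres (r k)).1⟩ : V) * zV ^ k = 0 from Subtype.ext (by
        push_cast
        exact hsum))
      simp only [map_sum, map_mul, map_pow, map_zero, fun k => (hres (r k)).2] at h1
      rw [show P = _ from rfl, eval₂_finsetSum]
      simpa [eval₂_monomial] using h1
    algebraize [alg]
    have hint : IsIntegral L (res zV) := IsAlgebraic.isIntegral ⟨P, hP0, hPz⟩
    obtain ⟨l, hl⟩ := minpoly.degree_eq_one_iff.mp
      (IsAlgClosed.degree_eq_one_of_irreducible L (minpoly.irreducible hint))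
    exact ⟨l, hl⟩
  let inv : IsLocalRing.ResidueField V →+* L := (RingEquiv.ofBijective alg hbij).symm.toRingHom
  have hinv : ∀ l, inv (alg l) = l := fun l => (RingEquiv.ofBijective alg hbij).symm_apply_apply l
  refine ⟨{
    dom := V
    trivOn := fun c => ψ.commutes c ▸ hψ (algebraMap K L c)
    map := inv.comp res
    map_algebraMap := fun c => ?_
    map_eq_zero := fun x => ?_ }, hψ, fun l => hinv l⟩
  · have : ∀ h : algebraMap K L' c ∈ V, (⟨algebraMap K L' c, h⟩ : V) = e (algebraMap K L c) :=
      fun h => Subtype.ext (ψ.commutes c).symm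
    rw [RingHom.comp_apply, this]
    exact hinv _
  · rw [RingHom.comp_apply, map_eq_zero_iff _ inv.injective, IsLocalRing.residue_eq_zero_iff,
      IsLocalRing.mem_maximalIdeal, mem_nonunits_iff]

end Fermat.Agent.Row27

end
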