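import Fermat.Agent.Row27.Points

/-!
# Generic classes

A class over an algebraically closed field `Ω` of transcendence degree `g` is generic if `Ω` is
algebraic over the ratios of its theta vector. Generic classes exist, form one orbit of the
automorphisms of `Ω`, and are stable under multiplication by positive integers and translation by
torsion classes, which are all defined over `K`.
-/

set_option autoImplicit false

noncomputable section

open AlgebraicCurve Module

namespace Fermat.Agent.Row27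

universe u

variable {K : Type u} [Field K] {C : CurveData K} {T : SpecTheory C}
variable {Ω : Type u} [Field Ω] [Algebra K Ω] [IsAlgClosed Ω]

omit [IsAlgClosed Ω] in
/-- An element algebraic over a transcendence basis. -/
lemma IsTranscendenceBasis.isAlgebraic_adjoin {n : ℕ} {τ : Fin n → Ω}
    (hτ : IsTranscendenceBasis K τ) (z : Ω) :
    IsAlgebraic (IntermediateField.adjoin K (Set.range τ)) z :=
  hτ.isAlgebraic_field.isAlgebraic z

omit [IsAlgClosed Ω] in
/-- As many elements as the transcendence degree, over which everything is algebraic, are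
independent. -/
lemma independent_of_isAlgebraic {n : ℕ} {τ : Fin n → Ω} (hτ : IsTranscendenceBasis K τ)
    (x : Fin n → Ω)
    (hx : ∀ z : Ω, IsAlgebraic (IntermediateField.adjoin K (Set.range x)) z) :
    AlgebraicIndependent K x := by
  have : Algebra.IsAlgebraic (Algebra.adjoin K (Set.range x)) Ω :=
    ⟨fun z => (IntermediateField.isAlgebraic_adjoin_iff (F := K)).mp (hx z)⟩
  refine (Algebra.IsAlgebraic.isTranscendenceBasis_of_lift_le_trdeg_of_finite K x ?_).1
  rw [← hτ.lift_cardinalMk_eq_trdeg]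

lemma CurveData.exists_eq_sum (L : Type u) [Field L] [Algebra K L] [IsAlgClosed L] :
    ∀ (n : ℕ) (E : Divisor L (C.curve L)), 0 ≤ E → Divisor.degree E = n →
      ∃ Q : Fin n → Place L (C.curve L), E = ∑ i, Finsupp.single (Q i) 1 := by
  intro n
  induction n with
  | zero =>
      intro E hE hd
      exact ⟨Fin.elim0, by simpa using (C.rr L).eq_zero_of_nonneg_of_degree_le hE (by omega)⟩
  | succ n ih =>
      intro E hE hd
      obtain ⟨P, hP⟩ : ∃ P, 0 < E P := by
        by_contra h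
        push Not at h
        have : E = 0 := Finsupp.ext fun P => le_antisymm (h P) (hE P)
        rw [this, map_zero] at hd
        omega
      obtain ⟨Q, hQ⟩ := ih (E - Finsupp.single P 1) (fun R => by
          classical
          have := hE R
          rw [Finsupp.sub_apply, Finsupp.single_apply]
          split_ifs with h
          · subst h; simp only [Finsupp.coe_zero, Pi.zero_apply]; omega
          · simpa using this)
        (by rw [map_sub, C.degree_single, hd]; push_cast; ring)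
      exact ⟨Fin.cons P Q, by rw [Fin.sum_univ_succ]; simp [← hQ]⟩

/-- Two effective divisors of the same class are equal when the system is a point. -/
lemma CurveData.eq_of_cls_eq (L : Type u) [Field L] [Algebra K L] [IsAlgClosed L]
    {E E' : Divisor L (C.curve L)} (hE' : 0 ≤ E') (hd : Divisor.degree E' = Divisor.degree E)
    (h : C.cls L E' = C.cls L E) (h0 : C.h0 L E = 1) (hE : 0 ≤ E) : E' = E := by
  obtain ⟨f, hf0, hf⟩ := C.mem_principal_of_cls_eq L hd h
  have hfE : f ∈ riemannRochSpace E := by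
    rw [MWJ0.mem_Lsp_of_ne_zero hf0]
    intro v
    have h1 := hf v
    have h2 := hE' v
    simp only [Finsupp.sub_apply, Finsupp.coe_zero, Pi.zero_apply] at h1 h2
    omega
  have hle : riemannRochSpace (0 : Divisor L (C.curve L)) ≤ riemannRochSpace E := MWJ0.Lsp_mono hE
  have := (C.rr L).finite E
  have heq := Submodule.eq_of_le_of_finrank_eq hle ((C.h0_zero (L := L)).trans h0.symm)
  rw [← heq] at hfE
  obtain ⟨c, hc⟩ := C.exists_eq_const hfE
  ext v
  have h1 := hf v
  have hc0 : c ≠ 0 := fun h => hf0 (by rw [← hc, h, map_zero])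
  rw [← hc, C.ord_eq_zero_of_const hc0 v, Finsupp.sub_apply] at h1
  omega

/-- Points in prescribed infinite sets cutting a system down to zero. -/
lemma CurveData.exists_sub_tuple' (L : Type u) [Field L] [Algebra K L] [IsAlgClosed L] :
    ∀ (k : ℕ) (A : Divisor L (C.curve L)) (S : Fin k → Set (Place L (C.curve L))),
      (∀ i, (S i).Infinite) → C.h0 L A ≤ k →
      ∃ Q : Fin k → Place L (C.curve L), (∀ i, Q i ∈ S i) ∧
        C.h0 L (A - ∑ i, Finsupp.single (Q i) 1) = 0 := by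
  intro k
  induction k with
  | zero => exact fun A _ _ hA => ⟨Fin.elim0, fun i => i.elim0, by rw [Fin.sum_univ_zero, sub_zero]; omega⟩
  | succ k ih =>
      intro A S hS hA
      obtain ⟨P, hPS, hP⟩ : ∃ P ∈ S 0, C.h0 L (A - Finsupp.single P 1) ≤ k := by
        by_cases h0 : C.h0 L A = 0
        · obtain ⟨P, hP⟩ := (hS 0).nonempty
          exact ⟨P, hP, by have := C.h0_sub_single_le L A P; omega⟩
        · obtain ⟨P, hP, hP'⟩ := ((hS 0).sdiff (C.finite_setOf_not_drop L A h0)).nonempty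
          exact ⟨P, hP, by have := C.h0_sub_single_le L A P; have : C.h0 L (A - Finsupp.single P 1) ≠ C.h0 L A := hP'; omega⟩
      obtain ⟨Q, hQS, hQ⟩ := ih (A - Finsupp.single P 1) (fun i => S i.succ) (fun i => hS _) hP
      refine ⟨Fin.cons P Q, Fin.cases (by simpa using hPS) (fun i => by simpa using hQS i), ?_⟩
      rw [Fin.sum_univ_succ]
      simp only [Fin.cons_zero, Fin.cons_succ]
      rwa [← sub_sub]

/-- The action of an automorphism of the constants. -/
def SpecTheory.act (T : SpecTheory C) (σ : Ω ≃ₐ[K] Ω) :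
    Pic0 Ω (C.curve Ω) →+ Pic0 Ω (C.curve Ω) :=
  T.pic (Spec.ofAlgHom σ.toAlgHom)

lemma SpecTheory.act_act (σ σ' : Ω ≃ₐ[K] Ω) (x : Pic0 Ω (C.curve Ω)) :
    T.act σ (T.act σ' x) = T.act (σ'.trans σ) x := T.pic_algHom_comp _ _ x

lemma SpecTheory.act_refl (x : Pic0 Ω (C.curve Ω)) :
    T.act (AlgEquiv.refl : Ω ≃ₐ[K] Ω) x = x := T.pic_id x

lemma SpecTheory.act_symm_act (σ : Ω ≃ₐ[K] Ω) (x : Pic0 Ω (C.curve Ω)) :
    T.act σ.symm (T.act σ x) = x := by
  rw [T.act_act, AlgEquiv.self_trans_symm, T.act_refl]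

lemma SpecTheory.act_pic {L : Type u} [Field L] [Algebra K L] [IsAlgClosed L] (ψ : L →ₐ[K] Ω)
    (σ : Ω ≃ₐ[K] Ω) (hσ : ∀ l, σ (ψ l) = ψ l) (y : Pic0 L (C.curve L)) :
    T.act σ (T.pic (Spec.ofAlgHom ψ) y) = T.pic (Spec.ofAlgHom ψ) y := by
  rw [SpecTheory.act, T.pic_algHom_comp]
  congr 3
  exact AlgHom.ext hσ

omit [Algebra K Ω] [IsAlgClosed Ω] in
lemma vmax_pos_of_ne {ι : Type*} [Fintype ι] [Nonempty ι] (A : ValuationSubring Ω) {v : ι → Ω}
    (hv : v ≠ 0) : 0 < vmax A v := by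
  obtain ⟨i, hi⟩ := Function.ne_iff.mp hv
  exact lt_of_lt_of_le (zero_lt_iff.mpr ((Valuation.ne_zero_iff _).mpr hi)) (le_vmax A v i)

variable (Th : ThetaTheory C T)
include Th

/-- A coordinate where the theta vector does not vanish. -/
def ThetaTheory.idx (x : Pic0 Ω (C.curve Ω)) : C.TIdx :=
  Classical.epsilon fun i => Th.theta Ω x i ≠ 0

lemma ThetaTheory.theta_idx (x : Pic0 Ω (C.curve Ω)) : Th.theta Ω x (Th.idx x) ≠ 0 :=
  Classical.epsilon_spec (Function.ne_iff.mp (Th.theta_ne_zero Ω x))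

/-- The ratios of the theta vector. -/
def ThetaTheory.nrm (x : Pic0 Ω (C.curve Ω)) (i : C.TIdx) : Ω :=
  Th.theta Ω x i / Th.theta Ω x (Th.idx x)

lemma ThetaTheory.nrm_idx (x : Pic0 Ω (C.curve Ω)) : Th.nrm x (Th.idx x) = 1 :=
  div_self (Th.theta_idx x)

lemma ThetaTheory.theta_eq_smul (x : Pic0 Ω (C.curve Ω)) :
    Th.theta Ω x = Th.theta Ω x (Th.idx x) • Th.nrm x := funext fun i => by
  rw [Pi.smul_apply, smul_eq_mul, ThetaTheory.nrm, mul_div_cancel₀ _ (Th.theta_idx x)]

lemma ThetaTheory.nrm_act (σ : Ω ≃ₐ[K] Ω) (x : Pic0 Ω (C.curve Ω)) (i : C.TIdx) :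
    Th.nrm (T.act σ x) i = σ (Th.nrm x i) := by
  obtain ⟨s, ⟨a, ha, hs⟩, ⟨b, hb, hs'⟩⟩ := Th.theta_spec (Spec.ofAlgHom σ.toAlgHom) x
  have key : ∀ j, b * Th.theta Ω (T.act σ x) j = σ (a * Th.theta Ω x j) := fun j => by
    have h1 := congrFun hs j
    have h2 := congrFun hs' j
    rw [Pi.smul_apply, smul_eq_mul] at h1 h2
    rw [← h1]
    exact h2.symm
  have hidx : Th.idx (T.act σ x) = Th.idx x := by
    refine congrArg (@Classical.epsilon _ _) (funext fun j => propext (not_congr ⟨?_, ?_⟩))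
    · intro h
      have := key j
      rw [h, mul_zero, eq_comm, map_eq_zero_iff _ σ.injective] at this
      exact (mul_eq_zero.mp this).resolve_left ha
    · intro h
      have := key j
      rw [h, mul_zero, map_zero] at this
      exact (mul_eq_zero.mp this).resolve_left hb
  rw [ThetaTheory.nrm, ThetaTheory.nrm, hidx, map_div₀, ← mul_div_mul_left _ _ hb, key, key,
    map_mul, map_mul, mul_div_mul_left _ _ ((map_ne_zero σ).mpr ha)]

/-- The class is generic. -/
def ThetaTheory.IsGen (x : Pic0 Ω (C.curve Ω)) : Prop :=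
  ∀ z : Ω, IsAlgebraic (IntermediateField.adjoin K (Set.range (Th.nrm x))) z

variable {L : Type u} [Field L] [Algebra K L] [IsAlgClosed L] (ψ : L →ₐ[K] Ω)

omit [IsAlgClosed L] in
lemma ThetaTheory.nrm_mem_range {x : Pic0 Ω (C.curve Ω)}
    (hx : IsConst ψ (Th.theta Ω x)) : Set.range (Th.nrm x) ⊆ Set.range ψ := by
  rintro _ ⟨i, rfl⟩
  obtain ⟨c, a, ha, hc⟩ := hx
  refine ⟨c i / c (Th.idx x), ?_⟩
  rw [ThetaTheory.nrm, hc, Pi.smul_apply, Pi.smul_apply, smul_eq_mul, smul_eq_mul,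
    mul_div_mul_left _ _ ha, map_div₀]

omit [IsAlgClosed L] in
lemma ThetaTheory.isConst_of_nrm_mem {x : Pic0 Ω (C.curve Ω)}
    (hx : Set.range (Th.nrm x) ⊆ Set.range ψ) : IsConst ψ (Th.theta Ω x) := by
  choose c hc using fun i => hx ⟨i, rfl⟩
  exact ⟨c, Th.theta Ω x (Th.idx x), Th.theta_idx x, by rw [funext hc]; exact Th.theta_eq_smul x⟩

/-- Constant theta vectors belong to rational classes. -/
lemma ThetaTheory.exists_eq_pic' (hg : 0 < C.g) {τ : Fin C.g → Ω} (hτ : IsTranscendenceBasis K τ)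
    {x : Pic0 Ω (C.curve Ω)} (hx : IsConst ψ (Th.theta Ω x)) :
    ∃ y, T.pic (Spec.ofAlgHom ψ) y = x := by
  classical
  refine Th.exists_eq_pic hg (Finset.univ.image τ) ψ (fun z => ?_) hx
  have hle : IntermediateField.adjoin K (Set.range τ) ≤
      IntermediateField.adjoin K (Set.range ψ ∪ ↑(Finset.univ.image τ)) :=
    IntermediateField.adjoin.mono K _ _ (by simp)
  let := (IntermediateField.inclusion hle).toRingHom.toAlgebra
  have : IsScalarTower (IntermediateField.adjoin K (Set.range τ))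
      (IntermediateField.adjoin K (Set.range ψ ∪ ↑(Finset.univ.image τ))) Ω :=
    IsScalarTower.of_algebraMap_eq fun _ => rfl
  exact (IsTranscendenceBasis.isAlgebraic_adjoin hτ z).isIntegral.tower_top.isAlgebraic

/-- A class that is as irrational as a generic class is generic. -/
lemma ThetaTheory.isGen_of_forall (hg : 0 < C.g) {τ : Fin C.g → Ω}
    (hτ : IsTranscendenceBasis K τ) {x y : Pic0 Ω (C.curve Ω)} (hx : Th.IsGen x)
    (h : ∀ (k : IntermediateField K Ω) [IsAlgClosed k],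
      (∃ y0, T.pic (Spec.ofAlgHom k.val) y0 = y) → IsConst k.val (Th.theta Ω x)) :
    Th.IsGen y := by
  intro z
  let k := acl K (Set.range (Th.nrm y))
  have hy : IsConst k.val (Th.theta Ω y) := Th.isConst_of_nrm_mem k.val fun w hw =>
    ⟨⟨w, subset_acl _ hw⟩, rfl⟩
  obtain ⟨w, hw⟩ := mem_range_of_isAlgebraic k.val
    (Th.nrm_mem_range k.val (h k (Th.exists_eq_pic' k.val hg hτ hy))) (hx z)
  exact mem_acl.mp (hw ▸ w.2)

variable {j : C.Idx C.b0}

/-- The coordinates of a representative of a generic class are independent. -/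
lemma ThetaTheory.coord_independent (hj : ∃ i, i ≠ j ∧ C.one C.b0 i ≠ 0) {τ : Fin C.g → Ω}
    (hτ : IsTranscendenceBasis K τ) {x : Pic0 Ω (C.curve Ω)} (hx : Th.IsGen x)
    {Q : Fin C.g → Place Ω (C.curve Ω)} (hQ : C.cls Ω (∑ i, Finsupp.single (Q i) 1) = x) :
    AlgebraicIndependent K (fun i => C.coord (Q i) j) ∧
      ∀ z : Ω, IsAlgebraic (IntermediateField.adjoin K (Set.range fun i => C.coord (Q i) j)) z := by
  have halg : ∀ z : Ω,
      IsAlgebraic (IntermediateField.adjoin K (Set.range fun i => C.coord (Q i) j)) z := by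
    intro z
    let k := acl K (Set.range fun i => C.coord (Q i) j)
    have hP : ∀ i, ∃ P, T.place (Spec.ofAlgHom k.val) P = Q i := fun i =>
      (T.mem_range_place_iff hj k.val (Q i)).mpr ⟨⟨_, subset_acl _ ⟨i, rfl⟩⟩, rfl⟩
    choose P hP using hP
    have hxk : IsConst k.val (Th.theta Ω x) := by
      have : T.pic (Spec.ofAlgHom k.val) (C.cls k (∑ i, Finsupp.single (P i) 1)) = x := by
        rw [T.pic_cls', map_sum, ← hQ]
        simp only [T.push_single, hP]
      rw [← this]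
      exact Th.isConst_pic k.val _
    obtain ⟨w, hw⟩ := mem_range_of_isAlgebraic k.val (Th.nrm_mem_range k.val hxk) (hx z)
    exact mem_acl.mp (hw ▸ w.2)
  exact ⟨independent_of_isAlgebraic hτ _ halg, halg⟩

/-- Generic classes exist. -/
lemma ThetaTheory.exists_isGen [Infinite K] (hg : 0 < C.g)
    (hj : ∃ i, i ≠ j ∧ C.one C.b0 i ≠ 0) {τ : Fin C.g → Ω} (hτ : IsTranscendenceBasis K τ) :
    ∃ Q : Fin C.g → Place Ω (C.curve Ω), C.h0 Ω (∑ i, Finsupp.single (Q i) 1) = 1 ∧
      Th.IsGen (C.cls Ω (∑ i, Finsupp.single (Q i) 1)) ∧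
      AlgebraicIndependent K (fun i => C.coord (Q i) j) := by
  let S : Fin C.g → Set (Place Ω (C.curve Ω)) := fun i =>
    {Q | ∃ m : K, C.coord Q j = τ i + algebraMap K Ω m}
  have hS : ∀ i, (S i).Infinite := fun i => by
    choose P hP hP' using fun m : K => C.exists_coord_eq hj (τ i + algebraMap K Ω m)
    refine (Set.infinite_range_of_injective (f := P) fun a b h => ?_).mono
      (Set.range_subset_iff.mpr fun m => ⟨m, hP' m⟩)
    have := congrArg (C.coord · j) h
    simp only [hP'] at this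
    exact (algebraMap K Ω).injective (add_left_cancel this)
  have hcan : C.h0 Ω (C.canon Ω) = C.g := by
    have h1 := C.rr_h0 Ω (C.canon Ω)
    rw [sub_self, C.degree_canon, C.h0_zero] at h1
    omega
  obtain ⟨Q, hQS, hQ⟩ := C.exists_sub_tuple' Ω C.g (C.canon Ω) S hS hcan.le
  have hEd : Divisor.degree (∑ i, Finsupp.single (Q i) (1 : ℤ)) = (C.g : ℤ) := by
    simp [map_sum, C.degree_single]
  have h0E : C.h0 Ω (∑ i, Finsupp.single (Q i) 1) = 1 := by
    have h1 := C.rr_h0 Ω (∑ i, Finsupp.single (Q i) 1)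
    rw [hQ, hEd] at h1
    omega
  choose m hm using hQS
  have hsub : ∀ {k : IntermediateField K Ω},
      (∀ i, C.coord (Q i) j ∈ k) → Set.range τ ⊆ k := by
    rintro k hk _ ⟨i, rfl⟩
    have h1 := sub_mem (hk i) (k.algebraMap_mem (m i))
    rwa [hm, add_sub_cancel_right] at h1
  refine ⟨Q, h0E, ?_, independent_of_isAlgebraic hτ _ fun z => ?_⟩
  · intro z
    set x := C.cls Ω (∑ i, Finsupp.single (Q i) 1) with hx
    let k := acl K (Set.range (Th.nrm x))
    obtain ⟨y, hy⟩ := Th.exists_eq_pic' k.val hg hτ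
      (Th.isConst_of_nrm_mem k.val fun w hw => ⟨⟨w, subset_acl _ hw⟩, rfl⟩ : IsConst k.val (Th.theta Ω x))
    obtain ⟨E, hE, hEg, hEy⟩ := C.exists_effective k y (le_refl C.g)
    have hpush : T.push (Spec.ofAlgHom k.val) E = ∑ i, Finsupp.single (Q i) 1 :=
      C.eq_of_cls_eq Ω (T.push_nonneg _ hE) (by rw [T.degree_push, hEg, hEd])
        (by rw [← T.pic_cls', hEy, hy]) h0E
        (Finset.sum_nonneg fun i _ => Finsupp.single_nonneg.mpr zero_le_one)
    have hmem : ∀ i, C.coord (Q i) j ∈ k := by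
      classical
      intro i
      have hne : T.push (Spec.ofAlgHom k.val) E (Q i) ≠ 0 := by
        rw [hpush, Finsupp.finsetSum_apply]
        refine (Finset.sum_pos' (fun l _ => ?_) ⟨i, Finset.mem_univ i, by simp⟩).ne'
        rw [Finsupp.single_apply]; split_ifs <;> norm_num
      obtain ⟨P, -, hP⟩ := Finset.mem_image.mp
        (Finsupp.mapDomain_support (Finsupp.mem_support_iff.mpr hne))
      rw [← hP, T.coord_place]
      exact (C.coord P j).2
    obtain ⟨w, hw⟩ := mem_range_of_isAlgebraic k.val (S := Set.range τ)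
      (fun w hw => ⟨⟨w, hsub hmem hw⟩, rfl⟩) (IsTranscendenceBasis.isAlgebraic_adjoin hτ z)
    exact mem_acl.mp (hw ▸ w.2)
  · let k := acl K (Set.range fun i => C.coord (Q i) j)
    obtain ⟨w, hw⟩ := mem_range_of_isAlgebraic k.val (S := Set.range τ)
      (fun w hw => ⟨⟨w, hsub (k := k) (fun i => subset_acl _ ⟨i, rfl⟩) hw⟩, rfl⟩)
      (IsTranscendenceBasis.isAlgebraic_adjoin hτ z)
    exact mem_acl.mp (hw ▸ w.2)

/-- Generic classes are conjugate. -/
lemma ThetaTheory.exists_act_eq (hj : ∃ i, i ≠ j ∧ C.one C.b0 i ≠ 0) {τ : Fin C.g → Ω}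
    (hτ : IsTranscendenceBasis K τ) {x y : Pic0 Ω (C.curve Ω)} (hx : Th.IsGen x)
    (hy : Th.IsGen y) : ∃ σ : Ω ≃ₐ[K] Ω, T.act σ x = y := by
  obtain ⟨E, hE, hEd, hEx⟩ := C.exists_effective Ω x (le_refl C.g)
  obtain ⟨Q, rfl⟩ := C.exists_eq_sum Ω C.g E hE hEd
  obtain ⟨E', hE', hEd', hEy⟩ := C.exists_effective Ω y (le_refl C.g)
  obtain ⟨Q', rfl⟩ := C.exists_eq_sum Ω C.g E' hE' hEd'
  obtain ⟨hQ, halg⟩ := Th.coord_independent hj hτ hx hEx
  obtain ⟨hQ', halg'⟩ := Th.coord_independent hj hτ hy hEy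
  obtain ⟨σ, hσ⟩ := T.exists_algEquiv_coord hj hQ hQ' halg halg'
  refine ⟨σ, ?_⟩
  have hne : ∀ {R : Fin C.g → Place Ω (C.curve Ω)},
      AlgebraicIndependent K (fun i => C.coord (R i) j) → ∀ i, R i ≠ C.inf Ω := fun hR i h =>
    hR.transcendental i (by rw [h, C.coord_inf]; exact isAlgebraic_zero)
  rw [← hEx, ← hEy, SpecTheory.act, T.pic_cls', map_sum]
  refine congrArg _ (Finset.sum_congr rfl fun i _ => ?_)
  rw [T.push_single, C.coord_injective (T.place_ne_inf σ.toAlgHom (hne hQ i)) (hne hQ' i)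
    fun l => (T.coord_place σ.toAlgHom (Q i) l).trans (hσ i l)]

section Law

variable [IsAlgClosed K]

lemma ThetaTheory.exists_vmax_zero :
    ∃ κ : Ω, κ ≠ 0 ∧ ∀ A : ValuationSubring Ω, TrivOn K A →
      vmax A (Th.theta Ω (0 : Pic0 Ω (C.curve Ω))) = A.valuation κ := by
  have h := Th.isConst_pic (Algebra.ofId K Ω) (0 : Pic0 K (C.curve K))
  rw [map_zero] at h
  obtain ⟨κ, hκ, h'⟩ := h.exists_vmax (Th.theta_ne_zero Ω _)
  exact ⟨κ, hκ, fun A hA => h' A hA⟩

/-- **The quadratic law**: the values of `m • x` are a multiple of the `m ^ 2` power of those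
of `x`. -/
lemma ThetaTheory.exists_vmax_nsmul (hg : 0 < C.g) (x : Pic0 Ω (C.curve Ω)) (m : ℕ) :
    ∃ lam : Ω, lam ≠ 0 ∧ ∀ A : ValuationSubring Ω, TrivOn K A →
      vmax A (Th.theta Ω (m • x)) = A.valuation lam * vmax A (Th.theta Ω x) ^ (m ^ 2) := by
  induction m using Nat.twoStepInduction with
  | zero =>
      obtain ⟨κ, hκ, h⟩ := Th.exists_vmax_zero (Ω := Ω)
      exact ⟨κ, hκ, fun A hA => by simp [h A hA]⟩
  | one => exact ⟨1, one_ne_zero, fun A hA => by simp⟩
  | more m ih ih1 =>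
      obtain ⟨a, ha, hma⟩ := ih
      obtain ⟨b, hb, hmb⟩ := ih1
      obtain ⟨c, hc, hpar⟩ := Th.parallelogram hg Ω ((m + 1) • x) x
      refine ⟨c * b ^ 2 / a, div_ne_zero (mul_ne_zero hc (pow_ne_zero 2 hb)) ha, fun A hA => ?_⟩
      have h1 := hpar A hA
      rw [← succ_nsmul, show ((m + 1) • x - x) = m • x by rw [succ_nsmul, add_sub_cancel_right],
        hma A hA, hmb A hA] at h1
      have hV := vmax_pos_of_ne A (Th.theta_ne_zero Ω x)
      have hva : A.valuation a ≠ 0 := (Valuation.ne_zero_iff _).mpr ha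
      have hne : A.valuation a * vmax A (Th.theta Ω x) ^ m ^ 2 ≠ 0 :=
        mul_ne_zero hva (pow_ne_zero _ hV.ne')
      refine mul_right_cancel₀ hne ?_
      rw [show (m + 1 + 1) • x = (m + 2) • x from rfl] at h1
      rw [h1, map_div₀, map_mul, map_pow]
      field_simp
      simp only [← pow_mul, mul_assoc, ← pow_add]
      ring_nf

/-- The values of a class with a rational multiple are principal. -/
lemma ThetaTheory.isConst_of_nsmul (hg : 0 < C.g) {m : ℕ} (hm : 0 < m)
    {x : Pic0 Ω (C.curve Ω)} (h : IsConst ψ (Th.theta Ω (m • x))) :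
    IsConst ψ (Th.theta Ω x) := by
  obtain ⟨lam, hlam, hl⟩ := Th.exists_vmax_nsmul hg x m
  obtain ⟨κ, hκ, hk⟩ := h.exists_vmax (Th.theta_ne_zero Ω _)
  refine isConst_of_vmax_mul ψ (pow_pos hm 2) (Th.theta_ne_zero Ω x)
    (w := fun _ : Unit => (1 : Ω)) (fun h => one_ne_zero (congrFun h ())) (div_ne_zero hκ hlam)
    fun A hA hA' => ?_
  have h1 := hl A hA
  rw [hk A hA'] at h1
  rw [map_div₀, h1, mul_div_cancel_left₀ _ ((Valuation.ne_zero_iff _).mpr hlam),
    show vmax A (fun _ : Unit => (1 : Ω)) = 1 by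
      obtain ⟨i, hi⟩ := exists_vmax_eq A (fun _ : Unit => (1 : Ω)); rw [hi, map_one], mul_one]

lemma ThetaTheory.isGen_nsmul (hg : 0 < C.g) {τ : Fin C.g → Ω} (hτ : IsTranscendenceBasis K τ)
    {x : Pic0 Ω (C.curve Ω)} (hx : Th.IsGen x) {m : ℕ} (hm : 0 < m) : Th.IsGen (m • x) :=
  Th.isGen_of_forall hg hτ hx fun k _ ⟨y0, hy⟩ =>
    Th.isConst_of_nsmul k.val hg hm (hy ▸ Th.isConst_pic k.val y0)

/-- Torsion classes are defined over `K`. -/
lemma ThetaTheory.exists_pic_of_torsion (hg : 0 < C.g) {τ : Fin C.g → Ω}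
    (hτ : IsTranscendenceBasis K τ) {m : ℕ} (hm : 0 < m) {x : Pic0 Ω (C.curve Ω)}
    (hx : m • x = 0) : ∃ y, T.pic (Spec.ofAlgHom (Algebra.ofId K Ω)) y = x := by
  refine Th.exists_eq_pic' _ hg hτ (Th.isConst_of_nsmul _ hg hm ?_)
  rw [hx, ← map_zero (T.pic (Spec.ofAlgHom (Algebra.ofId K Ω)))]
  exact Th.isConst_pic _ _

lemma ThetaTheory.isGen_add_torsion (hg : 0 < C.g) {τ : Fin C.g → Ω}
    (hτ : IsTranscendenceBasis K τ) {x : Pic0 Ω (C.curve Ω)} (hx : Th.IsGen x) {m : ℕ}
    (hm : 0 < m) {t : Pic0 Ω (C.curve Ω)} (ht : m • t = 0) : Th.IsGen (x + t) := by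
  refine Th.isGen_of_forall hg hτ hx fun k _ ⟨y0, hy⟩ => ?_
  obtain ⟨t0, rfl⟩ := Th.exists_pic_of_torsion hg hτ hm ht
  have e : T.pic (Spec.ofAlgHom (Algebra.ofId K Ω)) t0 =
      T.pic (Spec.ofAlgHom k.val) (T.pic (Spec.ofAlgHom (Algebra.ofId K k)) t0) := by
    rw [T.pic_algHom_comp]
    congr 3
  have h : x = T.pic (Spec.ofAlgHom k.val) (y0 - T.pic (Spec.ofAlgHom (Algebra.ofId K k)) t0) := by
    rw [map_sub, ← e, hy, add_sub_cancel_right]
  rw [h]
  exact Th.isConst_pic k.val _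

end Law

end Fermat.Agent.Row27

end
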