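import Fermat.Agent.FunctionFieldRR.Genus
import Mathlib.FieldTheory.SeparablyGenerated

/-!
# Separating elements of function fields over algebraically closed fields

A separating element exists, and every element with an order prime to the characteristic at some
place is one.
-/

set_option autoImplicit false

noncomputable section

open AlgebraicCurve IntermediateField Polynomial
open Fermat.Agent.FunctionFieldRR

namespace Fermat.Agent.Row27

variable {K F : Type*} [Field K] [Field F] [Algebra K F] [IsAlgClosed K] [IsFunctionField K F]

variable (K F) in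
omit [IsAlgClosed K] in
/-- A function field is finitely generated. -/
theorem essFiniteType_of_isFunctionField : Algebra.EssFiniteType K F := by
  classical
  obtain ⟨x, hx, hfin⟩ := IsFunctionField.exists_transcendental (K := K) (F := F)
  let b := Module.finBasis K⟮x⟯ F
  refine IntermediateField.fg_top_iff.1 ⟨insert x (Finset.univ.image b), ?_⟩
  refine eq_top_iff.2 fun f _ => ?_
  rw [← b.sum_repr f]
  refine sum_mem fun i _ => ?_
  rw [Algebra.smul_def]
  refine mul_mem ?_ (IntermediateField.subset_adjoin K _ (by simp))
  exact adjoin.mono K _ _ (Set.singleton_subset_iff.2 (by simp)) (b.repr f i).2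

variable (K F) in
/-- A separating element exists. -/
theorem exists_separating_element :
    ∃ x : F, Transcendental K x ∧ FiniteDimensional K⟮x⟯ F ∧ Algebra.IsSeparable K⟮x⟯ F := by
  classical
  have := essFiniteType_of_isFunctionField K F
  obtain ⟨x₀, hx₀, hfin⟩ := IsFunctionField.exists_transcendental (K := K) (F := F)
  obtain ⟨s, hs, hsep⟩ := exists_isTranscendenceBasis_and_isSeparable_of_perfectField K F
  have h0 : IsTranscendenceBasis K ![x₀] := by
    have hi : AlgebraicIndependent K ![x₀] := algebraicIndependent_unique_type_iff.2 hx₀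
    refine hi.isTranscendenceBasis_iff_isAlgebraic.2 ?_
    have hr : Set.range ![x₀] = {x₀} := by simp [Matrix.range_cons, Matrix.range_empty]
    rw [hr]
    exact isAlgebraic_adjoin_iff_top.1 (Algebra.IsAlgebraic.of_finite K⟮x₀⟯ F)
  have hcard : s.card = 1 := by
    have ht : Algebra.trdeg K F = 1 := by simpa using h0.lift_cardinalMk_eq_trdeg.symm
    simpa [ht] using hs.cardinalMk_eq_trdeg
  obtain ⟨x, rfl⟩ := Finset.card_eq_one.1 hcard
  rw [Finset.coe_singleton] at hsep
  have hx : Transcendental K x := hs.1.transcendental ⟨x, Finset.mem_singleton_self x⟩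
  exact ⟨x, hx, finiteDimensional_adjoin hx, hsep⟩

/-- An element with an order prime to the characteristic at some place is separating. -/
theorem isSeparable_of_ord {x : F} (P : Place K F) (h : (P.ord x : K) ≠ 0) :
    Algebra.IsSeparable K⟮x⟯ F := by
  have hx : Transcendental K x := transcendental_of_ord_ne_zero P fun h0 => h (by rw [h0, Int.cast_zero])
  have := finiteDimensional_adjoin (K := K) hx
  obtain ⟨s, -, hfs, hss⟩ := exists_separating_element K F
  have hD : KaehlerDifferential.D K F x ≠ 0 := fun e => by
    have h1 := diffSeries_D P x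
    rw [e, diffSeries_zero] at h1
    have h2 := derivative_coeff_ord P x
    rw [← h1, HahnSeries.coeff_zero] at h2
    refine mul_ne_zero h (coeff_laurentExp_ord_ne_zero P fun e0 => hx ?_) h2.symm
    rw [e0]
    exact isAlgebraic_zero
  have hspan : Submodule.span F {KaehlerDifferential.D K F x} = ⊤ :=
    (finrank_eq_one_iff_of_nonzero _ hD).1 (finrank_kaehler_eq_one s).2
  have : Subsingleton Ω[F⁄K⟮x⟯] := by
    refine (subsingleton_iff_forall_eq 0).2 fun w => ?_
    obtain ⟨v, rfl⟩ := KaehlerDifferential.map_surjective K K⟮x⟯ F w
    obtain ⟨c, rfl⟩ := Submodule.mem_span_singleton.1 (hspan.ge (Submodule.mem_top (x := v)))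
    rw [map_smul, KaehlerDifferential.map_D, Algebra.algebraMap_self, RingHom.id_apply]
    have hDx : KaehlerDifferential.D K⟮x⟯ F x = 0 :=
      Derivation.map_algebraMap (KaehlerDifferential.D K⟮x⟯ F) ⟨x, mem_adjoin_simple_self K x⟩
    rw [hDx, smul_zero]
  have : Algebra.FormallyUnramified K⟮x⟯ F := ⟨this⟩
  exact Algebra.FormallyUnramified.isSeparable K⟮x⟯ F

end Fermat.Agent.Row27

end
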