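import Fermat.Agent.Row27.ThetaMap

/-!
# The theta map commutes with specialisation
-/

set_option autoImplicit false

noncomputable section

open AlgebraicCurve Module Matrix

namespace Fermat.Agent.Row27

universe u

variable {K : Type u} [Field K]
variable {L L' : Type u} [Field L] [Algebra K L] [Field L'] [Algebra K L']

namespace Spec

variable (φ : Spec K L L')

/-- The valuation ring as an algebra over the constants. -/
@[reducible] def domAlg : Algebra K φ.dom :=
  ((algebraMap K L).codRestrict φ.dom.toSubring φ.trivOn).toAlgebra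

/-- The inclusion, over the constants. -/
def valA : letI := φ.domAlg; φ.dom →ₐ[K] L :=
  letI := φ.domAlg
  { φ.dom.subtype with commutes' := fun _ => rfl }

/-- The reduction, over the constants. -/
def mapA : letI := φ.domAlg; φ.dom →ₐ[K] L' :=
  letI := φ.domAlg
  { φ.map with commutes' := φ.map_algebraMap }

lemma exists_scaled {ι : Type*} [Fintype ι] {v : ι → L} (hv : v ≠ 0) :
    ∃ (c : L) (w : ι → φ.dom), c ≠ 0 ∧ (v = fun i => c * (w i : L)) ∧ ∃ i, w i = 1 := by
  classical
  obtain ⟨i₁, hi₁⟩ := Function.ne_iff.mp hv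
  obtain ⟨i₀, -, hmax⟩ := Finset.exists_max_image Finset.univ (fun i => φ.dom.valuation (v i))
    ⟨i₁, Finset.mem_univ _⟩
  have h0 : v i₀ ≠ 0 := fun e => by
    have h := hmax i₁ (Finset.mem_univ _)
    rw [e, map_zero, le_zero_iff, Valuation.zero_iff] at h
    exact hi₁ h
  refine ⟨v i₀, fun i => ⟨v i / v i₀, (valuation_le_iff_div_mem _ h0).mp
    (hmax i (Finset.mem_univ _))⟩, h0, funext fun i => (mul_div_cancel₀ _ h0).symm, i₀,
    Subtype.ext (div_self h0)⟩

lemma linearIndependent_lift {ι κ : Type*} [Fintype κ] {x : κ → ι → φ.dom}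
    (h : LinearIndependent L' fun i => fun t => φ.map (x i t)) :
    LinearIndependent L fun i => fun t => (x i t : L) := by
  rw [Fintype.linearIndependent_iff] at h ⊢
  intro g hg
  by_contra hne
  push Not at hne
  obtain ⟨i₁, hi₁⟩ := hne
  obtain ⟨c, w, hc, hgw, i₀, hi₀⟩ := φ.exists_scaled (v := g) fun e => hi₁ (congrFun e i₁)
  have hz : ∀ t, ∑ i, w i * x i t = 0 := by
    intro t
    refine Subtype.ext ?_
    have := congrFun hg t
    simp only [Finset.sum_apply, Pi.smul_apply, smul_eq_mul, hgw, Pi.zero_apply, mul_assoc,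
      ← Finset.mul_sum] at this
    rw [mul_eq_zero] at this
    rw [← ValuationSubring.coe_subtype]
    simpa [map_sum] using this.resolve_left hc
  have := h (fun i => φ.map (w i)) (funext fun t => by
    simpa [Finset.sum_apply, map_sum, map_mul] using congrArg φ.map (hz t)) i₀
  rw [hi₀, map_one] at this
  exact one_ne_zero this

lemma exists_integral_basis {ι : Type*} {N : ℕ} (W : Submodule L (ι → L))
    [Module.Finite L' (φ.mapSub W)] (hN : finrank L' (φ.mapSub W) = N) :
    ∃ x : Fin N → ι → φ.dom, (∀ i, (fun t => (x i t : L)) ∈ W) ∧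
      LinearIndependent L (fun i => fun t => (x i t : L)) ∧
      (∀ i, (fun t => φ.map (x i t)) ∈ φ.mapSub W) ∧
      LinearIndependent L' (fun i => fun t => φ.map (x i t)) := by
  classical
  set S := {y : ι → L' | ∃ x : ι → φ.dom, (fun i => (x i : L)) ∈ W ∧ y = fun i => φ.map (x i)}
  obtain ⟨s, hsS, hspan, hs⟩ := exists_linearIndependent L' S
  let s' : s → φ.mapSub W := fun y => ⟨(y : ι → L'), Submodule.subset_span (hsS y.2)⟩
  have hs' : LinearIndependent L' s' := LinearIndependent.of_comp (φ.mapSub W).subtype hs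
  have := hs'.finite
  have := Fintype.ofFinite s
  have hcard : Fintype.card s = N := by
    rw [← hN, ← finrank_span_eq_card hs, Subtype.range_coe]
    exact LinearEquiv.finrank_eq (LinearEquiv.ofEq _ _ hspan)
  let e := (Fintype.equivFinOfCardEq hcard).symm
  choose x hxW hx using fun i => hsS (e i).2
  have hli : LinearIndependent L' (fun i => fun t => φ.map (x i t)) := by
    rw [show (fun i => fun t => φ.map (x i t)) = (fun i => (e i : ι → L')) from
      funext fun i => (hx i).symm]
    exact hs.comp e e.injective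
  exact ⟨x, hxW, φ.linearIndependent_lift hli,
    fun i => Submodule.subset_span ⟨x i, hxW i, rfl⟩, hli⟩

end Spec

lemma mapDomain_nonneg {α β : Type*} (f : α → β) {A : α →₀ ℤ} (hA : 0 ≤ A) :
    0 ≤ Finsupp.mapDomain f A := fun w => by
  classical
  rw [Finsupp.mapDomain, Finsupp.sum_apply]
  refine Finset.sum_nonneg fun v _ => ?_
  dsimp only
  rw [Finsupp.single_apply]
  split_ifs
  · exact hA v
  · exact le_rfl

namespace CurveData

variable (C : CurveData K) [IsAlgClosed L] [IsAlgClosed L'] (T : SpecTheory C) (φ : Spec K L L')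

omit [IsAlgClosed L] [IsAlgClosed L'] in
lemma val_mulv {a b c : ℕ} (x : C.Idx a → φ.dom) (y : C.Idx b → φ.dom) :
    letI := φ.domAlg
    (fun l => ((C.mulv a b c x y : C.Idx c → φ.dom) l : L)) =
      C.mulv a b c (fun i => (x i : L)) (fun j => (y j : L)) :=
  letI := φ.domAlg
  funext fun l => map_mulVec (C.sc a b c) φ.valA x y l

omit [IsAlgClosed L] [IsAlgClosed L'] in
lemma map_mulv {a b c : ℕ} (x : C.Idx a → φ.dom) (y : C.Idx b → φ.dom) :
    letI := φ.domAlg
    (fun l => φ.map (C.mulv a b c x y l)) =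
      C.mulv a b c (fun i => φ.map (x i)) (fun j => φ.map (y j)) :=
  letI := φ.domAlg
  funext fun l => map_mulVec (C.sc a b c) φ.mapA x y l

/-- The reduction of the function of a pair. -/
lemma red_pairFun_mem {D : Divisor L (C.curve L)} (hD : 0 ≤ D) {m : ℕ}
    (hd : Divisor.degree D = m) {f : C.Idx m → φ.dom}
    (hf : (fun t => (f t : L)) ∈ C.W L m D) (hf0 : (fun t => φ.map (f t)) ≠ 0) :
    (fun t => φ.map (f t)) ∈ C.W L' m (Finsupp.mapDomain (T.place φ) D) := by
  classical
  let := φ.domAlg
  set c := 2 * C.g + 1 with hc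
  set E := Finsupp.mapDomain (T.place φ) D with hE
  have hr : C.realF L' m (fun t => φ.map (f t)) ≠ 0 := fun h =>
    hf0 (C.realF_injective L' m (h.trans (map_zero _).symm))
  rw [mem_W, MWJ0.mem_Lsp_of_ne_zero hr]
  intro v
  have hprop : ∃ j : C.Idx c, (Pi.single j (1 : L') : C.Idx c → L') ∉
      C.W L' c (Finsupp.single v 1) := by
    by_contra hall
    push Not at hall
    have htop : C.W L' c (Finsupp.single v 1) = ⊤ := by
      rw [Submodule.eq_top_iff']
      intro x
      rw [show x = ∑ j, x j • (Pi.single j (1 : L') : C.Idx c → L') by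
        ext i; simp [Finset.sum_apply, Pi.single_apply]]
      exact Submodule.sum_mem _ fun j _ => Submodule.smul_mem _ _ (hall j)
    have h1 := C.finrank_W (b := c) (m := 1) (D := Finsupp.single v (1 : ℤ))
      (Finsupp.single_nonneg.mpr zero_le_one) (by rw [(C.rr L').degree_single]; norm_num) (by omega)
    have h2 := C.finrank_W (L := L') (b := c) (m := 0) (D := 0) le_rfl (by simp) (by omega)
    have h3 : C.W L' c (0 : Divisor L' (C.curve L')) = ⊤ :=
      Submodule.eq_top_iff'.mpr fun x => by rw [mem_W, sub_zero]; exact C.realF_mem c x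
    rw [htop, ← h3, h2] at h1
    omega
  obtain ⟨j, hj⟩ := hprop
  set e : C.Idx c → φ.dom := Pi.single j 1 with he
  have he' : (fun t => φ.map (e t)) = (Pi.single j (1 : L') : C.Idx c → L') := by
    funext t; simp [he, Pi.single_apply, apply_ite φ.map]
  have hprod : (fun t => φ.map (C.mulv m c (m + c) f e t)) ∈ C.W L' (m + c) E := by
    rw [hE, ← T.mapSub_W φ D hD (m + c) (by rw [hd]; omega)]
    refine Submodule.subset_span ⟨C.mulv m c (m + c) f e, ?_, rfl⟩
    rw [C.val_mulv φ, ← add_zero D]
    refine C.mulv_mem_W rfl hf ?_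
    rw [mem_W, sub_zero]
    exact C.realF_mem c _
  rw [C.map_mulv φ, he', mem_W, C.realF_mulv le_rfl] at hprod
  have hre : C.realF L' c (Pi.single j (1 : L')) ≠ 0 := fun h => hj (by
    rw [mem_W, h]; exact zero_mem _)
  have h1 := (MWJ0.mem_Lsp_of_ne_zero (mul_ne_zero hr hre)).mp hprod v
  rw [v.ord_mul hr hre] at h1
  have h2 := (MWJ0.mem_Lsp_of_ne_zero hre).mp (C.realF_mem c (Pi.single j (1 : L'))) v
  have h3 : v.ord (C.realF L' c (Pi.single j (1 : L'))) ≤ -(C.binf L' (c : ℤ) v) := by
    by_contra hlt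
    push Not at hlt
    refine hj ?_
    rw [mem_W, MWJ0.mem_Lsp_of_ne_zero hre]
    intro w
    rcases eq_or_ne w v with rfl | hw
    · rw [Finsupp.sub_apply, Finsupp.single_eq_same]; omega
    · rw [Finsupp.sub_apply, Finsupp.single_eq_of_ne hw, sub_zero]
      exact (MWJ0.mem_Lsp_of_ne_zero hre).mp (C.realF_mem c _) w
  simp only [Finsupp.sub_apply, binf, Nat.cast_add, Finsupp.single_add, Finsupp.add_apply] at *
  omega

/-- Frames of a pair with integral data, and their reductions. -/
lemma exists_red_frame {b : ℕ} (hn : C.n ≤ b) (hb : 2 * C.g + C.n < b)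
    {D D' : Divisor L (C.curve L)} (hD : 0 ≤ D) (hD' : 0 ≤ D')
    (hd : Divisor.degree D = C.n) (hd' : Divisor.degree D' = C.n)
    (hcls : C.cls L D + C.cls L D' = 0) :
    ∃ (s : C.TuIdx b → φ.dom) (Φ : C.Frame L b D D')
      (Φ' : C.Frame L' b (Finsupp.mapDomain (T.place φ) D) (Finsupp.mapDomain (T.place φ) D')),
      Φ.theta = (fun p => (s p : L)) ∧ Φ'.theta = fun p => φ.map (s p) := by
  classical
  let := φ.domAlg
  set E := Finsupp.mapDomain (T.place φ) D with hE
  set E' := Finsupp.mapDomain (T.place φ) D' with hE'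
  have he : Divisor.degree E = C.n := (C.deg_mapDomain _ D).trans hd
  have he' : Divisor.degree E' = C.n := (C.deg_mapDomain _ D').trans hd'
  obtain ⟨f, hf, hf0⟩ := C.exists_pairFun hD hD' hd hd' hcls
  obtain ⟨c, f₀, hc, hfc, i₀, hi₀⟩ := φ.exists_scaled hf0
  have hf₀ : (fun t => (f₀ t : L)) ∈ C.W L (C.n + C.n) (D + D') := by
    have := Submodule.smul_mem _ c⁻¹ hf
    convert this using 1
    funext t
    simp [hfc, inv_mul_cancel_left₀ hc]
  have hf₀' : (fun t => φ.map (f₀ t)) ≠ 0 := fun h => one_ne_zero (α := L') (by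
    have := congrFun h i₀
    rwa [hi₀, map_one] at this)
  have hf₀n : (fun t => (f₀ t : L)) ≠ 0 := fun h => one_ne_zero (α := L) (by
    have := congrFun h i₀
    simp [hi₀] at this)
  have hgm : (fun t => φ.map (f₀ t)) ∈ C.W L' (C.n + C.n) (E + E') := by
    rw [hE, hE', ← Finsupp.mapDomain_add]
    exact C.red_pairFun_mem T φ (add_nonneg hD hD')
      (by rw [map_add, hd, hd']; push_cast; ring) hf₀ hf₀'
  have hmap := T.mapSub_W φ D hD b (by rw [hd]; omega)
  have hmap' := T.mapSub_W φ D' hD' b (by rw [hd']; omega)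
  have : Module.Finite L' (φ.mapSub (C.W L b D)) := by rw [hmap]; infer_instance
  have : Module.Finite L' (φ.mapSub (C.W L b D')) := by rw [hmap']; infer_instance
  obtain ⟨x, hx, hxi, hxm, hxi'⟩ := φ.exists_integral_basis (C.W L b D) (N := C.nW b)
    (by rw [hmap]; exact C.finrank_W (mapDomain_nonneg _ hD) he (by omega))
  obtain ⟨x', hx', hx'i, hx'm, hx'i'⟩ := φ.exists_integral_basis (C.W L b D') (N := C.nW b)
    (by rw [hmap']; exact C.finrank_W (mapDomain_nonneg _ hD') he' (by omega))
  obtain ⟨Φ, hΦu, hΦu', hΦf⟩ := C.exists_frame' hn hd hd' hx hx' hxi hx'i hf₀ hf₀n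
  have hint : ∀ i k, ∃ z : C.Idx (C.hl b) → φ.dom, (fun t => (z t : L)) = Φ.h i k := by
    intro i k
    rcases eq_or_ne (Φ.h i k) 0 with h0 | h0
    · exact ⟨0, by rw [h0]; rfl⟩
    obtain ⟨a, w, ha, haw, l₀, hl₀⟩ := φ.exists_scaled h0
    suffices haA : a ∈ φ.dom by
      exact ⟨fun t => ⟨a, haA⟩ * w t, by rw [haw]; rfl⟩
    by_contra haA
    have hai : a⁻¹ ∈ φ.dom := (φ.dom.mem_or_inv_mem a).resolve_left haA
    have hm0 : φ.map ⟨a⁻¹, hai⟩ = 0 := by
      rw [φ.map_eq_zero]
      intro hu
      obtain ⟨z, hz⟩ := isUnit_iff_exists_inv.mp hu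
      have hz' := congrArg Subtype.val hz
      simp only [MulMemClass.coe_mul, OneMemClass.coe_one] at hz'
      rw [inv_mul_eq_one₀ ha] at hz'
      exact haA (hz'.symm ▸ z.2)
    have e : C.mulv (C.n + C.n) (C.hl b) (b + b) f₀ w =
        fun l => ⟨a⁻¹, hai⟩ * C.mulv b b (b + b) (x i) (x' k) l := by
      funext l
      refine Subtype.ext ?_
      rw [MulMemClass.coe_mul]
      refine (congrFun (C.val_mulv φ f₀ w) l).trans ?_
      rw [congrFun (C.val_mulv φ (x i) (x' k)) l]
      have h1 := congrFun (Φ.h_mul i k) l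
      rw [hΦu, hΦu', hΦf, haw] at h1
      rw [← h1]
      simp only [mulv, mulVec, Finset.mul_sum, Algebra.smul_def]
      refine Finset.sum_congr rfl fun s _ => Finset.sum_congr rfl fun t _ => ?_
      field_simp
    have e' : C.mulv (C.n + C.n) (C.hl b) (b + b) (fun t => φ.map (f₀ t))
        (fun t => φ.map (w t)) = 0 := by
      rw [← C.map_mulv φ]
      funext l
      rw [congrFun e l, map_mul, hm0, zero_mul, Pi.zero_apply]
    have e2 := congrArg (C.realF L' (b + b)) e'
    rw [C.realF_mulv (by simp only [hl]; omega), map_zero, mul_eq_zero] at e2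
    rcases e2 with h | h
    · exact hf₀' (C.realF_injective L' _ (h.trans (map_zero _).symm))
    · exact one_ne_zero (α := L') (by
        have := congrFun (C.realF_injective L' _ (h.trans (map_zero _).symm)) l₀
        rwa [hl₀, map_one] at this)
  choose H hH using hint
  let Φ' : C.Frame L' b E E' :=
    { u := fun i t => φ.map (x i t)
      u' := fun i t => φ.map (x' i t)
      f := fun t => φ.map (f₀ t)
      h := fun i k t => φ.map (H i k t)
      u_mem := fun i => hmap ▸ hxm i
      u'_mem := fun i => hmap' ▸ hx'm i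
      u_li := hxi'
      u'_li := hx'i'
      f_mem := hgm
      f_ne := hf₀'
      h_mul := fun i k => by
        rw [← C.map_mulv φ, ← C.map_mulv φ]
        refine funext fun l => congrArg φ.map (Subtype.ext ?_)
        rw [congrFun (C.val_mulv φ f₀ (H i k)) l, congrFun (C.val_mulv φ (x i) (x' k)) l, hH]
        have h1 := congrFun (Φ.h_mul i k) l
        rwa [hΦu, hΦu', hΦf] at h1 }
  refine ⟨fun p => mixedSum fun j => Matrix.of fun i k => C.evAt (p j) (C.hl b) (H i k),
    Φ, Φ', funext fun p => ?_, funext fun p => ?_⟩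
  · refine Eq.trans ?_ (map_mixedSum φ.dom.subtype _).symm
    refine congrArg mixedSum (funext fun j => ?_)
    ext i k
    rw [Matrix.map_apply, Matrix.of_apply, Matrix.of_apply, ← hH]
    exact (C.map_evAt φ.valA (p j) (C.hl b) (H i k)).symm
  · refine Eq.trans ?_ (map_mixedSum φ.map _).symm
    refine congrArg mixedSum (funext fun j => ?_)
    ext i k
    rw [Matrix.map_apply, Matrix.of_apply, Matrix.of_apply]
    exact (C.map_evAt φ.mapA (p j) (C.hl b) (H i k)).symm

/-- The theta map commutes with specialisations up to scalars. -/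
theorem thetaMap_spec (x : Pic0 L (C.curve L)) :
    ∃ s : C.TIdx → φ.dom, PropTo (C.thetaMap L x) (fun i => (s i : L)) ∧
      PropTo (C.thetaMap L' (T.pic φ x)) (fun i => φ.map (s i)) := by
  have hD := C.repD_nonneg L x
  have hD' := C.repD_nonneg L (-x)
  have hd := C.degree_repD L x
  have hd' := C.degree_repD L (-x)
  have hcl : C.cls L (C.repD L x) + C.cls L (C.repD L (-x)) = 0 := by
    rw [cls_repD, cls_repD, add_neg_cancel]
  obtain ⟨s, Φ, Φ', h1, h1'⟩ := C.exists_red_frame T φ (b := C.lh) C.goodLevel_lh.n_le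
    (by simp only [lh, l3, l2, l1, la, CurveData.n]; omega) hD hD' hd hd' hcl
  obtain ⟨t, Ψ, Ψ', h2, h2'⟩ := C.exists_red_frame T φ (b := C.lh') C.goodLevel_lh'.n_le
    (by simp only [lh', l2, l1, la, CurveData.n]; omega) hD hD' hd hd' hcl
  refine ⟨fun p => s p.1 * t p.2, ?_, ?_⟩
  · have := C.propTo_thetaMap hD hD' hd hd' (C.cls_repD L x) (C.cls_repD L (-x)) Φ Ψ
    rw [h1, h2] at this
    exact this
  · have := C.propTo_thetaMap (mapDomain_nonneg _ hD) (mapDomain_nonneg _ hD') ((C.deg_mapDomain _ _).trans hd)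
      ((C.deg_mapDomain _ _).trans hd') (x := T.pic φ x)
      (by rw [← T.pic_cls, cls_repD]) (by rw [← T.pic_cls, cls_repD, map_neg]) Φ' Ψ'
    rw [h1', h2'] at this
    simpa only [map_mul] using this

end CurveData

end Fermat.Agent.Row27

end
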