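import Fermat.Agent.Row27.RRBasic
import Fermat.Agent.Row27.Retraction

/-!
# Divisors and classes under field embeddings, and constant theta vectors
-/

set_option autoImplicit false

noncomputable section

open AlgebraicCurve Module

namespace Fermat.Agent.Row27

universe u

variable {K : Type u} [Field K] {C : CurveData K}

section Push

variable (T : SpecTheory C) {L L' : Type u} [Field L] [Algebra K L] [IsAlgClosed L] [Field L']
  [Algebra K L'] [IsAlgClosed L']

/-- The image of a divisor under a specialisation. -/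
def SpecTheory.push (φ : Spec K L L') : Divisor L (C.curve L) →+ Divisor L' (C.curve L') :=
  Finsupp.mapDomain.addMonoidHom (T.place φ)

lemma SpecTheory.push_apply (φ : Spec K L L') (D : Divisor L (C.curve L)) :
    T.push φ D = Finsupp.mapDomain (T.place φ) D := rfl

@[simp] lemma SpecTheory.push_single (φ : Spec K L L') (P : Place L (C.curve L)) (n : ℤ) :
    T.push φ (Finsupp.single P n) = Finsupp.single (T.place φ P) n :=
  Finsupp.mapDomain_single

@[simp] lemma SpecTheory.push_binf (φ : Spec K L L') (b : ℤ) :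
    T.push φ (C.binf L b) = C.binf L' b := by
  rw [CurveData.binf, T.push_single, T.place_inf, CurveData.binf]

lemma SpecTheory.degree_push (φ : Spec K L L') (D : Divisor L (C.curve L)) :
    Divisor.degree (T.push φ D) = Divisor.degree D := by
  induction D using Finsupp.induction with
  | zero => simp
  | single_add P n D _ _ ih =>
      rw [map_add, map_add, map_add, ih, T.push_single, C.degree_single, C.degree_single]

lemma SpecTheory.push_nonneg (φ : Spec K L L') {D : Divisor L (C.curve L)} (h : 0 ≤ D) :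
    0 ≤ T.push φ D := by
  intro Q
  classical
  rw [T.push_apply, Finsupp.mapDomain, Finsupp.sum_apply]
  refine Finset.sum_nonneg fun P _ => ?_
  show 0 ≤ Finsupp.single (T.place φ P) (D P) Q
  rw [Finsupp.single_apply]
  split_ifs
  · exact h P
  · exact le_rfl

lemma SpecTheory.pic_cls' (φ : Spec K L L') (D : Divisor L (C.curve L)) :
    T.pic φ (C.cls L D) = C.cls L' (T.push φ D) := T.pic_cls φ D

variable {L'' : Type u} [Field L''] [Algebra K L''] [IsAlgClosed L'']

lemma SpecTheory.pic_comp (ψ : L →ₐ[K] L') (φ : Spec K L' L'') (χ : L →ₐ[K] L'')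
    (h : ∀ l, ψ l ∈ φ.dom) (hχ : ∀ l, φ.map ⟨ψ l, h l⟩ = χ l) (x : Pic0 L (C.curve L)) :
    T.pic φ (T.pic (Spec.ofAlgHom ψ) x) = T.pic (Spec.ofAlgHom χ) x := by
  obtain ⟨D, -, rfl⟩ := C.cls_surjective L x
  rw [T.pic_cls', T.pic_cls', T.pic_cls']
  refine congrArg _ ?_
  simp only [T.push_apply, ← Finsupp.mapDomain_comp]
  exact Finsupp.mapDomain_congr fun P _ => T.place_comp ψ φ χ h hχ P

lemma SpecTheory.pic_id (x : Pic0 L (C.curve L)) :
    T.pic (Spec.ofAlgHom (AlgHom.id K L)) x = x := by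
  obtain ⟨D, -, rfl⟩ := C.cls_surjective L x
  rw [T.pic_cls', T.push_apply]
  exact congrArg _ ((Finsupp.mapDomain_congr fun P _ => T.place_id P).trans Finsupp.mapDomain_id)

lemma SpecTheory.pic_pic_of_retraction (ψ : L →ₐ[K] L') (φ : Spec K L' L)
    (h : ∀ l, ψ l ∈ φ.dom) (hid : ∀ l, φ.map ⟨ψ l, h l⟩ = l) (x : Pic0 L (C.curve L)) :
    T.pic φ (T.pic (Spec.ofAlgHom ψ) x) = x :=
  (T.pic_comp ψ φ (AlgHom.id K L) h hid x).trans (T.pic_id x)

lemma SpecTheory.pic_algHom_comp (ψ : L →ₐ[K] L') (ι : L' →ₐ[K] L'')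
    (x : Pic0 L (C.curve L)) :
    T.pic (Spec.ofAlgHom ι) (T.pic (Spec.ofAlgHom ψ) x) = T.pic (Spec.ofAlgHom (ι.comp ψ)) x :=
  T.pic_comp ψ (Spec.ofAlgHom ι) (ι.comp ψ) (fun _ => ValuationSubring.mem_top _) (fun _ => rfl) x

lemma SpecTheory.pic_surjective_of_surjective (ψ : L →ₐ[K] L') (hψ : Function.Surjective ψ) :
    Function.Surjective (T.pic (Spec.ofAlgHom ψ)) := fun x => by
  let e := AlgEquiv.ofBijective ψ ⟨ψ.toRingHom.injective, hψ⟩
  refine ⟨T.pic (Spec.ofAlgHom (e.symm : L' →ₐ[K] L)) x, ?_⟩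
  rw [T.pic_algHom_comp]
  convert T.pic_id x
  exact AlgHom.ext fun z => e.apply_symm_apply z

omit [IsAlgClosed L] [IsAlgClosed L'] in
/-- Embeddings do not shrink the images of subspaces. -/
lemma Spec.finrank_le_mapSub {ι : Type*} [Finite ι] (ψ : L →ₐ[K] L') (W : Submodule L (ι → L)) :
    finrank L W ≤ finrank L' ((Spec.ofAlgHom ψ).mapSub W) := by
  classical
  have := Fintype.ofFinite ι
  let b := Module.finBasis L W
  let v : Fin (finrank L W) → (Spec.ofAlgHom ψ).mapSub W := fun i => ⟨fun l => ψ ((b i : ι → L) l),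
    Submodule.subset_span ⟨fun l => ⟨(b i : ι → L) l, ValuationSubring.mem_top _⟩, (b i).2, rfl⟩⟩
  obtain ⟨G, hG⟩ := LinearMap.exists_leftInverse_of_injective
    (W.subtype.comp (b.equivFun.symm : (Fin (finrank L W) → L) →ₗ[L] W))
    (LinearMap.ker_eq_bot.mpr
      (Subtype.val_injective.comp b.equivFun.symm.injective))
  have hv : LinearIndependent L' v := by
    refine LinearIndependent.of_comp ((Spec.ofAlgHom ψ).mapSub W).subtype ?_
    rw [Fintype.linearIndependent_iff]
    intro c hc i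
    have hδ : ∀ j, ∑ l, (b j : ι → L) l * G (Pi.single l 1) i = if j = i then 1 else 0 := by
      intro j
      have h1 := congrArg (fun f => f (Pi.single j 1) i) hG
      simp only [LinearMap.comp_apply, LinearEquiv.coe_coe, LinearMap.id_apply] at h1
      rw [Pi.single_apply] at h1
      rw [show b.equivFun.symm (Pi.single j 1) = b j by simp [Pi.single_apply]] at h1
      rw [Submodule.subtype_apply, pi_eq_sum_univ' (b j : ι → L), map_sum] at h1
      simp only [map_smul, Finset.sum_apply, Pi.smul_apply, smul_eq_mul] at h1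
      rw [h1]
      simp [eq_comm]
    have h2 : ∑ l, (∑ j, c j * ψ ((b j : ι → L) l)) * ψ (G (Pi.single l 1) i) = 0 := by
      refine Finset.sum_eq_zero fun l _ => ?_
      rw [show ∑ j, c j * ψ ((b j : ι → L) l) = 0 by simpa [v] using congrFun hc l, zero_mul]
    simp only [Finset.sum_mul, mul_assoc, ← map_mul] at h2
    rw [Finset.sum_comm] at h2
    simp only [← Finset.mul_sum, ← map_sum, hδ, apply_ite ψ, map_one, map_zero] at h2
    simpa using h2
  simpa using hv.fintype_card_le_finrank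

/-- The canonical class is defined over every subfield. -/
lemma SpecTheory.pic_cls_canon (hg : 0 < C.g) (ψ : L →ₐ[K] L') :
    T.pic (Spec.ofAlgHom ψ) (C.cls L (C.canon L)) = C.cls L' (C.canon L') := by
  obtain ⟨E, hE, hEd, hEc⟩ := C.exists_effective L (-C.cls L (C.canon L)) (le_refl C.g)
  set b := 3 * C.g - 2 with hb
  have hbc : (b : ℤ) = 3 * (C.g : ℤ) - 2 := by omega
  have hdeg : Divisor.degree (C.binf L b - E) = 2 * (C.g : ℤ) - 2 := by
    rw [map_sub, C.deg_binf, hEd]; omega
  have hcls : C.cls L (C.binf L b - E) = C.cls L (C.canon L) := by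
    rw [map_sub, C.cls_binf, hEc, zero_sub, neg_neg]
  have hg0 : C.g ≤ C.h0 L (C.binf L b - E) := by
    rw [C.h0_eq_of_cls L (hdeg.trans (C.degree_canon L).symm) hcls]
    have h1 := C.rr_h0 L (C.canon L)
    rw [sub_self, C.degree_canon] at h1
    have h2 : C.h0 L 0 ≠ 0 := fun h => by
      have h3 := (C.h0_eq_zero_iff L).mp h
      have h4 : (1 : C.curve L) ∈ riemannRochSpace (0 : Divisor L (C.curve L)) := by
        rw [MWJ0.mem_Lsp]; exact fun v => Or.inr (by simp)
      rw [h3, Submodule.mem_bot] at h4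
      exact one_ne_zero h4
    omega
  obtain ⟨A, hA⟩ : ∃ A, A = C.binf L' b - T.push (Spec.ofAlgHom ψ) E := ⟨_, rfl⟩
  have hg1 : C.g ≤ C.h0 L' A := by
    rw [hA, ← C.finrank_W_eq_h0 L' b (T.push_nonneg _ hE), T.push_apply,
      ← T.mapSub_W_of_algHom ψ E hE b]
    refine hg0.trans ?_
    rw [← C.finrank_W_eq_h0 L b hE]
    exact Spec.finrank_le_mapSub ψ _
  have hAd : Divisor.degree A = 2 * (C.g : ℤ) - 2 := by
    rw [hA, map_sub, C.deg_binf, T.degree_push, hEd]; omega
  have hAc : C.cls L' A = T.pic (Spec.ofAlgHom ψ) (C.cls L (C.canon L)) := by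
    have e : T.push (Spec.ofAlgHom ψ) (C.binf L b - E) = A := by
      rw [map_sub, T.push_binf, hA]
    rw [← hcls, T.pic_cls', e]
  rw [← hAc]
  by_contra hne
  have := C.h0_le_of_cls_ne L' hg hAd hne
  omega

end Push

section Const

variable {L L' : Type u} [Field L] [Algebra K L] [Field L'] [Algebra K L'] {ι : Type*}

/-- The vector is proportional to one with coordinates in the subfield. -/
def IsConst (ψ : L →ₐ[K] L') (v : ι → L') : Prop :=
  ∃ c : ι → L, PropTo (fun i => ψ (c i)) v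

variable [Fintype ι] [Nonempty ι]

lemma vmax_smul (A : ValuationSubring L') (a : L') (v : ι → L') :
    vmax A (a • v) = A.valuation a * vmax A v := by
  obtain ⟨i, hi⟩ := exists_vmax_eq A v
  refine le_antisymm (vmax_le_iff.mpr fun j => ?_) ?_
  · rw [Pi.smul_apply, smul_eq_mul, map_mul]
    exact mul_le_mul_right (le_vmax A v j) _
  · rw [hi, ← map_mul]
    exact le_vmax A (a • v) i

/-- A constant vector has a principal family of values. -/
lemma IsConst.exists_vmax {ψ : L →ₐ[K] L'} {v : ι → L'} (h : IsConst ψ v) (hv : v ≠ 0) :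
    ∃ κ : L', κ ≠ 0 ∧ ∀ A : ValuationSubring L', (∀ l, ψ l ∈ A) → vmax A v = A.valuation κ := by
  obtain ⟨c, a, ha, rfl⟩ := h
  obtain ⟨i, hi⟩ : ∃ i, c i ≠ 0 := by
    by_contra hc
    push Not at hc
    exact hv (funext fun i => by simp [hc i])
  refine ⟨a, ha, fun A hA => ?_⟩
  have h1 : ∀ l, A.valuation (ψ l) ≤ 1 := fun l => (A.valuation_le_one_iff _).mpr (hA l)
  rw [vmax_smul]
  refine mul_right_eq_self₀.mpr (Or.inl (le_antisymm (vmax_le_iff.mpr fun j => h1 _) ?_))
  refine le_trans ?_ (le_vmax A (fun i => ψ (c i)) i)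
  have h2 : A.valuation (ψ (c i)) * A.valuation (ψ (c i)⁻¹) = 1 := by
    rw [← map_mul, ← map_mul, mul_inv_cancel₀ hi, map_one, map_one]
  exact h2 ▸ mul_le_of_le_one_right' (h1 _)

variable [IsAlgClosed L]

/-- A product with principal values over a subfield has constant factors. -/
lemma isConst_of_vmax_mul {ι' : Type*} [Fintype ι'] [Nonempty ι'] (ψ : L →ₐ[K] L') {q : ℕ}
    (hq : 0 < q) {v : ι → L'} (hv : v ≠ 0) {w : ι' → L'} (hw : w ≠ 0) {lam : L'}
    (hlam : lam ≠ 0)
    (h : ∀ A : ValuationSubring L', TrivOn K A → (∀ l, ψ l ∈ A) →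
      vmax A v ^ q * vmax A w = A.valuation lam) : IsConst ψ v := by
  obtain ⟨i, hi⟩ := Function.ne_iff.mp hv
  obtain ⟨j, hj⟩ := Function.ne_iff.mp hw
  rw [Pi.zero_apply] at hi hj
  have hmem : ∀ a, v a ^ q * w j / lam ∈ Set.range ψ := fun a => by
    refine mem_range_of_forall_valuation ψ fun A hA hA' => ?_
    rw [map_div₀, map_mul, map_pow,
      div_le_one₀ (zero_lt_iff.mpr ((Valuation.ne_zero_iff _).mpr hlam)), ← h A hA hA']
    exact mul_le_mul' (pow_le_pow_left' (le_vmax A v a) q) (le_vmax A w j)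
  have hrat : ∀ a, v a / v i ∈ Set.range ψ := fun a => by
    obtain ⟨za, hza⟩ := hmem a
    obtain ⟨zi, hzi⟩ := hmem i
    obtain ⟨r, hr⟩ := IsAlgClosed.exists_pow_nat_eq (za / zi) hq
    have hpow : (v a / v i) ^ q = ψ r ^ q := by
      rw [← map_pow ψ, hr, map_div₀, hza, hzi, div_pow]
      field_simp
    rcases eq_or_ne (ψ r) 0 with h0 | h0
    · exact ⟨0, by rw [h0, zero_pow hq.ne', pow_eq_zero_iff hq.ne'] at hpow; rw [map_zero, hpow]⟩
    have h2 : ((v a / v i) / ψ r) ^ q = 1 := by rw [div_pow, hpow, div_self (pow_ne_zero _ h0)]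
    obtain ⟨ε, hε⟩ : (v a / v i) / ψ r ∈ Set.range ψ :=
      mem_range_of_forall_valuation ψ fun A _ _ =>
        le_of_eq ((pow_eq_one_iff_of_nonneg zero_le hq.ne').mp (by rw [← map_pow, h2, map_one]))
    exact ⟨ε * r, by rw [map_mul, hε, div_mul_cancel₀ _ h0]⟩
  choose c hc using hrat
  exact ⟨c, v i, hi, funext fun a => by rw [Pi.smul_apply, hc, smul_eq_mul, mul_div_cancel₀ _ hi]⟩

end Const

end Fermat.Agent.Row27

end
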