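import Fermat.Agent.Row27.BaseSeries
import Fermat.Agent.Row27.BaseGen

/-!
# The curve over a larger algebraically closed field, inside Laurent series
-/

set_option autoImplicit false

noncomputable section

open AlgebraicCurve IntermediateField Polynomial ModularCurve
open Fermat.Agent.FunctionFieldRR

namespace Fermat.Agent.Row27

variable {K F : Type*} [Field K] [Field F] [Algebra K F] [IsAlgClosed K]
  [IsFunctionField K F]

section Emb

variable (O : Place K F) (L : Type*) [Field L] [Algebra K L]

/-- The expansion at `O` with coefficients in `L`. -/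
def ser : F →+* LaurentSeries L := (coeffMap (algebraMap K L)).comp (laurentExp O)

/-- The curve over `L`. -/
def Ext : IntermediateField L (LaurentSeries L) := IntermediateField.adjoin L (Set.range (ser O L))

/-- A function of `F` on the curve over `L`. -/
def el : F →+* Ext O L := (ser O L).codRestrict (Ext O L) fun f => subset_adjoin _ _ ⟨f, rfl⟩

variable {O L}

theorem coe_el (f : F) : (el O L f : LaurentSeries L) = ser O L f := rfl

theorem coeff_ser (f : F) (i : ℤ) :
    (ser O L f).coeff i = algebraMap K L ((laurentExp O f).coeff i) := rfl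

theorem order_ser (f : F) : (ser O L f).order = O.ord f := by
  rcases eq_or_ne f 0 with rfl | hf
  · simp
  rw [← laurentExp_order O hf]
  have hne : laurentExp O f ≠ 0 := (_root_.map_ne_zero _).2 hf
  refine Reduction.order_eq_of_coeff ?_ fun m hm => ?_
  · rw [coeff_ser]
    exact (_root_.map_ne_zero _).2 (mt HahnSeries.coeff_order_eq_zero.1 hne)
  · rw [coeff_ser, HahnSeries.coeff_eq_zero_of_lt_order hm, map_zero]

theorem el_algebraMap (c : K) : el O L (algebraMap K F c) = algebraMap L _ (algebraMap K L c) := by
  refine Subtype.ext ?_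
  show coeffMap (algebraMap K L) (laurentExp O (algebraMap K F c)) = _
  rw [laurentExp_algebraMap, HahnSeries.C_apply, coeffMap_single]
  exact (algebraMap_laurentSeries_eq_single (L := L) (algebraMap K L c)).symm

theorem adjoin_el_eq_top : IntermediateField.adjoin L (Set.range (el O L)) = ⊤ := by
  refine eq_top_iff.2 fun z _ => ?_
  have h1 : (IntermediateField.adjoin L (Set.range (el O L))).map (Ext O L).val = Ext O L := by
    rw [IntermediateField.adjoin_map, ← Set.range_comp]
    rfl
  have h2 : (z : LaurentSeries L) ∈
      (IntermediateField.adjoin L (Set.range (el O L))).map (Ext O L).val := by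
    rw [h1]; exact z.2
  obtain ⟨w, hw, hwz⟩ := (IntermediateField.mem_map _).1 h2
  rwa [← Subtype.ext (a1 := w) (a2 := z) hwz]

variable [IsAlgClosed L]

theorem isExt_el : IsExt L O (el O L) where
  comm := el_algebraMap
  gen := adjoin_el_eq_top
  transc f hf h := transcendental_of_order_ne_zero (s := (el O L f : LaurentSeries L))
    (by rw [coe_el, order_ser]; exact hf) (h.algebraMap (A := LaurentSeries L))

instance isFunctionField_Ext (O : Place K F) (L : Type*) [Field L] [Algebra K L] [IsAlgClosed L] :
    IsFunctionField L (Ext O L) :=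
  (nonempty_coord O).some.isFunctionField_ext isExt_el

/-- The valuation ring at infinity. -/
def infRing (O : Place K F) (L : Type*) [Field L] [Algebra K L] : ValuationSubring (Ext O L) :=
  (seriesRing L).comap (algebraMap (Ext O L) (LaurentSeries L))

omit [IsAlgClosed L] in
theorem mem_infRing {f : Ext O L} :
    f ∈ infRing O L ↔ ∀ i < 0, (f : LaurentSeries L).coeff i = 0 :=
  mem_seriesRing

omit [IsAlgClosed L] in
theorem algebraMap_mem_infRing (c : L) : algebraMap L (Ext O L) c ∈ infRing O L :=
  mem_infRing.2 fun i hi => by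
    show (algebraMap L (LaurentSeries L) c).coeff i = 0
    rw [algebraMap_laurentSeries_eq_single, HahnSeries.coeff_single_of_ne hi.ne]

omit [IsAlgClosed L] in
theorem infRing_ne_top : infRing O L ≠ ⊤ := fun h => by
  obtain ⟨t, -, ht⟩ := exists_ord_eq_one O
  have h1 : el O L t⁻¹ ∈ infRing O L := h ▸ ValuationSubring.mem_top _
  have := order_nonneg_of_mem_seriesRing (L := L) (f := ser O L t⁻¹) h1
  rw [order_ser, O.ord_inv, ht] at this
  omega

variable (O L) in
/-- The place at infinity over `L`. -/
def infL : Place L (Ext O L) :=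
  placeOfValuationSubring (infRing O L) algebraMap_mem_infRing infRing_ne_top

omit [IsAlgClosed L] in
theorem coe_order_mul {f g : Ext O L} (hf : f ≠ 0) (hg : g ≠ 0) :
    ((f * g : Ext O L) : LaurentSeries L).order
      = (f : LaurentSeries L).order + (g : LaurentSeries L).order :=
  HahnSeries.order_mul (by simpa using hf) (by simpa using hg)

omit [IsAlgClosed L] in
theorem coe_order_inv (f : Ext O L) :
    ((f⁻¹ : Ext O L) : LaurentSeries L).order = -(f : LaurentSeries L).order := by
  rcases eq_or_ne f 0 with rfl | hf
  · simp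
  have h := coe_order_mul hf (inv_ne_zero hf)
  rw [mul_inv_cancel₀ hf] at h
  simp at h ⊢
  omega

/-- The order at infinity of a function of `F`. -/
theorem ord_infL_el (f : F) : (infL O L).ord (el O L f) = O.ord f := by
  have key : ∀ g : Ext O L, g ≠ 0 → (g : LaurentSeries L).order = 0 → (infL O L).ord g = 0 := by
    intro g hg h0
    have h1 : ∀ h : Ext O L, (h : LaurentSeries L).order = 0 →
        h ∈ (infL O L).toValuationSubring := fun h hh =>
      mem_infRing.2 fun i hi => HahnSeries.coeff_eq_zero_of_lt_order (by rwa [hh])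
    exact (infL O L).ord_coe_unit ⟨⟨g, h1 g h0⟩, ⟨g⁻¹, h1 _ (by rw [coe_order_inv, h0, neg_zero])⟩,
      Subtype.ext (mul_inv_cancel₀ hg), Subtype.ext (inv_mul_cancel₀ hg)⟩
  rcases eq_or_ne f 0 with rfl | hf
  · simp
  obtain ⟨π, hπ0, hπ⟩ := exists_ord_eq_one (infL O L)
  set o := (π : LaurentSeries L).order with ho
  obtain ⟨t, ht0, ht⟩ := exists_ord_eq_one O
  have hlin : ∀ (g : Ext O L) (n : ℤ), g ≠ 0 → (g : LaurentSeries L).order = n →
      (infL O L).ord g = n * (infL O L).ord (el O L t) := fun g n hg hn => by
    have hu := (_root_.map_ne_zero (el O L)).2 ht0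
    have hzz : ((el O L t ^ (-n) : Ext O L) : LaurentSeries L).order = -n := by
      rw [← map_zpow₀, coe_el, order_ser, O.ord_zpow, ht, mul_one]
    have h0 := key (g * el O L t ^ (-n)) (mul_ne_zero hg (zpow_ne_zero _ hu))
      (by rw [coe_order_mul hg (zpow_ne_zero _ hu), hzz, hn]; ring)
    rw [(infL O L).ord_mul hg (zpow_ne_zero _ hu), (infL O L).ord_zpow] at h0
    linarith
  have hpos : 0 ≤ (infL O L).ord (el O L t) :=
    ord_nonneg_of_mem _ (mem_infRing.2 fun i hi => HahnSeries.coeff_eq_zero_of_lt_order
      (by rw [coe_el, order_ser, ht]; omega))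
  have h1 := hlin π o hπ0 rfl
  rw [hπ] at h1
  have h2 : (infL O L).ord (el O L t) = 1 := by
    rcases Int.eq_one_or_neg_one_of_mul_eq_one' h1.symm with h | h <;> omega
  rw [hlin _ _ ((_root_.map_ne_zero _).2 hf) (by rw [coe_el, order_ser]), h2, mul_one]

end Emb

end Fermat.Agent.Row27

end
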