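import Fermat.Agent.Row27.ExistsModel

/-!
# Monomials in the coordinate and the basis
-/

set_option autoImplicit false

noncomputable section

open AlgebraicCurve Polynomial
open Fermat.Agent.FunctionFieldRR

namespace Fermat.Agent.Row27

variable {K F : Type*} [Field K] [Field F] [Algebra K F] [IsAlgClosed K]
  [IsFunctionField K F] {O : Place K F}

theorem gBound_eq_card_gaps (O : Place K F) :
    ∀ {n : ℕ}, 2 * gBound K F ≤ n →
      ((Finset.range (n + 1)).filter fun k => k ∉ gaps O).card + (gaps O).card = n + 1 := by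
  classical
  intro n hn
  have hsub : gaps O ⊆ Finset.range (n + 1) := fun k hk => by
    rw [Finset.mem_range]
    by_contra h
    exact mem_gaps.1 hk (isNongap_of_le O (by omega))
  rw [show ((Finset.range (n + 1)).filter fun k => k ∉ gaps O) = Finset.range (n + 1) \ gaps O from
    Finset.filter_notMem_eq_sdiff]
  exact (Finset.card_sdiff_add_card_eq_card hsub).trans (Finset.card_range (n + 1))

namespace Coord

variable (C : Coord O)

/-- The monomial `x ^ k * y i`. -/
def mon (p : Fin (C.d + 1) × ℕ) : F := C.x ^ p.2 * C.y p.1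

/-- Its pole order. -/
def wt (p : Fin (C.d + 1) × ℕ) : ℕ := C.pole p.1 + p.2 * (C.d + 1)

theorem mon_reg (p : Fin (C.d + 1) × ℕ) : C.mon p ∈ regAlg O :=
  mul_mem (pow_mem C.x_reg _) (C.y_reg _)

theorem mon_ne_zero (p : Fin (C.d + 1) × ℕ) : C.mon p ≠ 0 :=
  mul_ne_zero (pow_ne_zero _ C.x_ne_zero) (C.y_ne_zero _)

theorem ord_mon (p : Fin (C.d + 1) × ℕ) : O.ord (C.mon p) = -(C.wt p : ℤ) := by
  rw [mon, O.ord_mul (pow_ne_zero _ C.x_ne_zero) (C.y_ne_zero _), ord_pow, C.ord_x, C.ord_y, wt]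
  push_cast; ring

theorem wt_injective : Function.Injective C.wt := fun p q h => by
  have h1 := congrArg (· % (C.d + 1)) h
  simp only [wt, Nat.add_mul_mod_self_right, C.pole_mod] at h1
  have h2 : p.1 = q.1 := Fin.ext h1
  refine Prod.ext h2 ?_
  simp only [wt, h2, add_right_inj] at h
  exact Nat.eq_of_mul_eq_mul_right (by omega) h

theorem exists_wt {n : ℕ} (hn : IsNongap O n) : ∃ p, C.wt p = n := by
  set i : Fin (C.d + 1) := ⟨n % (C.d + 1), Nat.mod_lt _ (by omega)⟩ with hi
  have hmin := C.pole_min i n hn rfl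
  obtain ⟨q, hq⟩ := (Nat.modEq_iff_dvd' hmin).1
    (show C.pole i % (C.d + 1) = n % (C.d + 1) from C.pole_mod i)
  exact ⟨(i, q), by rw [wt]; simp only; rw [mul_comm]; omega⟩

/-- The monomials of level `b`. -/
def idx (b : ℕ) : Finset (Fin (C.d + 1) × ℕ) :=
  (Finset.univ ×ˢ Finset.range (b + 1)).filter fun p => C.wt p ≤ b

theorem mem_idx {b : ℕ} {p : Fin (C.d + 1) × ℕ} : p ∈ C.idx b ↔ C.wt p ≤ b := by
  refine Finset.mem_filter.trans ⟨fun h => h.2, fun h => ⟨Finset.mem_product.2
    ⟨Finset.mem_univ _, Finset.mem_range.2 ?_⟩, h⟩⟩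
  simp only [wt] at h
  nlinarith

/-- The dimension of level `b`. -/
def dim (b : ℕ) : ℕ := (C.idx b).card

/-- The enumeration of the monomials of level `b`. -/
def idxAt (b : ℕ) (l : Fin (C.dim b)) : Fin (C.d + 1) × ℕ := ((C.idx b).equivFin.symm l).1

theorem idxAt_injective (b : ℕ) : Function.Injective (C.idxAt b) :=
  Subtype.val_injective.comp (C.idx b).equivFin.symm.injective

theorem wt_idxAt (b : ℕ) (l : Fin (C.dim b)) : C.wt (C.idxAt b l) ≤ b :=
  C.mem_idx.1 ((C.idx b).equivFin.symm l).2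

theorem exists_idxAt {b : ℕ} {p : Fin (C.d + 1) × ℕ} (hp : C.wt p ≤ b) :
    ∃ l, C.idxAt b l = p :=
  ⟨(C.idx b).equivFin ⟨p, C.mem_idx.2 hp⟩, by
    simp only [idxAt]
    exact congrArg Subtype.val ((C.idx b).equivFin.symm_apply_apply _)⟩

theorem image_wt (b : ℕ) :
    (C.idx b).image C.wt = (Finset.range (b + 1)).filter fun k => k ∉ gaps O := by
  classical
  ext k
  simp only [Finset.mem_image, C.mem_idx, Finset.mem_filter, Finset.mem_range, mem_gaps, not_not]
  constructor
  · rintro ⟨p, hp, rfl⟩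
    exact ⟨by omega, C.mon p, C.mon_reg p, C.mon_ne_zero p, C.ord_mon p⟩
  · rintro ⟨hk, hn⟩
    obtain ⟨p, rfl⟩ := C.exists_wt hn
    exact ⟨p, by omega, rfl⟩

theorem dim_add_gaps {b : ℕ} (hb : 2 * gBound K F ≤ b) : C.dim b + (gaps O).card = b + 1 := by
  classical
  rw [dim, ← Finset.card_image_of_injective _ C.wt_injective, C.image_wt]
  exact gBound_eq_card_gaps O hb

end Coord

end Fermat.Agent.Row27

end
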