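import Fermat.Agent.Row27.ValBound
import Mathlib.RingTheory.AlgebraicIndependent.Adjoin
import Mathlib.RingTheory.AlgebraicIndependent.TranscendenceBasis
import Mathlib.RingTheory.Polynomial.UniqueFactorization
import Mathlib.RingTheory.Polynomial.RationalRoot
import Mathlib.RingTheory.MvPolynomial.Basic
import Mathlib.FieldTheory.IntermediateField.Adjoin.Algebra
import Mathlib.RingTheory.Trace.Basic
import Mathlib.RingTheory.NoetherNormalization
import Mathlib.FieldTheory.Normal.Basic
import Mathlib.LinearAlgebra.Dimension.Constructions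

/-!
# Bounded elements of a transcendental field lie in boxes of polynomials
-/

set_option autoImplicit false

noncomputable section

open Module
open scoped IntermediateField.algebraAdjoinAdjoin

namespace Fermat.Agent.Row27

variable {K Ω : Type*} [Field K] [Field Ω] [Algebra K Ω] {r : ℕ} {t : Fin r → Ω}

/-- A valuation centred at infinity for `t j`, trivial on the other variables. -/
lemma exists_pole_valuation (ht : AlgebraicIndependent K t) (j : Fin r) :
    ∃ A : ValuationSubring Ω, TrivOn K A ∧ 1 < A.valuation (t j) ∧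
      ∀ e ∈ IntermediateField.adjoin K (t '' {j}ᶜ), A.valuation e ≤ 1 := by
  classical
  set E := IntermediateField.adjoin K (t '' {j}ᶜ)
  have htr : Transcendental E (t j) := by
    have h : Transcendental (Algebra.adjoin K (t '' {j}ᶜ)) (t j) :=
      ht.transcendental_adjoin (s := {j}ᶜ) (by simp)
    exact fun hc => h ((IntermediateField.isAlgebraic_adjoin_iff (F := K)).mp hc)
  have ht0 : t j ≠ 0 := fun h => htr (h ▸ isAlgebraic_zero)
  let R : Subring Ω := (Algebra.adjoin E {(t j)⁻¹}).toSubring
  let u : R := ⟨(t j)⁻¹, Algebra.subset_adjoin rfl⟩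
  have hI : Ideal.span {u} ≠ (⊤ : Ideal R) := by
    rw [ne_eq, Ideal.span_singleton_eq_top]
    intro hu
    obtain ⟨⟨b, hb⟩, hb1⟩ := isUnit_iff_exists_inv.mp hu
    have hmem : t j ∈ Algebra.adjoin E {(t j)⁻¹} := by
      have e : (t j)⁻¹ * b = 1 := congrArg Subtype.val hb1
      rw [inv_mul_eq_one₀ ht0] at e
      exact (congrArg (· ∈ R) e).mpr hb
    rw [Algebra.adjoin_singleton_eq_range_aeval] at hmem
    obtain ⟨q, hq⟩ := hmem
    have hinv : Transcendental E (t j)⁻¹ := fun h => htr (by simpa using h.inv)
    have hq' : Polynomial.aeval (t j)⁻¹ (Polynomial.X * q - 1) = 0 := by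
      have hq2 : Polynomial.aeval (t j)⁻¹ q = t j := hq
      simp [hq2, ht0]
    have h0 : Polynomial.X * q - 1 = 0 := transcendental_iff.mp hinv _ hq'
    simpa using congrArg (Polynomial.coeff · 0) h0
  obtain ⟨B, hRB, hB⟩ := Ideal.image_subset_nonunits_valuationSubring (Ideal.span {u}) hI
  have hE : ∀ e ∈ E, e ∈ B := fun e he =>
    hRB (Subalgebra.algebraMap_mem (Algebra.adjoin E {(t j)⁻¹}) (⟨e, he⟩ : E))
  refine ⟨B, fun c => hE _ (E.algebraMap_mem c), ?_, fun e he =>
    (B.valuation_le_one_iff e).mpr (hE e he)⟩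
  have hu : (t j)⁻¹ ∈ B.nonunits := hB ⟨u, Ideal.subset_span rfl, rfl⟩
  rw [ValuationSubring.mem_nonunits_iff, map_inv₀] at hu
  exact (inv_lt_one₀ (zero_lt_iff.mpr ((Valuation.ne_zero_iff _).mpr ht0))).mp hu

/-- The monomials with all exponents at most `N`. -/
def box (t : Fin r → Ω) (N : ℕ) : Finset Ω :=
  letI := Classical.decEq Ω
  (Fintype.piFinset fun _ : Fin r => Finset.range (N + 1)).image fun e => ∏ i, t i ^ e i

lemma card_box_le (t : Fin r → Ω) (N : ℕ) : (box t N).card ≤ (N + 1) ^ r :=
  letI := Classical.decEq Ω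
  Finset.card_image_le.trans (by simp)

/-- A polynomial bounded at the poles of every variable lies in the box. -/
lemma aeval_mem_span_box (ht : AlgebraicIndependent K t) {N : ℕ} {p : MvPolynomial (Fin r) K}
    (h : ∀ (j : Fin r) (A : ValuationSubring Ω), TrivOn K A → 1 < A.valuation (t j) →
      (∀ e ∈ IntermediateField.adjoin K (t '' {j}ᶜ), A.valuation e ≤ 1) →
      A.valuation (MvPolynomial.aeval t p) ≤ A.valuation (t j) ^ N) :
    MvPolynomial.aeval t p ∈ Submodule.span K (box t N : Set Ω) := by
  classical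
  have hdeg : ∀ d ∈ p.support, ∀ j, d j ≤ N := by
    intro d₀ hd₀ j
    by_contra hN
    obtain ⟨A, hA, hj, hE⟩ := exists_pole_valuation ht j
    set E := IntermediateField.adjoin K (t '' {j}ᶜ)
    let c : ℕ → Ω := fun k => MvPolynomial.aeval t
      (∑ d ∈ p.support.filter fun d => d j = k, MvPolynomial.monomial (d.erase j) (p.coeff d))
    have hcE : ∀ k, c k ∈ E := by
      intro k
      simp only [c, map_sum, MvPolynomial.aeval_monomial]
      refine sum_mem fun d _ => mul_mem (E.algebraMap_mem _) (prod_mem fun i hi => pow_mem ?_ _)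
      exact IntermediateField.subset_adjoin K _ ⟨i, by
        simp only [Finsupp.support_erase, Finset.mem_erase] at hi
        simpa using hi.1, rfl⟩
    let M := p.support.sup fun d => d j
    have hsum : MvPolynomial.aeval t p = ∑ k ∈ Finset.range (M + 1), c k * t j ^ k := by
      conv_lhs => rw [p.as_sum, map_sum]
      rw [← Finset.sum_fiberwise_of_maps_to (g := fun d => d j) (t := Finset.range (M + 1))
        (fun d hd => Finset.mem_range.mpr (Nat.lt_succ_of_le
          (Finset.le_sup (f := fun d : Fin r →₀ ℕ => d j) hd)))]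
      refine Finset.sum_congr rfl fun k _ => ?_
      simp only [c, map_sum, Finset.sum_mul]
      refine Finset.sum_congr rfl fun d hd => ?_
      rw [Finset.mem_filter] at hd
      have e : d = d.erase j + Finsupp.single j k := by
        rw [← hd.2]; exact (Finsupp.erase_add_single j d).symm
      generalize p.coeff d = a
      conv_lhs => rw [e, MvPolynomial.monomial_add_single, map_mul, map_pow, MvPolynomial.aeval_X]
    have hc : ∀ k, c k ≠ 0 → A.valuation (c k) = 1 := by
      intro k hk
      refine le_antisymm (hE _ (hcE k)) ?_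
      have h2 := hE _ (inv_mem (hcE k))
      rwa [map_inv₀, inv_le_one₀ (zero_lt_iff.mpr ((Valuation.ne_zero_iff _).mpr hk))] at h2
    let S := (Finset.range (M + 1)).filter fun k => c k ≠ 0
    have hc₀ : c (d₀ j) ≠ 0 := by
      intro h0
      have h1 := congrArg (MvPolynomial.coeff (d₀.erase j)) (algebraicIndependent_iff.mp ht _ h0)
      rw [MvPolynomial.coeff_sum, MvPolynomial.coeff_zero, Finset.sum_eq_single d₀] at h1
      · rw [MvPolynomial.coeff_monomial, if_pos rfl] at h1
        exact MvPolynomial.mem_support_iff.mp hd₀ h1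
      · intro d hd hne
        rw [MvPolynomial.coeff_monomial, if_neg]
        intro e
        refine hne ?_
        rw [← Finsupp.erase_add_single j d, ← Finsupp.erase_add_single j d₀, e,
          (Finset.mem_filter.mp hd).2]
      · intro hn; exact (hn (Finset.mem_filter.mpr ⟨hd₀, rfl⟩)).elim
    have hmem : d₀ j ∈ S := Finset.mem_filter.mpr
      ⟨Finset.mem_range.mpr (Nat.lt_succ_of_le
        (Finset.le_sup (f := fun d : Fin r →₀ ℕ => d j) hd₀)), hc₀⟩
    set k₁ := S.max' ⟨_, hmem⟩
    have hk₁ := Finset.mem_filter.mp (S.max'_mem ⟨_, hmem⟩)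
    have hval : A.valuation (MvPolynomial.aeval t p) = A.valuation (t j) ^ k₁ := by
      have e : A.valuation (c k₁ * t j ^ k₁) = A.valuation (t j) ^ k₁ := by
        rw [map_mul, map_pow, hc k₁ hk₁.2, one_mul]
      rw [hsum, A.valuation.map_sum_eq_of_lt (j := k₁) hk₁.1 ?_, e]
      intro k hk
      rw [Finset.mem_sdiff, Finset.mem_singleton] at hk
      rw [e]
      by_cases hck : c k = 0
      · rw [hck, zero_mul, map_zero]
        exact pow_pos (zero_lt_one.trans hj) _
      · rw [map_mul, map_pow, hc k hck, one_mul]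
        exact pow_lt_pow_right₀ hj (lt_of_le_of_ne
          (S.le_max' k (Finset.mem_filter.mpr ⟨hk.1, hck⟩)) hk.2)
    have := h j A hA hj hE
    rw [hval] at this
    have h3 := S.le_max' _ hmem
    exact absurd this (not_le.mpr (pow_lt_pow_right₀ hj (by omega)))
  rw [p.as_sum, map_sum]
  refine Submodule.sum_mem _ fun d hd => ?_
  rw [MvPolynomial.aeval_monomial, ← Algebra.smul_def]
  refine Submodule.smul_mem _ _ (Submodule.subset_span ?_)
  simp only [box, Finset.coe_image, Set.mem_image, Finset.mem_coe, Fintype.mem_piFinset,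
    Finset.mem_range]
  exact ⟨fun i => d i, fun i => Nat.lt_succ_of_le (hdeg d hd i),
    (Finsupp.prod_fintype _ _ fun i => pow_zero _).symm⟩

/-- Integral elements of `K(t)` are polynomials. -/
lemma exists_aeval_eq_of_isIntegral (ht : AlgebraicIndependent K t) {x : Ω}
    (hx : x ∈ IntermediateField.adjoin K (Set.range t))
    (hi : IsIntegral (Algebra.adjoin K (Set.range t)) x) :
    ∃ p : MvPolynomial (Fin r) K, MvPolynomial.aeval t p = x := by
  classical
  let e := ht.aevalEquiv
  have : IsIntegrallyClosed (Algebra.adjoin K (Set.range t)) :=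
    IsIntegrallyClosed.of_equiv e.toRingEquiv
  obtain ⟨y, hy⟩ := IsIntegrallyClosed.isIntegral_iff.mp
    (show IsIntegral (Algebra.adjoin K (Set.range t))
        (⟨x, hx⟩ : IntermediateField.adjoin K (Set.range t)) from
      (isIntegral_algebraMap_iff (algebraMap (IntermediateField.adjoin K (Set.range t)) Ω).injective).mp hi)
  refine ⟨e.symm y, ?_⟩
  have h1 : (y : Ω) = x := congrArg Subtype.val hy
  have h2 : ((e (e.symm y) : Algebra.adjoin K (Set.range t)) : Ω) = MvPolynomial.aeval t (e.symm y) :=
    ht.algebraMap_aevalEquiv _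
  rw [e.apply_symm_apply] at h2
  rw [← h2, h1]

/-- Integral over `K[t]` when in all valuation rings containing it. -/
lemma isIntegral_of_forall_valuation {x : Ω}
    (h : ∀ A : ValuationSubring Ω, TrivOn K A → (∀ i, A.valuation (t i) ≤ 1) →
      A.valuation x ≤ 1) :
    IsIntegral (Algebra.adjoin K (Set.range t)) x := by
  let s : Set Ω := Set.range (algebraMap K Ω) ∪ Set.range t
  have h1 : x ∈ ⨅ V : {V : ValuationSubring Ω // s ⊆ V.toSubring}, V.1.toSubring := by
    rw [Subring.mem_iInf]
    rintro ⟨V, hV⟩
    exact (V.valuation_le_one_iff x).mp (h V (fun c => hV (Or.inl ⟨c, rfl⟩))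
      fun i => (V.valuation_le_one_iff _).mpr (hV (Or.inr ⟨i, rfl⟩)))
  rw [iInf_valuationSubring_superset, Subalgebra.mem_toSubring, mem_integralClosure_iff] at h1
  have hle : Subring.closure s ≤ (Algebra.adjoin K (Set.range t)).toSubring := by
    rw [Subring.closure_le]
    rintro y (⟨c, rfl⟩ | hy)
    · exact Subalgebra.algebraMap_mem _ c
    · exact Algebra.subset_adjoin hy
  let : Algebra (Subring.closure s) (Algebra.adjoin K (Set.range t)) :=
    (Subring.inclusion hle).toAlgebra
  have : IsScalarTower (Subring.closure s) (Algebra.adjoin K (Set.range t)) Ω :=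
    IsScalarTower.of_algebraMap_eq fun _ => rfl
  exact h1.tower_top

end Fermat.Agent.Row27

end
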