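import Fermat.Agent.Reduction.Cusp
import Fermat.Agent.FunctionFieldRR.RiemannRoch
import Fermat.Prelude.Def_AlgebraicCurve_BaseChangeGalois
import Fermat.Prelude.Def_AlgebraicCurve_IsCurveOver

/-!
# Poles of series and trace matrices

Leading poles of series, and the trace matrix of structure constants.
-/

set_option autoImplicit false

noncomputable section

open AlgebraicCurve ModularCurve Polynomial IntermediateField
open Fermat.Agent.FunctionFieldRR
open scoped Fermat.Agent.Reduction

namespace Fermat.Agent.Row27

/-- `f` has a pole of order exactly `n` with coefficient `1` there. -/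
def HasPole {R : Type*} [CommRing R] (f : LaurentSeries R) (n : ℕ) : Prop :=
  f.coeff (-(n : ℤ)) = 1 ∧ ∀ i < -(n : ℤ), f.coeff i = 0

/-- The trace matrix of the products `y i * y k`, from the structure constants. -/
def traceMat {R : Type*} [CommRing R] {m : ℕ} (c : Fin m → Fin m → Fin m → R[X]) :
    Matrix (Fin m) (Fin m) R[X] :=
  fun i k => ∑ l, c i k l * ∑ q, c l q q

end Fermat.Agent.Row27

end
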