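import Fermat.Agent.FunctionFieldRR.Genus
import Fermat.Agent.Row27.Separating
import Fermat.Prelude.Def_AlgebraicCurve_IsCurveOver

/-!
# Functions regular outside one place

Approximation with poles at one place, gaps, and the genus as the number of gaps.
-/

set_option autoImplicit false

noncomputable section

open AlgebraicCurve IntermediateField
open Fermat.Agent.FunctionFieldRR

namespace Fermat.Agent.Row27

variable {K F : Type*} [Field K] [Field F] [Algebra K F] [IsAlgClosed K]

/-- A curve in characteristic zero is a function field of one variable. -/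
theorem isFunctionField_of_isCurveOver [CharZero K] [IsCurveOver K F]
    [Algebra.EssFiniteType K F] : IsFunctionField K F := by
  classical
  obtain ⟨x, hx⟩ : ∃ x : F, KaehlerDifferential.D K F x ≠ 0 := by
    by_contra h
    push Not at h
    have htop : (⊤ : Submodule F Ω[F⁄K]) = ⊥ := by
      rw [← KaehlerDifferential.span_range_derivation, Submodule.span_eq_bot]
      rintro _ ⟨x, rfl⟩
      exact h x
    exact not_subsingleton Ω[F⁄K] ((subsingleton_iff_forall_eq 0).2 fun w =>
      (Submodule.mem_bot F).1 (htop ▸ Submodule.mem_top))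
  have ht : Transcendental K x := fun halg => hx (by
    have := IntermediateField.isAlgebraic_adjoin_simple halg.isIntegral
    obtain ⟨c, hc⟩ := (IsAlgClosed.algebraMap_bijective_of_isIntegral (k := K) (K := K⟮x⟯)).2
      ⟨x, mem_adjoin_simple_self K x⟩
    rw [show x = algebraMap K F c from (congrArg Subtype.val hc).symm]
    exact Derivation.map_algebraMap _ c)
  refine ⟨⟨x, ht, ?_⟩⟩
  have hspan : Submodule.span F {KaehlerDifferential.D K F x} = ⊤ :=
    (finrank_eq_one_iff_of_nonzero _ hx).1 IsCurveOver.finrank_kaehler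
  have : Subsingleton Ω[F⁄K⟮x⟯] := by
    have hrange := KaehlerDifferential.map_surjective K K⟮x⟯ F
    refine (subsingleton_iff_forall_eq 0).2 fun w => ?_
    obtain ⟨v, rfl⟩ := hrange w
    obtain ⟨c, rfl⟩ := Submodule.mem_span_singleton.1 (hspan.ge (Submodule.mem_top (x := v)))
    rw [map_smul, KaehlerDifferential.map_D, Algebra.algebraMap_self, RingHom.id_apply]
    have hDx : KaehlerDifferential.D K⟮x⟯ F x = 0 :=
      Derivation.map_algebraMap (KaehlerDifferential.D K⟮x⟯ F) ⟨x, mem_adjoin_simple_self K x⟩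
    rw [hDx, smul_zero]
  have : Algebra.FormallyUnramified K⟮x⟯ F := ⟨this⟩
  have : Algebra.EssFiniteType K⟮x⟯ F := Algebra.EssFiniteType.of_comp K K⟮x⟯ F
  exact Algebra.FormallyUnramified.finite_of_free K⟮x⟯ F

variable [IsFunctionField K F]

/-- Regular at every place but `O`. -/
def RegOff (O : Place K F) (f : F) : Prop := ∀ P, P ≠ O → VanishesTo P 0 f

theorem exists_genus_bound : ∃ g : ℕ, ∀ (D : Divisor K F), 2 * (g : ℤ) - 1 ≤ Divisor.degree D →
    (Module.finrank K (riemannRochSpace D) : ℤ) = Divisor.degree D + 1 - g := by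
  obtain ⟨x, hx, hfin, hsep⟩ := exists_separating_element K F
  exact ⟨genusOf hx, fun D hD => finrank_eq_of_degree_gt hx (by omega)⟩

/-- A bound for the genus. -/
def gBound (K F : Type*) [Field K] [Field F] [Algebra K F] [IsAlgClosed K]
    [IsFunctionField K F] : ℕ := (exists_genus_bound (K := K) (F := F)).choose

theorem finrank_rr (D : Divisor K F) (hD : 2 * (gBound K F : ℤ) - 1 ≤ Divisor.degree D) :
    (Module.finrank K (riemannRochSpace D) : ℤ) = Divisor.degree D + 1 - gBound K F :=
  (exists_genus_bound (K := K) (F := F)).choose_spec D hD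

/-- In large degree every order is attained at a given place. -/
theorem exists_exact (D : Divisor K F) (P : Place K F)
    (hD : 2 * (gBound K F : ℤ) ≤ Divisor.degree D) :
    ∃ h : F, h ≠ 0 ∧ P.ord h = -D P ∧ ∀ Q, VanishesTo Q (-D Q) h := by
  classical
  set D' := D - Finsupp.single P 1 with hD'
  have hdeg : Divisor.degree D' = Divisor.degree D - 1 := by
    rw [hD', map_sub, Divisor.degree_single, deg_eq_one]; simp
  have hlt : ¬ riemannRochSpace D ≤ riemannRochSpace D' := fun hle => by
    have h1 := finrank_rr D (by omega)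
    have h2 := finrank_rr D' (by omega)
    have h3 : Module.finrank K (riemannRochSpace D) ≤ Module.finrank K (riemannRochSpace D') :=
      Submodule.finrank_mono hle
    omega
  obtain ⟨h, hh, hh'⟩ := SetLike.not_le_iff_exists.1 hlt
  rw [mem_riemannRochSpace] at hh hh'
  have h0 : h ≠ 0 := fun h0 => hh' (h0 ▸ fun _ => VanishesTo.zero)
  refine ⟨h, h0, ?_, hh⟩
  by_contra hne
  refine hh' fun Q => ?_
  have hQ := (hh Q).resolve_left h0
  by_cases hQP : Q = P
  · subst hQP
    exact Or.inr (by simp only [hD', Finsupp.sub_apply, Finsupp.single_eq_same]; omega)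
  · exact Or.inr (by simp only [hD', Finsupp.sub_apply, Finsupp.single_eq_of_ne hQP]; omega)

/-- The leading term can be removed. -/
theorem exists_sub_smul (P : Place K F) {g h : F} (hh : h ≠ 0) (hg : VanishesTo P (P.ord h) g) :
    ∃ c : K, VanishesTo P (P.ord h + 1) (g - c • h) := by
  have hm : g / h ∈ P.toValuationSubring := by
    refine (ord_nonneg_iff P _).1 ?_
    rcases eq_or_ne g 0 with rfl | hg0
    · simp
    rw [ord_div P hg0 hh]
    have := hg.resolve_left hg0
    omega
  refine ⟨residueConst P (g / h), ?_⟩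
  have h1 : VanishesTo P 1 (g / h - algebraMap K F (residueConst P (g / h))) :=
    residueConst_spec P hm
  have := h1.mul (Or.inr le_rfl : VanishesTo P (P.ord h) h)
  rw [sub_mul, div_mul_cancel₀ _ hh, add_comm] at this
  rwa [Algebra.smul_def]

theorem exists_approx_single (O : Place K F) (T : Finset (Place K F)) (hO : O ∉ T)
    (m : Place K F → ℤ) (P : Place K F) (hP : P ∈ T) : ∀ (k : ℕ) (g : F),
    VanishesTo P (m P - k) g → ∃ f : F, VanishesTo P (m P) (f - g) ∧
      (∀ Q ∈ T, Q ≠ P → VanishesTo Q (m Q) f) ∧ ∀ Q ∉ T, Q ≠ O → VanishesTo Q 0 f := by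
  classical
  intro k
  induction k with
  | zero =>
    intro g hg
    exact ⟨0, by simpa using hg.neg, fun _ _ _ => VanishesTo.zero, fun _ _ _ => VanishesTo.zero⟩
  | succ k ih =>
    intro g hg
    set r : ℤ := m P - (k + 1 : ℕ) with hr
    set E : Divisor K F := Finsupp.single P r + ∑ Q ∈ T.erase P, Finsupp.single Q (m Q) with hE
    set N : ℤ := Divisor.degree E + 2 * gBound K F with hN
    set D : Divisor K F := Finsupp.single O N - E with hD
    have hOP : P ≠ O := fun h => hO (h ▸ hP)
    have hEP : E P = r := by simp [hE, Finsupp.single_apply]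
    have hEQ : ∀ Q, Q ≠ P → E Q = if Q ∈ T then m Q else 0 := fun Q hQ => by
      simp [hE, Finsupp.single_apply, hQ]
    obtain ⟨h, h0, hord, hh⟩ := exists_exact D P (by
      rw [hD, map_sub, Divisor.degree_single, deg_eq_one, hN]; simp)
    have hordr : P.ord h = r := by
      rw [hord, hD, Finsupp.sub_apply, Finsupp.single_eq_of_ne hOP, hEP]; ring
    obtain ⟨c, hc⟩ := exists_sub_smul P h0 (g := g) (hordr ▸ hg)
    obtain ⟨f, hf1, hf2, hf3⟩ := ih (g - c • h)
      (hc.mono (by rw [hordr, hr]; push_cast; omega))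
    have hQ : ∀ Q, Q ≠ P → Q ≠ O → VanishesTo Q (if Q ∈ T then m Q else 0) h := fun Q h1 h2 => by
      have := hh Q
      rwa [hD, Finsupp.sub_apply, Finsupp.single_eq_of_ne h2, hEQ Q h1, zero_sub, neg_neg] at this
    refine ⟨f + c • h, ?_, fun Q hQT hne => (hf2 Q hQT hne).add ?_, fun Q hQT hne =>
      (hf3 Q hQT hne).add ?_⟩
    · convert hf1 using 1; ring
    · have := hQ Q hne (fun h => hO (h ▸ hQT))
      rw [if_pos hQT] at this
      exact this.smul c
    · have := hQ Q (fun h => hQT (h ▸ hP)) hne
      rw [if_neg hQT] at this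
      exact this.smul c

/-- **Strong approximation** away from one place. -/
theorem exists_strongApprox (O : Place K F) (T : Finset (Place K F)) (hO : O ∉ T)
    (g : Place K F → F) (m : Place K F → ℤ) :
    ∃ f : F, (∀ P ∈ T, VanishesTo P (m P) (f - g P)) ∧ ∀ P ∉ T, P ≠ O → VanishesTo P 0 f := by
  classical
  have key : ∀ P ∈ T, ∃ f : F, VanishesTo P (m P) (f - g P) ∧
      (∀ Q ∈ T, Q ≠ P → VanishesTo Q (m Q) f) ∧ ∀ Q ∉ T, Q ≠ O → VanishesTo Q 0 f := fun P hP => by
    rcases eq_or_ne (g P) 0 with h | h
    · exact exists_approx_single O T hO m P hP 0 (g P) (h ▸ VanishesTo.zero)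
    · exact exists_approx_single O T hO m P hP (m P - P.ord (g P)).toNat (g P)
        (Or.inr (by omega))
  choose! f hf1 hf2 hf3 using key
  refine ⟨∑ P ∈ T, f P, fun P hP => ?_,
    fun Q hQ hne => VanishesTo.sum _ _ fun P hP => hf3 P hP Q hQ hne⟩
  rw [← Finset.add_sum_erase T _ hP, add_sub_right_comm]
  exact (hf1 P hP).add (VanishesTo.sum _ _ fun Q hQ =>
    hf2 Q (Finset.mem_of_mem_erase hQ) P hP (Finset.ne_of_mem_erase hQ).symm)

/-- The regular functions off `O`, as a subalgebra. -/
def regAlg (O : Place K F) : Subalgebra K F where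
  carrier := {f | RegOff O f}
  mul_mem' hf hg P hP := by simpa using (hf P hP).mul (hg P hP)
  add_mem' hf hg P hP := (hf P hP).add (hg P hP)
  algebraMap_mem' c P _ := vanishesTo_algebraMap c

theorem eq_algebraMap_of_regAlg {O : Place K F} {f : F} (hf : f ∈ regAlg O) (h : 0 ≤ O.ord f) :
    ∃ c : K, f = algebraMap K F c := by
  rcases eq_or_ne f 0 with rfl | h0
  · exact ⟨0, (map_zero _).symm⟩
  refine exists_algebraMap_eq_of_forall_ord_nonneg fun P => ?_
  rcases eq_or_ne P O with rfl | hP
  · exact h
  · exact (hf P hP).resolve_left h0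

theorem ord_nonpos_of_regAlg {O : Place K F} {f : F} (hf : f ∈ regAlg O) : O.ord f ≤ 0 := by
  by_contra h
  obtain ⟨c, rfl⟩ := eq_algebraMap_of_regAlg hf (by omega)
  simp [ord_algebraMap] at h

/-- A pole order at `O` of a function regular elsewhere. -/
def IsNongap (O : Place K F) (n : ℕ) : Prop :=
  ∃ f : F, f ∈ regAlg O ∧ f ≠ 0 ∧ O.ord f = -(n : ℤ)

theorem isNongap_of_le (O : Place K F) {n : ℕ} (hn : 2 * gBound K F ≤ n) : IsNongap O n := by
  obtain ⟨h, h0, hord, hh⟩ := exists_exact (Finsupp.single O (n : ℤ)) O (by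
    rw [Divisor.degree_single, deg_eq_one]; simp; omega)
  refine ⟨h, fun P hP => ?_, h0, by rw [hord, Finsupp.single_eq_same]⟩
  simpa [Finsupp.single_eq_of_ne hP] using hh P

/-- The gaps at `O`. -/
def gaps (O : Place K F) : Finset ℕ :=
  letI := Classical.decPred (fun n => ¬ IsNongap O n)
  (Finset.range (2 * gBound K F)).filter fun n => ¬ IsNongap O n

theorem mem_gaps {O : Place K F} {n : ℕ} : n ∈ gaps O ↔ ¬ IsNongap O n := by
  classical
  simp only [gaps, Finset.mem_filter, Finset.mem_range, and_iff_right_iff_imp]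
  intro h
  by_contra hn
  exact h (isNongap_of_le O (by omega))

/-- The repartition with value `f` at `O` and `0` elsewhere. -/
def atO (O : Place K F) : F →ₗ[K] repartitions K F where
  toFun f := ⟨fun v => letI := Classical.decEq (Place K F); if v = O then f else 0,
    mem_repartitions_of_finite_ord ((Set.finite_singleton O).subset fun v hv => by
      by_contra hne
      simp only [Set.mem_singleton_iff] at hne
      simp [hne] at hv)⟩
  map_add' f g := Subtype.ext (funext fun v => by by_cases h : v = O <;> simp [h])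
  map_smul' c f := Subtype.ext (funext fun v => by by_cases h : v = O <;> simp [h])

omit [IsAlgClosed K] [IsFunctionField K F] in
theorem atO_apply (O : Place K F) (f : F) (v : Place K F) [Decidable (v = O)] :
    (atO O f : Place K F → F) v = if v = O then f else 0 := by
  by_cases h : v = O <;> simp [atO, h]

theorem finite_bad (α : repartitions K F) :
    {v : Place K F | ¬ v.adicValuation ((α : Place K F → F) v) ≤ 1}.Finite := by
  classical
  obtain ⟨α, hα⟩ := α
  induction hα using Algebra.adjoin_induction with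
  | mem α h => exact h
  | algebraMap f =>
    refine (finite_ord_neg f).subset fun v hv => ?_
    exact (v.not_adicValuation_le_one_iff).1 hv
  | add α β _ _ hα hβ =>
    refine (hα.union hβ).subset fun v hv => ?_
    by_contra h
    simp only [Set.mem_union, Set.mem_ofPred_eq, not_or, not_not] at h
    exact hv ((Valuation.map_add _ _ _).trans (max_le h.1 h.2))
  | mul α β _ _ hα hβ =>
    refine (hα.union hβ).subset fun v hv => ?_
    by_contra h
    simp only [Set.mem_union, Set.mem_ofPred_eq, not_or, not_not] at h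
    exact hv (by
      show v.adicValuation (α v * β v) ≤ 1
      rw [map_mul]
      exact mul_le_one₀ h.1 zero_le h.2)

/-- A function with a pole of order exactly `k` at `O`. -/
def poleFn (O : Place K F) (k : ℕ) : F := (unif O) ^ (-(k : ℤ))

omit [IsAlgClosed K] [IsFunctionField K F] in
theorem ord_poleFn (O : Place K F) (k : ℕ) : O.ord (poleFn O k) = -(k : ℤ) := by
  rw [poleFn, O.ord_zpow, ord_unif, mul_one]

omit [IsAlgClosed K] [IsFunctionField K F] in
theorem poleFn_ne_zero (O : Place K F) (k : ℕ) : poleFn O k ≠ 0 :=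
  zpow_ne_zero _ (unif_ne_zero O)

theorem gap_ne_zero {O : Place K F} {k : ℕ} (h : k ∈ gaps O) : k ≠ 0 := fun h0 =>
  mem_gaps.1 h ⟨1, one_mem _, one_ne_zero, by simp [h0]⟩

/-- The classes of the principal parts at the gaps. -/
def gapMap (O : Place K F) : (gaps O → K) →ₗ[K] H1 (0 : Divisor K F) :=
  (Submodule.mkQ _).comp ((atO O).comp (Fintype.linearCombination K fun k : gaps O => poleFn O k))

theorem exists_comb_sub (O : Place K F) : ∀ (n : ℕ) (g : F), VanishesTo O (-(n : ℤ)) g →
    ∃ (c : gaps O → K) (f : F), f ∈ regAlg O ∧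
      VanishesTo O 0 (g - (∑ k, c k • poleFn O k) - f) := by
  classical
  intro n
  induction n with
  | zero => exact fun g hg => ⟨0, 0, zero_mem _, by simpa using hg⟩
  | succ n ih =>
    intro g hg
    by_cases hn : IsNongap O (n + 1)
    · obtain ⟨h, hh, h0, hord⟩ := hn
      obtain ⟨a, ha⟩ := exists_sub_smul O h0 (g := g) (hord ▸ hg)
      obtain ⟨c, f, hf, hv⟩ := ih _ (ha.mono (by rw [hord]; push_cast; omega))
      refine ⟨c, f + a • h, add_mem hf (Subalgebra.smul_mem _ hh a), ?_⟩
      convert hv using 1; ring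
    · obtain ⟨a, ha⟩ := exists_sub_smul O (poleFn_ne_zero O (n + 1)) (g := g)
        ((ord_poleFn O (n + 1)) ▸ hg)
      obtain ⟨c, f, hf, hv⟩ := ih _ (ha.mono (by rw [ord_poleFn]; push_cast; omega))
      refine ⟨c + Pi.single (M := fun _ => K) ⟨n + 1, mem_gaps.2 hn⟩ a, f, hf, ?_⟩
      have e : (∑ k : gaps O, (c + Pi.single (M := fun _ => K) (⟨n + 1, mem_gaps.2 hn⟩ : gaps O) a) k • poleFn O k)
          = (∑ k : gaps O, c k • poleFn O k) + a • poleFn O (n + 1) := by
        simp [add_smul, Finset.sum_add_distrib, Pi.single_apply]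
      rw [e]
      convert hv using 1; ring

/-- **The genus is the number of gaps.** -/
theorem genusFF_eq_card_gaps (O : Place K F) : genusFF K F = (gaps O).card := by
  classical
  have hmem : ∀ (γ : repartitions K F),
      γ ∈ repartitionsOf (0 : Divisor K F) ⊔ principalRepartitions K F ↔
        ∃ f : F, ∀ v : Place K F, VanishesTo v 0 ((γ : Place K F → F) v - f) := by
    intro γ
    rw [Submodule.mem_sup]
    constructor
    · rintro ⟨a, ha, b, hb, rfl⟩
      obtain ⟨f, hf⟩ := mem_principalRepartitions_iff.1 hb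
      refine ⟨f, fun v => ?_⟩
      have := (mem_repartitionsOf_iff.1 ha) v
      simpa [hf, VanishesTo] using this
    · rintro ⟨f, hf⟩
      refine ⟨γ - algebraMap F _ f, mem_repartitionsOf_iff.2 fun v => ?_, algebraMap F _ f,
        mem_principalRepartitions_iff.2 ⟨f, rfl⟩, sub_add_cancel _ _⟩
      simpa [VanishesTo] using hf v
  have hinj : Function.Injective (gapMap O) := by
    rw [← LinearMap.ker_eq_bot, LinearMap.ker_eq_bot']
    intro c hc
    obtain ⟨f, hf⟩ := (hmem _).1 ((Submodule.Quotient.mk_eq_zero _).1 hc)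
    simp only [LinearMap.comp_apply, Fintype.linearCombination_apply, atO_apply] at hf
    set g : F := ∑ k : gaps O, c k • poleFn O k with hg
    have hfreg : f ∈ regAlg O := fun P hP => by
      have := hf P
      rw [if_neg hP, zero_sub] at this
      simpa using this.neg
    have hO := hf O
    rw [if_pos rfl] at hO
    by_contra hc0
    obtain ⟨k₀, hk₀, hmax⟩ := Finset.exists_max_image
      (Finset.univ.filter fun k : gaps O => c k ≠ 0) (fun k => (k : ℕ)) (by
        obtain ⟨k, hk⟩ := Function.ne_iff.1 hc0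
        exact ⟨k, Finset.mem_filter.2 ⟨Finset.mem_univ _, hk⟩⟩)
    have hc : c k₀ ≠ 0 := (Finset.mem_filter.1 hk₀).2
    have hk0 : (k₀ : ℕ) ≠ 0 := gap_ne_zero k₀.2
    have hlead : VanishesTo O (-((k₀ : ℕ) : ℤ) + 1) (g - c k₀ • poleFn O k₀) := by
      rw [hg, ← Finset.add_sum_erase _ _ (Finset.mem_univ k₀), add_sub_cancel_left]
      refine VanishesTo.sum _ _ fun k hk => ?_
      by_cases hck : c k = 0
      · rw [hck, zero_smul]; exact VanishesTo.zero
      refine VanishesTo.smul _ (Or.inr ?_)
      have h1 := hmax k (Finset.mem_filter.2 ⟨Finset.mem_univ _, hck⟩)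
      have h2 : (k : ℕ) ≠ k₀ := fun h => Finset.ne_of_mem_erase hk (Subtype.ext h)
      rw [ord_poleFn]; omega
    have hp : c k₀ • poleFn O k₀ ≠ 0 := smul_ne_zero hc (poleFn_ne_zero O _)
    have hpo : O.ord (c k₀ • poleFn O k₀) = -((k₀ : ℕ) : ℤ) := by
      rw [Algebra.smul_def, O.ord_mul ((map_ne_zero _).2 hc) (poleFn_ne_zero O _), ord_algebraMap,
        ord_poleFn, zero_add]
    obtain ⟨hg0, hgo⟩ := ord_eq_of_vanishesTo_sub hp (by rw [hpo]; exact hlead)
    have hfg : VanishesTo O (O.ord g + 1) (f - g) := by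
      have := hO.neg
      rw [neg_sub] at this
      exact this.mono (by rw [hgo, hpo]; omega)
    obtain ⟨hf0, hfo⟩ := ord_eq_of_vanishesTo_sub hg0 hfg
    exact mem_gaps.1 k₀.2 ⟨f, hfreg, hf0, by rw [hfo, hgo, hpo]⟩
  have hsurj : Function.Surjective (gapMap O) := by
    intro z
    obtain ⟨α, rfl⟩ := Submodule.Quotient.mk_surjective _ z
    set T := (finite_bad α).toFinset.erase O with hT
    obtain ⟨f₀, hf1, hf2⟩ := exists_strongApprox O T (Finset.notMem_erase _ _)
      (fun v => (α : Place K F → F) v) (fun _ => 0)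
    set g := (α : Place K F → F) O - f₀ with hg
    obtain ⟨c, f, hf, hv⟩ := exists_comb_sub O (-O.ord g).toNat g (by
      rcases eq_or_ne g 0 with h | h
      · rw [h]; exact VanishesTo.zero
      · exact Or.inr (by omega))
    refine ⟨c, (Submodule.Quotient.eq _).2 ((hmem _).2 ⟨-(f₀ + f), fun v => ?_⟩)⟩
    simp only [LinearMap.comp_apply, Fintype.linearCombination_apply, Subalgebra.coe_sub,
      Pi.sub_apply, atO_apply]
    by_cases h : v = O
    · subst h
      rw [if_pos rfl]
      have := hv.neg
      convert this using 1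
      rw [hg]; ring
    · rw [if_neg h]
      have hα : VanishesTo v 0 ((α : Place K F → F) v - f₀) := by
        by_cases hvT : v ∈ T
        · have := (hf1 v hvT).neg
          rwa [neg_sub] at this
        · refine VanishesTo.sub ?_ (hf2 v hvT h)
          have : v.adicValuation ((α : Place K F → F) v) ≤ 1 := by
            by_contra hbad
            exact hvT (Finset.mem_erase.2 ⟨h, (finite_bad α).mem_toFinset.2 hbad⟩)
          exact (v.adicValuation_le_one_iff).1 this
      have := (hα.sub (hf v h)).neg
      convert this using 1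
      ring
  rw [genusFF, ← (LinearEquiv.ofBijective (gapMap O) ⟨hinj, hsurj⟩).finrank_eq,
    Module.finrank_pi, Fintype.card_coe]

end Fermat.Agent.Row27

end
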