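import Fermat.Agent.Row27.Defs
import Fermat.Agent.Row27.ExistsBasic
import Mathlib.RingTheory.Trace.Basic
import Mathlib.RingTheory.Discriminant

/-!
# A model over the algebraically closed field of constants
-/

set_option autoImplicit false

noncomputable section

open AlgebraicCurve IntermediateField Polynomial
open Fermat.Agent.FunctionFieldRR

namespace Fermat.Agent.Row27

variable {K F : Type*} [Field K] [Field F] [Algebra K F] [IsAlgClosed K]
  [IsFunctionField K F] {O : Place K F}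

theorem hasPole_laurentExp {f : F} {n : ℕ} (hf : f ≠ 0) (hord : O.ord f = -(n : ℤ))
    (hlead : (laurentExp O f).leadingCoeff = 1) : HasPole (laurentExp O f) n := by
  refine ⟨?_, fun i hi => coeff_laurentExp_eq_zero O (Or.inr hord.ge) hi⟩
  rw [← hord, ← laurentExp_order O hf, ← HahnSeries.leadingCoeff_eq, hlead]

theorem lead_of_hasPole {f : F} {n : ℕ} (h : HasPole (laurentExp O f) n) :
    f ≠ 0 ∧ O.ord f = -(n : ℤ) ∧ (laurentExp O f).leadingCoeff = 1 := by
  have hf : f ≠ 0 := fun h0 => by simpa [h0] using h.1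
  have hord : O.ord f = -(n : ℤ) := by
    rw [← laurentExp_order O hf]
    exact Reduction.order_eq_of_coeff (by rw [h.1]; exact one_ne_zero) h.2
  refine ⟨hf, hord, ?_⟩
  rw [HahnSeries.leadingCoeff_eq, laurentExp_order O hf, hord, h.1]

theorem exists_normalised {n : ℕ} (h : IsNongap O n) :
    ∃ f, f ∈ regAlg O ∧ HasPole (laurentExp O f) n := by
  obtain ⟨f, hf, h0, hord⟩ := h
  set c := (laurentExp O f).leadingCoeff with hc
  have hc0 : c ≠ 0 :=
    HahnSeries.leadingCoeff_eq_zero.not.2 ((map_ne_zero (laurentExp O)).2 h0)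
  refine ⟨algebraMap K F c⁻¹ * f, mul_mem (Subalgebra.algebraMap_mem _ _) hf,
    hasPole_laurentExp (mul_ne_zero (by simpa using hc0) h0) ?_ ?_⟩
  · rw [O.ord_mul (by simpa using hc0) h0, ord_algebraMap, hord, zero_add]
  · rw [map_mul, HahnSeries.leadingCoeff_mul, laurentExp_algebraMap, ← hc, HahnSeries.C_apply,
      HahnSeries.leadingCoeff_of_single, inv_mul_cancel₀ hc0]

/-- `∑ i, p i (x) * y i` in the function field. -/
def fElt {ι : Type*} [Fintype ι] (x : F) (y : ι → F) (p : ι → K[X]) : F :=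
  ∑ i, aeval x (p i) * y i

/-- A coordinate with its only pole at `O` and a basis of the functions regular off `O`. -/
structure Coord (O : Place K F) where
  d : ℕ
  x : F
  x_reg : x ∈ regAlg O
  x_pole : HasPole (laurentExp O x) (d + 1)
  y : Fin (d + 1) → F
  pole : Fin (d + 1) → ℕ
  y_reg : ∀ i, y i ∈ regAlg O
  y_pole : ∀ i, HasPole (laurentExp O (y i)) (pole i)
  pole_mod : ∀ i : Fin (d + 1), pole i % (d + 1) = i
  y_zero : y 0 = 1
  pole_min : ∀ (i : Fin (d + 1)) (n : ℕ), IsNongap O n → n % (d + 1) = i → pole i ≤ n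
  d_ne : ((d + 1 : ℕ) : K) ≠ 0

theorem nonempty_coord (O : Place K F) : Nonempty (Coord O) := by
  classical
  obtain ⟨d, hd, hdK⟩ : ∃ d, 2 * gBound K F ≤ d ∧ ((d + 1 : ℕ) : K) ≠ 0 := by
    by_cases h : ((2 * gBound K F + 1 : ℕ) : K) = 0
    · refine ⟨2 * gBound K F + 1, by omega, fun h' => one_ne_zero (α := K) ?_⟩
      push_cast at h h'
      linear_combination h' - h
    · exact ⟨_, le_rfl, h⟩
  obtain ⟨x, hx, hxp⟩ := exists_normalised (isNongap_of_le O (n := d + 1) (by omega))
  have hex : ∀ i : Fin (d + 1), ∃ n, IsNongap O n ∧ n % (d + 1) = i := fun i =>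
    ⟨(d + 1) + i, isNongap_of_le O (by omega), by simp [Nat.mod_eq_of_lt i.isLt]⟩
  choose f hf hfp using fun i => exists_normalised (Nat.find_spec (hex i)).1
  have h0 : Nat.find (hex 0) = 0 :=
    (Nat.find_eq_zero _).2 ⟨⟨1, one_mem _, one_ne_zero, by simp⟩, by simp⟩
  refine ⟨⟨d, x, hx, hxp, fun i => if i = 0 then 1 else f i, fun i => Nat.find (hex i),
    fun i => ?_, fun i => ?_, fun i => (Nat.find_spec (hex i)).2, by simp,
    fun i n hn hmod => Nat.find_min' (hex i) ⟨hn, hmod⟩, hdK⟩⟩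
  · split_ifs
    · exact one_mem _
    · exact hf i
  · split_ifs with h
    · subst h
      rw [h0]
      exact hasPole_laurentExp one_ne_zero (by simp) (by simp)
    · exact hfp i

namespace Coord

variable (C : Coord O)

theorem ord_x : O.ord C.x = -((C.d + 1 : ℕ) : ℤ) := (lead_of_hasPole C.x_pole).2.1

theorem x_ne_zero : C.x ≠ 0 := (lead_of_hasPole C.x_pole).1

theorem transcendental_x : Transcendental K C.x :=
  transcendental_of_ord_ne_zero O (by rw [C.ord_x]; omega)

theorem isSeparable_x : Algebra.IsSeparable K⟮C.x⟯ F :=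
  isSeparable_of_ord O (by rw [C.ord_x, Int.cast_neg, Int.cast_natCast]; exact neg_ne_zero.2 C.d_ne)

theorem ord_y (i : Fin (C.d + 1)) : O.ord (C.y i) = -(C.pole i : ℤ) := (lead_of_hasPole (C.y_pole i)).2.1

theorem y_ne_zero (i : Fin (C.d + 1)) : C.y i ≠ 0 := (lead_of_hasPole (C.y_pole i)).1

theorem aeval_reg (p : K[X]) : aeval C.x p ∈ regAlg O :=
  Algebra.adjoin_le (Set.singleton_subset_iff.2 C.x_reg) (aeval_mem_adjoin_singleton K C.x)

theorem fElt_reg (p : Fin (C.d + 1) → K[X]) : fElt C.x C.y p ∈ regAlg O :=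
  sum_mem fun i _ => mul_mem (C.aeval_reg _) (C.y_reg i)

theorem exists_fElt_of_le : ∀ (n : ℕ) (f : F), f ∈ regAlg O → VanishesTo O (-(n : ℤ)) f →
    ∃ p : Fin (C.d + 1) → K[X], f = fElt C.x C.y p := by
  classical
  intro n
  induction n using Nat.strong_induction_on with
  | _ n ih =>
    intro f hf hv
    rcases eq_or_ne f 0 with rfl | h0
    · exact ⟨0, by simp [fElt]⟩
    obtain ⟨k, hk⟩ : ∃ k : ℕ, O.ord f = -(k : ℤ) :=
      ⟨(-O.ord f).toNat, by have := ord_nonpos_of_regAlg hf; omega⟩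
    have hkn : k ≤ n := by have := hv.resolve_left h0; omega
    set i : Fin (C.d + 1) := ⟨k % (C.d + 1), Nat.mod_lt _ (by omega)⟩ with hi
    have hmin := C.pole_min i k ⟨f, hf, h0, hk⟩ rfl
    obtain ⟨q, hq⟩ : ∃ q, k = C.pole i + (C.d + 1) * q := by
      obtain ⟨q, hq⟩ := (Nat.modEq_iff_dvd' hmin).1
        (show C.pole i % (C.d + 1) = k % (C.d + 1) from C.pole_mod i)
      exact ⟨q, by omega⟩
    have hg0 : C.x ^ q * C.y i ≠ 0 := mul_ne_zero (pow_ne_zero _ C.x_ne_zero) (C.y_ne_zero i)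
    have hgo : O.ord (C.x ^ q * C.y i) = -(k : ℤ) := by
      rw [O.ord_mul (pow_ne_zero _ C.x_ne_zero) (C.y_ne_zero i), ord_pow, C.ord_x, C.ord_y, hq]
      push_cast; ring
    obtain ⟨c, hc⟩ := exists_sub_smul O hg0 (g := f) (Or.inr (by rw [hgo, hk]))
    have hmem : f - c • (C.x ^ q * C.y i) ∈ regAlg O :=
      sub_mem hf (Subalgebra.smul_mem _ (mul_mem (pow_mem C.x_reg q) (C.y_reg i)) c)
    obtain ⟨p, hp⟩ : ∃ p, f - c • (C.x ^ q * C.y i) = fElt C.x C.y p := by
      rcases Nat.eq_zero_or_pos k with hk0 | hk0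
      · refine ⟨0, ?_⟩
        rcases eq_or_ne (f - c • (C.x ^ q * C.y i)) 0 with h | h
        · simp [h, fElt]
        · have h1 := hc.resolve_left h
          have h2 := ord_nonpos_of_regAlg hmem
          omega
      · exact ih (k - 1) (by omega) _ hmem (hc.mono (by rw [hgo]; omega))
    refine ⟨p + Pi.single (M := fun _ => K[X]) i (Polynomial.C c * X ^ q), ?_⟩
    rw [sub_eq_iff_eq_add.1 hp]
    simp [fElt, Pi.single_apply, add_mul, Finset.sum_add_distrib, apply_ite (aeval C.x),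
      ite_mul, Algebra.smul_def, mul_assoc]

theorem exists_fElt {f : F} (hf : f ∈ regAlg O) :
    ∃ p : Fin (C.d + 1) → K[X], f = fElt C.x C.y p :=
  C.exists_fElt_of_le (-O.ord f).toNat f hf (by
    rcases eq_or_ne f 0 with h | h
    · rw [h]; exact VanishesTo.zero
    · exact Or.inr (by omega))

theorem ord_term {p : K[X]} (hp : p ≠ 0) (i : Fin (C.d + 1)) :
    aeval C.x p * C.y i ≠ 0 ∧
      O.ord (aeval C.x p * C.y i) = -((p.natDegree * (C.d + 1) + C.pole i : ℕ) : ℤ) := by
  obtain ⟨h1, h2⟩ := ord_aeval_of_pole (w := O) (by rw [C.ord_x]; omega) hp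
  refine ⟨mul_ne_zero h1 (C.y_ne_zero i), ?_⟩
  rw [O.ord_mul h1 (C.y_ne_zero i), h2, C.ord_x, C.ord_y]
  push_cast; ring

theorem fElt_eq_zero {p : Fin (C.d + 1) → K[X]} (h : fElt C.x C.y p = 0) : p = 0 := by
  classical
  by_contra hp
  obtain ⟨i₀, hi₀, hmax⟩ := Finset.exists_max_image (Finset.univ.filter fun i => p i ≠ 0)
    (fun i => (p i).natDegree * (C.d + 1) + C.pole i) (by
      obtain ⟨i, hi⟩ := Function.ne_iff.1 hp
      exact ⟨i, Finset.mem_filter.2 ⟨Finset.mem_univ _, hi⟩⟩)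
  obtain ⟨h0, ho⟩ := C.ord_term (Finset.mem_filter.1 hi₀).2 i₀
  refine (ord_eq_of_vanishesTo_sub (P := O) (g := fElt C.x C.y p) h0 ?_).1 h
  rw [fElt, ← Finset.add_sum_erase _ _ (Finset.mem_univ i₀), add_sub_cancel_left]
  refine VanishesTo.sum _ _ fun i hi => ?_
  by_cases hpi : p i = 0
  · exact Or.inl (by rw [hpi, map_zero, zero_mul])
  refine Or.inr ?_
  rw [ho, (C.ord_term hpi i).2]
  have h1 := hmax i (Finset.mem_filter.2 ⟨Finset.mem_univ _, hpi⟩)
  have h2 : (p i).natDegree * (C.d + 1) + C.pole i ≠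
      (p i₀).natDegree * (C.d + 1) + C.pole i₀ := fun he => by
    have := congrArg (· % (C.d + 1)) he
    simp only [Nat.mul_add_mod_self_right, C.pole_mod] at this
    exact Finset.ne_of_mem_erase hi (Fin.ext this)
  omega

theorem pole_x (P : Place K F) : P.ord C.x < 0 ↔ P = O := by
  refine ⟨fun h => by_contra fun hP => ?_, fun h => by rw [h, C.ord_x]; omega⟩
  have := (C.x_reg P hP).resolve_left C.x_ne_zero
  omega

theorem finrank_eq : Module.finrank K⟮C.x⟯ F = C.d + 1 := by
  have := finiteDimensional_adjoin (K := K) C.transcendental_x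
  have h := sum_ord_poles C.transcendental_x (S := {O}) fun w => by
    rw [Finset.mem_singleton, C.pole_x]
  rw [Finset.sum_singleton, C.ord_x] at h
  omega

theorem linearIndependent_y : LinearIndependent K⟮C.x⟯ C.y :=
  linearIndependent_adjoin_simple C.x_ne_zero C.y fun φ hφ i => by
    rw [C.fElt_eq_zero hφ]; simp

/-- The basis over `K(x)`. -/
def basis : Module.Basis (Fin (C.d + 1)) K⟮C.x⟯ F :=
  basisOfLinearIndependentOfCardEqFinrank C.linearIndependent_y
    (by rw [Fintype.card_fin, C.finrank_eq])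

theorem basis_apply (i : Fin (C.d + 1)) : C.basis i = C.y i := by simp [basis]

theorem adjoin_eq_top : IntermediateField.adjoin K (insert C.x (Set.range C.y)) = ⊤ := by
  refine eq_top_iff.2 fun f _ => ?_
  rw [← C.basis.sum_repr f]
  refine sum_mem fun i _ => ?_
  rw [Algebra.smul_def, C.basis_apply]
  refine mul_mem ?_ (subset_adjoin _ _ (Set.mem_insert_of_mem _ ⟨i, rfl⟩))
  exact adjoin.mono K _ _ (Set.singleton_subset_iff.2 (Set.mem_insert _ _)) (C.basis.repr f i).2

/-- The structure constants. -/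
def c (i k : Fin (C.d + 1)) : Fin (C.d + 1) → K[X] :=
  (C.exists_fElt (mul_mem (C.y_reg i) (C.y_reg k))).choose

theorem y_mul (i k : Fin (C.d + 1)) : C.y i * C.y k = fElt C.x C.y (C.c i k) :=
  (C.exists_fElt (mul_mem (C.y_reg i) (C.y_reg k))).choose_spec

theorem det_traceMat_ne_zero : (traceMat C.c).det ≠ 0 := by
  classical
  have := finiteDimensional_adjoin (K := K) C.transcendental_x
  have := C.isSeparable_x
  set φ : K[X] →+* K⟮C.x⟯ :=
    (aeval (⟨C.x, mem_adjoin_simple_self K C.x⟩ : K⟮C.x⟯)).toRingHom with hφdef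
  have hφ : ∀ p, algebraMap K⟮C.x⟯ F (φ p) = aeval C.x p := fun p =>
    (aeval_algebraMap_apply F (⟨C.x, mem_adjoin_simple_self K C.x⟩ : K⟮C.x⟯) p).symm
  have hmul : ∀ i k, C.y i * C.y k = ∑ l, φ (C.c i k l) • C.y l := fun i k => by
    rw [C.y_mul, fElt]
    exact Finset.sum_congr rfl fun l _ => by rw [Algebra.smul_def, hφ]
  have hrepr : ∀ i k q, C.basis.repr (C.y i * C.y k) q = φ (C.c i k q) := fun i k q => by
    rw [hmul]
    simp only [← C.basis_apply, map_sum, map_smul, Module.Basis.repr_self]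
    simp [Finsupp.single_apply]
  have htr : ∀ l, Algebra.trace K⟮C.x⟯ F (C.y l) = ∑ q, φ (C.c l q q) := fun l => by
    rw [Algebra.trace_eq_matrix_trace C.basis, Matrix.trace]
    refine Finset.sum_congr rfl fun q _ => ?_
    rw [Matrix.diag_apply, Algebra.leftMulMatrix_eq_repr_mul, C.basis_apply, hrepr]
  have hmap : φ.mapMatrix (traceMat C.c) = Algebra.traceMatrix K⟮C.x⟯ C.basis := by
    refine Matrix.ext fun i k => ?_
    rw [RingHom.mapMatrix_apply, Matrix.map_apply, Algebra.traceMatrix_apply, Algebra.traceForm_apply,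
      C.basis_apply, C.basis_apply, hmul, map_sum]
    simp only [map_smul, htr, smul_eq_mul, traceMat, map_sum, map_mul]
  intro h
  refine Algebra.discr_not_zero_of_basis K⟮C.x⟯ C.basis ?_
  rw [Algebra.discr_def, ← hmap, ← RingHom.map_det, h, map_zero]

end Coord

end Fermat.Agent.Row27

end
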