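import Fermat.Agent.Row27.Transport
import Mathlib.FieldTheory.AlgebraicClosure

/-!
# Nondegeneracy of the theta map

A class whose theta vector is constant over an algebraically closed subfield is defined over it.
-/

set_option autoImplicit false

noncomputable section

open AlgebraicCurve Module

namespace Fermat.Agent.Row27

universe u

variable {K : Type u} [Field K] {C : CurveData K} {T : SpecTheory C} (Th : ThetaTheory C T)
variable {L L' : Type u} [Field L] [Algebra K L] [IsAlgClosed L] [Field L'] [Algebra K L']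
  [IsAlgClosed L']

include Th

lemma ThetaTheory.isConst_pic (ψ : L →ₐ[K] L') (y : Pic0 L (C.curve L)) :
    IsConst ψ (Th.theta L' (T.pic (Spec.ofAlgHom ψ) y)) := by
  obtain ⟨s, -, a', ha', hs'⟩ := Th.theta_spec (Spec.ofAlgHom ψ) y
  refine ⟨fun i => (s i : L), a'⁻¹, inv_ne_zero ha', funext fun i => ?_⟩
  have h := congrFun hs' i
  change ψ (s i : L) = a' * _ at h
  rw [Pi.smul_apply, smul_eq_mul, h, inv_mul_cancel_left₀ ha']

lemma ThetaTheory.isConst_add (hg : 0 < C.g) (ψ : L →ₐ[K] L') {x : Pic0 L' (C.curve L')}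
    (hx : IsConst ψ (Th.theta L' x)) (y : Pic0 L (C.curve L)) :
    IsConst ψ (Th.theta L' (x + T.pic (Spec.ofAlgHom ψ) y)) := by
  obtain ⟨lam, hlam, h⟩ := Th.parallelogram hg L' x (T.pic (Spec.ofAlgHom ψ) y)
  obtain ⟨κ, hκ, h1⟩ := hx.exists_vmax (Th.theta_ne_zero L' x)
  obtain ⟨κ', hκ', h2⟩ := (Th.isConst_pic ψ y).exists_vmax (Th.theta_ne_zero L' _)
  refine isConst_of_vmax_mul ψ one_pos (Th.theta_ne_zero L' _)
    (w := Th.theta L' (x - T.pic (Spec.ofAlgHom ψ) y)) (Th.theta_ne_zero L' _)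
    (mul_ne_zero hlam (pow_ne_zero 2 (mul_ne_zero hκ hκ'))) fun A hA hA' => ?_
  rw [pow_one, h A hA, h1 A hA', h2 A hA', map_mul, map_pow, map_mul]

/-- A constant vector specialises to the same vector. -/
lemma ThetaTheory.theta_retraction (ψ : L →ₐ[K] L') (φ : Spec K L' L) (h : ∀ l, ψ l ∈ φ.dom)
    (hid : ∀ l, φ.map ⟨ψ l, h l⟩ = l) {x : Pic0 L' (C.curve L')} {c : C.TIdx → L}
    (hc : PropTo (fun i => ψ (c i)) (Th.theta L' x)) :
    PropTo c (Th.theta L (T.pic φ x)) := by
  obtain ⟨s, ⟨a, ha, hs⟩, ⟨b, hb, hs'⟩⟩ := Th.theta_spec φ x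
  obtain ⟨e, he, hce⟩ := hc
  obtain ⟨i, hi⟩ : ∃ i, c i ≠ 0 := by
    by_contra hcon
    push Not at hcon
    exact Th.theta_ne_zero L' x (by rw [hce]; exact funext fun i => by simp [hcon i])
  have hsc : ∀ j, (s j : L') = a * e * ψ (c j) := fun j => by
    rw [congrFun hs j, hce, Pi.smul_apply, Pi.smul_apply, smul_eq_mul, smul_eq_mul, mul_assoc]
  have hae : a * e ∈ φ.dom := by
    have h1 : a * e = (s i : L') * ψ (c i)⁻¹ := by
      rw [hsc, mul_assoc, ← map_mul, mul_inv_cancel₀ hi, map_one, mul_one]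
    rw [h1]
    exact mul_mem (s i).2 (h _)
  have hmap : ∀ j, φ.map (s j) = φ.map ⟨a * e, hae⟩ * c j := fun j => by
    rw [← hid (c j), ← map_mul]
    exact congrArg φ.map (Subtype.ext (by simpa [hid] using hsc j))
  have hd : φ.map ⟨a * e, hae⟩ ≠ 0 := by
    obtain ⟨j, hj⟩ := Function.ne_iff.mp (Th.theta_ne_zero L (T.pic φ x))
    intro h0
    have h1 := congrFun hs' j
    rw [hmap, h0, zero_mul, Pi.smul_apply, smul_eq_mul] at h1
    exact hj ((mul_eq_zero.mp h1.symm).resolve_left hb)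
  refine ⟨φ.map ⟨a * e, hae⟩ / b, div_ne_zero hd hb, funext fun j => ?_⟩
  have h1 := congrFun hs' j
  rw [hmap, Pi.smul_apply, smul_eq_mul] at h1
  rw [Pi.smul_apply, smul_eq_mul, div_mul_eq_mul_div, h1, mul_div_cancel_left₀ _ hb]

omit Th in
/-- The divisor of degree `g - 1` cut out by the evaluation tuple. -/
def ccDiv (C : CurveData K) (M : Type u) [Field M] [Algebra K M] [IsAlgClosed M] (b : ℕ)
    (r : Fin (C.nW b) → Fin C.pool) : Divisor M (C.curve M) :=
  C.binf M ((b : ℤ) - C.n) - ∑ j, Finsupp.single (C.pt M (r j)) (1 : ℤ)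

omit Th in
lemma degree_ccDiv (M : Type u) [Field M] [Algebra K M] [IsAlgClosed M] {b : ℕ}
    (hb : 2 * C.g + C.n ≤ b) (r : Fin (C.nW b) → Fin C.pool) :
    Divisor.degree (ccDiv C M b r) = (C.g : ℤ) - 1 := by
  simp only [ccDiv, map_sub, map_sum, C.deg_binf, C.degree_single, Finset.sum_const,
    Finset.card_univ, Fintype.card_fin, nsmul_one]
  simp only [CurveData.nW, CurveData.n] at *
  omega

omit Th in
lemma push_ccDiv (ψ : L →ₐ[K] L') (b : ℕ) (r : Fin (C.nW b) → Fin C.pool) :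
    T.push (Spec.ofAlgHom ψ) (ccDiv C L b r) = ccDiv C L' b r := by
  simp only [ccDiv, map_sub, map_sum, T.push_binf, T.push_single, T.place_pt]

omit Th in
lemma exists_tuples : ∃ q : C.TIdx, Function.Injective q.1 ∧ Function.Injective q.2 := by
  have hN : C.nW C.lh ≤ C.pool ∧ C.nW C.lh' ≤ C.pool := by
    simp only [CurveData.nW, CurveData.lh, CurveData.lh', CurveData.n, CurveData.l3, CurveData.l2,
      CurveData.l1, CurveData.la, CurveData.pool]
    omega
  exact ⟨(fun j => Fin.castLE hN.1 j, fun j => Fin.castLE hN.2 j),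
    fun _ _ h => Fin.castLE_injective hN.1 h, fun _ _ h => Fin.castLE_injective hN.2 h⟩

omit Th in
/-- Rational effective divisors emptying the four systems. -/
lemma exists_emptying (hg : 0 < C.g) (ψ : L →ₐ[K] L') {Δ : Divisor L' (C.curve L')}
    (hΔd : Divisor.degree Δ = 0) (hΔ : ∀ R, C.cls L' Δ ≠ T.pic (Spec.ofAlgHom ψ) R)
    {c c' : Divisor L (C.curve L)} (hc : Divisor.degree c = (C.g : ℤ) - 1)
    (hc' : Divisor.degree c' = (C.g : ℤ) - 1) :
    ∃ E : Divisor L (C.curve L), 0 ≤ E ∧ Divisor.degree E = (C.g : ℤ) - 1 ∧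
      C.h0 L' (C.canon L' + Δ - T.push (Spec.ofAlgHom ψ) E) = 0 ∧
      C.h0 L' (T.push (Spec.ofAlgHom ψ) (c + c) + Δ - T.push (Spec.ofAlgHom ψ) E) = 0 ∧
      C.h0 L' (C.canon L' + T.push (Spec.ofAlgHom ψ) (c - c') + Δ
        - T.push (Spec.ofAlgHom ψ) E) = 0 ∧
      C.h0 L' (T.push (Spec.ofAlgHom ψ) (c + c') + Δ - T.push (Spec.ofAlgHom ψ) E) = 0 := by
  classical
  have hle : ∀ {X : Divisor L' (C.curve L')}, Divisor.degree X = 2 * (C.g : ℤ) - 2 →
      ((∀ R, C.cls L' Δ ≠ T.pic (Spec.ofAlgHom ψ) R) → C.cls L' X ≠ C.cls L' (C.canon L')) →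
      C.h0 L' X ≤ C.g - 1 := fun hX hne => C.h0_le_of_cls_ne L' hg hX (hne hΔ)
  have hK := T.pic_cls_canon hg ψ
  have h1 : C.h0 L' (C.canon L' + Δ) ≤ C.g - 1 := by
    refine hle (by rw [map_add, hΔd, C.degree_canon, add_zero]) fun hne he => ?_
    rw [map_add, add_eq_left] at he
    exact hne 0 (he.trans (map_zero _).symm)
  have hsub : ∀ R, C.cls L' (T.push (Spec.ofAlgHom ψ) R + Δ) = C.cls L' (C.canon L') →
      C.cls L' Δ = T.pic (Spec.ofAlgHom ψ) (C.cls L (C.canon L) - C.cls L R) := by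
    intro R he
    rw [map_add, ← T.pic_cls', ← hK] at he
    rw [map_sub]
    exact eq_sub_iff_add_eq'.mpr he
  have h2 : C.h0 L' (T.push (Spec.ofAlgHom ψ) (c + c) + Δ) ≤ C.g - 1 :=
    hle (by rw [map_add, T.degree_push, map_add, hΔd, hc]; ring) fun hne he => hne _ (hsub _ he)
  have h3 : C.h0 L' (C.canon L' + T.push (Spec.ofAlgHom ψ) (c - c') + Δ) ≤ C.g - 1 := by
    refine hle (by rw [map_add, map_add, T.degree_push, map_sub, hΔd, hc, hc', C.degree_canon]; ring)
      fun hne he => ?_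
    rw [add_assoc, map_add, add_eq_left, map_add, ← T.pic_cls'] at he
    exact hne _ ((eq_neg_of_add_eq_zero_right he).trans (map_neg _ _).symm)
  have h4 : C.h0 L' (T.push (Spec.ofAlgHom ψ) (c + c') + Δ) ≤ C.g - 1 :=
    hle (by rw [map_add, T.degree_push, map_add, hΔd, hc, hc']; ring) fun hne he => hne _ (hsub _ he)
  let A : Fin 4 → Divisor L' (C.curve L') :=
    ![C.canon L' + Δ, T.push (Spec.ofAlgHom ψ) (c + c) + Δ,
      C.canon L' + T.push (Spec.ofAlgHom ψ) (c - c') + Δ, T.push (Spec.ofAlgHom ψ) (c + c') + Δ]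
  have hA : ∀ i, C.h0 L' (A i) ≤ C.g - 1 := Fin.forall_fin_succ.mpr
    ⟨h1, Fin.forall_fin_succ.mpr ⟨h2, Fin.forall_fin_succ.mpr ⟨h3, Fin.forall_fin_one.mpr h4⟩⟩⟩
  have := Infinite.of_injective _ (C.pt_injective L)
  obtain ⟨Q, hQS, hQ⟩ := C.exists_sub_tuple L'
    (Set.infinite_range_of_injective (T.place_injective ψ)) (C.g - 1) A hA
  choose Q0 hQ0 using hQS
  have hpE : T.push (Spec.ofAlgHom ψ) (∑ j, Finsupp.single (Q0 j) 1) = ∑ j, Finsupp.single (Q j) 1 := by
    simp only [map_sum, T.push_single, hQ0]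
  refine ⟨∑ j, Finsupp.single (Q0 j) 1,
    Finset.sum_nonneg fun j _ => Finsupp.single_nonneg.mpr zero_le_one, ?_, ?_⟩
  · simp only [map_sum, C.degree_single, Finset.sum_const, Finset.card_univ, Fintype.card_fin,
      nsmul_one]
    omega
  · rw [hpE]
    exact ⟨hQ 0, hQ 1, hQ 2, hQ 3⟩

/-- The coordinate of the translated constant class vanishes. -/
lemma ThetaTheory.theta_eq_zero_of_rep (hg : 0 < C.g) {z : Pic0 L (C.curve L)} {q : C.TIdx}
    (hq1 : Function.Injective q.1) (hq2 : Function.Injective q.2) {E : Divisor L (C.curve L)}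
    (hE : 0 ≤ E) (hEd : Divisor.degree E = (C.g : ℤ) - 1)
    (hcd : Divisor.degree (ccDiv C L C.lh q.1) = (C.g : ℤ) - 1)
    (hz : C.cls L (ccDiv C L C.lh q.1 - E) = z) : Th.theta L z q = 0 := by
  by_contra hne0
  have hrep : Divisor.degree (ccDiv C L C.lh q.1 - E) = 0 := by rw [map_sub, hcd, hEd, sub_self]
  have h1 := ((Th.theta_ne_zero_iff hg L z _ hrep hz q hq1 hq2).mp hne0).1.1
  rw [show C.binf L ((C.lh : ℤ) - C.n) - ∑ j, Finsupp.single (C.pt L (q.1 j)) (1 : ℤ) =
    ccDiv C L C.lh q.1 from rfl, sub_sub_cancel] at h1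
  have h2 : (1 : C.curve L) ∈ riemannRochSpace E := by
    rw [MWJ0.mem_Lsp]
    exact fun v => Or.inr (by have := hE v; simp at this ⊢; exact this)
  rw [h1, Submodule.mem_bot] at h2
  exact one_ne_zero h2

/-- On the other side the coordinate does not vanish. -/
lemma ThetaTheory.theta_ne_zero_of_emptying (hg : 0 < C.g) {z : Pic0 L' (C.curve L')}
    {q : C.TIdx} (hq1 : Function.Injective q.1) (hq2 : Function.Injective q.2)
    {c c' E Δ : Divisor L' (C.curve L')} (hc0 : ccDiv C L' C.lh q.1 = c)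
    (hc0' : ccDiv C L' C.lh' q.2 = c') (hc : Divisor.degree c = (C.g : ℤ) - 1)
    (hc' : Divisor.degree c' = (C.g : ℤ) - 1) (hE : Divisor.degree E = (C.g : ℤ) - 1)
    (hΔ : Divisor.degree Δ = 0) (hz : C.cls L' (Δ + c - E) = z)
    (h1 : C.h0 L' (C.canon L' + Δ - E) = 0) (h2 : C.h0 L' (c + c + Δ - E) = 0)
    (h3 : C.h0 L' (C.canon L' + (c - c') + Δ - E) = 0) (h4 : C.h0 L' (c + c' + Δ - E) = 0) :
    Th.theta L' z q ≠ 0 := by
  have hrd : Divisor.degree (Δ + c - E) = 0 := by rw [map_sub, map_add, hΔ, hc, hE]; ring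
  refine (Th.theta_ne_zero_iff hg L' z _ hrd hz q hq1 hq2).mpr ?_
  rw [show C.binf L' ((C.lh : ℤ) - C.n) - ∑ j, Finsupp.single (C.pt L' (q.1 j)) (1 : ℤ) = c
      from hc0,
    show C.binf L' ((C.lh' : ℤ) - C.n) - ∑ j, Finsupp.single (C.pt L' (q.2 j)) (1 : ℤ) = c'
      from hc0']
  simp only [← C.h0_eq_zero_iff L']
  refine ⟨⟨?_, ?_⟩, ⟨?_, ?_⟩⟩
  · have hr := C.rr_h0 L' (E - Δ)
    rw [show C.canon L' - (E - Δ) = C.canon L' + Δ - E by abel, h1, map_sub, hE, hΔ] at hr
    rw [show c - (Δ + c - E) = E - Δ by abel]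
    omega
  · rw [show c + (Δ + c - E) = c + c + Δ - E by abel]
    exact h2
  · have hr := C.rr_h0 L' (E - Δ - (c - c'))
    rw [show C.canon L' - (E - Δ - (c - c')) = C.canon L' + (c - c') + Δ - E by abel, h3,
      map_sub, map_sub, map_sub, hE, hΔ, hc, hc'] at hr
    rw [show c' - (Δ + c - E) = E - Δ - (c - c') by abel]
    omega
  · rw [show c' + (Δ + c - E) = c + c' + Δ - E by abel]
    exact h4

omit Th in
lemma sub_add_sub_map {A B : Type*} [AddCommGroup A] [AddCommGroup B] (f : A →+ B) (x : B)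
    (d c e : A) : x - f d + f c - f e = x + f (c - d - e) := by
  simp only [map_sub]; abel

/-- The step of transcendence degree one. -/
theorem ThetaTheory.eq_pic_of_retraction (hg : 0 < C.g) (ψ : L →ₐ[K] L') (φ : Spec K L' L)
    (h : ∀ l, ψ l ∈ φ.dom) (hid : ∀ l, φ.map ⟨ψ l, h l⟩ = l) {x : Pic0 L' (C.curve L')}
    (hx : IsConst ψ (Th.theta L' x)) :
    x = T.pic (Spec.ofAlgHom ψ) (T.pic φ x) := by
  by_contra hne
  obtain ⟨D0, hD0, hD0x⟩ := C.cls_surjective L (T.pic φ x)
  obtain ⟨Dx, hDx, hDxx⟩ := C.cls_surjective L' x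
  have hΔd : Divisor.degree (Dx - T.push (Spec.ofAlgHom ψ) D0) = 0 := by
    rw [map_sub, hDx, T.degree_push, hD0, sub_zero]
  have hΔr : ∀ R : Pic0 L (C.curve L),
      C.cls L' (Dx - T.push (Spec.ofAlgHom ψ) D0) ≠ T.pic (Spec.ofAlgHom ψ) R := by
    intro R hR
    rw [map_sub, hDxx, ← T.pic_cls', hD0x, sub_eq_iff_eq_add, ← map_add] at hR
    refine hne ?_
    conv_rhs => rw [hR, T.pic_pic_of_retraction ψ φ h hid]
    exact hR
  obtain ⟨q, hq1, hq2⟩ := exists_tuples (C := C)
  have hl : 2 * C.g + C.n ≤ C.lh ∧ 2 * C.g + C.n ≤ C.lh' := by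
    simp only [CurveData.lh, CurveData.lh', CurveData.n, CurveData.l3, CurveData.l2,
      CurveData.l1, CurveData.la]
    omega
  have hcd := degree_ccDiv (C := C) L hl.1 q.1
  have hcd' := degree_ccDiv (C := C) L hl.2 q.2
  obtain ⟨E, hE0, hEd, h1, h2, h3, h4⟩ := exists_emptying hg ψ hΔd hΔr hcd hcd'
  have hy : C.cls L (ccDiv C L C.lh q.1 - E) =
      T.pic φ x + C.cls L (ccDiv C L C.lh q.1 - D0 - E) := by
    rw [map_sub, map_sub, map_sub, hD0x]; abel
  have hzero := Th.theta_eq_zero_of_rep hg hq1 hq2 hE0 hEd hcd hy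
  have hz' : C.cls L' (Dx - T.push (Spec.ofAlgHom ψ) D0
      + T.push (Spec.ofAlgHom ψ) (ccDiv C L C.lh q.1) - T.push (Spec.ofAlgHom ψ) E) =
      x + T.pic (Spec.ofAlgHom ψ) (C.cls L (ccDiv C L C.lh q.1 - D0 - E)) := by
    rw [T.pic_cls', ← hDxx, ← map_add]
    exact congrArg _ (sub_add_sub_map (T.push (Spec.ofAlgHom ψ)) Dx D0 _ E)
  rw [(T.push (Spec.ofAlgHom ψ)).map_add] at h2 h4
  rw [(T.push (Spec.ofAlgHom ψ)).map_sub] at h3
  have hnz := Th.theta_ne_zero_of_emptying hg hq1 hq2 (push_ccDiv ψ C.lh q.1).symm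
    (push_ccDiv ψ C.lh' q.2).symm
    (by rw [T.degree_push]; exact hcd) (by rw [T.degree_push]; exact hcd')
    (by rw [T.degree_push]; exact hEd) hΔd hz' h1 h2 h3 h4
  obtain ⟨v, hv⟩ := Th.isConst_add hg ψ hx (C.cls L (ccDiv C L C.lh q.1 - D0 - E))
  obtain ⟨a, ha, hav⟩ := Th.theta_retraction ψ φ h hid hv
  obtain ⟨e, -, hev⟩ := hv
  have hvq : v q = 0 := by
    have := congrFun hav q
    rw [map_add, T.pic_pic_of_retraction ψ φ h hid, hzero, Pi.smul_apply, smul_eq_mul] at this
    exact (mul_eq_zero.mp this.symm).resolve_left ha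
  refine hnz ?_
  rw [congrFun hev q, Pi.smul_apply, smul_eq_mul, hvq, map_zero, mul_zero]

/-- **Nondegeneracy**: constant theta vectors belong to classes of the subfield. -/
theorem ThetaTheory.exists_eq_pic (hg : 0 < C.g) {Ω : Type u} [Field Ω] [Algebra K Ω]
    [IsAlgClosed Ω] (S : Finset Ω) :
    ∀ {L : Type u} [Field L] [Algebra K L] [IsAlgClosed L] (ψ : L →ₐ[K] Ω),
      (∀ z : Ω, IsAlgebraic (IntermediateField.adjoin K (Set.range ψ ∪ S)) z) →
      ∀ {x : Pic0 Ω (C.curve Ω)}, IsConst ψ (Th.theta Ω x) →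
        ∃ y, T.pic (Spec.ofAlgHom ψ) y = x := by
  classical
  induction S using Finset.induction with
  | empty =>
      intro L _ _ _ ψ hS x _
      refine T.pic_surjective_of_surjective ψ (fun z => ?_) x
      have hle : IntermediateField.adjoin K (Set.range ψ ∪ (↑(∅ : Finset Ω) : Set Ω)) ≤ ψ.fieldRange := by
        rw [IntermediateField.adjoin_le_iff]
        simp
      let := (IntermediateField.inclusion hle).toRingHom.toAlgebra
      have : IsScalarTower (IntermediateField.adjoin K (Set.range ψ ∪ (↑(∅ : Finset Ω) : Set Ω)))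
          ψ.fieldRange Ω := IsScalarTower.of_algebraMap_eq fun _ => rfl
      have h1 : IsIntegral ψ.fieldRange z := (hS z).isIntegral.tower_top
      obtain ⟨p, hp, hp0⟩ := h1
      refine mem_range_of_forall_valuation ψ fun A _ hA => ?_
      refine valuation_le_of_monic (hp.map (algebraMap _ Ω)) (by rw [Polynomial.eval_map]; exact hp0)
        le_rfl fun k => ?_
      rw [Polynomial.coeff_map]
      obtain ⟨l, hl⟩ := (p.coeff k).2
      refine (A.valuation_le_one_iff _).mpr ?_
      show ((p.coeff k : ψ.fieldRange) : Ω) ∈ A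
      rw [← hl]
      exact hA l
  | insert t S _ ih =>
      intro L _ _ _ ψ hS x hx
      let E := IntermediateField.adjoin K (Set.range ψ ∪ {t})
      let L1 : IntermediateField K Ω := (algebraicClosure E Ω).restrictScalars K
      have : IsAlgClosed L1 := IsAlgClosure.isAlgClosed E (K := algebraicClosure E Ω)
      have hEmem : ∀ z ∈ E, z ∈ L1 := fun z hz => (algebraicClosure E Ω).algebraMap_mem ⟨z, hz⟩
      let ψ1 : L →ₐ[K] L1 := ψ.codRestrict L1.toSubalgebra fun l =>
        hEmem _ (IntermediateField.subset_adjoin K _ (Or.inl ⟨l, rfl⟩))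
      let ι1 : L1 →ₐ[K] Ω := L1.val
      obtain ⟨c, a, ha, hca⟩ := hx
      have hx1 : IsConst ι1 (Th.theta Ω x) := ⟨fun i => ψ1 (c i), a, ha, hca⟩
      obtain ⟨x1, rfl⟩ := ih ι1 (fun z => by
        have hle : IntermediateField.adjoin K (Set.range ψ ∪ ↑(insert t S : Finset Ω)) ≤
            IntermediateField.adjoin K (Set.range ι1 ∪ ↑S) := by
          rw [IntermediateField.adjoin_le_iff]
          intro w hw
          refine IntermediateField.subset_adjoin K _ ?_
          rw [Finset.coe_insert, Set.union_insert, Set.mem_insert_iff, Set.mem_union] at hw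
          rcases hw with rfl | hw | hw
          · exact Or.inl ⟨⟨w, hEmem _ (IntermediateField.subset_adjoin K _ (Or.inr rfl))⟩, rfl⟩
          · obtain ⟨l, rfl⟩ := hw
            exact Or.inl ⟨ψ1 l, rfl⟩
          · exact Or.inr hw
        let := (IntermediateField.inclusion hle).toRingHom.toAlgebra
        have : IsScalarTower (IntermediateField.adjoin K (Set.range ψ ∪ ↑(insert t S : Finset Ω)))
            (IntermediateField.adjoin K (Set.range ι1 ∪ ↑S)) Ω :=
          IsScalarTower.of_algebraMap_eq fun _ => rfl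
        exact (hS z).isIntegral.tower_top.isAlgebraic) hx1
      have hx1c : IsConst ψ1 (Th.theta L1 x1) := by
        obtain ⟨s, ⟨a1, ha1, hs⟩, ⟨a2, ha2, hs'⟩⟩ := Th.theta_spec (Spec.ofAlgHom ι1) x1
        obtain ⟨i, hi⟩ : ∃ i, c i ≠ 0 := by
          by_contra hcon
          push Not at hcon
          exact Th.theta_ne_zero Ω _ (by rw [hca]; exact funext fun i => by simp [hcon i])
        have key : ∀ j, ι1 (a1 * Th.theta L1 x1 j) = a2 * a * ψ (c j) := fun j => by
          have h1 := congrFun hs j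
          have h2 := congrFun hs' j
          change ι1 (s j : L1) = _ at h2
          rw [show a1 * Th.theta L1 x1 j = (s j : L1) from h1.symm, h2, hca, Pi.smul_apply,
            Pi.smul_apply, smul_eq_mul, smul_eq_mul, mul_assoc]
        refine ⟨c, Th.theta L1 x1 i / ψ1 (c i), div_ne_zero ?_ ?_, funext fun j => ?_⟩
        · intro h0
          have h1 := key i
          rw [h0, mul_zero, map_zero] at h1
          exact mul_ne_zero (mul_ne_zero ha2 ha) ((map_ne_zero ψ).mpr hi) h1.symm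
        · exact (map_ne_zero ψ1).mpr hi
        · refine ι1.toRingHom.injective ?_
          show ι1 (Th.theta L1 x1 j) = ι1 ((Th.theta L1 x1 i / ψ1 (c i)) * ψ1 (c j))
          have h1 := key i
          have h2 := key j
          rw [map_mul] at h1 h2
          have hv : ι1 (ψ1 (c i)) = ψ (c i) := rfl
          have hv' : ι1 (ψ1 (c j)) = ψ (c j) := rfl
          rw [map_mul, map_div₀, hv, hv', div_mul_eq_mul_div,
            eq_div_iff ((map_ne_zero ψ).mpr hi)]
          refine mul_left_cancel₀ ((map_ne_zero ι1).mpr ha1) ?_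
          rw [← mul_assoc, ← mul_assoc, h1, h2]
          ring
      suffices ∃ y, T.pic (Spec.ofAlgHom ψ1) y = x1 by
        obtain ⟨y, rfl⟩ := this
        exact ⟨y, (T.pic_algHom_comp ψ1 ι1 y).symm⟩
      by_cases ht : (⟨t, hEmem _ (IntermediateField.subset_adjoin K _ (Or.inr rfl))⟩ : L1) ∈
          Set.range ψ1
      · refine T.pic_surjective_of_surjective ψ1 (fun z => ?_) x1
        obtain ⟨t0, ht0⟩ := ht
        have hle : E ≤ ψ.fieldRange := by
          rw [IntermediateField.adjoin_le_iff]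
          rintro w (hw | rfl)
          · exact hw
          · exact ⟨t0, congrArg Subtype.val ht0⟩
        obtain ⟨p, hp, hp0⟩ := (mem_algebraicClosure_iff.mp z.2).isIntegral
        obtain ⟨l, hl⟩ := mem_range_of_forall_valuation ψ (z := (z : Ω)) fun A _ hA => by
          refine valuation_le_of_monic (hp.map (algebraMap _ Ω))
            (by rw [Polynomial.eval_map]; exact hp0) le_rfl fun k => ?_
          rw [Polynomial.coeff_map]
          obtain ⟨l, hl⟩ := hle (p.coeff k).2
          refine (A.valuation_le_one_iff _).mpr ?_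
          show ((p.coeff k : E) : Ω) ∈ A
          rw [← hl]
          exact hA l
        exact ⟨l, Subtype.ext hl⟩
      obtain ⟨φ, hdom, hid⟩ := exists_retraction ψ1 _ ht fun z => by
        set tL : L1 := ⟨t, hEmem _ (IntermediateField.subset_adjoin K _ (Or.inr rfl))⟩
        set ev := Polynomial.eval₂RingHom (ψ : L →+* Ω) t with hev
        have hcomp : (ι1 : L1 →+* Ω).comp (Polynomial.eval₂RingHom (ψ1 : L →+* L1) tL) = ev :=
          Polynomial.ringHom_ext (fun l => by simp [hev, ι1]; rfl) (by simp [hev, ι1, tL])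
        have h1 : IsAlgebraic (Algebra.adjoin K (Set.range ψ ∪ {t})) (z : Ω) :=
          (IntermediateField.isAlgebraic_adjoin_iff (F := K)).mp (mem_algebraicClosure_iff.mp z.2)
        obtain ⟨p, hp, hp0⟩ := h1
        have hlifts : p.map (algebraMap _ Ω) ∈ Polynomial.lifts ev := by
          rw [Polynomial.lifts_iff_coeff_lifts]
          intro k
          rw [Polynomial.coeff_map]
          have : Algebra.adjoin K (Set.range ψ ∪ {t}) ≤
              ({ ev.range with
                  algebraMap_mem' := fun k => ⟨Polynomial.C (algebraMap K L k), by simp [hev]⟩ } :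
                Subalgebra K Ω) := by
            refine Algebra.adjoin_le ?_
            rintro w (⟨l, rfl⟩ | rfl)
            · exact ⟨Polynomial.C l, by simp [hev]⟩
            · exact ⟨Polynomial.X, by simp [hev]⟩
          exact this (p.coeff k).2
        obtain ⟨q, hq⟩ := hlifts
        rw [Polynomial.coe_mapRingHom] at hq
        refine ⟨q, fun h => hp ?_, ι1.toRingHom.injective ?_⟩
        · rw [h, Polynomial.map_zero, eq_comm, Polynomial.map_eq_zero_iff Subtype.val_injective] at hq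
          exact hq
        · rw [map_zero, Polynomial.hom_eval₂]
          rw [show (ι1.toRingHom).comp (Polynomial.eval₂RingHom (ψ1 : L →+* L1) tL) = ev from hcomp,
            show ι1.toRingHom z = (z : Ω) from rfl, ← Polynomial.eval_map, hq, Polynomial.eval_map]
          exact hp0
      exact ⟨_, (Th.eq_pic_of_retraction hg ψ1 φ hdom hid hx1c).symm⟩

end Fermat.Agent.Row27

end
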