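import Fermat.Agent.Row27.ThetaBase
import Mathlib.LinearAlgebra.FiniteDimensional.Lemmas

/-!
# Consequences of Riemann–Roch on the base changes of a curve
-/

set_option autoImplicit false

noncomputable section

open AlgebraicCurve Module

namespace Fermat.Agent.Row27

universe u

variable {K : Type u} [Field K] (C : CurveData K)
variable (L : Type u) [Field L] [Algebra K L] [IsAlgClosed L]

namespace CurveData

attribute [simp] deg_binf

/-- The dimension of a Riemann–Roch space. -/
abbrev h0 (D : Divisor L (C.curve L)) : ℕ := finrank L (riemannRochSpace D)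

lemma rr_h0 (D : Divisor L (C.curve L)) :
    (C.h0 L D : ℤ) - C.h0 L (C.canon L - D) = Divisor.degree D + 1 - C.g :=
  C.riemannRoch L D

lemma degree_single (P : Place L (C.curve L)) (n : ℤ) :
    Divisor.degree (Finsupp.single P n) = n := (C.rr L).degree_single P n

lemma degree_canon : Divisor.degree (C.canon L) = 2 * (C.g : ℤ) - 2 := by
  have h1 := C.rr_h0 L 0
  have h2 := C.rr_h0 L (C.canon L)
  rw [sub_zero, map_zero] at h1
  rw [sub_self] at h2
  omega

lemma h0_eq_zero_of_neg {D : Divisor L (C.curve L)} (h : Divisor.degree D < 0) : C.h0 L D = 0 := by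
  rw [h0, (C.rr L).Lsp_eq_bot_of_degree_neg h, finrank_bot]

lemma h0_eq_zero_iff {D : Divisor L (C.curve L)} :
    C.h0 L D = 0 ↔ riemannRochSpace D = ⊥ :=
  have := (C.rr L).finite D
  Submodule.finrank_eq_zero

lemma sub_single_le (D : Divisor L (C.curve L)) (P : Place L (C.curve L)) :
    D - Finsupp.single P 1 ≤ D :=
  sub_le_self _ (Finsupp.single_nonneg.mpr zero_le_one)

lemma h0_sub_single_le (D : Divisor L (C.curve L)) (P : Place L (C.curve L)) :
    C.h0 L (D - Finsupp.single P 1) ≤ C.h0 L D :=
  have := (C.rr L).finite D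
  Submodule.finrank_mono (MWJ0.Lsp_mono (C.sub_single_le L D P))

/-- The base points of a nonempty system are finite. -/
lemma finite_setOf_not_drop (D : Divisor L (C.curve L)) (hD : C.h0 L D ≠ 0) :
    {P : Place L (C.curve L) | C.h0 L (D - Finsupp.single P 1) = C.h0 L D}.Finite := by
  classical
  obtain ⟨f, hf, hf0⟩ := (Submodule.ne_bot_iff _).mp (mt (C.h0_eq_zero_iff L).mpr hD)
  refine ((C.rr L).divisor hf0 + D).support.finite_toSet.subset fun P hP => ?_
  have := (C.rr L).finite D
  have hP' : riemannRochSpace (D - Finsupp.single P 1) = riemannRochSpace D :=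
    Submodule.eq_of_le_of_finrank_eq (MWJ0.Lsp_mono (C.sub_single_le L D P)) hP
  have h1 := (MWJ0.mem_Lsp_of_ne_zero hf0).mp (hP'.symm ▸ hf) P
  rw [Finset.mem_coe, Finsupp.mem_support_iff, Finsupp.add_apply, (C.rr L).divisor_apply hf0]
  simp only [Finsupp.sub_apply, Finsupp.single_eq_same] at h1
  omega

/-- A degree zero divisor with a section is principal. -/
lemma mem_principal_of_h0_ne_zero {D : Divisor L (C.curve L)} (h : Divisor.degree D = 0)
    (h0 : C.h0 L D ≠ 0) : D ∈ Divisor.principal (K := L) (F := C.curve L) := by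
  obtain ⟨f, hf, hf0⟩ := (Submodule.ne_bot_iff _).mp (mt (C.h0_eq_zero_iff L).mpr h0)
  obtain ⟨h1, h2⟩ := (C.rr L).section_divisor hf0 hf
  have h3 := (C.rr L).eq_zero_of_nonneg_of_degree_le h1 (by omega)
  rw [add_comm, add_eq_zero_iff_eq_neg] at h3
  rw [h3]
  exact neg_mem ((C.rr L).divisor_mem_principal hf0)

/-- Linearly equivalent divisors have Riemann–Roch spaces of the same dimension. -/
lemma h0_congr {D D' : Divisor L (C.curve L)}
    (h : D' - D ∈ Divisor.principal (K := L) (F := C.curve L)) : C.h0 L D' = C.h0 L D := by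
  obtain ⟨f, hf0, hf⟩ := h
  have key : ∀ {A B : Divisor L (C.curve L)} {g : C.curve L}, g ≠ 0 →
      (∀ v, B v - A v = v.ord g) →
      C.h0 L B ≤ C.h0 L A := by
    intro A B g hg hAB
    have hle : (riemannRochSpace B).map (LinearMap.mulLeft L g) ≤ riemannRochSpace A := by
      rintro _ ⟨y, hy, rfl⟩
      rcases eq_or_ne y 0 with rfl | hy0
      · simp
      rw [LinearMap.mulLeft_apply, MWJ0.mem_Lsp_of_ne_zero (mul_ne_zero hg hy0)]
      intro v
      have := (MWJ0.mem_Lsp_of_ne_zero hy0).mp hy v
      rw [v.ord_mul hg hy0]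
      have := hAB v
      omega
    have := (C.rr L).finite A
    refine le_of_eq_of_le ?_ (Submodule.finrank_mono hle)
    exact (Submodule.equivMapOfInjective _ (fun x y e => mul_left_cancel₀ hg e) _).finrank_eq
  exact le_antisymm (key hf0 fun v => by rw [← hf v, Finsupp.sub_apply])
    (key (inv_ne_zero hf0) fun v => by rw [v.ord_inv, ← hf v, Finsupp.sub_apply]; omega)

/-- A set of places reaches `h0 = 0` after `k` steps from systems of dimension at most `k`. -/
lemma exists_sub_tuple {S : Set (Place L (C.curve L))} (hS : S.Infinite) {ι : Type*} [Finite ι]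
    (k : ℕ) (A : ι → Divisor L (C.curve L)) (hA : ∀ i, C.h0 L (A i) ≤ k) :
    ∃ Q : Fin k → Place L (C.curve L), (∀ j, Q j ∈ S) ∧
      ∀ i, C.h0 L (A i - ∑ j, Finsupp.single (Q j) 1) = 0 := by
  classical
  induction k generalizing A with
  | zero => exact ⟨Fin.elim0, fun j => j.elim0, fun i => by
      have := hA i
      simp only [Finset.univ_eq_empty, Finset.sum_empty, sub_zero]
      omega⟩
  | succ k ih =>
      have hbad : {P : Place L (C.curve L) | ∃ i, C.h0 L (A i) ≠ 0 ∧
          C.h0 L (A i - Finsupp.single P 1) = C.h0 L (A i)}.Finite := by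
        refine (Set.finite_iUnion fun i : {i // C.h0 L (A i) ≠ 0} =>
          C.finite_setOf_not_drop L (A i.1) i.2).subset ?_
        rintro P ⟨i, hi, hP⟩
        exact Set.mem_iUnion.mpr ⟨⟨i, hi⟩, hP⟩
      obtain ⟨P, hPS, hP⟩ := (hS.sdiff hbad).nonempty
      obtain ⟨Q, hQS, hQ⟩ := ih (fun i => A i - Finsupp.single P 1) fun i => by
        show C.h0 L (A i - Finsupp.single P 1) ≤ k
        have h1 := C.h0_sub_single_le L (A i) P
        have h2 := hA i
        by_cases hi : C.h0 L (A i) = 0
        · omega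
        · have : C.h0 L (A i - Finsupp.single P 1) ≠ C.h0 L (A i) := fun e => hP ⟨i, hi, e⟩
          omega
      refine ⟨Fin.cons P Q, fun j => ?_, fun i => ?_⟩
      · cases j using Fin.cases with
        | zero => simpa using hPS
        | succ j => simpa using hQS j
      · rw [Fin.sum_univ_succ]
        simp only [Fin.cons_zero, Fin.cons_succ]
        rw [← sub_sub]
        exact hQ i

lemma cls_eq_zero_iff {D : Divisor L (C.curve L)} :
    C.cls L D = 0 ↔
      D - C.binf L (Divisor.degree D) ∈ Divisor.principal (K := L) (F := C.curve L) := by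
  simp only [cls, AddMonoidHom.mk'_apply, Pic0.mk, QuotientAddGroup.eq_zero_iff]
  rfl

lemma cls_surjective (x : Pic0 L (C.curve L)) :
    ∃ D : Divisor L (C.curve L), Divisor.degree D = 0 ∧ C.cls L D = x := by
  obtain ⟨⟨D, hD⟩, rfl⟩ := Pic0.mk_surjective x
  exact ⟨D, hD, C.cls_eq_mk hD⟩

lemma mem_principal_of_cls_eq {D D' : Divisor L (C.curve L)}
    (hd : Divisor.degree D = Divisor.degree D') (h : C.cls L D = C.cls L D') :
    D - D' ∈ Divisor.principal (K := L) (F := C.curve L) := by
  have h1 := (C.cls_eq_zero_iff L).mp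
    (show C.cls L (D - D') = 0 by rw [map_sub, h, sub_self])
  rwa [map_sub, hd, sub_self, binf, Finsupp.single_zero, sub_zero] at h1

lemma h0_eq_of_cls {D D' : Divisor L (C.curve L)} (hd : Divisor.degree D = Divisor.degree D')
    (h : C.cls L D = C.cls L D') : C.h0 L D = C.h0 L D' :=
  C.h0_congr L (C.mem_principal_of_cls_eq L hd h)

/-- Every class has an effective representative of degree `d ≥ g`. -/
lemma exists_effective (x : Pic0 L (C.curve L)) {d : ℕ} (hd : C.g ≤ d) :
    ∃ E : Divisor L (C.curve L), 0 ≤ E ∧ Divisor.degree E = d ∧ C.cls L E = x := by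
  obtain ⟨D, hD, rfl⟩ := C.cls_surjective L x
  have hne : C.h0 L (D + C.binf L d) ≠ 0 := by
    have h := C.rr_h0 L (D + C.binf L d)
    rw [map_add, hD, deg_binf] at h
    omega
  obtain ⟨f, hf, hf0⟩ := (Submodule.ne_bot_iff _).mp (mt (C.h0_eq_zero_iff L).mpr hne)
  obtain ⟨h1, h2⟩ := (C.rr L).section_divisor hf0 hf
  refine ⟨_, h1, by rw [h2, map_add, hD, deg_binf, zero_add], ?_⟩
  rw [map_add, map_add, cls_binf, add_zero, add_eq_right, cls_eq_zero_iff, (C.rr L).degree_divisor,
    binf, Finsupp.single_zero, sub_zero]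
  exact (C.rr L).divisor_mem_principal hf0

/-- A class of degree `2g - 2` other than the canonical one has `h0 ≤ g - 1`. -/
lemma h0_le_of_cls_ne (hg : 0 < C.g) {A : Divisor L (C.curve L)}
    (hA : Divisor.degree A = 2 * (C.g : ℤ) - 2) (h : C.cls L A ≠ C.cls L (C.canon L)) :
    C.h0 L A ≤ C.g - 1 := by
  have h1 := C.rr_h0 L A
  have h2 : C.h0 L (C.canon L - A) = 0 := by
    by_contra hne
    have hd : Divisor.degree (C.canon L - A) = 0 := by rw [map_sub, degree_canon, hA, sub_self]
    refine h ?_
    rw [eq_comm, ← sub_eq_zero, ← map_sub, cls_eq_zero_iff, hd, binf, Finsupp.single_zero, sub_zero]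
    exact C.mem_principal_of_h0_ne_zero L hd hne
  omega

lemma finrank_W_eq_h0 (b : ℕ) {D : Divisor L (C.curve L)} (hD : 0 ≤ D) :
    finrank L (C.W L b D) = C.h0 L (C.binf L b - D) := by
  have hmap : (C.W L b D).map (C.realF L b) = riemannRochSpace (C.binf L b - D) := by
    rw [W, Submodule.map_comap_eq_self]
    rw [C.range_realF L b]
    exact MWJ0.Lsp_mono (sub_le_self _ hD)
  rw [h0, ← hmap]
  exact (Submodule.equivMapOfInjective _ (C.realF_injective L b) _).finrank_eq

end CurveData

end Fermat.Agent.Row27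

end
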