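import Fermat.Agent.Row27.Interface

/-!
# Basic facts about spaces and values of a curve in coordinates
-/

set_option autoImplicit false

noncomputable section

open AlgebraicCurve Module
open Fermat.Agent.MWJ0

namespace Fermat.Agent.Row27

universe u

variable {K : Type u} [Field K]

lemma ord_const {L F : Type*} [Field L] [Field F] [Algebra L F] (v : Place L F) {c : L}
    (hc : c ≠ 0) : v.ord (algebraMap L F c) = 0 := by
  have h1 := (MWJ0.mem_valuationSubring_iff_ord.mp (v.algebraMap_mem' c)).resolve_left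
    ((map_ne_zero _).mpr hc)
  have h2 := (MWJ0.mem_valuationSubring_iff_ord.mp (v.algebraMap_mem' c⁻¹)).resolve_left
    ((map_ne_zero _).mpr (inv_ne_zero hc))
  rw [map_inv₀, v.ord_inv] at h2
  omega

namespace CurveData

variable (C : CurveData K) {L : Type u} [Field L] [Algebra K L] [IsAlgClosed L]

lemma deg_binf (b : ℤ) : Divisor.degree (C.binf L b) = b := (C.rr L).degree_single _ b

lemma deg_mapDomain {L' : Type u} [Field L'] [Algebra K L'] [IsAlgClosed L']
    (f : Place L (C.curve L) → Place L' (C.curve L')) (D : Divisor L (C.curve L)) :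
    Divisor.degree (Finsupp.mapDomain f D) = Divisor.degree D := by
  rw [(C.rr L').degree_eq_sum, (C.rr L).degree_eq_sum]
  exact Finsupp.sum_mapDomain_index (fun _ => rfl) (fun _ _ _ => rfl)

lemma realF_mem (b : ℕ) (x : C.Idx b → L) :
    C.realF L b x ∈ riemannRochSpace (C.binf L (b : ℤ)) := by
  rw [binf, ← C.range_realF]
  exact LinearMap.mem_range_self _ x

lemma exists_realF_eq {b : ℕ} {f : C.curve L} (hf : f ∈ riemannRochSpace (C.binf L (b : ℤ))) :
    ∃ x, C.realF L b x = f := by
  rwa [binf, ← C.range_realF] at hf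

lemma realF_mulv {a b c : ℕ} (h : a + b ≤ c) (x : C.Idx a → L) (y : C.Idx b → L) :
    C.realF L c (C.mulv a b c x y) = C.realF L a x * C.realF L b y :=
  C.realF_mul L a b c h x y

lemma Lsp_le_binf {b : ℤ} {D : Divisor L (C.curve L)} (hD : 0 ≤ D) :
    riemannRochSpace (C.binf L b - D) ≤ riemannRochSpace (C.binf L b) :=
  Lsp_mono (sub_le_self _ hD)

lemma finrank_W {b : ℕ} {D : Divisor L (C.curve L)} (hD : 0 ≤ D) {m : ℕ}
    (hm : Divisor.degree D = m) (hb : 2 * C.g + m ≤ b) :
    finrank L (C.W L b D) = b + 1 - C.g - m := by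
  have hle : riemannRochSpace (C.binf L (b : ℤ) - D) ≤ LinearMap.range (C.realF L b) := by
    rw [C.range_realF]
    exact C.Lsp_le_binf hD
  have e : (C.W L b D).map (C.realF L b) = riemannRochSpace (C.binf L (b : ℤ) - D) :=
    Submodule.map_comap_eq_of_le hle
  have h1 := (Submodule.equivMapOfInjective _ (C.realF_injective L b) (C.W L b D)).finrank_eq
  rw [e] at h1
  have h2 := (C.rr L).dim_eq (C.binf L (b : ℤ) - D) (by
    rw [C.rr_g, map_sub, C.deg_binf, hm]; omega)
  rw [map_sub, C.deg_binf, hm, C.rr_g] at h2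
  have h3 : (finrank L (C.W L b D) : ℤ) = (b : ℤ) - m + 1 - C.g := (congrArg (Nat.cast (R := ℤ)) h1).trans h2
  omega

lemma W_zero (b : ℕ) : C.W L b 0 = ⊤ := by
  refine eq_top_iff.2 fun x _ => ?_
  rw [mem_W, sub_zero]
  exact C.realF_mem b x

/-- An effective divisor is determined by its space of large level. -/
lemma W_injective {b : ℕ} {D D' : Divisor L (C.curve L)} (hD : 0 ≤ D) (hD' : 0 ≤ D')
    (hd : Divisor.degree D = Divisor.degree D') (hb : 2 * (C.g : ℤ) + Divisor.degree D < b)
    (h : C.W L b D = C.W L b D') : D = D' := by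
  have key : ∀ {A B : Divisor L (C.curve L)}, 0 ≤ A →
      2 * (C.g : ℤ) + Divisor.degree A < b → C.W L b A ≤ C.W L b B → B ≤ A := by
    intro A B hA hb hle v
    by_contra hlt
    refine (C.rr L).Lsp_sub_single_ne (C.binf L b - A) v
      (by rw [map_sub, deg_binf, C.rr_g]; omega) fun f hf => ?_
    obtain ⟨x, rfl⟩ := C.exists_realF_eq (C.Lsp_le_binf hA hf)
    rw [mem_Lsp]
    intro u
    rcases (mem_Lsp.mp hf) u with h0 | h1
    · exact Or.inl h0
    rcases eq_or_ne u v with rfl | hu
    · refine (mem_Lsp.mp ((C.mem_W L).mp (hle hf)) u).imp_right fun h2 => ?_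
      simp only [Finsupp.sub_apply, Finsupp.single_eq_same] at *
      omega
    · exact Or.inr (by simpa [Finsupp.single_eq_of_ne hu] using h1)
  exact le_antisymm (key hD' (hd ▸ hb) h.ge) (key hD hb h.le)

lemma mulv_mem_W {a b c : ℕ} (h : a + b = c) {D E : Divisor L (C.curve L)} {x : C.Idx a → L}
    {y : C.Idx b → L} (hx : x ∈ C.W L a D) (hy : y ∈ C.W L b E) :
    C.mulv a b c x y ∈ C.W L c (D + E) := by
  rw [mem_W, C.realF_mulv h.le]
  have := MWJ0.mul_mem_Lsp hx hy
  convert this using 2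
  subst h
  simp only [binf, Nat.cast_add, Finsupp.single_add]
  abel

lemma eq_zero_of_const_mem {b : ℕ} (i : ℕ) {c : L}
    (hc : algebraMap L (C.curve L) c ∈
      riemannRochSpace (C.binf L (b : ℤ) - Finsupp.single (C.pt L i) (1 : ℤ))) : c = 0 := by
  by_contra h0
  have h := (mem_Lsp_of_ne_zero ((map_ne_zero _).mpr h0)).mp hc (C.pt L i)
  rw [Finsupp.sub_apply, binf, Finsupp.single_eq_of_ne (C.pt_ne_inf L i),
    Finsupp.single_eq_same] at h
  have h1 : (C.pt L i).ord (algebraMap L (C.curve L) c) = 0 :=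
    ord_const _ h0
  omega

lemma evAt_eq_zero_iff (i : ℕ) {b : ℕ} (x : C.Idx b → L) :
    C.evAt i b x = 0 ↔ x ∈ C.W L b (Finsupp.single (C.pt L i) (1 : ℤ)) := by
  have h := C.pt_ev L i b x
  rw [mem_W]
  constructor
  · intro h0
    rw [evAt] at h0
    rw [h0, map_zero, sub_zero] at h
    exact h
  · intro hx
    refine C.eq_zero_of_const_mem (b := b) i ?_
    have := sub_mem hx h
    rwa [sub_sub_cancel] at this

lemma evAt_mulv (i : ℕ) {a b c : ℕ} (h : a + b = c) (x : C.Idx a → L) (y : C.Idx b → L) :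
    C.evAt i c (C.mulv a b c x y) = C.evAt i a x * C.evAt i b y := by
  refine sub_eq_zero.mp (C.eq_zero_of_const_mem (b := c) i ?_)
  have hab : C.binf L (c : ℤ) = C.binf L (a : ℤ) + C.binf L (b : ℤ) := by
    subst h; simp only [binf, Nat.cast_add, Finsupp.single_add]
  have hα : algebraMap L (C.curve L) (C.evAt i a x) ∈ riemannRochSpace (C.binf L (a : ℤ)) := by
    have h' := C.pt_ev L i a x
    have h'' := sub_mem (C.realF_mem a x) (C.Lsp_le_binf (Finsupp.single_nonneg.mpr zero_le_one) h')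
    rwa [sub_sub_cancel] at h''
  have h1 : (C.realF L a x - algebraMap L (C.curve L) (C.evAt i a x)) * C.realF L b y ∈
      riemannRochSpace (C.binf L (c : ℤ) - Finsupp.single (C.pt L i) (1 : ℤ)) := by
    rw [hab, add_sub_right_comm]
    exact MWJ0.mul_mem_Lsp (C.pt_ev L i a x) (C.realF_mem b y)
  have h2 : algebraMap L (C.curve L) (C.evAt i a x) *
      (C.realF L b y - algebraMap L (C.curve L) (C.evAt i b y)) ∈
      riemannRochSpace (C.binf L (c : ℤ) - Finsupp.single (C.pt L i) (1 : ℤ)) := by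
    rw [hab, add_sub_assoc]
    exact MWJ0.mul_mem_Lsp hα (C.pt_ev L i b y)
  have h3 := sub_mem (add_mem h1 h2) (C.pt_ev L i c (C.mulv a b c x y))
  convert h3 using 1
  rw [C.realF_mulv h.le, map_sub, map_mul]
  simp only [evAt]
  ring

lemma card_zeros_le {b : ℕ} {x : C.Idx b → L} (hx : x ≠ 0) (s : Finset ℕ)
    (hs : ∀ i ∈ s, C.evAt i b x = 0) : s.card ≤ b := by
  classical
  have hf : C.realF L b x ≠ 0 := fun h => hx (C.realF_injective L b (h.trans (map_zero _).symm))
  set D : Divisor L (C.curve L) := ∑ i ∈ s, Finsupp.single (C.pt L i) (1 : ℤ) with hD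
  have hdeg : Divisor.degree D = s.card := by
    rw [hD, map_sum]
    simp [(C.rr L).degree_single]
  have hmem : C.realF L b x ∈ riemannRochSpace (C.binf L (b : ℤ) - D) := by
    rw [mem_Lsp_of_ne_zero hf]
    intro v
    rw [Finsupp.sub_apply, hD, Finsupp.finsetSum_apply]
    have h0 := (mem_Lsp_of_ne_zero hf).mp (C.realF_mem b x) v
    by_cases hv : ∃ i ∈ s, C.pt L i = v
    · obtain ⟨i, hi, rfl⟩ := hv
      rw [Finset.sum_eq_single i (fun j _ hj => Finsupp.single_eq_of_ne
        fun e => hj (C.pt_injective L e).symm) (fun h => absurd hi h), Finsupp.single_eq_same]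
      have := (mem_Lsp_of_ne_zero hf).mp ((C.evAt_eq_zero_iff i x).mp (hs i hi)) (C.pt L i)
      rwa [Finsupp.sub_apply, Finsupp.single_eq_same] at this
    · push Not at hv
      rw [Finset.sum_eq_zero fun j hj => Finsupp.single_eq_of_ne (hv j hj).symm, sub_zero]
      exact h0
  by_contra hlt
  rw [(C.rr L).Lsp_eq_bot_of_degree_neg (by rw [map_sub, C.deg_binf, hdeg]; omega),
    Submodule.mem_bot] at hmem
  exact hf hmem

lemma cls_eq_mk {D : Divisor L (C.curve L)} (hD : Divisor.degree D = 0) :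
    C.cls L D = Pic0.mk ⟨D, Divisor.mem_degZero.mpr hD⟩ := by
  refine congrArg Pic0.mk (Subtype.ext ?_)
  simp [binf, hD]

lemma cls_binf (b : ℤ) : C.cls L (C.binf L b) = 0 := by
  rw [← Pic0.mk_zero]
  refine congrArg Pic0.mk (Subtype.ext ?_)
  simp [binf, (C.rr L).degree_single]

lemma exists_fun_of_cls_eq {D E : Divisor L (C.curve L)}
    (hd : Divisor.degree D = Divisor.degree E) (h : C.cls L D = C.cls L E) :
    ∃ r : C.curve L, r ≠ 0 ∧ ∀ v, (D - E) v = v.ord r := by
  have h0 : C.cls L (D - E) = 0 := by rw [map_sub, h, sub_self]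
  rw [C.cls_eq_mk (by rw [map_sub, hd, sub_self])] at h0
  have := (QuotientAddGroup.eq_zero_iff _).mp h0
  rw [AddSubgroup.mem_addSubgroupOf] at this
  exact this

lemma cls_eq_of_principal {D E : Divisor L (C.curve L)} {r : C.curve L} (hr : r ≠ 0)
    (h : ∀ v, (D - E) v = v.ord r) : C.cls L D = C.cls L E := by
  have hp : D - E ∈ Divisor.principal (K := L) (F := C.curve L) := ⟨r, hr, h⟩
  have hd : Divisor.degree (D - E) = 0 := by
    have e : D - E = (C.rr L).divisor hr := Finsupp.ext fun v => by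
      rw [(C.rr L).divisor_apply hr, h v]
    rw [e, (C.rr L).degree_divisor hr]
  rw [← sub_eq_zero, ← map_sub, C.cls_eq_mk hd]
  refine (QuotientAddGroup.eq_zero_iff _).mpr ?_
  rw [AddSubgroup.mem_addSubgroupOf]
  exact hp

/-- Every class is represented by an effective divisor of degree `n` avoiding given places. -/
lemma exists_rep (x : Pic0 L (C.curve L)) (S : Finset (Place L (C.curve L))) :
    ∃ D : Divisor L (C.curve L), 0 ≤ D ∧ Divisor.degree D = C.n ∧ C.cls L D = x ∧
      ∀ v ∈ S, D v = 0 := by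
  obtain ⟨⟨D₀, hD₀⟩, rfl⟩ := Pic0.mk_surjective x
  rw [Divisor.mem_degZero] at hD₀
  set A := D₀ + C.binf L (C.n : ℤ) with hA
  have hdA : Divisor.degree A = C.n := by rw [hA, map_add, hD₀, C.deg_binf, zero_add]
  have hne : riemannRochSpace A ≠ ⊥ := fun e => by
    have := (C.rr L).riemann_le (C.inf L) A
    rw [e, finrank_bot, hdA, C.rr_g] at this
    simp only [CurveData.n] at this
    omega
  obtain ⟨w, hwA, hw, hwS⟩ := MWJ0.RRData.exists_avoid (A := A) (riemannRochSpace A)
    (fun v => (C.rr L).Lsp_sub_single_ne A v (by rw [C.rr_g, hdA]; simp only [CurveData.n]; omega)) le_rfl hne S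
  obtain ⟨h1, h2⟩ := (C.rr L).section_divisor hw hwA
  refine ⟨(C.rr L).divisor hw + A, h1, h2.trans hdA, ?_, fun v hv => ?_⟩
  · rw [C.cls_eq_of_principal (E := A) hw fun v => by
      rw [add_sub_cancel_right, (C.rr L).divisor_apply hw], hA, map_add, C.cls_binf, add_zero,
      C.cls_eq_mk hD₀]
  · rw [Finsupp.add_apply, (C.rr L).divisor_apply hw, hwS v hv, neg_add_cancel]

end CurveData

end Fermat.Agent.Row27

end
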