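import Mathlib

/-!
# Theta tensors: the linear algebra

`mixedSum` of a family of `N` square matrices of size `N` is the product of two determinants when
the matrices have rank one.
-/

set_option autoImplicit false

noncomputable section

open Matrix Module Equiv

namespace Fermat.Agent.Row27

variable {R R' : Type*} [CommRing R] [CommRing R'] {N : ℕ}

/-- Alternating sum over row and column choices in a family of matrices. -/
def mixedSum (M : Fin N → Matrix (Fin N) (Fin N) R) : R :=
  ∑ σ : Perm (Fin N), ∑ τ : Perm (Fin N),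
    ((Perm.sign σ : ℤ) : R) * ((Perm.sign τ : ℤ) : R) * ∏ j, M j (σ j) (τ j)

theorem map_mixedSum (f : R →+* R') (M : Fin N → Matrix (Fin N) (Fin N) R) :
    f (mixedSum M) = mixedSum fun j => (M j).map f := by
  simp [mixedSum, map_sum, map_prod]

theorem mixedSum_rankOne (a b : Fin N → Fin N → R) :
    mixedSum (fun j => vecMulVec (a j) (b j)) = (Matrix.of a).det * (Matrix.of b).det := by
  rw [← Matrix.det_transpose, ← Matrix.det_transpose (Matrix.of b), Matrix.det_apply',
    Matrix.det_apply', Finset.sum_mul_sum]
  refine Finset.sum_congr rfl fun σ _ => Finset.sum_congr rfl fun τ _ => ?_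
  simp only [vecMulVec_apply, Finset.prod_mul_distrib, transpose_apply, Matrix.of_apply]
  ring

theorem det_of_mulVec (A : Matrix (Fin N) (Fin N) R) (a : Fin N → Fin N → R) :
    (Matrix.of fun j => A *ᵥ a j).det = A.det * (Matrix.of a).det := by
  have h : (Matrix.of fun j => A *ᵥ a j) = Matrix.of a * Aᵀ := by
    ext j i
    simp [Matrix.mul_apply, Matrix.mulVec, dotProduct, mul_comm]
  rw [h, Matrix.det_mul, Matrix.det_transpose, mul_comm]

variable {L : Type*} [Field L]

theorem exists_vecMulVec (M : Matrix (Fin N) (Fin N) L)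
    (h : ∀ i i' k k', M i k * M i' k' = M i k' * M i' k) : ∃ a b, M = vecMulVec a b := by
  by_cases h0 : ∀ i k, M i k = 0
  · exact ⟨0, 0, by ext i k; simp [h0, vecMulVec_apply]⟩
  push Not at h0
  obtain ⟨i₀, k₀, h0⟩ := h0
  refine ⟨fun i => M i k₀ / M i₀ k₀, fun k => M i₀ k, ?_⟩
  ext i k
  rw [vecMulVec_apply, div_mul_eq_mul_div, eq_div_iff h0]
  exact h i i₀ k k₀

/-- Change of bases and scaling. -/
theorem mixedSum_change (M : Fin N → Matrix (Fin N) (Fin N) L)
    (h : ∀ j, ∀ i i' k k', M j i k * M j i' k' = M j i k' * M j i' k)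
    (c : L) (A B : Matrix (Fin N) (Fin N) L) :
    mixedSum (fun j => c • (A * M j * Bᵀ)) = c ^ N * (A.det * B.det) * mixedSum M := by
  choose a b hab using fun j => exists_vecMulVec (M j) (h j)
  have e : (fun j => c • (A * M j * Bᵀ)) = fun j => vecMulVec (c • (A *ᵥ a j)) (B *ᵥ b j) := by
    funext j
    rw [hab j, mul_vecMulVec, vecMulVec_mul, vecMul_transpose, smul_vecMulVec]
  rw [e, show M = fun j => vecMulVec (a j) (b j) from funext hab, mixedSum_rankOne,
    mixedSum_rankOne, det_of_mulVec,
    show (Matrix.of fun j => c • (A *ᵥ a j)) = c • Matrix.of fun j => A *ᵥ a j from rfl,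
    Matrix.det_smul, det_of_mulVec, Fintype.card_fin]
  ring

variable {ι : Type*}

/-- Greedy choice of points: if no nonzero combination of the rows of `u`, or of `u'`, vanishes at
more than `d` points of a pool of more than `2 d` points, both have a nonvanishing minor there at
a common tuple. -/
theorem exists_dets_ne_zero (pool : Finset ι) (d : ℕ) (hd : 2 * d < pool.card)
    (u u' : Fin N → ι → L)
    (hu : ∀ c : Fin N → L, c ≠ 0 → ∀ s ⊆ pool, (∀ P ∈ s, ∑ i, c i * u i P = 0) → s.card ≤ d)
    (hu' : ∀ c : Fin N → L, c ≠ 0 → ∀ s ⊆ pool, (∀ P ∈ s, ∑ i, c i * u' i P = 0) → s.card ≤ d) :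
    ∃ P : Fin N → ι, (∀ j, P j ∈ pool) ∧ (Matrix.of fun i j => u i (P j)).det ≠ 0 ∧
      (Matrix.of fun i j => u' i (P j)).det ≠ 0 := by
  classical
  suffices H : ∀ t ≤ N, ∃ P : Fin t → ι, (∀ j, P j ∈ pool) ∧
      LinearIndependent L (fun j i => u i (P j)) ∧ LinearIndependent L (fun j i => u' i (P j)) by
    obtain ⟨P, hP, h1, h2⟩ := H N le_rfl
    have key : ∀ w : Fin N → ι → L, LinearIndependent L (fun j i => w i (P j)) →
        (Matrix.of fun i j => w i (P j)).det ≠ 0 := fun w hw => by
      rw [← Matrix.det_transpose, ← isUnit_iff_ne_zero, ← Matrix.isUnit_iff_isUnit_det,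
        ← Matrix.linearIndependent_rows_iff_isUnit]
      exact hw
    exact ⟨P, hP, key u h1, key u' h2⟩
  intro t
  induction t with
  | zero =>
    exact fun _ => ⟨Fin.elim0, fun j => j.elim0, linearIndependent_empty_type,
      linearIndependent_empty_type⟩
  | succ t ih =>
    intro ht
    obtain ⟨P, hP, h1, h2⟩ := ih (by omega)
    have key : ∀ w : Fin N → ι → L,
        (∀ c : Fin N → L, c ≠ 0 → ∀ s ⊆ pool, (∀ Q ∈ s, ∑ i, c i * w i Q = 0) → s.card ≤ d) →
        LinearIndependent L (fun j i => w i (P j)) →
        (pool.filter fun Q => (fun i => w i Q) ∈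
          Submodule.span L (Set.range fun j i => w i (P j))).card ≤ d := by
      intro w hw hli
      set S := Submodule.span L (Set.range fun j i => w i (P j)) with hS
      have hne : S ≠ ⊤ := fun e => by
        have := finrank_span_eq_card hli
        rw [← hS, e, finrank_top, Module.finrank_fin_fun, Fintype.card_fin] at this
        omega
      obtain ⟨f, hf0, hf⟩ := Submodule.exists_le_ker_of_lt_top S (lt_top_iff_ne_top.mpr hne)
      refine hw (fun i => f (Pi.single i 1)) ?_ _ (Finset.filter_subset _ _) fun Q hQ => ?_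
      · intro e
        refine hf0 (LinearMap.pi_ext' fun i => LinearMap.ext_ring ?_)
        simpa using congrFun e i
      · have hv := hf (Finset.mem_filter.mp hQ).2
        rw [LinearMap.mem_ker, LinearMap.pi_apply_eq_sum_univ] at hv
        simp only [smul_eq_mul] at hv
        refine Eq.trans ?_ hv
        refine Finset.sum_congr rfl fun i _ => ?_
        rw [mul_comm]
        congr 2
        funext k
        simp [Pi.single_apply, eq_comm]
    have hc := Finset.card_union_le
      (pool.filter fun Q => (fun i => u i Q) ∈ Submodule.span L (Set.range fun j i => u i (P j)))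
      (pool.filter fun Q => (fun i => u' i Q) ∈ Submodule.span L (Set.range fun j i => u' i (P j)))
    have hk1 := key u hu h1
    have hk2 := key u' hu' h2
    obtain ⟨Q, hQ, hQn⟩ := Finset.exists_mem_notMem_of_card_lt_card (lt_of_le_of_lt hc
      (by omega : _ < pool.card))
    simp only [Finset.mem_union, Finset.mem_filter, hQ, true_and, not_or] at hQn
    refine ⟨Fin.snoc P Q, fun j => ?_, ?_, ?_⟩
    · refine Fin.lastCases ?_ (fun j => ?_) j
      · simpa using hQ
      · simpa using hP j
    · rw [show (fun j i => u i (Fin.snoc (α := fun _ => ι) P Q j)) =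
        Fin.snoc (α := fun _ => Fin N → L) (fun j i => u i (P j)) (fun i => u i Q) from
        funext fun j => Fin.lastCases (by simp) (fun j => by simp) j]
      exact linearIndependent_finSnoc.mpr ⟨h1, hQn.1⟩
    · rw [show (fun j i => u' i (Fin.snoc (α := fun _ => ι) P Q j)) =
        Fin.snoc (α := fun _ => Fin N → L) (fun j i => u' i (P j)) (fun i => u' i Q) from
        funext fun j => Fin.lastCases (by simp) (fun j => by simp) j]
      exact linearIndependent_finSnoc.mpr ⟨h2, hQn.2⟩

end Fermat.Agent.Row27

end
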