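import Fermat.Agent.Row27.ThetaBase
import Fermat.Agent.Row27.ThetaAlg

/-!
# The theta tensor of a pair of representatives
-/

set_option autoImplicit false

noncomputable section

open AlgebraicCurve Module Matrix
open Fermat.Agent.MWJ0

namespace Fermat.Agent.Row27

universe u

variable {K : Type u} [Field K]

namespace CurveData

variable (C : CurveData K)

/-- The level of the quotients of products by the function of a pair. -/
abbrev hl (b : ℕ) : ℕ := b + b - (C.n + C.n)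

section Minor

variable {R : Type*} [CommRing R] [Algebra K R]

/-- The determinant of the values of a family at a tuple of rational points. -/
def tdet {b : ℕ} (u : Fin (C.nW b) → C.Idx b → R) (p : C.TuIdx b) : R :=
  (Matrix.of fun i j => C.evAt (p j) b (u i)).det

lemma map_evAt {R' : Type*} [CommRing R'] [Algebra K R'] (φ : R →ₐ[K] R') (i b : ℕ)
    (x : C.Idx b → R) : φ (C.evAt i b x) = C.evAt i b (fun l => φ (x l)) := by
  simp [evAt, map_sum]

end Minor

variable (L : Type u) [Field L] [Algebra K L] [IsAlgClosed L]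

/-- Bases of the spaces of two representatives, their function and the quotients of products. -/
structure Frame (b : ℕ) (D D' : Divisor L (C.curve L)) where
  u : Fin (C.nW b) → C.Idx b → L
  u' : Fin (C.nW b) → C.Idx b → L
  f : C.Idx (C.n + C.n) → L
  h : Fin (C.nW b) → Fin (C.nW b) → C.Idx (C.hl b) → L
  u_mem : ∀ i, u i ∈ C.W L b D
  u'_mem : ∀ i, u' i ∈ C.W L b D'
  u_li : LinearIndependent L u
  u'_li : LinearIndependent L u'
  f_mem : f ∈ C.W L (C.n + C.n) (D + D')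
  f_ne : f ≠ 0
  h_mul : ∀ i k, C.mulv (C.n + C.n) (C.hl b) (b + b) f (h i k) =
    C.mulv b b (b + b) (u i) (u' k)

namespace Frame

variable {C L} {b : ℕ} {D D' : Divisor L (C.curve L)} (Φ : C.Frame L b D D')

/-- The tensor of a frame. -/
def theta (p : C.TuIdx b) : L :=
  mixedSum fun j => Matrix.of fun i k => C.evAt (p j) (C.hl b) (Φ.h i k)

lemma realF_f_ne : C.realF L (C.n + C.n) Φ.f ≠ 0 := fun h =>
  Φ.f_ne (C.realF_injective L _ (h.trans (map_zero _).symm))

lemma realF_h (hb : C.n ≤ b) (i k : Fin (C.nW b)) :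
    C.realF L (C.n + C.n) Φ.f * C.realF L (C.hl b) (Φ.h i k) =
      C.realF L b (Φ.u i) * C.realF L b (Φ.u' k) := by
  have e := congrArg (C.realF L (b + b)) (Φ.h_mul i k)
  rwa [C.realF_mulv (by simp only [hl]; omega), C.realF_mulv le_rfl] at e

lemma evAt_h (hb : C.n ≤ b) (t : ℕ) (i k : Fin (C.nW b)) :
    C.evAt t (C.n + C.n) Φ.f * C.evAt t (C.hl b) (Φ.h i k) =
      C.evAt t b (Φ.u i) * C.evAt t b (Φ.u' k) := by
  have e := congrArg (C.evAt t (b + b)) (Φ.h_mul i k)
  rwa [C.evAt_mulv t (by simp only [hl]; omega), C.evAt_mulv t rfl] at e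

lemma rankOne (hb : C.n ≤ b) (t : ℕ) (i i' k k' : Fin (C.nW b)) :
    C.evAt t (C.hl b) (Φ.h i k) * C.evAt t (C.hl b) (Φ.h i' k') =
      C.evAt t (C.hl b) (Φ.h i k') * C.evAt t (C.hl b) (Φ.h i' k) := by
  rw [← C.evAt_mulv t rfl, ← C.evAt_mulv t rfl]
  congr 1
  refine C.realF_injective L _ ?_
  rw [C.realF_mulv le_rfl, C.realF_mulv le_rfl]
  refine mul_left_cancel₀ (mul_ne_zero Φ.realF_f_ne Φ.realF_f_ne) ?_
  rw [mul_mul_mul_comm, Φ.realF_h hb, Φ.realF_h hb]
  rw [mul_mul_mul_comm (C.realF L (C.n + C.n) Φ.f) (C.realF L (C.n + C.n) Φ.f), Φ.realF_h hb,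
    Φ.realF_h hb]
  ring

lemma theta_eq (hb : C.n ≤ b) (p : C.TuIdx b)
    (hp : ∀ j, C.evAt (p j) (C.n + C.n) Φ.f ≠ 0) :
    Φ.theta p * ∏ j, C.evAt (p j) (C.n + C.n) Φ.f = C.tdet Φ.u p * C.tdet Φ.u' p := by
  have e : (fun j => Matrix.of fun i k => C.evAt (p j) (C.hl b) (Φ.h i k)) = fun j =>
      vecMulVec (fun i => C.evAt (p j) b (Φ.u i) / C.evAt (p j) (C.n + C.n) Φ.f)
        (fun k => C.evAt (p j) b (Φ.u' k)) := by
    funext j
    ext i k
    rw [Matrix.of_apply, vecMulVec_apply, div_mul_eq_mul_div, eq_div_iff (hp j), mul_comm,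
      Φ.evAt_h hb]
  rw [theta, e, mixedSum_rankOne]
  have e2 : (Matrix.of fun j i => C.evAt (p j) b (Φ.u i) / C.evAt (p j) (C.n + C.n) Φ.f) =
      Matrix.of fun j i => (C.evAt (p j) (C.n + C.n) Φ.f)⁻¹ *
        (Matrix.of fun j i => C.evAt (p j) b (Φ.u i)) j i := by
    ext j i; simp [div_eq_inv_mul]
  rw [e2, Matrix.det_mul_column]
  have t1 : (Matrix.of fun j i => C.evAt (p j) b (Φ.u i)).det = C.tdet Φ.u p := by
    rw [← Matrix.det_transpose]; rfl
  have t2 : (Matrix.of fun j k => C.evAt (p j) b (Φ.u' k)).det = C.tdet Φ.u' p := by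
    rw [← Matrix.det_transpose]; rfl
  rw [t1, t2, Finset.prod_inv_distrib]
  have hne : (∏ j, C.evAt (p j) (C.n + C.n) Φ.f) ≠ 0 :=
    Finset.prod_ne_zero_iff.mpr fun j _ => hp j
  field_simp

/-- Some tuple of points of the pool avoids the zeros of `f` and both determinants. -/
lemma exists_dets (hb : 2 * b + (C.n + C.n) < C.pool) :
    ∃ p : C.TuIdx b, (∀ j, C.evAt (p j) (C.n + C.n) Φ.f ≠ 0) ∧
      C.tdet Φ.u p ≠ 0 ∧ C.tdet Φ.u' p ≠ 0 := by
  classical
  set good : Finset (Fin C.pool) :=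
    Finset.univ.filter fun t => C.evAt (t : ℕ) (C.n + C.n) Φ.f ≠ 0 with hgood
  have hcard : 2 * b < good.card := by
    have h1 := Finset.card_filter_add_card_filter_not (s := (Finset.univ : Finset (Fin C.pool)))
      (fun t : Fin C.pool => C.evAt (t : ℕ) (C.n + C.n) Φ.f ≠ 0)
    have h2 := C.card_zeros_le Φ.f_ne
      ((Finset.univ.filter fun t : Fin C.pool =>
        ¬ C.evAt (t : ℕ) (C.n + C.n) Φ.f ≠ 0).map Fin.valEmbedding)
      fun i hi => by
        simp only [Finset.mem_map, Finset.mem_filter, Finset.mem_univ, true_and, not_not] at hi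
        obtain ⟨t, ht, rfl⟩ := hi
        exact ht
    rw [Finset.card_map] at h2
    rw [Finset.card_univ, Fintype.card_fin, ← hgood] at h1
    omega
  have key : ∀ w : Fin (C.nW b) → C.Idx b → L, LinearIndependent L w → ∀ c : Fin (C.nW b) → L,
      c ≠ 0 → ∀ s ⊆ good, (∀ t ∈ s, ∑ i, c i * C.evAt (t : ℕ) b (w i) = 0) → s.card ≤ b := by
    intro w hw c hc s _ hs
    have hx : ∑ i, c i • w i ≠ 0 := fun h => hc (funext (Fintype.linearIndependent_iff.mp hw c h))
    have := C.card_zeros_le hx (s.map Fin.valEmbedding) fun i hi => by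
      obtain ⟨t, ht, rfl⟩ := Finset.mem_map.mp hi
      rw [← hs t ht]
      simp only [evAt, Finset.sum_apply, Pi.smul_apply, smul_eq_mul, Finset.sum_mul,
        Finset.mul_sum, Fin.valEmbedding_apply]
      rw [Finset.sum_comm]
      exact Finset.sum_congr rfl fun i _ => Finset.sum_congr rfl fun l _ => mul_assoc _ _ _
    rwa [Finset.card_map] at this
  obtain ⟨p, hp, h1, h2⟩ := exists_dets_ne_zero good b hcard
    (fun i t => C.evAt (t : ℕ) b (Φ.u i)) (fun i t => C.evAt (t : ℕ) b (Φ.u' i))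
    (key _ Φ.u_li) (key _ Φ.u'_li)
  exact ⟨p, fun j => (Finset.mem_filter.mp (hp j)).2, h1, h2⟩

lemma theta_ne_zero (hn : C.n ≤ b) (hb : 2 * b + (C.n + C.n) < C.pool) : Φ.theta ≠ 0 := by
  obtain ⟨p, hp, h1, h2⟩ := Φ.exists_dets hb
  intro h
  have := Φ.theta_eq hn p hp
  rw [congrFun h p, Pi.zero_apply, zero_mul] at this
  exact mul_ne_zero h1 h2 this.symm

end Frame

variable {C L}

lemma divisor_realF {D E : Divisor L (C.curve L)} {m : ℕ} (hE : Divisor.degree E = m)
    (_hD : D = C.binf L (m : ℤ) - E) {f : C.Idx m → L} (hf : f ∈ C.W L m E)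
    (h0 : C.realF L m f ≠ 0) : (C.rr L).divisor h0 = E - C.binf L (m : ℤ) := by
  obtain ⟨h1, h2⟩ := (C.rr L).section_divisor h0 hf
  rw [map_sub, C.deg_binf, hE, sub_self] at h2
  have := (C.rr L).eq_zero_of_nonneg_of_degree_le h1 h2.le
  rw [add_eq_zero_iff_eq_neg, neg_sub] at this
  exact this

/-- Bases give a frame. -/
lemma exists_frame' {b : ℕ} (hb : C.n ≤ b) {D D' : Divisor L (C.curve L)}
    (hd : Divisor.degree D = C.n) (hd' : Divisor.degree D' = C.n)
    {u u' : Fin (C.nW b) → C.Idx b → L} (hu : ∀ i, u i ∈ C.W L b D)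
    (hu' : ∀ i, u' i ∈ C.W L b D') (hi : LinearIndependent L u) (hi' : LinearIndependent L u')
    {f : C.Idx (C.n + C.n) → L} (hf : f ∈ C.W L (C.n + C.n) (D + D')) (hf0 : f ≠ 0) :
    ∃ Φ : C.Frame L b D D', Φ.u = u ∧ Φ.u' = u' ∧ Φ.f = f := by
  have hne : C.realF L (C.n + C.n) f ≠ 0 := fun h =>
    hf0 (C.realF_injective L _ (h.trans (map_zero _).symm))
  have hdiv := C.divisor_realF (D := C.binf L ((C.n + C.n : ℕ) : ℤ) - (D + D'))
    (E := D + D') (m := C.n + C.n) (by rw [map_add, hd, hd']; push_cast; ring) rfl hf hne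
  have hex : ∀ i k, ∃ x : C.Idx (C.hl b) → L, C.realF L (C.hl b) x =
      C.realF L b (u i) * C.realF L b (u' k) / C.realF L (C.n + C.n) f := by
    intro i k
    refine C.exists_realF_eq ?_
    have hprod := MWJ0.mul_mem_Lsp (hu i) (hu' k)
    rcases eq_or_ne (C.realF L b (u i) * C.realF L b (u' k)) 0 with h0 | h0
    · rw [h0, zero_div]; exact zero_mem _
    rw [MWJ0.mem_Lsp_of_ne_zero (div_ne_zero h0 hne)]
    intro v
    have h1 := (MWJ0.mem_Lsp_of_ne_zero h0).mp hprod v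
    have h2 := congrArg (fun E : Divisor L (C.curve L) => E v) hdiv
    simp only [(C.rr L).divisor_apply hne, Finsupp.sub_apply, Finsupp.add_apply, binf] at h1 h2 ⊢
    rw [div_eq_mul_inv, v.ord_mul h0 (inv_ne_zero hne), v.ord_inv]
    rcases eq_or_ne v (C.inf L) with rfl | hv
    · simp only [Finsupp.single_eq_same] at *
      simp only [hl]
      omega
    · simp only [Finsupp.single_eq_of_ne hv] at *
      omega
  choose h hh using hex
  refine ⟨⟨u, u', f, h, hu, hu', hi, hi', hf, hf0, fun i k => ?_⟩, rfl, rfl, rfl⟩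
  refine C.realF_injective L _ ?_
  rw [C.realF_mulv (by simp only [hl]; omega), C.realF_mulv le_rfl, hh, mul_div_cancel₀ _ hne]

/-- A basis of the functions of level `b` vanishing on `D`. -/
lemma exists_basis {b : ℕ} (hb : 2 * C.g + C.n ≤ b) {D : Divisor L (C.curve L)}
    (hD : 0 ≤ D) (hd : Divisor.degree D = C.n) :
    ∃ u : Fin (C.nW b) → C.Idx b → L, (∀ i, u i ∈ C.W L b D) ∧ LinearIndependent L u := by
  have hN : finrank L (C.W L b D) = C.nW b := C.finrank_W hD hd hb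
  let B : Basis (Fin (C.nW b)) L (C.W L b D) := Module.finBasisOfFinrankEq L _ hN
  exact ⟨fun i => (B i : C.Idx b → L), fun i => (B i).2,
    B.linearIndependent.map' (C.W L b D).subtype (Submodule.ker_subtype _)⟩

/-- The function of a pair of opposite representatives. -/
lemma exists_pairFun {D D' : Divisor L (C.curve L)} (hD : 0 ≤ D) (hD' : 0 ≤ D')
    (hd : Divisor.degree D = C.n) (hd' : Divisor.degree D' = C.n)
    (hcls : C.cls L D + C.cls L D' = 0) :
    ∃ f ∈ C.W L (C.n + C.n) (D + D'), f ≠ 0 := by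
  obtain ⟨r, hr, hrd⟩ := C.exists_fun_of_cls_eq (D := D + D')
    (E := C.binf L ((C.n + C.n : ℕ) : ℤ))
    (by rw [map_add, hd, hd', C.deg_binf]; push_cast; ring)
    (by rw [map_add, hcls, C.cls_binf])
  have hmem : r ∈ riemannRochSpace (C.binf L ((C.n + C.n : ℕ) : ℤ) - (D + D')) := by
    rw [MWJ0.mem_Lsp_of_ne_zero hr]
    intro v
    rw [← hrd v, Finsupp.sub_apply (C.binf L ((C.n + C.n : ℕ) : ℤ)) (D + D') v,
      Finsupp.sub_apply (D + D') (C.binf L ((C.n + C.n : ℕ) : ℤ)) v, neg_sub]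
  obtain ⟨f, hf⟩ := C.exists_realF_eq (b := C.n + C.n)
    (C.Lsp_le_binf (add_nonneg hD hD') hmem)
  refine ⟨f, ?_, fun h => hr ?_⟩
  · rw [mem_W, hf]
    exact hmem
  · rw [← hf, h, map_zero]

/-- Opposite classes have a frame. -/
lemma nonempty_frame {b : ℕ} (hb : 2 * C.g + C.n ≤ b) {D D' : Divisor L (C.curve L)}
    (hD : 0 ≤ D) (hD' : 0 ≤ D') (hd : Divisor.degree D = C.n) (hd' : Divisor.degree D' = C.n)
    (hcls : C.cls L D + C.cls L D' = 0) : Nonempty (C.Frame L b D D') := by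
  obtain ⟨f, hf, hf0⟩ := C.exists_pairFun hD hD' hd hd' hcls
  obtain ⟨u, hu, hi⟩ := C.exists_basis hb hD hd
  obtain ⟨u', hu', hi'⟩ := C.exists_basis hb hD' hd'
  obtain ⟨Φ, -⟩ := C.exists_frame' ((Nat.le_add_left _ _).trans hb) hd hd' hu hu' hi hi' hf hf0
  exact ⟨Φ⟩

/-- Bases of linearly equivalent representatives. -/
lemma exists_change {b : ℕ} (hb : 2 * C.g + C.n ≤ b) {D E : Divisor L (C.curve L)}
    (hE : 0 ≤ E) (he : Divisor.degree E = C.n) {r : C.curve L} (hr : r ≠ 0)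
    (hrd : ∀ v, (E - D) v = v.ord r) {w w₂ : Fin (C.nW b) → C.Idx b → L}
    (hw : ∀ i, w i ∈ C.W L b D) (hwi : LinearIndependent L w) (hw₂ : ∀ i, w₂ i ∈ C.W L b E) :
    ∃ A : Matrix (Fin (C.nW b)) (Fin (C.nW b)) L, ∀ i,
      C.realF L b (w₂ i) = r * C.realF L b (∑ k, A i k • w k) := by
  have hex : ∀ k, ∃ x, C.realF L b x = r * C.realF L b (w k) ∧ x ∈ C.W L b E := by
    intro k
    have hm : r * C.realF L b (w k) ∈ riemannRochSpace (C.binf L (b : ℤ) - E) := by
      rcases eq_or_ne (C.realF L b (w k)) 0 with h0 | h0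
      · rw [h0, mul_zero]; exact zero_mem _
      rw [MWJ0.mem_Lsp_of_ne_zero (mul_ne_zero hr h0)]
      intro v
      have h1 := (MWJ0.mem_Lsp_of_ne_zero h0).mp (hw k) v
      rw [v.ord_mul hr h0, ← hrd v]
      simp only [Finsupp.sub_apply] at *
      omega
    obtain ⟨x, hx⟩ := C.exists_realF_eq (C.Lsp_le_binf hE hm)
    exact ⟨x, hx, by rw [mem_W, hx]; exact hm⟩
  choose x hx hxm using hex
  have hxi : LinearIndependent L (fun k => (⟨x k, hxm k⟩ : C.W L b E)) := by
    refine LinearIndependent.of_comp (C.W L b E).subtype ?_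
    refine LinearIndependent.of_comp (C.realF L b) ?_
    rw [show (C.realF L b ∘ (C.W L b E).subtype ∘ fun k => (⟨x k, hxm k⟩ : C.W L b E)) =
      LinearMap.mulLeft L r ∘ (C.realF L b ∘ w) from funext fun k => hx k]
    exact (hwi.map' _ (LinearMap.ker_eq_bot.mpr (C.realF_injective L b))).map' _
      (LinearMap.ker_eq_bot.mpr fun a c h => mul_left_cancel₀ hr h)
  have hN : Fintype.card (Fin (C.nW b)) = finrank L (C.W L b E) := by
    rw [Fintype.card_fin, C.finrank_W hE he hb]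
  have : Nonempty (Fin (C.nW b)) := ⟨⟨0, by simp only [nW, CurveData.n] at hb ⊢; omega⟩⟩
  let B := basisOfLinearIndependentOfCardEqFinrank hxi hN
  refine ⟨fun i k => B.repr ⟨w₂ i, hw₂ i⟩ k, fun i => ?_⟩
  conv_lhs => rw [show w₂ i = (C.W L b E).subtype ⟨w₂ i, hw₂ i⟩ from rfl,
    ← B.sum_repr ⟨w₂ i, hw₂ i⟩]
  simp only [B, coe_basisOfLinearIndependentOfCardEqFinrank, map_sum, map_smul,
    Submodule.subtype_apply, Finset.mul_sum, mul_smul_comm, hx]

/-- A function with divisor zero is constant. -/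
lemma exists_const {q : C.curve L} (hq : q ≠ 0) (hord : ∀ v : Place L (C.curve L), v.ord q = 0) :
    ∃ c : L, q = algebraMap L (C.curve L) c := by
  have hmem : q ∈ riemannRochSpace (C.binf L ((0 : ℕ) : ℤ) - 0) := by
    rw [MWJ0.mem_Lsp_of_ne_zero hq]
    intro v
    simp [binf, hord v]
  obtain ⟨x, hx⟩ := C.exists_realF_eq (C.Lsp_le_binf le_rfl hmem)
  refine ⟨C.evAt 0 0 x, ?_⟩
  have h' := C.pt_ev L 0 0 x
  rw [(C.rr L).Lsp_eq_bot_of_degree_neg (by
    rw [map_sub, (C.rr L).degree_single, (C.rr L).degree_single]; norm_num),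
    Submodule.mem_bot, sub_eq_zero, hx] at h'
  exact h'

lemma evAt_sum {R : Type*} [CommRing R] [Algebra K R] {ι : Type*} (s : Finset ι) (t m : ℕ)
    (c : ι → R) (x : ι → C.Idx m → R) :
    C.evAt t m (∑ i ∈ s, c i • x i) = ∑ i ∈ s, c i * C.evAt t m (x i) := by
  simp only [evAt, Finset.sum_apply, Pi.smul_apply, smul_eq_mul, Finset.sum_mul, Finset.mul_sum,
    mul_assoc]
  rw [Finset.sum_comm]

/-- Frames related by changes of bases have proportional tensors. -/
lemma theta_eq_of_change {b : ℕ} (hn : C.n ≤ b) {D D' E E' : Divisor L (C.curve L)}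
    (Φ : C.Frame L b D D') (Ψ : C.Frame L b E E') (c : L)
    (A B : Matrix (Fin (C.nW b)) (Fin (C.nW b)) L) {r r' : C.curve L}
    (hu : ∀ i, C.realF L b (Ψ.u i) = r * C.realF L b (∑ k, A i k • Φ.u k))
    (hu' : ∀ i, C.realF L b (Ψ.u' i) = r' * C.realF L b (∑ k, B i k • Φ.u' k))
    (hf : C.realF L (C.n + C.n) Φ.f * (r * r') = c • C.realF L (C.n + C.n) Ψ.f) :
    Ψ.theta = (c ^ (C.nW b) * (A.det * B.det)) • Φ.theta := by
  have hh : ∀ i k, Ψ.h i k = c • ∑ q, B k q • ∑ l, A i l • Φ.h l q := by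
    intro i k
    refine C.realF_injective L _ (mul_left_cancel₀ Ψ.realF_f_ne ?_)
    rw [Ψ.realF_h hn, hu, hu', map_smul, mul_smul_comm, ← smul_mul_assoc, ← hf]
    simp only [map_sum, map_smul, Finset.mul_sum, Finset.sum_mul, mul_smul_comm, smul_mul_assoc,
      Finset.smul_sum]
    refine Finset.sum_congr rfl fun q _ => Finset.sum_congr rfl fun l _ => ?_
    congr 2
    linear_combination -(r * r') * Φ.realF_h hn l q
  have hmat : ∀ (p : C.TuIdx b) (j : Fin (C.nW b)),
      (Matrix.of fun i k => C.evAt (p j) (C.hl b) (Ψ.h i k)) =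
        c • (A * (Matrix.of fun i k => C.evAt (p j) (C.hl b) (Φ.h i k)) * Bᵀ) := by
    intro p j
    ext i k
    rw [Matrix.of_apply, hh, Matrix.smul_apply, Matrix.mul_apply, smul_eq_mul,
      show (c • ∑ q, B k q • ∑ l, A i l • Φ.h l q : C.Idx (C.hl b) → L) =
        ∑ q, (c * B k q) • ∑ l, A i l • Φ.h l q by simp [Finset.smul_sum, smul_smul, mul_assoc],
      evAt_sum, Finset.mul_sum]
    refine Finset.sum_congr rfl fun q _ => ?_
    simp only [evAt_sum, Matrix.mul_apply, Matrix.of_apply, Matrix.transpose_apply]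
    ring
  funext p
  rw [Pi.smul_apply, smul_eq_mul, Frame.theta, Frame.theta, funext (hmat p)]
  exact mixedSum_change _ (fun j i i' k k' => Φ.rankOne hn (p j) i i' k k') c A B

/-- Frames of linearly equivalent pairs have proportional tensors. -/
lemma theta_propTo {b : ℕ} (hn : C.n ≤ b) (hb : 2 * C.g + C.n ≤ b)
    (hp : 2 * b + (C.n + C.n) < C.pool) {D D' E E' : Divisor L (C.curve L)}
    (hE : 0 ≤ E) (hE' : 0 ≤ E') (hd : Divisor.degree D = C.n) (hd' : Divisor.degree D' = C.n)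
    (he : Divisor.degree E = C.n) (he' : Divisor.degree E' = C.n)
    (hcl : C.cls L D = C.cls L E) (hcl' : C.cls L D' = C.cls L E')
    (Φ : C.Frame L b D D') (Ψ : C.Frame L b E E') : PropTo Φ.theta Ψ.theta := by
  obtain ⟨r, hr, hrd⟩ := C.exists_fun_of_cls_eq (D := E) (E := D) (by rw [hd, he]) hcl.symm
  obtain ⟨r', hr', hrd'⟩ := C.exists_fun_of_cls_eq (D := E') (E := D') (by rw [hd', he']) hcl'.symm
  obtain ⟨A, hA⟩ := C.exists_change hb hE he hr hrd Φ.u_mem Φ.u_li Ψ.u_mem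
  obtain ⟨B, hB⟩ := C.exists_change hb hE' he' hr' hrd' Φ.u'_mem Φ.u'_li Ψ.u'_mem
  have hfd := C.divisor_realF (D := C.binf L ((C.n + C.n : ℕ) : ℤ) - (D + D')) (E := D + D')
    (m := C.n + C.n) (by rw [map_add, hd, hd']; push_cast; ring) rfl Φ.f_mem Φ.realF_f_ne
  have hgd := C.divisor_realF (D := C.binf L ((C.n + C.n : ℕ) : ℤ) - (E + E')) (E := E + E')
    (m := C.n + C.n) (by rw [map_add, he, he']; push_cast; ring) rfl Ψ.f_mem Ψ.realF_f_ne
  have hne : C.realF L (C.n + C.n) Φ.f * (r * r') ≠ 0 :=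
    mul_ne_zero Φ.realF_f_ne (mul_ne_zero hr hr')
  obtain ⟨c, hc⟩ := C.exists_const (div_ne_zero hne Ψ.realF_f_ne) fun v => by
    have h1 := congrArg (fun X : Divisor L (C.curve L) => X v) hfd
    have h2 := congrArg (fun X : Divisor L (C.curve L) => X v) hgd
    simp only [(C.rr L).divisor_apply, Finsupp.sub_apply, Finsupp.add_apply] at h1 h2
    rw [div_eq_mul_inv, v.ord_mul hne (inv_ne_zero Ψ.realF_f_ne), v.ord_inv,
      v.ord_mul Φ.realF_f_ne (mul_ne_zero hr hr'), v.ord_mul hr hr', ← hrd v, ← hrd' v]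
    simp only [Finsupp.sub_apply]
    omega
  rw [div_eq_iff Ψ.realF_f_ne, ← Algebra.smul_def] at hc
  have heq := C.theta_eq_of_change hn Φ Ψ c A B hA hB hc
  refine ⟨_, fun h => Ψ.theta_ne_zero hn hp ?_, heq⟩
  rw [heq, h, zero_smul]

end CurveData

end Fermat.Agent.Row27

end
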